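import Mathlib

/-!
# S24: integer-valued additive valuations (shared tiny interface)

`ZVal F` is a bare-bones additive valuation `F → ℤ` on a field (value at `0` is junk).
All analytic valuations of the S24 project (order at a point of the upper half plane, order at
the cusp) are packaged as `ZVal`s and pulled back along ring homomorphisms with `ZVal.comap`.
-/

set_option autoImplicit false

namespace Fermat.Agent.S24.H31

/-- A bare additive `ℤ`-valued valuation on a field; the value at `0` is irrelevant. -/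
structure ZVal (F : Type*) [Field F] where
  /-- the order function -/
  ord : F → ℤ
  ord_mul : ∀ {f g : F}, f ≠ 0 → g ≠ 0 → ord (f * g) = ord f + ord g
  ord_add : ∀ {f g : F}, f ≠ 0 → g ≠ 0 → f + g ≠ 0 → min (ord f) (ord g) ≤ ord (f + g)

namespace ZVal

variable {F F' : Type*} [Field F] [Field F']

theorem ord_one (w : ZVal F) : w.ord 1 = 0 := by
  have h := w.ord_mul (one_ne_zero (α := F)) one_ne_zero
  rw [mul_one] at h
  linarith

theorem ord_inv (w : ZVal F) {f : F} (hf : f ≠ 0) : w.ord f⁻¹ = -w.ord f := by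
  have h := w.ord_mul hf (inv_ne_zero hf)
  rw [mul_inv_cancel₀ hf, w.ord_one] at h
  linarith

theorem ord_div (w : ZVal F) {f g : F} (hf : f ≠ 0) (hg : g ≠ 0) :
    w.ord (f / g) = w.ord f - w.ord g := by
  rw [div_eq_mul_inv, w.ord_mul hf (inv_ne_zero hg), w.ord_inv hg]
  ring

theorem ord_neg_one (w : ZVal F) : w.ord (-1) = 0 := by
  have h := w.ord_mul (neg_ne_zero.mpr (one_ne_zero (α := F))) (neg_ne_zero.mpr one_ne_zero)
  rw [neg_mul_neg, mul_one, w.ord_one] at h
  linarith

theorem ord_neg (w : ZVal F) {f : F} (hf : f ≠ 0) : w.ord (-f) = w.ord f := by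
  have h := w.ord_mul (neg_ne_zero.mpr (one_ne_zero (α := F))) hf
  rw [neg_one_mul, w.ord_neg_one, zero_add] at h
  exact h

theorem ord_pow (w : ZVal F) {f : F} (hf : f ≠ 0) (n : ℕ) : w.ord (f ^ n) = n * w.ord f := by
  induction n with
  | zero => simp [w.ord_one]
  | succ n ih =>
    rw [pow_succ, w.ord_mul (pow_ne_zero n hf) hf, ih]
    push_cast
    ring

theorem ord_prod (w : ZVal F) {ι : Type*} (s : Finset ι) (f : ι → F) (hf : ∀ i ∈ s, f i ≠ 0) :
    w.ord (∏ i ∈ s, f i) = ∑ i ∈ s, w.ord (f i) := by
  classical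
  induction s using Finset.induction_on with
  | empty => simp [w.ord_one]
  | insert a s ha ih =>
    rw [Finset.prod_insert ha, Finset.sum_insert ha,
      w.ord_mul (hf a (Finset.mem_insert_self a s))
        (Finset.prod_ne_zero_iff.mpr fun i hi => hf i (Finset.mem_insert_of_mem hi)),
      ih fun i hi => hf i (Finset.mem_insert_of_mem hi)]

/-- Pull back a `ZVal` along a ring homomorphism of fields (automatically injective). -/
def comap (φ : F →+* F') (w : ZVal F') : ZVal F where
  ord f := w.ord (φ f)
  ord_mul {f g} hf hg := by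
    rw [map_mul]
    exact w.ord_mul ((map_ne_zero φ).mpr hf) ((map_ne_zero φ).mpr hg)
  ord_add {f g} hf hg hfg := by
    rw [map_add]
    exact w.ord_add ((map_ne_zero φ).mpr hf) ((map_ne_zero φ).mpr hg)
      (by rw [← map_add]; exact (map_ne_zero φ).mpr hfg)

@[simp]
theorem comap_ord (φ : F →+* F') (w : ZVal F') (f : F) : (w.comap φ).ord f = w.ord (φ f) := rfl

end ZVal

/-- The elliptic point `ρ = -1/2 + (√3/2) i` of the upper half plane (fixed by `S * T`). -/
noncomputable def rho : UpperHalfPlane :=
  ⟨⟨-1 / 2, Real.sqrt 3 / 2⟩, by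
    show (0 : ℝ) < Real.sqrt 3 / 2
    positivity⟩

end Fermat.Agent.S24.H31
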