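import Mathlib
import Fermat.Prelude.Def_AlgebraicCurve_CanonicalDivisor
import Fermat.Agent.S24.ZVal_helper31

/-!
# S24, task A0 (helper19): function-field basics

* `finiteDimensional_adjoin` : a field finite over `K(x)` is finite over `K(y)` for every
  transcendental `y`.
* basic facts on `AlgebraicCurve.Place`: membership in the valuation ring versus `ord`,
  `ord` of constants, ultrametric inequality, integrally closed.
* `residue_eq`, `deg_eq_one` : the residue field of a place of a function field over an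
  algebraically closed field is the constant field.
* `exists_place_of_zval` : a nontrivial `ℤ`-valued valuation trivial on constants comes from a
  place; `place_ext_of_ord` : places are determined by their valuation rings.
-/

set_option autoImplicit false
set_option linter.unusedVariables false
set_option linter.unusedSectionVars false

namespace Fermat.Agent.S24.H19

open IntermediateField AlgebraicCurve Fermat.Agent.S24.H31

universe u v

variable {K : Type u} {F : Type v} [Field K] [Field F] [Algebra K F]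

/-! ### (a) finiteness over `K(y)` -/

/-- the transcendence degree of a field finite over `K(x)` is at most one -/
theorem trdeg_le_one (x : F) [FiniteDimensional K⟮x⟯ F] : Algebra.trdeg K F ≤ 1 := by
  have halg : Algebra.IsAlgebraic (Algebra.adjoin K ({x} : Set F)) F :=
    ⟨fun f => isAlgebraic_adjoin_iff.mp (Algebra.IsAlgebraic.isAlgebraic f)⟩
  have := Algebra.IsAlgebraic.trdeg_le_cardinalMk K ({x} : Set F)
  simpa using this

/-- a field finite over `K(x)` is algebraic over `K(y)` for every transcendental `y` -/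
theorem isAlgebraic_adjoin (x : F) [FiniteDimensional K⟮x⟯ F] (y : F)
    (hy : Transcendental K y) : Algebra.IsAlgebraic K⟮y⟯ F := by
  have hind : AlgebraicIndependent K (fun _ : PUnit.{v+1} => y) :=
    algebraicIndependent_unique_type_iff.mpr hy
  have hbasis : IsTranscendenceBasis K (fun _ : PUnit.{v+1} => y) :=
    hind.isTranscendenceBasis_of_trdeg_le_of_finite (by simpa using trdeg_le_one x)
  have := hbasis.isAlgebraic_field
  rwa [Set.range_const] at this

/-- **A0 (a)**: a field finite over `K(x)` is finite over `K(y)` for every transcendental `y`. -/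
theorem finiteDimensional_adjoin (x y : F) (hx : Transcendental K x)
    (hfin : FiniteDimensional K⟮x⟯ F) (hy : Transcendental K y) : FiniteDimensional K⟮y⟯ F := by
  have halg : Algebra.IsAlgebraic K⟮y⟯ F := isAlgebraic_adjoin x y hy
  obtain ⟨s, hs⟩ := (Module.Finite.fg_top : (⊤ : Submodule K⟮x⟯ F).FG)
  set L : IntermediateField K⟮y⟯ F := IntermediateField.adjoin K⟮y⟯ (insert x (s : Set F)) with hL
  have hfinL : FiniteDimensional K⟮y⟯ L :=
    IntermediateField.finiteDimensional_adjoin
      (fun z _ => (Algebra.IsAlgebraic.isAlgebraic z).isIntegral)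
  have hxL : x ∈ L := IntermediateField.subset_adjoin _ _ (Set.mem_insert _ _)
  have hKx : K⟮x⟯ ≤ L.restrictScalars K := by
    rw [IntermediateField.adjoin_simple_le_iff]
    exact hxL
  have htop : L = ⊤ := by
    rw [eq_top_iff]
    intro f hftop
    clear hftop
    have hf : f ∈ Submodule.span K⟮x⟯ (s : Set F) := by rw [hs]; trivial
    induction hf using Submodule.span_induction with
    | mem z hz => exact IntermediateField.subset_adjoin _ _ (Set.mem_insert_of_mem _ hz)
    | zero => exact zero_mem _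
    | add a b _ _ ha hb => exact add_mem ha hb
    | smul c a _ ha =>
      rw [Algebra.smul_def]
      exact mul_mem (hKx c.2) ha
  rw [htop] at hfinL
  exact Module.Finite.equiv (IntermediateField.topEquiv (F := K⟮y⟯) (E := F)).toLinearEquiv

/-- `K(x - a) = K(x)` -/
theorem adjoin_sub_algebraMap (x : F) (a : K) : K⟮x - algebraMap K F a⟯ = K⟮x⟯ := by
  apply le_antisymm
  · rw [IntermediateField.adjoin_simple_le_iff]
    exact sub_mem (IntermediateField.mem_adjoin_simple_self K x) (_root_.algebraMap_mem _ a)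
  · rw [IntermediateField.adjoin_simple_le_iff]
    have h : (x - algebraMap K F a) + algebraMap K F a ∈ K⟮x - algebraMap K F a⟯ :=
      add_mem (IntermediateField.mem_adjoin_simple_self K _) (_root_.algebraMap_mem _ a)
    rwa [sub_add_cancel] at h

/-- `K(x⁻¹) = K(x)` -/
theorem adjoin_inv (x : F) : K⟮x⁻¹⟯ = K⟮x⟯ := by
  apply le_antisymm
  · rw [IntermediateField.adjoin_simple_le_iff]
    exact inv_mem (IntermediateField.mem_adjoin_simple_self K x)
  · rw [IntermediateField.adjoin_simple_le_iff]
    have h : (x⁻¹)⁻¹ ∈ K⟮x⁻¹⟯ := inv_mem (IntermediateField.mem_adjoin_simple_self K _)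
    rwa [inv_inv] at h

theorem finrank_adjoin_sub_algebraMap (x : F) (a : K) :
    Module.finrank K⟮x - algebraMap K F a⟯ F = Module.finrank K⟮x⟯ F := by
  rw [adjoin_sub_algebraMap]

theorem finrank_adjoin_inv (x : F) : Module.finrank K⟮x⁻¹⟯ F = Module.finrank K⟮x⟯ F := by
  rw [adjoin_inv]

/-! ### (b) basic facts on places -/

section PlaceBasics

variable (v : Place K F)

theorem ord_nonneg_of_mem {u : F} (hu : u ∈ v.toValuationSubring) : 0 ≤ v.ord u := by
  by_cases h0 : u = 0
  · simp [h0]
  have h1 : v.adicValuation u ≤ 1 := by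
    have := v.adicValuation_coe ⟨u, hu⟩
    rw [this]
    exact IsDedekindDomain.HeightOneSpectrum.intValuation_le_one _ _
  have h2 : WithZero.log (v.adicValuation u) ≤ WithZero.log (1 : WithZero (Multiplicative ℤ)) :=
    (WithZero.log_le_log (v.adicValuation_ne_zero h0) one_ne_zero).mpr h1
  rw [WithZero.log_one] at h2
  unfold Place.ord
  omega

theorem mem_of_ord_nonneg {u : F} (hu : 0 ≤ v.ord u) : u ∈ v.toValuationSubring := by
  by_cases h0 : u = 0
  · rw [h0]; exact zero_mem _
  obtain ⟨π, hπ⟩ := IsDiscreteValuationRing.exists_irreducible v.toValuationSubring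
  obtain ⟨ε, hε⟩ := v.exists_unit_mul_zpow h0 hπ
  rw [hε]
  refine mul_mem (ε : v.toValuationSubring).2 ?_
  obtain ⟨n, hn⟩ := Int.eq_ofNat_of_zero_le hu
  rw [hn, zpow_natCast]
  exact pow_mem π.2 n

/-- membership in the valuation ring is `0 ≤ ord` (also for `u = 0`) -/
theorem mem_iff' (u : F) : u ∈ v.toValuationSubring ↔ 0 ≤ v.ord u :=
  ⟨ord_nonneg_of_mem v, mem_of_ord_nonneg v⟩


/-- **A0 (b)** membership in the valuation ring -/
theorem mem_iff {u : F} (hu : u ≠ 0) : u ∈ v.toValuationSubring ↔ 0 ≤ v.ord u := mem_iff' v u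

/-- **A0 (b)** constants have order zero -/
theorem ord_algebraMap (c : K) : v.ord (algebraMap K F c) = 0 := by
  by_cases hc : c = 0
  · simp [hc]
  have hunit : IsUnit (algebraMap K v.toValuationSubring c) := (IsUnit.mk0 c hc).map _
  have := v.ord_coe_unit hunit.unit
  rwa [IsUnit.unit_spec, v.coe_algebraMap] at this

theorem ord_neg (f : F) : v.ord (-f) = v.ord f := by
  by_cases hf : f = 0
  · simp [hf]
  have h := v.ord_mul (f := -1) (g := f) (by simp) hf
  have h1 : v.ord (-1 : F) = 0 := by
    have := ord_algebraMap v (-1 : K)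
    simpa using this
  rw [neg_one_mul] at h
  rw [h, h1, zero_add]

theorem ord_div {f g : F} (hf : f ≠ 0) (hg : g ≠ 0) : v.ord (f / g) = v.ord f - v.ord g := by
  rw [div_eq_mul_inv, v.ord_mul hf (inv_ne_zero hg), v.ord_inv]
  ring

/-- **A0 (b)** ultrametric inequality -/
theorem ord_add_ge {f g : F} (hfg : f + g ≠ 0) : min (v.ord f) (v.ord g) ≤ v.ord (f + g) := by
  by_cases hf : f = 0
  · simp [hf]
  by_cases hg : g = 0
  · simp [hg]
  have key : ∀ a b : F, a ≠ 0 → b ≠ 0 → a + b ≠ 0 → v.ord a ≤ v.ord b → v.ord a ≤ v.ord (a + b) := by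
    intro a b ha hb hab hle
    have h1 : b / a ∈ v.toValuationSubring := mem_of_ord_nonneg v (by rw [ord_div v hb ha]; omega)
    have h2 : 1 + b / a ∈ v.toValuationSubring := add_mem (one_mem _) h1
    have h3 : a + b = a * (1 + b / a) := by field_simp
    have h4 : 1 + b / a ≠ 0 := by
      intro h0
      rw [h0, mul_zero] at h3
      exact hab h3
    rw [h3, v.ord_mul ha h4]
    have := ord_nonneg_of_mem v h2
    omega
  rcases le_total (v.ord f) (v.ord g) with h | h
  · rw [min_eq_left h]
    exact key f g hf hg hfg h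
  · rw [min_eq_right h, add_comm]
    exact key g f hg hf (by rwa [add_comm]) h

theorem ord_sub_ge {f g : F} (hfg : f - g ≠ 0) : min (v.ord f) (v.ord g) ≤ v.ord (f - g) := by
  have := ord_add_ge v (f := f) (g := -g) (by rwa [← sub_eq_add_neg])
  rwa [ord_neg, ← sub_eq_add_neg] at this

/-- the `ZVal` attached to a place -/
noncomputable def toZVal (v : Place K F) : ZVal F where
  ord := v.ord
  ord_mul hf hg := v.ord_mul hf hg
  ord_add _ _ hfg := ord_add_ge v hfg

@[simp] theorem toZVal_ord (f : F) : (toZVal v).ord f = v.ord f := rfl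

theorem ord_zpow' (f : F) (n : ℤ) : v.ord (f ^ n) = n * v.ord f := v.ord_zpow f n

theorem ord_pow (f : F) (n : ℕ) : v.ord (f ^ n) = n * v.ord f := by
  have := v.ord_zpow f n
  rwa [zpow_natCast] at this

/-- units of the valuation ring are the nonzero elements of order zero -/
theorem isUnit_iff (a : v.toValuationSubring) : IsUnit a ↔ (a : F) ≠ 0 ∧ v.ord (a : F) = 0 := by
  constructor
  · intro h
    refine ⟨?_, ?_⟩
    · have := h.ne_zero
      simpa using this
    · have := v.ord_coe_unit h.unit
      rwa [IsUnit.unit_spec] at this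
  · rintro ⟨h0, h1⟩
    have hinv : (a : F)⁻¹ ∈ v.toValuationSubring :=
      mem_of_ord_nonneg v (by rw [v.ord_inv, h1]; simp)
    exact IsUnit.of_mul_eq_one (⟨(a : F)⁻¹, hinv⟩ : v.toValuationSubring)
      (Subtype.ext (by simp [mul_inv_cancel₀ h0]))

/-- elements of positive order are exactly the nonzero elements of the maximal ideal -/
theorem mem_maximalIdeal_of_ord_pos {a : v.toValuationSubring} (ha : 0 < v.ord (a : F)) :
    a ∈ IsLocalRing.maximalIdeal v.toValuationSubring := by
  rw [IsLocalRing.mem_maximalIdeal, mem_nonunits_iff, isUnit_iff]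
  rintro ⟨_, h⟩
  omega

theorem ord_pos_of_mem_maximalIdeal {a : v.toValuationSubring}
    (ha : a ∈ IsLocalRing.maximalIdeal v.toValuationSubring) (ha0 : (a : F) ≠ 0) :
    0 < v.ord (a : F) := by
  rw [IsLocalRing.mem_maximalIdeal, mem_nonunits_iff, isUnit_iff] at ha
  have h1 := ord_nonneg_of_mem v a.2
  by_contra hlt
  exact ha ⟨ha0, by omega⟩

/-- every place has a uniformizer -/
theorem exists_ord_eq_one : ∃ π : F, v.ord π = 1 := by
  obtain ⟨π, hπ⟩ := IsDiscreteValuationRing.exists_irreducible v.toValuationSubring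
  exact ⟨π, v.ord_coe_irreducible hπ⟩

/-- **A0 (b)** the valuation ring of a place is integrally closed -/
theorem isIntegral_ord_nonneg {y c : F} (hy : 0 ≤ v.ord y)
    (hc : IsIntegral (Algebra.adjoin K ({y} : Set F)) c) : 0 ≤ v.ord c := by
  have hyA : y ∈ v.toValuationSubring := mem_of_ord_nonneg v hy
  have hle : ∀ z ∈ Algebra.adjoin K ({y} : Set F), z ∈ v.toValuationSubring := by
    intro z hz
    induction hz using Algebra.adjoin_induction with
    | mem x hx => rw [Set.mem_singleton_iff.mp hx]; exact hyA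
    | algebraMap r => exact v.algebraMap_mem' r
    | add x y _ _ hx hy => exact add_mem hx hy
    | mul x y _ _ hx hy => exact mul_mem hx hy
  let incl : Algebra.adjoin K ({y} : Set F) →+* v.toValuationSubring :=
    { toFun := fun z => ⟨z.1, hle z.1 z.2⟩
      map_one' := rfl
      map_mul' := fun _ _ => rfl
      map_zero' := rfl
      map_add' := fun _ _ => rfl }
  obtain ⟨p, hpm, hp⟩ := hc
  have hint : IsIntegral v.toValuationSubring c := by
    refine ⟨p.map incl, hpm.map _, ?_⟩
    rw [Polynomial.eval₂_map]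
    exact hp
  obtain ⟨a, ha⟩ := IsIntegrallyClosed.isIntegral_iff.mp hint
  rw [← ha]
  exact ord_nonneg_of_mem v a.2

end PlaceBasics

/-! ### residue field -/

section Residue

variable (v : Place K F)

theorem ord_aeval_eq_zero [IsAlgClosed K] (u : F)
    (h : ∀ c : K, u - algebraMap K F c ≠ 0 ∧ v.ord (u - algebraMap K F c) = 0)
    (P : Polynomial K) (hP : P ≠ 0) :
    Polynomial.aeval u P ≠ 0 ∧ v.ord (Polynomial.aeval u P) = 0 := by
  induction' hn : P.natDegree using Nat.strong_induction_on with n ih generalizing P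
  by_cases hdeg : P.degree = 0
  · have hC := Polynomial.eq_C_of_degree_eq_zero hdeg
    have ha : P.coeff 0 ≠ 0 := by
      intro h0
      rw [h0, map_zero] at hC
      exact hP hC
    rw [hC, Polynomial.aeval_C]
    exact ⟨(map_ne_zero _).mpr ha, ord_algebraMap v _⟩
  · obtain ⟨c, hc⟩ := IsAlgClosed.exists_root P hdeg
    obtain ⟨Q, hQ⟩ := Polynomial.dvd_iff_isRoot.mpr hc
    have hQ0 : Q ≠ 0 := by
      rintro rfl
      rw [mul_zero] at hQ
      exact hP hQ
    have hdegQ : Q.natDegree < n := by
      rw [← hn, hQ, Polynomial.natDegree_mul (Polynomial.X_sub_C_ne_zero c) hQ0,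
        Polynomial.natDegree_X_sub_C]
      omega
    obtain ⟨h1, h2⟩ := ih _ hdegQ Q hQ0 rfl
    rw [hQ, map_mul]
    simp only [map_sub, Polynomial.aeval_X, Polynomial.aeval_C]
    exact ⟨mul_ne_zero (h c).1 h1, by rw [v.ord_mul (h c).1 h1, (h c).2, h2, add_zero]⟩

/-- **A0 (b)** the residue field of a place of a function field over an algebraically closed
field is the constant field. -/
theorem residue_eq [IsAlgClosed K] (x : F) (hx : Transcendental K x)
    (hfin : FiniteDimensional K⟮x⟯ F) (v : Place K F) {u : F} (hu : u ∈ v.toValuationSubring) :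
    ∃ c : K, u = algebraMap K F c ∨ 0 < v.ord (u - algebraMap K F c) := by
  by_contra hcon
  have h : ∀ c : K, u - algebraMap K F c ≠ 0 ∧ v.ord (u - algebraMap K F c) = 0 := by
    intro c
    have h1 : u ≠ algebraMap K F c := fun h => hcon ⟨c, Or.inl h⟩
    have h2 : ¬ 0 < v.ord (u - algebraMap K F c) := fun h => hcon ⟨c, Or.inr h⟩
    refine ⟨sub_ne_zero.mpr h1, le_antisymm (not_lt.mp h2) ?_⟩
    exact ord_nonneg_of_mem v (sub_mem hu (v.algebraMap_mem' c))
  have hpoly := ord_aeval_eq_zero v u h
  have htr : Transcendental K u := by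
    rintro ⟨p, hp0, hp⟩
    exact (hpoly p hp0).1 hp
  have halg : Algebra.IsAlgebraic K⟮u⟯ F := isAlgebraic_adjoin x u htr
  have hKu : ∀ s : F, s ∈ K⟮u⟯ → s ≠ 0 → v.ord s = 0 := by
    intro s hs hs0
    obtain ⟨r, q, rfl⟩ := (IntermediateField.mem_adjoin_simple_iff K s).mp hs
    have hq : Polynomial.aeval u q ≠ 0 := fun h0 => hs0 (by rw [h0, div_zero])
    have hr : Polynomial.aeval u r ≠ 0 := fun h0 => hs0 (by rw [h0, zero_div])
    have hq' : q ≠ 0 := by
      rintro rfl
      simp at hq
    have hr' : r ≠ 0 := by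
      rintro rfl
      simp at hr
    rw [ord_div v hr hq, (hpoly r hr').2, (hpoly q hq').2, sub_zero]
  have hKu_mem : ∀ s : K⟮u⟯, (s : F) ∈ v.toValuationSubring := by
    intro s
    by_cases hs0 : (s : F) = 0
    · rw [hs0]; exact zero_mem _
    · exact mem_of_ord_nonneg v (by rw [hKu s s.2 hs0])
  have hall : ∀ f : F, f ≠ 0 → ¬ 0 < v.ord f := by
    intro f hf0 hfpos
    have hint : IsIntegral K⟮u⟯ f := (Algebra.IsAlgebraic.isAlgebraic f).isIntegral
    have hp0 : (minpoly K⟮u⟯ f).coeff 0 ≠ 0 := minpoly.coeff_zero_ne_zero hint hf0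
    have hpf : Polynomial.aeval f (minpoly K⟮u⟯ f) = 0 := minpoly.aeval _ _
    have hfA : f ∈ v.toValuationSubring := mem_of_ord_nonneg v hfpos.le
    have hdecomp : Polynomial.aeval f (minpoly K⟮u⟯ f) =
        Polynomial.aeval f (minpoly K⟮u⟯ f).divX * f +
          algebraMap K⟮u⟯ F ((minpoly K⟮u⟯ f).coeff 0) := by
      conv_lhs => rw [← Polynomial.divX_mul_X_add (minpoly K⟮u⟯ f)]
      simp
    have hgA : Polynomial.aeval f (minpoly K⟮u⟯ f).divX ∈ v.toValuationSubring := by
      rw [Polynomial.aeval_eq_sum_range]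
      refine sum_mem (fun i _ => ?_)
      rw [Algebra.smul_def]
      exact mul_mem (hKu_mem _) (pow_mem hfA i)
    set g := Polynomial.aeval f (minpoly K⟮u⟯ f).divX with hg
    have ha0 : algebraMap K⟮u⟯ F ((minpoly K⟮u⟯ f).coeff 0) = -(g * f) := by
      rw [hpf] at hdecomp
      linear_combination -hdecomp
    have ha0ne : algebraMap K⟮u⟯ F ((minpoly K⟮u⟯ f).coeff 0) ≠ 0 :=
      (map_ne_zero _).mpr hp0
    have hord0 : v.ord (algebraMap K⟮u⟯ F ((minpoly K⟮u⟯ f).coeff 0)) = 0 :=
      hKu _ ((minpoly K⟮u⟯ f).coeff 0).2 ha0ne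
    have hg0 : g ≠ 0 := by
      intro h0
      rw [h0, zero_mul, neg_zero] at ha0
      exact ha0ne ha0
    rw [ha0, ord_neg, v.ord_mul hg0 hf0] at hord0
    have := ord_nonneg_of_mem v hgA
    omega
  obtain ⟨π, hπ⟩ := exists_ord_eq_one v
  exact hall π (by intro h0; rw [h0] at hπ; simp at hπ) (by rw [hπ]; exact one_pos)

/-- `residue_eq` in the shape used by the differentials file (helper88's `hres`) -/
theorem residue_eq' [IsAlgClosed K] (x : F) (hx : Transcendental K x)
    (hfin : FiniteDimensional K⟮x⟯ F) (v : Place K F) :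
    ∀ f ∈ v.toValuationSubring, ∃ a : K, 0 < v.ord (f - algebraMap K F a) ∨ f = algebraMap K F a := by
  intro f hf
  obtain ⟨c, hc⟩ := residue_eq x hx hfin v hf
  exact ⟨c, hc.symm⟩

/-- **A0 (b)** every place of a function field over an algebraically closed field has degree 1 -/
theorem deg_eq_one [IsAlgClosed K] (x : F) (hx : Transcendental K x)
    (hfin : FiniteDimensional K⟮x⟯ F) (v : Place K F) : v.deg = 1 := by
  have hsurj : Function.Surjective (algebraMap K v.ResidueField) := by
    intro r
    obtain ⟨a, rfl⟩ := IsLocalRing.residue_surjective r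
    obtain ⟨c, hc⟩ := residue_eq x hx hfin v a.2
    refine ⟨c, ?_⟩
    have hmem : a - algebraMap K v.toValuationSubring c ∈
        IsLocalRing.maximalIdeal v.toValuationSubring := by
      rcases hc with hc | hc
      · have : a - algebraMap K v.toValuationSubring c = 0 := by
          apply Subtype.ext
          simp [hc]
        rw [this]
        exact zero_mem _
      · exact mem_maximalIdeal_of_ord_pos v (by simpa using hc)
    have := (IsLocalRing.residue_eq_zero_iff _).mpr hmem
    rw [map_sub, sub_eq_zero] at this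
    rw [this]
    rfl
  have hbij : Function.Bijective (Algebra.linearMap K v.ResidueField) :=
    ⟨(algebraMap K v.ResidueField).injective, hsurj⟩
  have := (LinearEquiv.ofBijective _ hbij).finrank_eq
  rw [Module.finrank_self] at this
  exact this.symm

end Residue

/-! ### (c) places from `ℤ`-valued valuations -/

section OfZVal

/-- the valuation ring of a `ZVal` -/
def zvalSubring (w : ZVal F) : ValuationSubring F where
  carrier := {f | f = 0 ∨ 0 ≤ w.ord f}
  mul_mem' := by
    intro a b ha hb
    by_cases ha0 : a = 0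
    · left; simp [ha0]
    by_cases hb0 : b = 0
    · left; simp [hb0]
    right
    have h1 := ha.resolve_left ha0
    have h2 := hb.resolve_left hb0
    rw [w.ord_mul ha0 hb0]
    omega
  one_mem' := Or.inr (by rw [w.ord_one])
  add_mem' := by
    intro a b ha hb
    by_cases ha0 : a = 0
    · simpa [ha0] using hb
    by_cases hb0 : b = 0
    · simpa [hb0] using ha
    by_cases hab : a + b = 0
    · exact Or.inl hab
    right
    have := w.ord_add ha0 hb0 hab
    have h1 := ha.resolve_left ha0
    have h2 := hb.resolve_left hb0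
    exact le_trans (le_min h1 h2) this
  zero_mem' := Or.inl rfl
  neg_mem' := by
    intro a ha
    by_cases ha0 : a = 0
    · left; simp [ha0]
    right
    rw [w.ord_neg ha0]
    exact ha.resolve_left ha0
  mem_or_inv_mem' := by
    intro a
    by_cases ha0 : a = 0
    · left; left; exact ha0
    rcases le_total 0 (w.ord a) with h | h
    · left; right; exact h
    · right; right
      rw [w.ord_inv ha0]
      omega

theorem mem_zvalSubring (w : ZVal F) (f : F) : f ∈ zvalSubring w ↔ f = 0 ∨ 0 ≤ w.ord f := Iff.rfl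

theorem zval_ord_zpow (w : ZVal F) {f : F} (hf : f ≠ 0) (n : ℤ) : w.ord (f ^ n) = n * w.ord f := by
  rcases Int.eq_nat_or_neg n with ⟨m, rfl | rfl⟩
  · rw [zpow_natCast, w.ord_pow hf]
  · rw [zpow_neg, zpow_natCast, w.ord_inv (pow_ne_zero m hf), w.ord_pow hf]
    ring

theorem zvalSubring_isPrincipalIdealRing (w : ZVal F) : IsPrincipalIdealRing (zvalSubring w) := by
  classical
  refine ⟨fun I => ?_⟩
  by_cases hI : I = ⊥
  · rw [hI]
    exact bot_isPrincipal
  have hex : ∃ n : ℕ, ∃ a ∈ I, a ≠ 0 ∧ w.ord (a : F) = n := by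
    obtain ⟨a, haI, ha0⟩ := Submodule.exists_mem_ne_zero_of_ne_bot hI
    have ha0' : (a : F) ≠ 0 := by simpa using ha0
    have : 0 ≤ w.ord (a : F) := ((mem_zvalSubring w _).mp a.2).resolve_left ha0'
    obtain ⟨n, hn⟩ := Int.eq_ofNat_of_zero_le this
    exact ⟨n, a, haI, ha0, hn⟩
  obtain ⟨a, haI, ha0, han⟩ := Nat.find_spec hex
  have ha0' : (a : F) ≠ 0 := by simpa using ha0
  refine ⟨⟨a, le_antisymm ?_ ?_⟩⟩
  · intro b hb
    rw [Ideal.submodule_span_eq, Ideal.mem_span_singleton']
    by_cases hb0 : b = 0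
    · exact ⟨0, by simp [hb0]⟩
    have hb0' : (b : F) ≠ 0 := by simpa using hb0
    have hbn : 0 ≤ w.ord (b : F) := ((mem_zvalSubring w _).mp b.2).resolve_left hb0'
    obtain ⟨m, hm⟩ := Int.eq_ofNat_of_zero_le hbn
    have hle : Nat.find hex ≤ m := Nat.find_min' hex ⟨b, hb, hb0, hm⟩
    refine ⟨⟨(b : F) / a, Or.inr ?_⟩, Subtype.ext ?_⟩
    · rw [w.ord_div hb0' ha0', hm, han]
      omega
    · simp [div_mul_cancel₀ _ ha0']
  · rw [Ideal.submodule_span_eq, Ideal.span_singleton_le_iff_mem]
    exact haI

/-- the place attached to a nontrivial `ZVal` which is trivial on the constants -/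
def placeOfZVal (w : ZVal F) (hK : ∀ c : K, c ≠ 0 → w.ord (algebraMap K F c) = 0)
    (hnt : ∃ f : F, f ≠ 0 ∧ w.ord f ≠ 0) : Place K F where
  toValuationSubring := zvalSubring w
  algebraMap_mem' := fun a => by
    by_cases ha : a = 0
    · left; simp [ha]
    · right; rw [hK a ha]
  ne_top' := by
    obtain ⟨f, hf0, hf⟩ := hnt
    intro htop
    have h1 : f ∈ zvalSubring w := by rw [htop]; trivial
    have h2 : f⁻¹ ∈ zvalSubring w := by rw [htop]; trivial
    have h1' := ((mem_zvalSubring w _).mp h1).resolve_left hf0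
    have h2' := ((mem_zvalSubring w _).mp h2).resolve_left (inv_ne_zero hf0)
    rw [w.ord_inv hf0] at h2'
    omega
  isPrincipalIdealRing' := zvalSubring_isPrincipalIdealRing w

@[simp] theorem placeOfZVal_toValuationSubring (w : ZVal F)
    (hK : ∀ c : K, c ≠ 0 → w.ord (algebraMap K F c) = 0) (hnt : ∃ f : F, f ≠ 0 ∧ w.ord f ≠ 0) :
    (placeOfZVal w hK hnt).toValuationSubring = zvalSubring w := rfl

/-- the valuation of `placeOfZVal w` is `w` up to a positive integer factor -/
theorem placeOfZVal_ord (w : ZVal F) (hK : ∀ c : K, c ≠ 0 → w.ord (algebraMap K F c) = 0)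
    (hnt : ∃ f : F, f ≠ 0 ∧ w.ord f ≠ 0) :
    ∃ m : ℤ, 0 < m ∧ ∀ f : F, f ≠ 0 → w.ord f = m * (placeOfZVal w hK hnt).ord f := by
  set v := placeOfZVal w hK hnt with hv
  obtain ⟨π, hπ⟩ := IsDiscreteValuationRing.exists_irreducible v.toValuationSubring
  have hπ0 : (π : F) ≠ 0 := by
    have := hπ.ne_zero
    simpa using this
  have hunit : ∀ ε : v.toValuationSubringˣ, w.ord ((ε : v.toValuationSubring) : F) = 0 := by
    intro ε
    have h1 : ((ε : v.toValuationSubring) : F) ≠ 0 := by simp
    have h2 : ((ε⁻¹ : v.toValuationSubringˣ) : v.toValuationSubring).1 ≠ 0 := by simp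
    have h3 := ((mem_zvalSubring w _).mp (ε : v.toValuationSubring).2).resolve_left h1
    have h4 := ((mem_zvalSubring w _).mp ((ε⁻¹ : v.toValuationSubringˣ) :
      v.toValuationSubring).2).resolve_left h2
    have h5 : ((ε : v.toValuationSubring) : F) *
        ((ε⁻¹ : v.toValuationSubringˣ) : v.toValuationSubring).1 = 1 := by
      have := congrArg Subtype.val (Units.mul_inv ε)
      exact this
    have h6 := w.ord_mul h1 h2
    rw [h5, w.ord_one] at h6
    omega
  have hm0 : 0 ≤ w.ord (π : F) := ((mem_zvalSubring w _).mp π.2).resolve_left hπ0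
  have hm : 0 < w.ord (π : F) := by
    rcases hm0.lt_or_eq with h | h
    · exact h
    · exfalso
      apply hπ.not_isUnit
      have hinv : (π : F)⁻¹ ∈ zvalSubring w := Or.inr (by rw [w.ord_inv hπ0, ← h]; simp)
      exact IsUnit.of_mul_eq_one (⟨(π : F)⁻¹, hinv⟩ : v.toValuationSubring)
        (Subtype.ext (by simp [mul_inv_cancel₀ hπ0]))
  refine ⟨w.ord (π : F), hm, fun f hf => ?_⟩
  obtain ⟨ε, hε⟩ := v.exists_unit_mul_zpow hf hπ
  have h1 : ((ε : v.toValuationSubring) : F) ≠ 0 := by simp
  conv_lhs => rw [hε]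
  rw [w.ord_mul h1 (zpow_ne_zero _ hπ0), hunit ε, zval_ord_zpow w hπ0, zero_add, mul_comm]

/-- **A0 (c)**: a nontrivial `ℤ`-valued valuation which is trivial on the constants is a positive
multiple of the valuation of a place. -/
theorem exists_place_of_zval (w : ZVal F)
    (hK : ∀ c : K, c ≠ 0 → w.ord (algebraMap K F c) = 0) (hnt : ∃ f : F, f ≠ 0 ∧ w.ord f ≠ 0) :
    ∃ (v : Place K F) (m : ℤ), 0 < m ∧ ∀ f : F, f ≠ 0 → w.ord f = m * v.ord f :=
  ⟨placeOfZVal w hK hnt, placeOfZVal_ord w hK hnt⟩

/-- **A0 (c)**, uniqueness: a place is determined by the sign of its valuation -/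
theorem place_ext_of_ord (v v' : Place K F) (h : ∀ f : F, 0 ≤ v.ord f ↔ 0 ≤ v'.ord f) :
    v = v' := by
  apply Place.ext
  ext f
  rw [mem_iff', mem_iff', h]

/-- two places whose valuations are proportional (by positive integers) are equal -/
theorem place_eq_of_zval (w : ZVal F) (v v' : Place K F) (m m' : ℤ) (hm : 0 < m) (hm' : 0 < m')
    (h : ∀ f : F, f ≠ 0 → w.ord f = m * v.ord f)
    (h' : ∀ f : F, f ≠ 0 → w.ord f = m' * v'.ord f) : v = v' := by
  apply place_ext_of_ord
  intro f
  by_cases hf : f = 0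
  · simp [hf]
  have e : m * v.ord f = m' * v'.ord f := by rw [← h f hf, ← h' f hf]
  constructor
  · intro h0
    have : 0 ≤ m' * v'.ord f := by rw [← e]; positivity
    exact nonneg_of_mul_nonneg_right this hm'
  · intro h0
    have : 0 ≤ m * v.ord f := by rw [e]; positivity
    exact nonneg_of_mul_nonneg_right this hm

end OfZVal

end Fermat.Agent.S24.H19
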