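import Mathlib

/-!
# S24: level-one analytic input — the `j`-function on the upper half plane

Mathlib only.  Main results (all for `J τ = E₄ τ ^ 3 / Δ τ`):

* `tendsto_D_atImInfty`, `D_eq_qParam_mul_deriv_cuspFunction`: the normalised derivative `D` of a
  periodic holomorphic bounded function is `q · d/dq` of its cusp function and tends to `0`.
* `mkLevelOne`, `serreMF`: the Serre derivative of a level-one modular form is a modular form.
* `ramanujan_E4`, `ramanujan_E6`, `D_discriminant`: Ramanujan's identities.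
* `J_smul`, `J_mdiff`, `D_J`, `deriv_J`: invariance, holomorphy, `D J = -E₄² E₆ / Δ`.
* `tendsto_J_mul_qParam`, `J_meroAtInfty`: simple pole at the cusp.
* `J_surjective`.
* `analyticOrderAt_J_sub` (order `1` when `J τ ∉ {0, 1728}`), `analyticOrderAt_J_sub_1728`
  (order `2`), `analyticOrderAt_J_of_eq_zero` (order `3`).
* `J_I`, `J_rho`, `S_smul_I`, `ST_smul_rho` and the fixed-point statements.
-/

set_option autoImplicit false

namespace Fermat.Agent.S24.H38

open UpperHalfPlane hiding I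
open ModularForm EisensteinSeries Derivative Complex Filter Function
open scoped Real Manifold Topology MatrixGroups ArithmeticFunction.sigma

local notation "Δ" => ModularForm.discriminant
local notation "𝕢" => Periodic.qParam

/-- A holomorphic, `1`-periodic function bounded at `i∞` tends to the value of its cusp function
at `0`. -/
theorem tendsto_cuspFunction_zero {f : ℍ → ℂ} (hper : Periodic (f ∘ ofComplex) (1 : ℝ))
    (hhol : MDiff f) (hbdd : IsBoundedAtImInfty f) :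
    Tendsto f atImInfty (𝓝 (cuspFunction 1 f 0)) := by
  have han := analyticAt_cuspFunction_zero one_pos hper hhol hbdd
  have : (cuspFunction 1 f ∘ fun τ : ℍ ↦ 𝕢 1 τ : ℍ → ℂ) = f := by
    funext τ
    simpa using eq_cuspFunction τ one_ne_zero hper
  simpa [this] using han.continuousAt.tendsto.comp (qParam_tendsto_atImInfty one_pos)

/-- Constructor of level-one modular forms. -/
noncomputable def mkLevelOne (k : ℤ) (F : ℍ → ℂ) (hF : MDiff F)
    (hinv : ∀ γ : SL(2, ℤ), F ∣[k] γ = F) (hbdd : IsBoundedAtImInfty F) : ModularForm 𝒮ℒ k where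
  toFun := F
  slash_action_eq' := fun _ ⟨γ, hγ⟩ ↦ hγ ▸ hinv γ
  holo' := hF
  bdd_at_cusps' {c} hc := by
    rw [Subgroup.IsArithmetic.isCusp_iff_isCusp_SL2Z] at hc
    rw [OnePoint.isBoundedAt_iff_forall_SL2Z hc]
    intro γ _
    rw [hinv γ]
    exact hbdd

@[simp] theorem mkLevelOne_apply (k : ℤ) (F : ℍ → ℂ) (hF : MDiff F)
    (hinv : ∀ γ : SL(2, ℤ), F ∣[k] γ = F) (hbdd : IsBoundedAtImInfty F) (z : ℍ) :
    mkLevelOne k F hF hinv hbdd z = F z := rfl

theorem levelOne_periodic {k : ℤ} (f : ModularForm 𝒮ℒ k) : Periodic (f ∘ ofComplex) (1 : ℝ) :=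
  SlashInvariantFormClass.periodic_comp_ofComplex f one_mem_strictPeriods_SL

theorem levelOne_slash {k : ℤ} (f : ModularForm 𝒮ℒ k) (γ : SL(2, ℤ)) : (f : ℍ → ℂ) ∣[k] γ = f :=
  SlashInvariantFormClass.slash_action_eq f _ ⟨γ, rfl⟩

theorem levelOne_bdd {k : ℤ} (f : ModularForm 𝒮ℒ k) : IsBoundedAtImInfty (f : ℍ → ℂ) :=
  ModularFormClass.bdd_at_infty f

theorem levelOne_tendsto {k : ℤ} (f : ModularForm 𝒮ℒ k) :
    Tendsto (f : ℍ → ℂ) atImInfty (𝓝 ((qExpansion 1 f).coeff 0)) := by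
  have := tendsto_cuspFunction_zero (levelOne_periodic f) (ModularFormClass.holo f) (levelOne_bdd f)
  simpa [qExpansion_coeff] using this

theorem tendsto_E4 : Tendsto (E₄ : ℍ → ℂ) atImInfty (𝓝 1) := by
  simpa [E_qExpansion_coeff_zero _ ⟨2, rfl⟩] using levelOne_tendsto E₄

theorem tendsto_E6 : Tendsto (E₆ : ℍ → ℂ) atImInfty (𝓝 1) := by
  simpa [E_qExpansion_coeff_zero _ ⟨3, rfl⟩] using levelOne_tendsto E₆

theorem E2_periodic : Periodic (E2 ∘ ofComplex) (1 : ℝ) := by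
  intro w
  by_cases hw : 0 < w.im
  · have hw' : 0 < (w + (1 : ℝ)).im := by simpa using hw
    simp only [comp_apply, ofComplex_apply_of_im_pos hw', ofComplex_apply_of_im_pos hw]
    refine (hasSum_qExpansion_E2 (z := ⟨w + (1 : ℝ), hw'⟩)).unique ?_
    have hexp : cexp (2 * π * I * (w + (1 : ℝ))) = cexp (2 * π * I * w) := by
      rw [mul_add, Complex.exp_add]
      simp
    convert hasSum_qExpansion_E2 (z := ⟨w, hw⟩) using 3
    rw [hexp]
  · have h1 : w.im ≤ 0 := not_lt.mp hw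
    have h2 : (w + (1 : ℝ)).im ≤ 0 := by simpa using h1
    simp only [comp_apply]
    rw [ofComplex_apply_of_im_nonpos h2, ofComplex_apply_of_im_nonpos h1]

theorem tendsto_E2 : Tendsto E2 atImInfty (𝓝 1) := by
  have han := analyticAt_cuspFunction_zero one_pos E2_periodic E2_mdifferentiable
    isBoundedAtImInfty_E2
  have hps := hasFPowerSeriesOnBall_cuspFunction one_pos han
    (c := fun m : ℕ => (if m = 0 then 1 else -24 * σ 1 m : ℂ)) (fun τ => by
      simpa only [Function.Periodic.qParam, ofReal_one, div_one] using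
        hasSum_qExpansion_E2 (z := τ))
  have h0 : cuspFunction 1 E2 0 = 1 := by
    have := hps.coeff_zero (fun _ => 0)
    simpa using this.symm
  simpa [h0] using tendsto_cuspFunction_zero E2_periodic E2_mdifferentiable isBoundedAtImInfty_E2

/-- `D f = q * (d/dq) (cusp function)`. -/
theorem D_eq_qParam_mul_deriv_cuspFunction {f : ℍ → ℂ} (hper : Periodic (f ∘ ofComplex) (1 : ℝ))
    (hhol : MDiff f) (hbdd : IsBoundedAtImInfty f) (τ : ℍ) :
    D f τ = 𝕢 1 τ * deriv (cuspFunction 1 f) (𝕢 1 τ) := by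
  have hq : ‖𝕢 1 (τ : ℂ)‖ < 1 := Periodic.norm_qParam_lt_one one_pos τ.im_pos
  have hd := (differentiableAt_cuspFunction one_pos hper hhol hbdd hq).hasDerivAt
  have hqd : HasDerivAt (𝕢 1) (𝕢 1 (τ : ℂ) * (2 * π * I)) (τ : ℂ) := by
    have h1 : HasDerivAt (fun z : ℂ => 2 * π * I * z / ((1 : ℝ) : ℂ)) (2 * π * I) (τ : ℂ) := by
      simpa using ((hasDerivAt_id (τ : ℂ)).const_mul (2 * π * I)).div_const ((1 : ℝ) : ℂ)
    exact h1.cexp
  have hcomp := hd.comp (τ : ℂ) hqd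
  have heq : (f ∘ ofComplex) =ᶠ[𝓝 (τ : ℂ)] (cuspFunction 1 f ∘ 𝕢 1) := by
    filter_upwards [isOpen_upperHalfPlaneSet.mem_nhds τ.im_pos] with w hw
    have := eq_cuspFunction (f := f) ⟨w, hw⟩ one_ne_zero hper
    simp only [comp_apply, ofComplex_apply_of_im_pos hw]
    exact this.symm
  have := (hcomp.congr_of_eventuallyEq heq).deriv
  simp only [normalizedDerivOfComplex, this]
  have h2 : (2 * π * I : ℂ) ≠ 0 := by simp [Real.pi_ne_zero]
  field_simp

/-- `D f → 0` at `i∞` for holomorphic periodic bounded `f`. -/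
theorem tendsto_D_atImInfty {f : ℍ → ℂ} (hper : Periodic (f ∘ ofComplex) (1 : ℝ))
    (hhol : MDiff f) (hbdd : IsBoundedAtImInfty f) :
    Tendsto (D f) atImInfty (𝓝 0) := by
  have hfun : D f = fun τ : ℍ => 𝕢 1 τ * deriv (cuspFunction 1 f) (𝕢 1 τ) :=
    funext (D_eq_qParam_mul_deriv_cuspFunction hper hhol hbdd)
  rw [hfun]
  have hdiff : DifferentiableOn ℂ (cuspFunction 1 f) (Metric.ball 0 1) :=
    differentiableOn_cuspFunction_ball one_pos hper hhol hbdd
  have hcont : ContinuousAt (deriv (cuspFunction 1 f)) 0 :=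
    ((hdiff.deriv Metric.isOpen_ball).differentiableAt
      (Metric.isOpen_ball.mem_nhds (Metric.mem_ball_self one_pos))).continuousAt
  have h1 := qParam_tendsto_atImInfty one_pos
  have h2 := hcont.tendsto.comp h1
  simpa using h1.mul h2

theorem tendsto_serreDerivative {k : ℤ} (f : ModularForm 𝒮ℒ k) (c : ℂ) :
    Tendsto (serreDerivative c (f : ℍ → ℂ)) atImInfty
      (𝓝 (-(c * 12⁻¹ * (qExpansion 1 f).coeff 0))) := by
  have h1 := tendsto_D_atImInfty (levelOne_periodic f) (ModularFormClass.holo f) (levelOne_bdd f)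
  have h2 := ((tendsto_const_nhds (x := c * 12⁻¹) (f := atImInfty)).mul tendsto_E2).mul
    (levelOne_tendsto f)
  have h3 := h1.sub h2
  simp only [zero_sub, mul_one] at h3
  exact h3

/-- The Serre derivative of a level-one modular form is a modular form of weight `k + 2`. -/
noncomputable def serreMF {k : ℤ} (k' : ℤ) (h : k + 2 = k') (f : ModularForm 𝒮ℒ k) :
    ModularForm 𝒮ℒ k' :=
  mkLevelOne k' (serreDerivative (k : ℂ) (f : ℍ → ℂ))
    (serreDerivative_mdifferentiable _ (ModularFormClass.holo f))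
    (fun γ => h ▸ serreDerivative_slash_invariant (ModularFormClass.holo f) (levelOne_slash f γ))
    ((tendsto_serreDerivative f k).isBigO_one ℝ)

theorem serreMF_apply {k : ℤ} (k' : ℤ) (h : k + 2 = k') (f : ModularForm 𝒮ℒ k) (z : ℍ) :
    serreMF k' h f z = D (f : ℍ → ℂ) z - k * 12⁻¹ * E2 z * f z := rfl

/-- Ramanujan's identity for `E₄` in Serre-derivative form. -/
theorem serreMF_E4 : serreMF 6 rfl E₄ = (-(1 / 3 : ℂ)) • E₆ := by
  obtain ⟨c, hc⟩ : ∃ c : ℂ, c • E₆ = serreMF 6 rfl E₄ :=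
    (finrank_eq_one_iff_of_nonzero' E₆ (E_ne_zero _ ⟨3, rfl⟩)).mp
      (Module.rank_eq_one_iff_finrank_eq_one.mp levelOne_weight_six_rank_one) _
  have h1 : Tendsto (fun z => serreMF 6 rfl E₄ z) atImInfty (𝓝 (-(1 / 3 : ℂ))) := by
    have := tendsto_serreDerivative E₄ ((4 : ℤ) : ℂ)
    rw [E_qExpansion_coeff_zero _ ⟨2, rfl⟩] at this
    have h : (-(((4 : ℤ) : ℂ) * 12⁻¹ * 1)) = -(1 / 3 : ℂ) := by push_cast; norm_num
    rw [h] at this
    exact this
  have h2 : Tendsto (fun z => serreMF 6 rfl E₄ z) atImInfty (𝓝 c) := by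
    rw [← hc]
    simpa using tendsto_E6.const_mul c
  rw [← hc, tendsto_nhds_unique h1 h2]

theorem ramanujan_E4 (z : ℍ) : D (E₄ : ℍ → ℂ) z = (E2 z * E₄ z - E₆ z) / 3 := by
  have h := congrArg (fun f : ModularForm 𝒮ℒ 6 => f z) serreMF_E4
  simp only [serreMF_apply, smul_apply, smul_eq_mul] at h
  push_cast at h
  linear_combination h

theorem levelOne_weight_eight_rank_one : Module.rank ℂ (ModularForm 𝒮ℒ 8) = 1 := by
  have := dimension_level_one 8 ⟨4, rfl⟩
  simpa [Nat.ModEq] using this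

/-- `E₄ ^ 2` as a modular form of weight `8`. -/
noncomputable def E4sq : ModularForm 𝒮ℒ 8 := ModularForm.mcast (by decide) (E₄.pow 2)

theorem E4sq_apply (z : ℍ) : E4sq z = E₄ z ^ 2 := by
  simp only [E4sq, coe_mcast, coe_pow, Pi.pow_apply]

theorem tendsto_E4sq : Tendsto (E4sq : ℍ → ℂ) atImInfty (𝓝 1) := by
  have := tendsto_E4.pow 2
  simp only [one_pow] at this
  exact this.congr (fun z => (E4sq_apply z).symm)

theorem E4sq_ne_zero : E4sq ≠ 0 := by
  intro h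
  have h1 := tendsto_E4sq
  rw [h] at h1
  have h2 : Tendsto ((0 : ModularForm 𝒮ℒ 8) : ℍ → ℂ) atImInfty (𝓝 0) :=
    tendsto_const_nhds (x := (0 : ℂ)) (f := atImInfty)
  exact one_ne_zero (tendsto_nhds_unique h1 h2)

/-- Ramanujan's identity for `E₆` in Serre-derivative form. -/
theorem serreMF_E6 : serreMF 8 rfl E₆ = (-(1 / 2 : ℂ)) • E4sq := by
  obtain ⟨c, hc⟩ : ∃ c : ℂ, c • E4sq = serreMF 8 rfl E₆ :=
    (finrank_eq_one_iff_of_nonzero' E4sq E4sq_ne_zero).mp
      (Module.rank_eq_one_iff_finrank_eq_one.mp levelOne_weight_eight_rank_one) _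
  have h1 : Tendsto (fun z => serreMF 8 rfl E₆ z) atImInfty (𝓝 (-(1 / 2 : ℂ))) := by
    have := tendsto_serreDerivative E₆ ((6 : ℤ) : ℂ)
    rw [E_qExpansion_coeff_zero _ ⟨3, rfl⟩] at this
    have h : (-(((6 : ℤ) : ℂ) * 12⁻¹ * 1)) = -(1 / 2 : ℂ) := by push_cast; norm_num
    rw [h] at this
    exact this
  have h2 : Tendsto (fun z => serreMF 8 rfl E₆ z) atImInfty (𝓝 c) := by
    rw [← hc]
    simpa using tendsto_E4sq.const_mul c
  rw [← hc, tendsto_nhds_unique h1 h2]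

theorem ramanujan_E6 (z : ℍ) : D (E₆ : ℍ → ℂ) z = (E2 z * E₆ z - E₄ z ^ 2) / 2 := by
  have h := congrArg (fun f : ModularForm 𝒮ℒ 8 => f z) serreMF_E6
  simp only [serreMF_apply, smul_apply, smul_eq_mul, E4sq_apply] at h
  push_cast at h
  linear_combination h

/-- `D Δ = E₂ Δ`. -/
theorem D_discriminant (z : ℍ) : D Δ z = E2 z * Δ z := by
  have hη : DifferentiableAt ℂ ModularForm.eta (z : ℂ) := differentiableAt_eta_of_mem_upperHalfPlaneSet z.2
  have hne : ModularForm.eta (z : ℂ) ≠ 0 := eta_ne_zero z.2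
  have hlog := logDeriv_eta_eq_E2 z
  rw [logDeriv_apply, div_eq_iff hne] at hlog
  have heq : (Δ ∘ ofComplex) =ᶠ[𝓝 (z : ℂ)] fun w => ModularForm.eta w ^ 24 := by
    filter_upwards [isOpen_upperHalfPlaneSet.mem_nhds z.im_pos] with w hw
    simp [discriminant, ofComplex_apply_of_im_pos hw]
  have hd : HasDerivAt (fun w => ModularForm.eta w ^ 24) (24 * ModularForm.eta (z : ℂ) ^ 23 * deriv ModularForm.eta (z : ℂ)) (z : ℂ) := by
    have := hη.hasDerivAt.fun_pow 24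
    simpa using this
  have h2 : (2 * π * I : ℂ) ≠ 0 := by simp [Real.pi_ne_zero]
  simp only [normalizedDerivOfComplex, (hd.congr_of_eventuallyEq heq).deriv, hlog, discriminant]
  field_simp
  ring

theorem levelOne_smul {k : ℤ} (f : ModularForm 𝒮ℒ k) (γ : SL(2, ℤ)) (z : ℍ) :
    f (γ • z) = denom γ z ^ k * f z := by
  have h := congrFun (levelOne_slash f γ) z
  rw [SL_slash_apply] at h
  have hd : denom γ z ≠ 0 := denom_ne_zero _ _
  rw [← h, mul_comm, mul_assoc, ← zpow_add₀ hd]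
  simp

theorem discriminant_slash (γ : SL(2, ℤ)) : Δ ∣[(12 : ℤ)] γ = Δ :=
  SlashInvariantForm.slash_action_generators_SL2Z discriminant_S_invariant
    discriminant_T_invariant γ

theorem discriminant_smul (γ : SL(2, ℤ)) (z : ℍ) : Δ (γ • z) = denom γ z ^ (12 : ℤ) * Δ z := by
  have h := congrFun (discriminant_slash γ) z
  rw [SL_slash_apply] at h
  have hd : denom γ z ≠ 0 := denom_ne_zero _ _
  rw [← h, mul_comm, mul_assoc, ← zpow_add₀ hd]
  simp

theorem discriminant_mdiff : MDiff Δ := CuspForm.discriminant.holo'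

theorem tendsto_discriminant : Tendsto Δ atImInfty (𝓝 0) := discriminant_isZeroAtImInfty

/-- The analytic `j`-invariant on the upper half plane. -/
noncomputable def J (τ : ℍ) : ℂ := E₄ τ ^ 3 / Δ τ

theorem J_mul_discriminant (τ : ℍ) : J τ * Δ τ = E₄ τ ^ 3 :=
  div_mul_cancel₀ _ (discriminant_ne_zero τ)

theorem J_sub_1728 (τ : ℍ) : J τ - 1728 = E₆ τ ^ 2 / Δ τ := by
  have h := discriminant_eq_E₄_cube_sub_E₆_sq τ
  have hne := discriminant_ne_zero τ
  rw [J, eq_div_iff hne, sub_mul, div_mul_cancel₀ _ hne]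
  linear_combination (-1728 : ℂ) * h

theorem J_eq_zero_iff (τ : ℍ) : J τ = 0 ↔ E₄ τ = 0 := by
  simp [J, discriminant_ne_zero τ]

theorem J_eq_1728_iff (τ : ℍ) : J τ = 1728 ↔ E₆ τ = 0 := by
  rw [← sub_eq_zero, J_sub_1728]
  simp [discriminant_ne_zero τ]

theorem J_smul (γ : SL(2, ℤ)) (τ : ℍ) : J (γ • τ) = J τ := by
  have hd : denom γ τ ≠ 0 := denom_ne_zero _ _
  have hne := discriminant_ne_zero τ
  rw [J, J, levelOne_smul E₄ γ τ, discriminant_smul γ τ, mul_pow, ← zpow_natCast, ← zpow_mul]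
  have : ((4 : ℤ) * ((3 : ℕ) : ℤ)) = 12 := by norm_num
  rw [this]
  field_simp

theorem J_mdiff : MDiff J := by
  have h : MDiff (fun z => E₄ z ^ 3 / Δ z) :=
    ((ModularFormClass.holo E₄).pow 3).div discriminant_mdiff discriminant_ne_zero
  exact h

theorem D_J (τ : ℍ) : D J τ = -(E₄ τ ^ 2 * E₆ τ) / Δ τ := by
  have hne := discriminant_ne_zero τ
  have hE4 : MDiff (E₄ : ℍ → ℂ) := ModularFormClass.holo E₄
  have h1 : J * Δ = (E₄ : ℍ → ℂ) ^ 3 := funext J_mul_discriminant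
  have h2 := congrFun (normalizedDerivOfComplex_mul J Δ J_mdiff discriminant_mdiff) τ
  have h3 := congrFun (normalizedDerivOfComplex_pow (E₄ : ℍ → ℂ) 3 hE4) τ
  rw [h1, h3] at h2
  simp only [Pi.add_apply, Pi.mul_apply, Pi.pow_apply, D_discriminant, ramanujan_E4,
    Pi.ofNat_apply, Nat.cast_ofNat] at h2
  rw [eq_div_iff hne]
  have h4 := J_mul_discriminant τ
  push_cast at h2
  linear_combination (-1 : ℂ) * h2 - E2 τ * h4

/-- `J τ * q(τ) → 1` at `i∞`: simple pole of `J` at the cusp, with leading coefficient `1`. -/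
theorem tendsto_J_mul_qParam : Tendsto (fun τ : ℍ => J τ * 𝕢 1 τ) atImInfty (𝓝 1) := by
  have h1 := (tendsto_E4.pow 3).div tendsto_atImInfty_tprod_one_sub_eta_q_pow one_ne_zero
  simp only [one_pow, div_one] at h1
  refine h1.congr (fun τ => ?_)
  have hq : 𝕢 1 (τ : ℂ) ≠ 0 := Periodic.qParam_ne_zero _
  have hne := discriminant_ne_zero τ
  have hΔ := discriminant_eq_q_prod τ
  have hp : (∏' n, (1 - eta_q n (τ : ℂ)) ^ 24) ≠ 0 := by
    intro h0
    rw [h0, mul_zero] at hΔ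
    exact hne hΔ
  simp only [Pi.div_apply]
  rw [J, hΔ]
  field_simp

theorem tendsto_J_mul_cexp :
    Tendsto (fun τ : ℍ => J τ * cexp (2 * π * I * τ)) atImInfty (𝓝 1) := by
  refine tendsto_J_mul_qParam.congr (fun τ => ?_)
  simp [Periodic.qParam]

/-- `J` has moderate growth at `i∞` (shape of `MeroAtInfty` in the S24 defs, with `m = 1`). -/
theorem J_isBoundedAtImInfty_mul_cexp :
    IsBoundedAtImInfty (fun z : ℍ => J z * cexp (2 * π * I * (1 : ℕ) * z)) := by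
  have h : Tendsto (fun z : ℍ => J z * cexp (2 * π * I * (1 : ℕ) * z)) atImInfty (𝓝 1) := by
    refine tendsto_J_mul_cexp.congr (fun τ => ?_)
    simp
  exact h.isBigO_one ℝ

theorem J_meroAtInfty :
    ∃ m : ℕ, IsBoundedAtImInfty (fun z : ℍ => J z * cexp (2 * π * I * m * z)) :=
  ⟨1, J_isBoundedAtImInfty_mul_cexp⟩

/-- The weight `-12` inverse trick: `E₄³ - c Δ` has a zero on `ℍ`. -/
theorem exists_E4_cube_eq (c : ℂ) : ∃ τ : ℍ, E₄ τ ^ 3 = c * Δ τ := by
  by_contra hcon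
  have hcon : ∀ τ : ℍ, E₄ τ ^ 3 ≠ c * Δ τ := fun τ h => hcon ⟨τ, h⟩
  set f : ℍ → ℂ := fun z => E₄ z ^ 3 - c * Δ z with hf
  have hfne : ∀ z, f z ≠ 0 := fun z => sub_ne_zero.mpr (hcon z)
  have hfmd : MDiff f :=
    ((ModularFormClass.holo E₄).pow 3).sub (mdifferentiable_const.mul discriminant_mdiff)
  have hf_smul : ∀ (γ : SL(2, ℤ)) (z : ℍ), f (γ • z) = denom γ z ^ (12 : ℤ) * f z := by
    intro γ z
    simp only [hf]
    rw [levelOne_smul E₄ γ z, discriminant_smul γ z, mul_pow, ← zpow_natCast, ← zpow_mul]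
    have : ((4 : ℤ) * ((3 : ℕ) : ℤ)) = 12 := by norm_num
    rw [this]
    ring
  have hft : Tendsto f atImInfty (𝓝 1) := by
    have := (tendsto_E4.pow 3).sub (tendsto_discriminant.const_mul c)
    simpa using this
  set g : ℍ → ℂ := fun z => (f z)⁻¹ with hg
  have hgmd : MDiff g := by
    have : MDiff (fun z => (1 : ℂ) / f z) := mdifferentiable_const.div hfmd hfne
    simpa [hg, one_div] using this
  have hginv : ∀ γ : SL(2, ℤ), g ∣[(-12 : ℤ)] γ = g := by
    intro γ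
    ext z
    have hd : denom γ z ≠ 0 := denom_ne_zero _ _
    rw [SL_slash_apply]
    simp only [hg, hf_smul γ z, mul_inv]
    rw [neg_neg, mul_comm, ← mul_assoc, mul_inv_cancel₀ (zpow_ne_zero _ hd), one_mul]
  have hgt : Tendsto g atImInfty (𝓝 1) := by
    have := hft.inv₀ one_ne_zero
    simpa using this
  have hzero := ModularFormClass.levelOne_neg_weight_eq_zero (k := -12) (by norm_num)
    (mkLevelOne (-12) g hgmd hginv (hgt.isBigO_one ℝ))
  have h1 := congrFun hzero UpperHalfPlane.I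
  simp only [mkLevelOne_apply, Pi.zero_apply, hg, inv_eq_zero] at h1
  exact hfne _ h1

/-- The `j`-function is surjective. -/
theorem J_surjective : Function.Surjective J := by
  intro c
  obtain ⟨τ, hτ⟩ := exists_E4_cube_eq c
  exact ⟨τ, by rw [J, hτ, mul_div_cancel_right₀ _ (discriminant_ne_zero τ)]⟩

theorem analyticAt_of_mdiff {f : ℍ → ℂ} (hf : MDiff f) (τ : ℍ) :
    AnalyticAt ℂ (f ∘ ofComplex) (τ : ℂ) :=
  (UpperHalfPlane.mdifferentiable_iff.mp hf).analyticAt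
    (isOpen_upperHalfPlaneSet.mem_nhds τ.im_pos)

theorem deriv_comp_ofComplex (f : ℍ → ℂ) (τ : ℍ) :
    deriv (f ∘ ofComplex) (τ : ℂ) = 2 * π * I * D f τ := by
  have h2 : (2 * π * I : ℂ) ≠ 0 := by simp [Real.pi_ne_zero]
  simp only [normalizedDerivOfComplex]
  field_simp

theorem J_analyticAt (τ : ℍ) : AnalyticAt ℂ (J ∘ ofComplex) (τ : ℂ) :=
  analyticAt_of_mdiff J_mdiff τ

theorem deriv_J (τ : ℍ) :
    deriv (J ∘ ofComplex) (τ : ℂ) = -(2 * π * I) * (E₄ τ ^ 2 * E₆ τ) / Δ τ := by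
  rw [deriv_comp_ofComplex, D_J]
  ring

theorem deriv_J_ne_zero (τ : ℍ) (h0 : J τ ≠ 0) (h1 : J τ ≠ 1728) :
    deriv (J ∘ ofComplex) (τ : ℂ) ≠ 0 := by
  have h2 : (2 * π * I : ℂ) ≠ 0 := by simp [Real.pi_ne_zero]
  have hE4 : E₄ τ ≠ 0 := fun h => h0 ((J_eq_zero_iff τ).mpr h)
  have hE6 : E₆ τ ≠ 0 := fun h => h1 ((J_eq_1728_iff τ).mpr h)
  rw [deriv_J]
  exact div_ne_zero (mul_ne_zero (neg_ne_zero.mpr h2) (mul_ne_zero (pow_ne_zero 2 hE4) hE6))
    (discriminant_ne_zero τ)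

/-- (J3, generic) `J - J τ` has a simple zero at `τ` when `J τ ∉ {0, 1728}`. -/
theorem analyticOrderAt_J_sub (τ : ℍ) (h0 : J τ ≠ 0) (h1 : J τ ≠ 1728) :
    analyticOrderAt (fun w : ℂ => J (ofComplex w) - J τ) (τ : ℂ) = 1 := by
  have h := (J_analyticAt τ).analyticOrderAt_sub_eq_one_of_deriv_ne_zero (deriv_J_ne_zero τ h0 h1)
  simpa [Function.comp_apply, ofComplex_apply] using h

/-- same, with the value named. -/
theorem analyticOrderAt_J_sub_const (τ : ℍ) (c : ℂ) (hc : J τ = c) (h0 : c ≠ 0) (h1 : c ≠ 1728) :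
    analyticOrderAt (fun w : ℂ => J (ofComplex w) - c) (τ : ℂ) = 1 := by
  subst hc
  exact analyticOrderAt_J_sub τ h0 h1

theorem E4_E6_not_both_zero (τ : ℍ) (h4 : E₄ τ = 0) (h6 : E₆ τ = 0) : False := by
  have h := discriminant_eq_E₄_cube_sub_E₆_sq τ
  rw [h4, h6] at h
  exact discriminant_ne_zero τ (by rw [h]; norm_num)

/-- `E₄` has only simple zeros. -/
theorem analyticOrderAt_E4 (τ : ℍ) (h : E₄ τ = 0) :
    analyticOrderAt ((E₄ : ℍ → ℂ) ∘ ofComplex) (τ : ℂ) = 1 := by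
  have h2 : (2 * π * I : ℂ) ≠ 0 := by simp [Real.pi_ne_zero]
  have hE6 : E₆ τ ≠ 0 := fun h6 => E4_E6_not_both_zero τ h h6
  refine (analyticAt_of_mdiff (ModularFormClass.holo E₄) τ).analyticOrderAt_eq_one_of_zero_deriv_ne_zero
    (by simp [ofComplex_apply, h]) ?_
  rw [deriv_comp_ofComplex, ramanujan_E4, h]
  refine mul_ne_zero h2 (div_ne_zero ?_ (by norm_num))
  simpa using hE6

/-- `E₆` has only simple zeros. -/
theorem analyticOrderAt_E6 (τ : ℍ) (h : E₆ τ = 0) :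
    analyticOrderAt ((E₆ : ℍ → ℂ) ∘ ofComplex) (τ : ℂ) = 1 := by
  have h2 : (2 * π * I : ℂ) ≠ 0 := by simp [Real.pi_ne_zero]
  have hE4 : E₄ τ ≠ 0 := fun h4 => E4_E6_not_both_zero τ h4 h
  refine (analyticAt_of_mdiff (ModularFormClass.holo E₆) τ).analyticOrderAt_eq_one_of_zero_deriv_ne_zero
    (by simp [ofComplex_apply, h]) ?_
  rw [deriv_comp_ofComplex, ramanujan_E6, h]
  refine mul_ne_zero h2 (div_ne_zero ?_ (by norm_num))
  simpa using hE4

theorem analyticAt_inv_discriminant (τ : ℍ) :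
    AnalyticAt ℂ ((Δ ∘ ofComplex)⁻¹) (τ : ℂ) :=
  (analyticAt_of_mdiff discriminant_mdiff τ).inv (by simp [ofComplex_apply, discriminant_ne_zero])

theorem analyticOrderAt_inv_discriminant (τ : ℍ) :
    analyticOrderAt ((Δ ∘ ofComplex)⁻¹) (τ : ℂ) = 0 := by
  rw [(analyticAt_inv_discriminant τ).analyticOrderAt_eq_zero]
  simp [ofComplex_apply, discriminant_ne_zero]

/-- (J3, `c = 0`) `J` has a triple zero at every zero. -/
theorem analyticOrderAt_J_of_eq_zero (τ : ℍ) (h : J τ = 0) :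
    analyticOrderAt (J ∘ ofComplex) (τ : ℂ) = 3 := by
  have hE4 : E₄ τ = 0 := (J_eq_zero_iff τ).mp h
  have heq : J ∘ ofComplex = ((E₄ : ℍ → ℂ) ∘ ofComplex) ^ 3 * (Δ ∘ ofComplex)⁻¹ := by
    funext w
    simp [J, div_eq_mul_inv]
  have hA := analyticAt_of_mdiff (ModularFormClass.holo E₄) τ
  rw [heq, analyticOrderAt_mul (hA.pow 3) (analyticAt_inv_discriminant τ), analyticOrderAt_pow hA,
    analyticOrderAt_E4 τ hE4, analyticOrderAt_inv_discriminant]
  rfl

/-- (J3, `c = 1728`) `J - 1728` has a double zero at every zero. -/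
theorem analyticOrderAt_J_sub_1728 (τ : ℍ) (h : J τ = 1728) :
    analyticOrderAt (fun w : ℂ => J (ofComplex w) - 1728) (τ : ℂ) = 2 := by
  have hE6 : E₆ τ = 0 := (J_eq_1728_iff τ).mp h
  have heq : (fun w : ℂ => J (ofComplex w) - 1728) =
      ((E₆ : ℍ → ℂ) ∘ ofComplex) ^ 2 * (Δ ∘ ofComplex)⁻¹ := by
    funext w
    simp [J_sub_1728, div_eq_mul_inv]
  have hA := analyticAt_of_mdiff (ModularFormClass.holo E₆) τ
  rw [heq, analyticOrderAt_mul (hA.pow 2) (analyticAt_inv_discriminant τ), analyticOrderAt_pow hA,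
    analyticOrderAt_E6 τ hE6, analyticOrderAt_inv_discriminant]
  rfl

theorem S_smul_eq_iff (τ : ℍ) : ModularGroup.S • τ = τ ↔ (τ : ℂ) ^ 2 = -1 := by
  have hτ : (τ : ℂ) ≠ 0 := ne_zero τ
  rw [UpperHalfPlane.modular_S_smul, UpperHalfPlane.ext_iff]
  change (-(τ : ℂ))⁻¹ = (τ : ℂ) ↔ (τ : ℂ) ^ 2 = -1
  constructor
  · intro h
    have h' : (-(τ : ℂ))⁻¹ * (-(τ : ℂ)) = 1 := inv_mul_cancel₀ (neg_ne_zero.mpr hτ)
    rw [h] at h'
    linear_combination -h'
  · intro h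
    rw [inv_eq_iff_eq_inv]
    exact eq_inv_of_mul_eq_one_left (by linear_combination -h)

theorem E6_eq_zero_of_S_smul (τ : ℍ) (h : ModularGroup.S • τ = τ) : E₆ τ = 0 := by
  have hsq := (S_smul_eq_iff τ).mp h
  have h1 := levelOne_smul E₆ ModularGroup.S τ
  rw [h, ModularGroup.denom_S] at h1
  have h6 : (τ : ℂ) ^ (6 : ℤ) = -1 := by
    have : (τ : ℂ) ^ (6 : ℤ) = ((τ : ℂ) ^ 2) ^ 3 := by
      rw [← pow_mul]; norm_cast
    rw [this, hsq]; norm_num
  rw [h6] at h1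
  have h2 : (2 : ℂ) * E₆ τ = 0 := by linear_combination h1
  simpa using h2

theorem J_eq_1728_of_S_smul (τ : ℍ) (h : ModularGroup.S • τ = τ) : J τ = 1728 :=
  (J_eq_1728_iff τ).mpr (E6_eq_zero_of_S_smul τ h)

theorem S_smul_I : ModularGroup.S • UpperHalfPlane.I = UpperHalfPlane.I := by
  rw [S_smul_eq_iff]
  simp [UpperHalfPlane.coe_I]

/-- (J4) `J(i) = 1728`. -/
theorem J_I : J UpperHalfPlane.I = 1728 := J_eq_1728_of_S_smul _ S_smul_I

/-- (J3 at `i`). -/
theorem analyticOrderAt_J_sub_1728_I :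
    analyticOrderAt (fun w : ℂ => J (ofComplex w) - 1728) ((UpperHalfPlane.I : ℍ) : ℂ) = 2 :=
  analyticOrderAt_J_sub_1728 _ J_I

theorem ST_smul_eq_iff (τ : ℍ) :
    (ModularGroup.S * ModularGroup.T) • τ = τ ↔ (τ : ℂ) ^ 2 + τ + 1 = 0 := by
  have hτ : (τ : ℂ) ≠ 0 := ne_zero τ
  have hτ1 : ((τ : ℂ) + 1) ≠ 0 := by
    intro h0
    have := congrArg Complex.im h0
    simp at this
    exact τ.im_pos.ne' this
  rw [mul_smul, UpperHalfPlane.modular_T_smul, UpperHalfPlane.modular_S_smul, UpperHalfPlane.ext_iff]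
  change (-((((1 : ℝ) +ᵥ τ : ℍ)) : ℂ))⁻¹ = (τ : ℂ) ↔ (τ : ℂ) ^ 2 + τ + 1 = 0
  simp only [UpperHalfPlane.coe_vadd, ofReal_one]
  have hne : (-((1 : ℂ) + τ)) ≠ 0 := by
    rw [add_comm]; exact neg_ne_zero.mpr hτ1
  constructor
  · intro h
    have h' : (-((1 : ℂ) + τ))⁻¹ * (-((1 : ℂ) + τ)) = 1 := inv_mul_cancel₀ hne
    rw [h] at h'
    linear_combination -h'
  · intro h
    rw [inv_eq_iff_eq_inv]
    exact eq_inv_of_mul_eq_one_left (by linear_combination -h)

theorem denom_eq_entries (g : SL(2, ℤ)) (τ : ℍ) :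
    denom g τ = ((g 1 0 : ℤ) : ℂ) * τ + ((g 1 1 : ℤ) : ℂ) := by
  simp [denom]

theorem denom_ST (τ : ℍ) : denom (ModularGroup.S * ModularGroup.T : SL(2, ℤ)) τ = (τ : ℂ) + 1 := by
  have h10 : (ModularGroup.S * ModularGroup.T : SL(2, ℤ)) 1 0 = 1 := by decide
  have h11 : (ModularGroup.S * ModularGroup.T : SL(2, ℤ)) 1 1 = 1 := by decide
  rw [denom_eq_entries, h10, h11]
  simp

theorem E4_eq_zero_of_ST_smul (τ : ℍ) (h : (ModularGroup.S * ModularGroup.T) • τ = τ) :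
    E₄ τ = 0 := by
  have hsq := (ST_smul_eq_iff τ).mp h
  have h1 := levelOne_smul E₄ (ModularGroup.S * ModularGroup.T) τ
  rw [h, denom_ST] at h1
  have h4 : ((τ : ℂ) + 1) ^ (4 : ℤ) = (τ : ℂ) ^ 2 := by
    have : ((τ : ℂ) + 1) ^ (4 : ℤ) = ((τ : ℂ) + 1) ^ 4 := by norm_cast
    rw [this]
    linear_combination ((τ : ℂ) ^ 2 + 3 * τ + 1) * hsq
  rw [h4] at h1
  have hne : (1 : ℂ) - (τ : ℂ) ^ 2 ≠ 0 := by
    intro h0
    have h3 : (τ : ℂ) = -2 := by linear_combination hsq + h0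
    have := congrArg Complex.im h3
    simp at this
    exact τ.im_pos.ne' this
  have h2 : ((1 : ℂ) - (τ : ℂ) ^ 2) * E₄ τ = 0 := by linear_combination h1
  exact (mul_eq_zero.mp h2).resolve_left hne

theorem J_eq_zero_of_ST_smul (τ : ℍ) (h : (ModularGroup.S * ModularGroup.T) • τ = τ) : J τ = 0 :=
  (J_eq_zero_iff τ).mpr (E4_eq_zero_of_ST_smul τ h)

/-- `ρ = -1/2 + (√3/2) i`, stated for an arbitrary proof of positivity of the imaginary part
(so that it applies by `rfl` to any definition of `ρ` with these coordinates). -/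
theorem ST_smul_rho (h : 0 < (⟨-1 / 2, Real.sqrt 3 / 2⟩ : ℂ).im) :
    (ModularGroup.S * ModularGroup.T) • (⟨⟨-1 / 2, Real.sqrt 3 / 2⟩, h⟩ : ℍ) =
      (⟨⟨-1 / 2, Real.sqrt 3 / 2⟩, h⟩ : ℍ) := by
  rw [ST_smul_eq_iff]
  have h3 : Real.sqrt 3 * Real.sqrt 3 = 3 := Real.mul_self_sqrt (by norm_num)
  apply Complex.ext
  · simp [pow_two]
    nlinarith [h3]
  · simp [pow_two]
    ring

/-- (J4) `J(ρ) = 0`. -/
theorem J_rho (h : 0 < (⟨-1 / 2, Real.sqrt 3 / 2⟩ : ℂ).im) :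
    J (⟨⟨-1 / 2, Real.sqrt 3 / 2⟩, h⟩ : ℍ) = 0 :=
  J_eq_zero_of_ST_smul _ (ST_smul_rho h)

/-- (J3 at `ρ`). -/
theorem analyticOrderAt_J_rho (h : 0 < (⟨-1 / 2, Real.sqrt 3 / 2⟩ : ℂ).im) :
    analyticOrderAt (J ∘ ofComplex) (((⟨⟨-1 / 2, Real.sqrt 3 / 2⟩, h⟩ : ℍ) : ℍ) : ℂ) = 3 :=
  analyticOrderAt_J_of_eq_zero _ (J_rho h)

end Fermat.Agent.S24.H38
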