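import Mathlib
import Fermat.Agent.S24.ZVal_helper31

/-!
# S24: shared definitions of the analytic layer

* `MeroAtInfty f`: moderate growth at `i∞`.
* `IsWH N f`: `f : ℍ → ℂ` is holomorphic, `Γ(N)`-invariant and of moderate growth at every cusp.
* `RN N`: the `ℂ`-algebra of such functions (a domain), with the `SL(2,ℤ)`-action
  `(g • f) z = f (g⁻¹ • z)`.
* `L N`: its fraction field, with the induced action.
* `iota`: a fixed embedding `AlgebraicClosure ℚ →+* ℂ`.
* `jFun`, `jdFun`: the `j`-function and `z ↦ j (d z)`.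
-/

set_option autoImplicit false

open Filter Topology UpperHalfPlane CongruenceSubgroup ModularForm
open scoped MatrixGroups ModularForm Manifold Real

noncomputable section

namespace Fermat.Agent.S24.H31

/-- Moderate growth at `i∞`: some power of `q = exp (2πiz)` kills the pole. -/
def MeroAtInfty (f : ℍ → ℂ) : Prop :=
  ∃ m : ℕ, IsBoundedAtImInfty (fun z : ℍ => f z * Complex.exp (2 * π * Complex.I * m * z))

theorem norm_exp_two_pi_I_nat_mul_le_one (k : ℕ) (z : ℍ) :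
    ‖Complex.exp (2 * π * Complex.I * k * z)‖ ≤ 1 := by
  rw [Complex.norm_exp]
  have : (2 * π * Complex.I * k * z).re = -(2 * π * k * z.im) := by
    simp [Complex.mul_re, Complex.mul_im]
  rw [this, Real.exp_le_one_iff]
  have := z.im_pos
  have hπ := Real.pi_pos
  have hk : (0 : ℝ) ≤ k := Nat.cast_nonneg k
  nlinarith [mul_nonneg (mul_nonneg (by positivity : (0 : ℝ) ≤ 2 * π) hk) this.le]

theorem isBoundedAtImInfty_exp_nat (k : ℕ) :
    IsBoundedAtImInfty (fun z : ℍ => Complex.exp (2 * π * Complex.I * k * z)) := by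
  rw [isBoundedAtImInfty_iff]
  exact ⟨1, 0, fun z _ => norm_exp_two_pi_I_nat_mul_le_one k z⟩

theorem MeroAtInfty.mono {f : ℍ → ℂ} {m m' : ℕ} (hmm : m ≤ m')
    (h : IsBoundedAtImInfty (fun z : ℍ => f z * Complex.exp (2 * π * Complex.I * m * z))) :
    IsBoundedAtImInfty (fun z : ℍ => f z * Complex.exp (2 * π * Complex.I * m' * z)) := by
  obtain ⟨k, rfl⟩ := Nat.exists_eq_add_of_le hmm
  have h2 := h.mul (isBoundedAtImInfty_exp_nat k)
  have h3 : ∀ z : ℍ, ((fun z : ℍ => f z * Complex.exp (2 * π * Complex.I * m * z)) *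
      fun z : ℍ => Complex.exp (2 * π * Complex.I * k * z)) z =
      f z * Complex.exp (2 * π * Complex.I * ((m + k : ℕ) : ℂ) * z) := by
    intro z
    simp only [Pi.mul_apply]
    rw [mul_assoc, ← Complex.exp_add]
    congr 2
    push_cast
    ring
  exact Asymptotics.IsBigO.congr_left h2 h3

theorem MeroAtInfty.const (c : ℂ) : MeroAtInfty (fun _ : ℍ => c) := by
  refine ⟨0, ?_⟩
  simp only [Nat.cast_zero, mul_zero, zero_mul, Complex.exp_zero, mul_one]
  exact Filter.const_boundedAtFilter _ c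

theorem MeroAtInfty.add {f g : ℍ → ℂ} (hf : MeroAtInfty f) (hg : MeroAtInfty g) :
    MeroAtInfty (fun z => f z + g z) := by
  obtain ⟨m, hm⟩ := hf
  obtain ⟨n, hn⟩ := hg
  refine ⟨max m n, ?_⟩
  have h1 := MeroAtInfty.mono (le_max_left m n) hm
  have h2 := MeroAtInfty.mono (le_max_right m n) hn
  refine Asymptotics.IsBigO.congr_left (h1.add h2) fun z => ?_
  simp only [Pi.add_apply]
  ring

theorem MeroAtInfty.mul {f g : ℍ → ℂ} (hf : MeroAtInfty f) (hg : MeroAtInfty g) :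
    MeroAtInfty (fun z => f z * g z) := by
  obtain ⟨m, hm⟩ := hf
  obtain ⟨n, hn⟩ := hg
  refine ⟨m + n, ?_⟩
  refine Asymptotics.IsBigO.congr_left (hm.mul hn) fun z => ?_
  simp only [Pi.mul_apply]
  have : Complex.exp (2 * π * Complex.I * ((m + n : ℕ) : ℂ) * z) =
      Complex.exp (2 * π * Complex.I * m * z) * Complex.exp (2 * π * Complex.I * n * z) := by
    rw [← Complex.exp_add]
    congr 1
    push_cast
    ring
  rw [this]
  ring

/-- Holomorphic on `ℍ`, invariant under `Γ(N)`, of moderate growth at every cusp. -/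
structure IsWH (N : ℕ) (f : ℍ → ℂ) : Prop where
  mdiff : MDiff f
  inv : ∀ γ ∈ Gamma N, ∀ z : ℍ, f (γ • z) = f z
  mero : ∀ g : SL(2, ℤ), MeroAtInfty (fun z : ℍ => f (g • z))

theorem IsWH.const (N : ℕ) (c : ℂ) : IsWH N (fun _ : ℍ => c) :=
  ⟨mdifferentiable_const, fun _ _ _ => rfl, fun _ => MeroAtInfty.const c⟩

theorem IsWH.add {N : ℕ} {f g : ℍ → ℂ} (hf : IsWH N f) (hg : IsWH N g) : IsWH N (f + g) :=
  ⟨hf.mdiff.add hg.mdiff, fun γ hγ z => by
      show f (γ • z) + g (γ • z) = f z + g z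
      rw [hf.inv γ hγ z, hg.inv γ hγ z],
    fun a => (hf.mero a).add (hg.mero a)⟩

theorem IsWH.mul {N : ℕ} {f g : ℍ → ℂ} (hf : IsWH N f) (hg : IsWH N g) : IsWH N (f * g) :=
  ⟨hf.mdiff.mul hg.mdiff, fun γ hγ z => by
      show f (γ • z) * g (γ • z) = f z * g z
      rw [hf.inv γ hγ z, hg.inv γ hγ z],
    fun a => (hf.mero a).mul (hg.mero a)⟩

/-- Translate of a function by `g : SL(2,ℤ)`: `z ↦ f (g⁻¹ • z)`. -/
def translate (g : SL(2, ℤ)) (f : ℍ → ℂ) : ℍ → ℂ := fun z => f (g⁻¹ • z)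

@[simp]
theorem translate_apply (g : SL(2, ℤ)) (f : ℍ → ℂ) (z : ℍ) : translate g f z = f (g⁻¹ • z) := rfl

theorem mdiff_comp_smul {f : ℍ → ℂ} (hf : MDiff f) (g : SL(2, ℤ)) :
    MDiff (fun z : ℍ => f (g • z)) := by
  have h : MDiff (fun τ : ℍ => (g : GL (Fin 2) ℝ) • τ) :=
    UpperHalfPlane.mdifferentiable_smul (by simp)
  exact hf.comp h

theorem IsWH.translate {N : ℕ} {f : ℍ → ℂ} (hf : IsWH N f) (g : SL(2, ℤ)) :
    IsWH N (translate g f) := by
  refine ⟨mdiff_comp_smul hf.mdiff g⁻¹, fun γ hγ z => ?_, fun a => ?_⟩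
  · have hn : g⁻¹ * γ * g⁻¹⁻¹ ∈ Gamma N := (Gamma_normal N).conj_mem γ hγ g⁻¹
    have : g⁻¹ • γ • z = (g⁻¹ * γ * g⁻¹⁻¹) • g⁻¹ • z := by
      simp only [← mul_smul]
      congr 1
      group
    simp only [translate_apply]
    rw [this, hf.inv _ hn]
  · have := hf.mero (g⁻¹ * a)
    simpa only [translate_apply, mul_smul] using this

/-- The `ℂ`-algebra of holomorphic `Γ(N)`-invariant functions of moderate growth at all cusps. -/
def RN (N : ℕ) : Subalgebra ℂ (ℍ → ℂ) where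
  carrier := {f | IsWH N f}
  mul_mem' hf hg := hf.mul hg
  add_mem' hf hg := hf.add hg
  algebraMap_mem' c := IsWH.const N c

theorem mem_RN {N : ℕ} {f : ℍ → ℂ} : f ∈ RN N ↔ IsWH N f := Iff.rfl

theorem isWH_coe {N : ℕ} (f : RN N) : IsWH N (f : ℍ → ℂ) := f.2

instance instNoZeroDivisorsRN (N : ℕ) : NoZeroDivisors (RN N) where
  eq_zero_or_eq_zero_of_mul_eq_zero {a b} h := by
    have h' : (a : ℍ → ℂ) * (b : ℍ → ℂ) = 0 := congrArg Subtype.val h
    rcases (UpperHalfPlane.mul_eq_zero_iff a.2.mdiff b.2.mdiff).mp h' with h0 | h0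
    · exact Or.inl (Subtype.ext h0)
    · exact Or.inr (Subtype.ext h0)

instance instNontrivialRN (N : ℕ) : Nontrivial (RN N) :=
  ⟨⟨0, 1, fun h => by
    have h' := congrArg (fun f : RN N => (f : ℍ → ℂ) UpperHalfPlane.I) h
    simp at h'⟩⟩

instance instIsDomainRN (N : ℕ) : IsDomain (RN N) := NoZeroDivisors.to_isDomain _

/-- The action of `SL(2,ℤ)` on `RN N`: `(g • f) z = f (g⁻¹ • z)`. -/
instance instMulSemiringActionRN (N : ℕ) : MulSemiringAction SL(2, ℤ) (RN N) where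
  smul g f := ⟨translate g f, f.2.translate g⟩
  one_smul f := Subtype.ext (funext fun z => by
    show (f : ℍ → ℂ) ((1 : SL(2, ℤ))⁻¹ • z) = _
    rw [inv_one, one_smul])
  mul_smul g h f := Subtype.ext (funext fun z => by
    show (f : ℍ → ℂ) ((g * h)⁻¹ • z) = (f : ℍ → ℂ) (h⁻¹ • g⁻¹ • z)
    rw [mul_inv_rev, mul_smul])
  smul_zero g := Subtype.ext (funext fun z => rfl)
  smul_add g f₁ f₂ := Subtype.ext (funext fun z => rfl)
  smul_one g := Subtype.ext (funext fun z => rfl)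
  smul_mul g f₁ f₂ := Subtype.ext (funext fun z => rfl)

@[simp]
theorem smul_RN_apply {N : ℕ} (g : SL(2, ℤ)) (f : RN N) (z : ℍ) :
    ((g • f : RN N) : ℍ → ℂ) z = (f : ℍ → ℂ) (g⁻¹ • z) := rfl

/-- The fraction field of `RN N` (a field of modular functions of level `Γ(N)`). -/
abbrev L (N : ℕ) : Type := FractionRing (RN N)

/-- The induced action of `SL(2,ℤ)` on `L N`. -/
instance instMulSemiringActionL (N : ℕ) : MulSemiringAction SL(2, ℤ) (L N) :=
  IsFractionRing.mulSemiringAction SL(2, ℤ) (RN N) (L N)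

instance instSMulDistribClassL (N : ℕ) : SMulDistribClass SL(2, ℤ) (RN N) (L N) :=
  IsFractionRing.smulDistribClass SL(2, ℤ) (RN N) (L N)

theorem smul_algebraMap_L {N : ℕ} (g : SL(2, ℤ)) (f : RN N) :
    g • algebraMap (RN N) (L N) f = algebraMap (RN N) (L N) (g • f) := by
  rw [Algebra.algebraMap_eq_smul_one, Algebra.algebraMap_eq_smul_one, smul_distrib_smul, smul_one]

theorem smul_algebraMap_complex_L {N : ℕ} (g : SL(2, ℤ)) (c : ℂ) :
    g • algebraMap ℂ (L N) c = algebraMap ℂ (L N) c := by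
  rw [IsScalarTower.algebraMap_apply ℂ (RN N) (L N), smul_algebraMap_L]
  congr 1

/-- A fixed embedding of `AlgebraicClosure ℚ` into `ℂ`. -/
def iota : AlgebraicClosure ℚ →+* ℂ :=
  letI : Algebra ℚ (AlgebraicClosure ℚ) := AlgebraicClosure.instAlgebra ℚ
  (IsAlgClosed.lift (R := ℚ) (S := AlgebraicClosure ℚ) (M := ℂ)).toRingHom

theorem iota_injective : Function.Injective iota := iota.injective

/-- The modular `j`-function (normalised so that `j = q⁻¹ + 744 + ⋯`). -/
def jFun (z : ℍ) : ℂ := E₄ z ^ 3 / ModularForm.discriminant z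

/-- `z ↦ j (d z)`. -/
def jdFun (d : ℕ) (z : ℍ) : ℂ := jFun (ofComplex ((d : ℂ) * (z : ℂ)))

end Fermat.Agent.S24.H31
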