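import Mathlib
import Fermat.Agent.S24.Spec_helper31
import Fermat.Agent.S24.LevelOneJ_helper38

/-!
# S24: the point and cusp fields of the analytic cover, from the valuation and embedding specs

For `V : ValSpec N` (row B1) and `P : PhiData N` (row B4) we derive the non-divisibility fields of
the contract structure `AnalyticCover N` at a generic point, at `i`, at `ρ` and at the cusp, for
`Φ := P.Φ`, `zI := V.pt UpperHalfPlane.I`, `zRho := V.pt rho`, `zInf := V.cusp`.
-/

set_option autoImplicit false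

open Filter Topology UpperHalfPlane CongruenceSubgroup ModularForm ModularCurve
open scoped MatrixGroups ModularForm Manifold Real
open Fermat.Agent.S24.H31

noncomputable section

namespace Fermat.Agent.S24.H26

variable {N : ℕ} [NeZero N]

/-- The order at a point of a nonzero element of `RN N` is its analytic order. -/
theorem pt_ord_eq (V : ValSpec N) (z : ℍ) (f : RN N) (hf : f ≠ 0) (n : ℕ)
    (h : analyticOrderAt ((f : ℍ → ℂ) ∘ ofComplex) (z : ℂ) = n) :
    (V.pt z).ord (algebraMap (RN N) (L N) f) = n := by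
  obtain ⟨h0, h1⟩ := V.pt_algebraMap z f hf
  rw [h] at h1
  have h2 : n = ((V.pt z).ord (algebraMap (RN N) (L N) f)).toNat := by exact_mod_cast h1
  omega

omit [NeZero N] in
theorem coe_algebraMap_RN (c : ℂ) (z : ℍ) :
    ((algebraMap ℂ (RN N) c : RN N) : ℍ → ℂ) z = c := rfl

omit [NeZero N] in
theorem algebraMap_RN_ne_zero {c : ℂ} (hc : c ≠ 0) : (algebraMap ℂ (RN N) c : RN N) ≠ 0 := by
  intro h
  have h' := congrArg (fun f : RN N => (f : ℍ → ℂ) UpperHalfPlane.I) h
  exact hc h'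

/-- Nonzero constants have order zero at every point. -/
theorem pt_ord_algebraMap_complex (V : ValSpec N) (z : ℍ) {c : ℂ} (hc : c ≠ 0) :
    (V.pt z).ord (algebraMap ℂ (L N) c) = 0 := by
  rw [IsScalarTower.algebraMap_apply ℂ (RN N) (L N)]
  have h := pt_ord_eq V z (algebraMap ℂ (RN N) c) (algebraMap_RN_ne_zero hc) 0 (by
    rw [Nat.cast_zero, analyticOrderAt_eq_zero]
    exact Or.inr hc)
  exact_mod_cast h

theorem pt_ord_const (V : ValSpec N) (P : PhiData N) (z : ℍ) (c : Kbar) (hc : c ≠ 0) :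
    (V.pt z).ord (P.Φ (algebraMap Kbar (FN N) c)) = 0 := by
  rw [P.map_const]
  exact pt_ord_algebraMap_complex V z ((map_ne_zero iota).mpr hc)

/-- The image of `j` under `Φ` is the class of the analytic `j`-function. -/
theorem exists_jR (P : PhiData N) :
    ∃ f : RN N, (∀ z : ℍ, (f : ℍ → ℂ) z = H38.J z) ∧
      P.Φ (jBar N) = algebraMap (RN N) (L N) f := by
  obtain ⟨f, hf, hΦ⟩ := P.map_Jd 1 (one_dvd N)
  rw [Jd_one] at hΦ
  refine ⟨f, fun z => ?_, hΦ⟩
  rw [hf]
  show jFun (ofComplex (((1 : ℕ) : ℂ) * (z : ℂ))) = H38.J z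
  rw [Nat.cast_one, one_mul, ofComplex_apply]
  rfl

omit [NeZero N] in
theorem jR_sub_ne_zero (f : RN N) (hf : ∀ z : ℍ, (f : ℍ → ℂ) z = H38.J z) (c : ℂ) :
    f - algebraMap ℂ (RN N) c ≠ 0 := by
  intro h
  obtain ⟨τ, hτ⟩ := H38.J_surjective (c + 1)
  have h' := congrArg (fun g : RN N => (g : ℍ → ℂ) τ) h
  have h2 : (f : ℍ → ℂ) τ - c = 0 := h'
  rw [hf, hτ] at h2
  simp at h2

theorem Phi_jBar_sub (P : PhiData N) (f : RN N)
    (hΦ : P.Φ (jBar N) = algebraMap (RN N) (L N) f) (a : Kbar) :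
    P.Φ (jBar N - algebraMap Kbar (FN N) a) =
      algebraMap (RN N) (L N) (f - algebraMap ℂ (RN N) (iota a)) := by
  rw [RingHom.map_sub, P.map_const, hΦ, IsScalarTower.algebraMap_apply ℂ (RN N) (L N),
    RingHom.map_sub]

omit [NeZero N] in
theorem coe_jR_sub (f : RN N) (hf : ∀ z : ℍ, (f : ℍ → ℂ) z = H38.J z) (c : ℂ) :
    ((f - algebraMap ℂ (RN N) c : RN N) : ℍ → ℂ) ∘ ofComplex =
      fun w : ℂ => H38.J (ofComplex w) - c := by
  funext w
  show (f : ℍ → ℂ) (ofComplex w) - c = _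
  rw [hf]

theorem iota_ofNat (n : ℕ) [n.AtLeastTwo] : iota (OfNat.ofNat n) = OfNat.ofNat n :=
  map_ofNat iota n

/-- **generic point**: for `a ≠ 0, 1728` there is a point valuation at which `j - a` has order
one. -/
theorem exists_zval_generic_of (V : ValSpec N) (P : PhiData N) (a : Kbar) (ha0 : a ≠ 0)
    (ha1 : a ≠ 1728) :
    ∃ z : ZVal (L N), (∀ c : Kbar, c ≠ 0 → z.ord (P.Φ (algebraMap Kbar (FN N) c)) = 0) ∧
      z.ord (P.Φ (jBar N - algebraMap Kbar (FN N) a)) = 1 := by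
  obtain ⟨f, hf, hΦ⟩ := exists_jR P
  obtain ⟨τ, hτ⟩ := H38.J_surjective (iota a)
  refine ⟨V.pt τ, fun c hc => pt_ord_const V P τ c hc, ?_⟩
  rw [Phi_jBar_sub P f hΦ]
  have h0 : iota a ≠ 0 := (map_ne_zero iota).mpr ha0
  have h1 : iota a ≠ 1728 := by
    intro h
    apply ha1
    apply iota_injective
    rw [h, iota_ofNat]
  have h := pt_ord_eq V τ (f - algebraMap ℂ (RN N) (iota a)) (jR_sub_ne_zero f hf _) 1 (by
    rw [coe_jR_sub f hf, Nat.cast_one]
    exact H38.analyticOrderAt_J_sub_const τ (iota a) hτ h0 h1)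
  exact_mod_cast h

/-- **the point `i`**: `j - 1728` has order two. -/
theorem zI_j_of (V : ValSpec N) (P : PhiData N) :
    (V.pt UpperHalfPlane.I).ord (P.Φ (jBar N - algebraMap Kbar (FN N) 1728)) = 2 := by
  obtain ⟨f, hf, hΦ⟩ := exists_jR P
  rw [Phi_jBar_sub P f hΦ, iota_ofNat]
  have h := pt_ord_eq V UpperHalfPlane.I (f - algebraMap ℂ (RN N) 1728)
    (jR_sub_ne_zero f hf _) 2 (by
      rw [coe_jR_sub f hf]
      exact H38.analyticOrderAt_J_sub_1728_I)
  exact_mod_cast h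

theorem pt_ord_smul_of_fixed (V : ValSpec N) (z : ℍ) (g : SL(2, ℤ)) (hg : g • z = z) (x : L N) :
    (V.pt z).ord (g • x) = (V.pt z).ord x := by
  by_cases hx : x = 0
  · rw [hx, smul_zero]
  · rw [V.pt_smul z g x hx]
    have : g⁻¹ • z = z := inv_smul_eq_iff.mpr hg.symm
    rw [this]

theorem zI_smul_of (V : ValSpec N) (x : L N) :
    (V.pt UpperHalfPlane.I).ord (ModularGroup.S • x) = (V.pt UpperHalfPlane.I).ord x :=
  pt_ord_smul_of_fixed V _ _ H38.S_smul_I x

/-- **the point `ρ`**: `j` has order three. -/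
theorem zRho_j_of (V : ValSpec N) (P : PhiData N) :
    (V.pt rho).ord (P.Φ (jBar N - algebraMap Kbar (FN N) 0)) = 3 := by
  obtain ⟨f, hf, hΦ⟩ := exists_jR P
  rw [RingHom.map_zero, sub_zero, hΦ]
  have hf0 : f ≠ 0 := by
    have := jR_sub_ne_zero f hf 0
    rwa [RingHom.map_zero, sub_zero] at this
  have hfun : ((f : ℍ → ℂ)) ∘ ofComplex = H38.J ∘ ofComplex := by
    funext w
    exact hf _
  have h := pt_ord_eq V rho f hf0 3 (by
    rw [hfun]
    exact H38.analyticOrderAt_J_rho _)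
  exact_mod_cast h

theorem zRho_smul_of (V : ValSpec N) (x : L N) :
    (V.pt rho).ord ((ModularGroup.S * ModularGroup.T) • x) = (V.pt rho).ord x :=
  pt_ord_smul_of_fixed V _ _ (H38.ST_smul_rho _) x

/-- Nonzero constants have order zero at the cusp. -/
theorem cusp_ord_algebraMap_complex (V : ValSpec N) {c : ℂ} (hc : c ≠ 0) :
    V.cusp.ord (algebraMap ℂ (L N) c) = 0 := by
  rw [IsScalarTower.algebraMap_apply ℂ (RN N) (L N)]
  rw [V.cusp_iff (algebraMap ℂ (RN N) c) (algebraMap_RN_ne_zero hc) 0]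
  refine ⟨c, hc, ?_⟩
  have : (fun z : ℍ => ((algebraMap ℂ (RN N) c : RN N) : ℍ → ℂ) z *
      Complex.exp (-2 * π * Complex.I * ((0 : ℤ) : ℂ) * z / N)) = fun _ => c := by
    funext z
    rw [coe_algebraMap_RN]
    simp
  rw [this]
  exact tendsto_const_nhds

theorem zInf_const_of (V : ValSpec N) (P : PhiData N) (c : Kbar) (hc : c ≠ 0) :
    V.cusp.ord (P.Φ (algebraMap Kbar (FN N) c)) = 0 := by
  rw [P.map_const]
  exact cusp_ord_algebraMap_complex V ((map_ne_zero iota).mpr hc)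

/-- **the cusp**: `1/j` has order `N` in the local parameter `q_N`. -/
theorem zInf_j_of (V : ValSpec N) (P : PhiData N) :
    V.cusp.ord (P.Φ (jBar N)⁻¹) = N := by
  obtain ⟨f, hf, hΦ⟩ := exists_jR P
  have hf0 : f ≠ 0 := by
    have := jR_sub_ne_zero f hf 0
    rwa [RingHom.map_zero, sub_zero] at this
  have hne : algebraMap (RN N) (L N) f ≠ 0 := by
    intro h
    apply hf0
    apply IsFractionRing.injective (RN N) (L N)
    rw [h, RingHom.map_zero]
  have hord : V.cusp.ord (algebraMap (RN N) (L N) f) = -(N : ℤ) := by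
    rw [V.cusp_iff f hf0 (-(N : ℤ))]
    refine ⟨1, one_ne_zero, H38.tendsto_J_mul_cexp.congr fun z => ?_⟩
    rw [hf]
    congr 2
    have hN : (N : ℂ) ≠ 0 := Nat.cast_ne_zero.mpr (NeZero.ne N)
    push_cast
    field_simp
  have hinv : P.Φ (jBar N)⁻¹ = (algebraMap (RN N) (L N) f)⁻¹ := by
    have hj0 : jBar N ≠ 0 := by
      intro h0
      rw [h0, RingHom.map_zero] at hΦ
      exact hne hΦ.symm
    apply eq_inv_of_mul_eq_one_left
    rw [← hΦ, ← RingHom.map_mul, inv_mul_cancel₀ hj0, RingHom.map_one]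
  rw [hinv, V.cusp.ord_inv hne, hord, neg_neg]

theorem zInf_smul_of (V : ValSpec N) (x : L N) :
    V.cusp.ord (ModularGroup.T • x) = V.cusp.ord x := by
  by_cases hx : x = 0
  · rw [hx, smul_zero]
  · exact V.cusp_T x hx

end Fermat.Agent.S24.H26
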