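import Mathlib
import Fermat.Statements.S24
import Fermat.Agent.S24.ZVal_helper31

/-!
# S24: the contract between the analytic layer and the counting layer

`AnalyticCover N` packages exactly the facts about the field `L` (in the application
`L = H31.L N = Frac (RN N)`) with its `SL(2,ℤ)`-action, the embedding `Φ` of
`modularFunctionFieldBar N`, and the analytic valuations (at a generic point, at `i`, at `ρ`,
at the cusp) that the counting layer needs to produce the ramification data of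
`Kbar(j) ⊆ modularFunctionFieldBar N`.

* D1b (analytic layer): construct a term of `AnalyticCover N`.
* D1a (counting layer): `AnalyticCover N → ` interface (I2).
-/

set_option autoImplicit false

open AlgebraicCurve IntermediateField
open scoped MatrixGroups
open ModularCurve CongruenceSubgroup ModularGroup
open Fermat.Agent.S24.H31

namespace Fermat.Agent.S24.H98

/-- the base field -/
abbrev Kbar : Type := AlgebraicClosure ℚ

/-- the function field of the statement -/
abbrev FN (N : ℕ) [NeZero N] : Type := ↥(modularFunctionFieldBar N)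

/-- `j(q^d)` as an element of `modularFunctionFieldBar N`, for `d ∣ N` -/
noncomputable def jdBar (N : ℕ) [NeZero N] (d : ℕ) [NeZero d] (hd : d ∣ N) : FN N :=
  ⟨coeffEmb Kbar (qExpand ℚ d jq), coeffEmb_mem_laurentBaseChange Kbar (jqd_mem_full N hd)⟩

/-- the `j`-function as an element of `modularFunctionFieldBar N` -/
noncomputable def jBar (N : ℕ) [NeZero N] : FN N :=
  ⟨coeffEmb Kbar jq, coeffEmb_mem_laurentBaseChange Kbar (by
    have h := jqd_mem_full N (one_dvd N)
    rwa [qExpand_one_apply] at h)⟩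

theorem jdBar_one (N : ℕ) [NeZero N] : jdBar N 1 (one_dvd N) = jBar N := by
  apply Subtype.ext
  show coeffEmb Kbar (qExpand ℚ 1 jq) = coeffEmb Kbar jq
  rw [qExpand_one_apply]

/-- **The contract.** -/
structure AnalyticCover (N : ℕ) [NeZero N] where
  /-- the big field (`Frac` of holomorphic `Γ(N)`-invariant functions of moderate growth) -/
  L : Type
  [instField : Field L]
  [instAction : MulSemiringAction SL(2, ℤ) L]
  /-- the embedding of the modular function field -/
  Φ : FN N →+* L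
  /-- `Γ₀(N)` fixes the image of `Φ` -/
  smul_Φ : ∀ γ ∈ Gamma0 N, ∀ f : FN N, γ • Φ f = Φ f
  /-- `SL(2,ℤ)` fixes the constants -/
  smul_const : ∀ (g : SL(2, ℤ)) (c : Kbar),
    g • Φ (algebraMap Kbar (FN N) c) = Φ (algebraMap Kbar (FN N) c)
  /-- `SL(2,ℤ)` fixes `j` -/
  smul_j : ∀ g : SL(2, ℤ), g • Φ (jBar N) = Φ (jBar N)
  /-- the conjugates of `j(q^N)` are pairwise distinct -/
  mem_Gamma0 : ∀ g : SL(2, ℤ), g • Φ (jdBar N N dvd_rfl) = Φ (jdBar N N dvd_rfl) → g ∈ Gamma0 N
  /-- finiteness over `Kbar(j)` -/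
  finite : FiniteDimensional Kbar⟮jBar N⟯ (FN N)
  /-- `SL(2,ℤ)`-invariants integral over `Φ(Kbar[j])` are in `Φ(Kbar[j])` -/
  invariant_j : ∀ x : L, (∀ g : SL(2, ℤ), g • x = x) →
    IsIntegral ((Algebra.adjoin Kbar {jBar N}).toSubring.map Φ) x →
    ∃ P : Polynomial Kbar, x = Φ (Polynomial.aeval (jBar N) P)
  /-- `SL(2,ℤ)`-invariants integral over `Φ(Kbar[1/j])` are in `Φ(Kbar[1/j])` -/
  invariant_jinv : ∀ x : L, (∀ g : SL(2, ℤ), g • x = x) →
    IsIntegral ((Algebra.adjoin Kbar {(jBar N)⁻¹}).toSubring.map Φ) x →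
    ∃ P : Polynomial Kbar, x = Φ (Polynomial.aeval (jBar N)⁻¹ P)
  /-- generic point: a valuation at which `j - a` has order one -/
  exists_zval_generic : ∀ a : Kbar, a ≠ 0 → a ≠ 1728 → ∃ z : ZVal L,
    (∀ c : Kbar, c ≠ 0 → z.ord (Φ (algebraMap Kbar (FN N) c)) = 0) ∧
      z.ord (Φ (jBar N - algebraMap Kbar (FN N) a)) = 1
  /-- the order at the elliptic point `i` -/
  zI : ZVal L
  zI_const : ∀ c : Kbar, c ≠ 0 → zI.ord (Φ (algebraMap Kbar (FN N) c)) = 0
  zI_j : zI.ord (Φ (jBar N - algebraMap Kbar (FN N) 1728)) = 2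
  zI_smul : ∀ x : L, zI.ord (S • x) = zI.ord x
  zI_dvd : ∀ x : L, x ≠ 0 → S • x = x → (2 : ℤ) ∣ zI.ord x
  /-- the order at the elliptic point `ρ` -/
  zRho : ZVal L
  zRho_const : ∀ c : Kbar, c ≠ 0 → zRho.ord (Φ (algebraMap Kbar (FN N) c)) = 0
  zRho_j : zRho.ord (Φ (jBar N - algebraMap Kbar (FN N) 0)) = 3
  zRho_smul : ∀ x : L, zRho.ord ((S * T) • x) = zRho.ord x
  zRho_dvd : ∀ x : L, x ≠ 0 → (S * T) • x = x → (3 : ℤ) ∣ zRho.ord x
  /-- the order at the cusp `∞`, in the local parameter `q_N = exp(2πi z / N)` -/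
  zInf : ZVal L
  zInf_const : ∀ c : Kbar, c ≠ 0 → zInf.ord (Φ (algebraMap Kbar (FN N) c)) = 0
  zInf_j : zInf.ord (Φ (jBar N)⁻¹) = N
  zInf_smul : ∀ x : L, zInf.ord (T • x) = zInf.ord x
  zInf_dvd : ∀ (x : L) (w : ℕ), x ≠ 0 → 0 < w → w ∣ N → T ^ w • x = x →
    ((N / w : ℕ) : ℤ) ∣ zInf.ord x

attribute [instance] AnalyticCover.instField AnalyticCover.instAction

end Fermat.Agent.S24.H98
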