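import Mathlib

/-!
# S24: cusp-width divisibility, function level

The cusp analogue of the elliptic divisibility lemma.  Let `A B : ℍ → ℂ` have leading terms
`A z ∼ cA * q_N ^ kA`, `B z ∼ cB * q_N ^ kB` at `i∞` (with `q_N = exp (2 π i z / N)`, stated as
limits), and assume that `A / B` is invariant under `T ^ m` (written without division).  Then
`N ∣ m * (kA - kB)`.  In particular, if `w ∣ N` and `A / B` is `T ^ w`-invariant, then
`N / w ∣ kA - kB`.
-/

set_option autoImplicit false

open UpperHalfPlane hiding I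
open Complex hiding im
open Filter Topology
open scoped Real MatrixGroups

namespace Fermat.Agent.S24.H41

/-- `z ↦ T ^ m • z` tends to `i∞` at `i∞`. -/
theorem tendsto_T_zpow_smul_atImInfty (m : ℤ) :
    Tendsto (fun z : ℍ => ModularGroup.T ^ m • z) atImInfty atImInfty := by
  rw [atImInfty, tendsto_comap_iff]
  have : (UpperHalfPlane.im ∘ fun z : ℍ => ModularGroup.T ^ m • z) = UpperHalfPlane.im := by
    funext z
    simp only [Function.comp_apply]
    exact ModularGroup.im_T_zpow_smul z m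
  rw [this]
  exact tendsto_comap

/-- Leading terms are unique: the exponent and the leading coefficient. -/
theorem cusp_leading_unique (N : ℕ) [NeZero N] {A : ℍ → ℂ} {k k' : ℤ} {c c' : ℂ}
    (hc : c ≠ 0) (hc' : c' ≠ 0)
    (h : Tendsto (fun z : ℍ => A z * cexp (-2 * π * I * k * z / N)) atImInfty (𝓝 c))
    (h' : Tendsto (fun z : ℍ => A z * cexp (-2 * π * I * k' * z / N)) atImInfty (𝓝 c')) :
    k = k' := by
  -- wlog k < k' is impossible: A q^{-k'} = (A q^{-k}) * q^{k - k'} and |q^{k-k'}| → ∞ or 0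
  have key : ∀ {k k' : ℤ} {c c' : ℂ}, c ≠ 0 → c' ≠ 0 →
      Tendsto (fun z : ℍ => A z * cexp (-2 * π * I * k * z / N)) atImInfty (𝓝 c) →
      Tendsto (fun z : ℍ => A z * cexp (-2 * π * I * k' * z / N)) atImInfty (𝓝 c') →
      ¬ k < k' := by
    intro k k' c c' hc hc' h h' hlt
    -- A q^{-k} = (A q^{-k'}) * q^{k' - k}, and q^{k'-k} → 0
    have hq : Tendsto (fun z : ℍ => cexp (2 * π * I * ((k' - k : ℤ) : ℂ) * z / N))
        atImInfty (𝓝 0) := by
      rw [tendsto_zero_iff_norm_tendsto_zero]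
      have hN : (0 : ℝ) < N := Nat.cast_pos.mpr (NeZero.pos N)
      have hpos : (0 : ℝ) < 2 * π * ((k' - k : ℤ) : ℝ) / N := by
        have : (0 : ℝ) < ((k' - k : ℤ) : ℝ) := by exact_mod_cast sub_pos.mpr hlt
        positivity
      have hnorm : ∀ z : ℍ, ‖cexp (2 * π * I * ((k' - k : ℤ) : ℂ) * z / N)‖ =
          Real.exp (-(2 * π * ((k' - k : ℤ) : ℝ) / N) * z.im) := by
        intro z
        rw [Complex.norm_exp]
        congr 1
        have : (2 * π * I * ((k' - k : ℤ) : ℂ) * z / N : ℂ) =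
            ((2 * π * ((k' - k : ℤ) : ℝ) / N : ℝ) : ℂ) * (I * z) := by
          push_cast
          ring
        rw [this, Complex.re_ofReal_mul]
        simp
      simp_rw [hnorm]
      have h1 : Tendsto (fun z : ℍ => z.im) atImInfty atTop := tendsto_comap
      have h2 : Tendsto (fun z : ℍ => -(2 * π * ((k' - k : ℤ) : ℝ) / N) * z.im)
          atImInfty atBot := by
        have := h1.const_mul_atTop hpos
        have h3 := tendsto_neg_atTop_atBot.comp this
        refine h3.congr fun z => ?_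
        simp only [Function.comp_apply]
        ring
      exact Real.tendsto_exp_atBot.comp h2
    have hprod := h'.mul hq
    rw [mul_zero] at hprod
    have heq : (fun z : ℍ => A z * cexp (-2 * π * I * k' * z / N) *
        cexp (2 * π * I * ((k' - k : ℤ) : ℂ) * z / N)) =
        fun z : ℍ => A z * cexp (-2 * π * I * k * z / N) := by
      funext z
      rw [mul_assoc, ← Complex.exp_add]
      congr 2
      push_cast
      ring
    rw [heq] at hprod
    exact hc (tendsto_nhds_unique h hprod)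
  rcases lt_trichotomy k k' with hlt | heq | hgt
  · exact absurd hlt (key hc hc' h h')
  · exact heq
  · exact absurd hgt (key hc' hc h' h)

/-- **Cusp relation.** If `A`, `B` have leading exponents `kA`, `kB` in `q_N` at `i∞` and `A / B`
is `T ^ m`-invariant, then `N ∣ m * (kA - kB)`. -/
theorem cusp_dvd_mul_sub (N : ℕ) [NeZero N] {A B : ℍ → ℂ} {kA kB : ℤ} {cA cB : ℂ}
    (hcA : cA ≠ 0) (hcB : cB ≠ 0)
    (hA : Tendsto (fun z : ℍ => A z * cexp (-2 * π * I * kA * z / N)) atImInfty (𝓝 cA))
    (hB : Tendsto (fun z : ℍ => B z * cexp (-2 * π * I * kB * z / N)) atImInfty (𝓝 cB))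
    (m : ℤ)
    (hcross : ∀ z : ℍ, A (ModularGroup.T ^ m • z) * B z = A z * B (ModularGroup.T ^ m • z)) :
    (N : ℤ) ∣ m * (kA - kB) := by
  have hN : (N : ℂ) ≠ 0 := Nat.cast_ne_zero.mpr (NeZero.ne N)
  have hT := tendsto_T_zpow_smul_atImInfty m
  -- shifted leading terms
  have shift : ∀ {F : ℍ → ℂ} {k : ℤ} {c : ℂ},
      Tendsto (fun z : ℍ => F z * cexp (-2 * π * I * k * z / N)) atImInfty (𝓝 c) →
      Tendsto (fun z : ℍ => F (ModularGroup.T ^ m • z) * cexp (-2 * π * I * k * z / N))
        atImInfty (𝓝 (c * cexp (2 * π * I * k * m / N))) := by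
    intro F k c hF
    have h1 := (hF.comp hT).mul_const (cexp (2 * π * I * k * m / N))
    refine h1.congr fun z => ?_
    simp only [Function.comp_apply]
    rw [mul_assoc, ← Complex.exp_add, ModularGroup.coe_T_zpow_smul_eq]
    congr 2
    field_simp
    ring
  have hA' := shift hA
  have hB' := shift hB
  have l1 := hA'.mul hB
  have l2 := hA.mul hB'
  have heq : (fun z : ℍ => A (ModularGroup.T ^ m • z) * cexp (-2 * π * I * kA * z / N) *
      (B z * cexp (-2 * π * I * kB * z / N))) =
      fun z : ℍ => A z * cexp (-2 * π * I * kA * z / N) *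
        (B (ModularGroup.T ^ m • z) * cexp (-2 * π * I * kB * z / N)) := by
    funext z
    linear_combination cexp (-2 * π * I * kA * z / N) * cexp (-2 * π * I * kB * z / N) * hcross z
  rw [heq] at l1
  have hlim := tendsto_nhds_unique l1 l2
  have hexp : cexp (2 * π * I * kA * m / N) = cexp (2 * π * I * kB * m / N) := by
    have h2 : cA * cB * cexp (2 * π * I * kA * m / N) = cA * cB * cexp (2 * π * I * kB * m / N) := by
      linear_combination hlim
    exact mul_left_cancel₀ (mul_ne_zero hcA hcB) h2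
  rw [Complex.exp_eq_exp_iff_exists_int] at hexp
  obtain ⟨n, hn⟩ := hexp
  refine ⟨n, ?_⟩
  have h2πI : (2 * π * I : ℂ) ≠ 0 := by
    simp [Real.pi_ne_zero, Complex.I_ne_zero]
  have h3 : ((m * (kA - kB) : ℤ) : ℂ) = ((N * n : ℤ) : ℂ) := by
    push_cast
    have h4 : (2 * π * I : ℂ) * ((m : ℂ) * (kA - kB)) = (2 * π * I : ℂ) * (N * n) := by
      field_simp at hn
      linear_combination (2 * π * I : ℂ) * hn
    exact mul_left_cancel₀ h2πI h4
  exact_mod_cast h3

/-- **Cusp-width divisibility.** If `w ∣ N`, `0 < w`, and `A / B` is `T ^ w`-invariant, then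
`N / w` divides the difference of the leading exponents (in `q_N`) of `A` and `B`. -/
theorem cusp_width_dvd_sub (N : ℕ) [NeZero N] {A B : ℍ → ℂ} {kA kB : ℤ} {cA cB : ℂ}
    (hcA : cA ≠ 0) (hcB : cB ≠ 0)
    (hA : Tendsto (fun z : ℍ => A z * cexp (-2 * π * I * kA * z / N)) atImInfty (𝓝 cA))
    (hB : Tendsto (fun z : ℍ => B z * cexp (-2 * π * I * kB * z / N)) atImInfty (𝓝 cB))
    (w : ℕ) (hw : 0 < w) (hwN : w ∣ N)
    (hcross : ∀ z : ℍ, A (ModularGroup.T ^ w • z) * B z = A z * B (ModularGroup.T ^ w • z)) :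
    ((N / w : ℕ) : ℤ) ∣ kA - kB := by
  have hcross' : ∀ z : ℍ, A (ModularGroup.T ^ (w : ℤ) • z) * B z =
      A z * B (ModularGroup.T ^ (w : ℤ) • z) := by
    intro z
    simpa [zpow_natCast] using hcross z
  have h := cusp_dvd_mul_sub N hcA hcB hA hB (w : ℤ) hcross'
  obtain ⟨e, rfl⟩ := hwN
  have hw' : (w : ℤ) ≠ 0 := by exact_mod_cast hw.ne'
  rw [Nat.mul_div_cancel_left e hw]
  push_cast at h
  exact (mul_dvd_mul_iff_left hw').mp h

end Fermat.Agent.S24.H41
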