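import Mathlib
import Fermat.Agent.S24.ZVal_helper31

/-!
# S24 (B5): elliptic divisibility, function level

For holomorphic `A B : ℍ → ℂ`, not identically zero, and an element `s` of `SL(2, ℤ)` fixing a
point `z1` of the upper half plane such that `A / B` is `s`-invariant (written without division:
`A (s • z) * B z = A z * B (s • z)`), the orders `oA, oB` of `A`, `B` at `z1` satisfy
`μ ^ oA = μ ^ oB` with `μ = (denom s z1) ^ 2`.  For `s = S`, `z1 = i` this gives `2 ∣ oA - oB`;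
for `s = S * T`, `z1 = ρ` it gives `3 ∣ oA - oB`.
-/

set_option autoImplicit false

open UpperHalfPlane Complex Filter Topology
open scoped Manifold MatrixGroups

namespace Fermat.Agent.S24.H41

/-- A holomorphic function on `ℍ`, read through `ofComplex`, is analytic at every point of `ℍ`. -/
theorem analyticAt_comp_ofComplex {A : ℍ → ℂ} (hA : MDifferentiable 𝓘(ℂ) 𝓘(ℂ) A) (z : ℍ) :
    AnalyticAt ℂ (A ∘ ofComplex) (z : ℂ) :=
  (UpperHalfPlane.mdifferentiable_iff.mp hA).analyticAt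
    (isOpen_upperHalfPlaneSet.mem_nhds z.im_pos)

/-- The order at a point of `ℍ` of a holomorphic function that is not identically zero is
finite. -/
theorem analyticOrderAt_comp_ofComplex_ne_top {A : ℍ → ℂ} (hA : MDifferentiable 𝓘(ℂ) 𝓘(ℂ) A)
    (hA0 : A ≠ 0) (z : ℍ) : analyticOrderAt (A ∘ ofComplex) (z : ℂ) ≠ ⊤ := by
  intro htop
  rw [analyticOrderAt_eq_top] at htop
  apply hA0
  apply UpperHalfPlane.eq_zero_of_frequently hA (τ := z)
  apply Eventually.frequently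
  rw [eventually_nhdsWithin_iff]
  have h2 : ∀ᶠ w : ℍ in 𝓝 z, (A ∘ ofComplex) (w : ℂ) = 0 :=
    UpperHalfPlane.continuous_coe.continuousAt.eventually htop
  filter_upwards [h2] with w hw _
  simpa [ofComplex_apply] using hw

/-- Core local computation, for an element of `GL(2, ℝ)` of positive determinant fixing `τ`. -/
theorem pow_eq_pow_of_cross_GL {A B : ℍ → ℂ} (hA : MDifferentiable 𝓘(ℂ) 𝓘(ℂ) A)
    (hB : MDifferentiable 𝓘(ℂ) 𝓘(ℂ) B) (hA0 : A ≠ 0) (hB0 : B ≠ 0)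
    (g : GL (Fin 2) ℝ) (hg : 0 < g.val.det) (τ : ℍ) (hfix : g • τ = τ)
    (hcross : ∀ z : ℍ, A (g • z) * B z = A z * B (g • z)) :
    ((g.val.det : ℂ) / denom g τ ^ 2) ^ (analyticOrderAt (A ∘ ofComplex) (τ : ℂ)).toNat =
      ((g.val.det : ℂ) / denom g τ ^ 2) ^ (analyticOrderAt (B ∘ ofComplex) (τ : ℂ)).toNat := by
  set k := (analyticOrderAt (A ∘ ofComplex) (τ : ℂ)).toNat with hk
  set l := (analyticOrderAt (B ∘ ofComplex) (τ : ℂ)).toNat with hl
  have hfA := analyticAt_comp_ofComplex hA τ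
  have hfB := analyticAt_comp_ofComplex hB τ
  obtain ⟨gA, hgA_an, hgA_ne, hgA_eq⟩ := (hfA.analyticOrderAt_eq_natCast (n := k)).mp
    (ENat.natCast_toNat (analyticOrderAt_comp_ofComplex_ne_top hA hA0 τ)).symm
  obtain ⟨gB, hgB_an, hgB_ne, hgB_eq⟩ := (hfB.analyticOrderAt_eq_natCast (n := l)).mp
    (ENat.natCast_toNat (analyticOrderAt_comp_ofComplex_ne_top hB hB0 τ)).symm
  -- the Möbius map read on `ℂ`
  set σ : ℂ → ℂ := fun z => ((g • ofComplex z : ℍ) : ℂ) with hσ_def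
  have hσ_an : AnalyticAt ℂ σ (τ : ℂ) := τ.analyticAt_smul hg
  have hστ : σ (τ : ℂ) = τ := by simp [hσ_def, ofComplex_apply, hfix]
  have hσ_d : HasDerivAt σ ((g.val.det : ℂ) / denom g τ ^ 2) (τ : ℂ) :=
    (τ.hasStrictDerivAt_smul hg).hasDerivAt
  set m : ℂ := (g.val.det : ℂ) / denom g τ ^ 2 with hm
  set h : ℂ → ℂ := dslope σ (τ : ℂ) with hh
  have hhτ : h (τ : ℂ) = m := by rw [hh, dslope_same, hσ_d.deriv]
  have hh_cont : ContinuousAt h (τ : ℂ) :=
    continuousAt_dslope_same.mpr hσ_d.differentiableAt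
  have hσ_sub : ∀ z : ℂ, σ z - τ = (z - τ) * h z := by
    intro z
    have := sub_smul_dslope σ (τ : ℂ) z
    rw [smul_eq_mul, hστ] at this
    exact this.symm
  have hσ_cont : ContinuousAt σ (τ : ℂ) := hσ_an.continuousAt
  have hσ_tend : Tendsto σ (𝓝 (τ : ℂ)) (𝓝 (τ : ℂ)) := by
    have := hσ_cont.tendsto
    rwa [hστ] at this
  -- the relation near `τ`
  have hev : ∀ᶠ z in 𝓝[≠] (τ : ℂ),
      h z ^ k * gA (σ z) * gB z - gA z * h z ^ l * gB (σ z) = 0 := by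
    rw [eventually_nhdsWithin_iff]
    filter_upwards [isOpen_upperHalfPlaneSet.mem_nhds τ.im_pos, hgA_eq, hgB_eq,
      hσ_tend.eventually hgA_eq, hσ_tend.eventually hgB_eq] with z hz h1 h2 h3 h4 hne
    have hzne : z - τ ≠ 0 := sub_ne_zero.mpr hne
    have hof : ofComplex z = ⟨z, hz⟩ := ofComplex_apply_of_im_pos hz
    have hc := hcross ⟨z, hz⟩
    have e1 : A (g • (⟨z, hz⟩ : ℍ)) = (A ∘ ofComplex) (σ z) := by
      simp [hσ_def, hof, ofComplex_apply]
    have e2 : B (g • (⟨z, hz⟩ : ℍ)) = (B ∘ ofComplex) (σ z) := by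
      simp [hσ_def, hof, ofComplex_apply]
    have e3 : A (⟨z, hz⟩ : ℍ) = (A ∘ ofComplex) z := by simp [hof]
    have e4 : B (⟨z, hz⟩ : ℍ) = (B ∘ ofComplex) z := by simp [hof]
    rw [e1, e2, e3, e4, h1, h2, h3, h4, hσ_sub z] at hc
    simp only [smul_eq_mul, mul_pow] at hc
    have hc' : (z - τ) ^ (k + l) * (h z ^ k * gA (σ z) * gB z) =
        (z - τ) ^ (k + l) * (gA z * h z ^ l * gB (σ z)) := by
      rw [pow_add]
      linear_combination hc
    have := mul_left_cancel₀ (pow_ne_zero (k + l) hzne) hc'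
    rw [this, sub_self]
  have hcont : ContinuousAt
      (fun z => h z ^ k * gA (σ z) * gB z - gA z * h z ^ l * gB (σ z)) (τ : ℂ) := by
    have c1 : ContinuousAt (fun z => gA (σ z)) (τ : ℂ) :=
      ContinuousAt.comp_of_eq hgA_an.continuousAt hσ_cont hστ
    have c2 : ContinuousAt (fun z => gB (σ z)) (τ : ℂ) :=
      ContinuousAt.comp_of_eq hgB_an.continuousAt hσ_cont hστ
    exact (((hh_cont.pow k).mul c1).mul hgB_an.continuousAt).sub
      ((hgA_an.continuousAt.mul (hh_cont.pow l)).mul c2)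
  have hzero : h (τ : ℂ) ^ k * gA (σ τ) * gB τ - gA τ * h (τ : ℂ) ^ l * gB (σ τ) = 0 := by
    have t1 := hcont.tendsto.mono_left (nhdsWithin_le_nhds (s := {(τ : ℂ)}ᶜ))
    have t2 : Tendsto (fun z => h z ^ k * gA (σ z) * gB z - gA z * h z ^ l * gB (σ z))
        (𝓝[≠] (τ : ℂ)) (𝓝 0) := by
      refine Tendsto.congr' ?_ tendsto_const_nhds
      filter_upwards [hev] with z hz
      exact hz.symm
    exact tendsto_nhds_unique t1 t2
  rw [hστ, hhτ] at hzero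
  have : (m ^ k - m ^ l) * (gA τ * gB τ) = 0 := by linear_combination hzero
  rcases mul_eq_zero.mp this with h0 | h0
  · exact sub_eq_zero.mp h0
  · exact absurd h0 (mul_ne_zero hgA_ne hgB_ne)

/-- **Elliptic relation** for `s : SL(2, ℤ)` fixing `z1`: if `A / B` is `s`-invariant, then
`μ ^ ord A = μ ^ ord B` with `μ = (denom s z1) ^ 2`. -/
theorem pow_eq_pow_of_cross {A B : ℍ → ℂ} (hA : MDifferentiable 𝓘(ℂ) 𝓘(ℂ) A)
    (hB : MDifferentiable 𝓘(ℂ) 𝓘(ℂ) B) (hA0 : A ≠ 0) (hB0 : B ≠ 0)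
    (s : SL(2, ℤ)) (z1 : ℍ) (hfix : s • z1 = z1)
    (hcross : ∀ z : ℍ, A (s • z) * B z = A z * B (s • z)) :
    (denom s z1 ^ 2) ^ (analyticOrderAt (A ∘ ofComplex) (z1 : ℂ)).toNat =
      (denom s z1 ^ 2) ^ (analyticOrderAt (B ∘ ofComplex) (z1 : ℂ)).toNat := by
  have hdet : ((s : GL (Fin 2) ℝ).val.det) = 1 := by
    have h1 := (Int.castRingHom ℝ).map_det s.val
    rw [s.det_coe, map_one] at h1
    exact h1.symm
  have key := pow_eq_pow_of_cross_GL hA hB hA0 hB0 (s : GL (Fin 2) ℝ) (by rw [hdet]; exact one_pos)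
    z1 hfix hcross
  rw [hdet] at key
  simpa [one_div, inv_pow] using key

/-- From `μ ^ k = μ ^ l` with `μ` a primitive `n`-th root of unity: `n ∣ k - l`. -/
theorem dvd_sub_of_pow_eq_pow {μ : ℂ} {n k l : ℕ} (hn : n ≠ 0) (hμ : IsPrimitiveRoot μ n)
    (h : μ ^ k = μ ^ l) : (n : ℤ) ∣ (k : ℤ) - l := by
  have hμ0 : μ ≠ 0 := hμ.ne_zero hn
  rw [← hμ.zpow_eq_one_iff_dvd, zpow_sub₀ hμ0, zpow_natCast, zpow_natCast, h]
  exact div_self (pow_ne_zero l hμ0)

/-- General divisibility statement: if `(denom s z1) ^ 2` is a primitive `n`-th root of unity,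
then `n ∣ ord A - ord B`. -/
theorem dvd_order_sub_of_isPrimitiveRoot {A B : ℍ → ℂ} (hA : MDifferentiable 𝓘(ℂ) 𝓘(ℂ) A)
    (hB : MDifferentiable 𝓘(ℂ) 𝓘(ℂ) B) (hA0 : A ≠ 0) (hB0 : B ≠ 0)
    (s : SL(2, ℤ)) (z1 : ℍ) (hfix : s • z1 = z1)
    (hcross : ∀ z : ℍ, A (s • z) * B z = A z * B (s • z))
    {n : ℕ} (hn : n ≠ 0) (hμ : IsPrimitiveRoot (denom s z1 ^ 2) n) :
    (n : ℤ) ∣ ((analyticOrderAt (A ∘ ofComplex) (z1 : ℂ)).toNat : ℤ) -
      (analyticOrderAt (B ∘ ofComplex) (z1 : ℂ)).toNat :=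
  dvd_sub_of_pow_eq_pow hn hμ (pow_eq_pow_of_cross hA hB hA0 hB0 s z1 hfix hcross)

/-- `S` fixes `i`. -/
theorem S_smul_I : ModularGroup.S • UpperHalfPlane.I = UpperHalfPlane.I :=
  ModularGroup.stabilizer_I.mpr (by simp)

/-- `S * T` fixes `ρ`. -/
theorem ST_smul_rho : (ModularGroup.S * ModularGroup.T) • Fermat.Agent.S24.H31.rho =
    Fermat.Agent.S24.H31.rho := by
  have h : Fermat.Agent.S24.H31.rho = UpperHalfPlane.ρ := rfl
  rw [h]
  exact ModularGroup.stabilizer_ρ.mpr (by simp)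

/-- `(denom S i) ^ 2 = -1` is a primitive square root of unity. -/
theorem isPrimitiveRoot_denom_S_I :
    IsPrimitiveRoot (denom ModularGroup.S UpperHalfPlane.I ^ 2) 2 := by
  have h : denom ModularGroup.S UpperHalfPlane.I ^ 2 = -1 := by
    rw [ModularGroup.denom_S]
    simp
  rw [h]
  exact IsPrimitiveRoot.neg_one 0 (by norm_num)

/-- `(denom (S * T) ρ) ^ 2 = ρ` is a primitive cube root of unity. -/
theorem isPrimitiveRoot_denom_ST_rho :
    IsPrimitiveRoot (denom ((ModularGroup.S * ModularGroup.T : SL(2, ℤ)) : GL (Fin 2) ℝ)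
      Fermat.Agent.S24.H31.rho ^ 2) 3 := by
  have hrho : Fermat.Agent.S24.H31.rho = UpperHalfPlane.ρ := rfl
  have h : denom ((ModularGroup.S * ModularGroup.T : SL(2, ℤ)) : GL (Fin 2) ℝ)
      Fermat.Agent.S24.H31.rho ^ 2 = (UpperHalfPlane.ρ : ℂ) := by
    rw [hrho, ModularGroup.denom_apply]
    have h10 : (ModularGroup.S * ModularGroup.T) 1 0 = 1 := by decide
    have h11 : (ModularGroup.S * ModularGroup.T) 1 1 = 1 := by decide
    rw [h10, h11]
    push_cast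
    linear_combination UpperHalfPlane.ρ_sq
  rw [h]
  have hsq := UpperHalfPlane.ρ_sq
  have hre : (UpperHalfPlane.ρ : ℂ).re = -1 / 2 := rfl
  refine IsPrimitiveRoot.mk_of_lt _ (by norm_num) ?_ ?_
  · linear_combination ((UpperHalfPlane.ρ : ℂ) - 1) * hsq
  · intro l hl0 hl3 hl
    interval_cases l
    · rw [pow_one] at hl
      rw [hl] at hre
      norm_num at hre
    · rw [hsq] at hl
      have : (UpperHalfPlane.ρ : ℂ) = -2 := by linear_combination -hl
      rw [this] at hre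
      norm_num at hre

/-- **(E2)** `s = S`, `z1 = i`: if `A / B` is `S`-invariant then `2 ∣ ord_i A - ord_i B`. -/
theorem two_dvd_order_sub {A B : ℍ → ℂ} (hA : MDifferentiable 𝓘(ℂ) 𝓘(ℂ) A)
    (hB : MDifferentiable 𝓘(ℂ) 𝓘(ℂ) B) (hA0 : A ≠ 0) (hB0 : B ≠ 0)
    (hcross : ∀ z : ℍ, A (ModularGroup.S • z) * B z = A z * B (ModularGroup.S • z)) :
    (2 : ℤ) ∣ ((analyticOrderAt (A ∘ ofComplex) (UpperHalfPlane.I : ℂ)).toNat : ℤ) -
      (analyticOrderAt (B ∘ ofComplex) (UpperHalfPlane.I : ℂ)).toNat :=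
  dvd_order_sub_of_isPrimitiveRoot hA hB hA0 hB0 ModularGroup.S UpperHalfPlane.I S_smul_I hcross
    two_ne_zero isPrimitiveRoot_denom_S_I

/-- **(E3)** `s = S * T`, `z1 = ρ`: if `A / B` is `S * T`-invariant then
`3 ∣ ord_ρ A - ord_ρ B`. -/
theorem three_dvd_order_sub {A B : ℍ → ℂ} (hA : MDifferentiable 𝓘(ℂ) 𝓘(ℂ) A)
    (hB : MDifferentiable 𝓘(ℂ) 𝓘(ℂ) B) (hA0 : A ≠ 0) (hB0 : B ≠ 0)
    (hcross : ∀ z : ℍ, A ((ModularGroup.S * ModularGroup.T) • z) * B z =
      A z * B ((ModularGroup.S * ModularGroup.T) • z)) :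
    (3 : ℤ) ∣ ((analyticOrderAt (A ∘ ofComplex) (Fermat.Agent.S24.H31.rho : ℂ)).toNat : ℤ) -
      (analyticOrderAt (B ∘ ofComplex) (Fermat.Agent.S24.H31.rho : ℂ)).toNat :=
  dvd_order_sub_of_isPrimitiveRoot hA hB hA0 hB0 (ModularGroup.S * ModularGroup.T)
    Fermat.Agent.S24.H31.rho ST_smul_rho hcross three_ne_zero isPrimitiveRoot_denom_ST_rho

end Fermat.Agent.S24.H41
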