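import Mathlib
import Fermat.Agent.S24.Defs_helper31
import Fermat.Agent.S24.Elliptic_helper41
import Fermat.Agent.S24.CuspDiv_helper41

/-!
# S24: elliptic and cusp-width divisibility on `L N`

The function-level divisibility lemmas (`Elliptic_helper41`, `CuspDiv_helper41`) transported to
the fraction field `L N = Frac (RN N)`: if `x : L N` is fixed by `S` (resp. `S * T`, `T ^ w`),
then its order at `i` (resp. `ρ`, the cusp) is divisible by `2` (resp. `3`, `N / w`).

The valuation is a parameter `zv : ZVal (L N)` together with its characterisation on `RN N`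
(analytic order at the point, resp. leading exponent in `q_N` at the cusp), so that the file does
not depend on the concrete construction of the valuations.
-/

set_option autoImplicit false

open UpperHalfPlane hiding I
open Complex hiding im
open Filter Topology
open scoped Manifold MatrixGroups Real

namespace Fermat.Agent.S24.H41

open Fermat.Agent.S24.H31

/-- An `s`-fixed nonzero element of `L N` is a quotient `a / b` of nonzero elements of `RN N`
satisfying the cross relation `a (s • z) * b z = a z * b (s • z)`. -/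
theorem exists_cross_of_smul_eq {N : ℕ} (s : SL(2, ℤ)) (x : L N) (hx : x ≠ 0) (hsx : s • x = x) :
    ∃ a b : RN N, a ≠ 0 ∧ b ≠ 0 ∧
      x = algebraMap (RN N) (L N) a / algebraMap (RN N) (L N) b ∧
      ∀ z : ℍ, (a : ℍ → ℂ) (s • z) * (b : ℍ → ℂ) z = (a : ℍ → ℂ) z * (b : ℍ → ℂ) (s • z) := by
  obtain ⟨a, b, hb, rfl⟩ := IsFractionRing.div_surjective (A := RN N) x
  have hb0 : b ≠ 0 := nonZeroDivisors.ne_zero hb
  have hinj : Function.Injective (algebraMap (RN N) (L N)) := IsFractionRing.injective _ _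
  have hb' : algebraMap (RN N) (L N) b ≠ 0 := by
    rwa [Ne, map_eq_zero_iff _ hinj]
  have ha0 : a ≠ 0 := by
    rintro rfl
    apply hx
    simp
  have hsb0 : s • b ≠ 0 := by
    rwa [Ne, smul_eq_zero_iff_eq]
  have hsb' : algebraMap (RN N) (L N) (s • b) ≠ 0 := by
    rwa [Ne, map_eq_zero_iff _ hinj]
  refine ⟨a, b, ha0, hb0, rfl, ?_⟩
  have h1 : s • (algebraMap (RN N) (L N) a / algebraMap (RN N) (L N) b) =
      algebraMap (RN N) (L N) (s • a) / algebraMap (RN N) (L N) (s • b) := by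
    have := map_div₀ (MulSemiringAction.toRingHom SL(2, ℤ) (L N) s)
      (algebraMap (RN N) (L N) a) (algebraMap (RN N) (L N) b)
    simp only [MulSemiringAction.toRingHom_apply] at this
    rw [this, smul_algebraMap_L, smul_algebraMap_L]
  rw [h1, div_eq_div_iff hsb' hb', ← map_mul, ← map_mul] at hsx
  have h2 : s • a * b = a * s • b := hinj hsx
  intro z
  have h3 := congrArg (fun f : RN N => (f : ℍ → ℂ) (s • z)) h2
  simp only [MulMemClass.coe_mul, Pi.mul_apply, smul_RN_apply, inv_smul_smul] at h3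
  exact h3.symm

/-- General elliptic divisibility on `L N`: if `s` fixes `z1`, `(denom s z1) ^ 2` is a primitive
`n`-th root of unity, and `zv` restricts to the analytic order at `z1` on `RN N`, then `n` divides
the order of every `s`-fixed nonzero element of `L N`. -/
theorem dvd_zval_of_smul_eq {N : ℕ} (s : SL(2, ℤ)) (z1 : ℍ) (hfix : s • z1 = z1) {n : ℕ}
    (hn : n ≠ 0) (hμ : IsPrimitiveRoot (denom s z1 ^ 2) n) (zv : ZVal (L N))
    (hzv : ∀ f : RN N, f ≠ 0 → zv.ord (algebraMap (RN N) (L N) f) =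
      ((analyticOrderAt ((f : ℍ → ℂ) ∘ ofComplex) (z1 : ℂ)).toNat : ℤ))
    (x : L N) (hx : x ≠ 0) (hsx : s • x = x) : (n : ℤ) ∣ zv.ord x := by
  obtain ⟨a, b, ha0, hb0, rfl, hcross⟩ := exists_cross_of_smul_eq s x hx hsx
  have hinj : Function.Injective (algebraMap (RN N) (L N)) := IsFractionRing.injective _ _
  have ha' : algebraMap (RN N) (L N) a ≠ 0 := by rwa [Ne, map_eq_zero_iff _ hinj]
  have hb' : algebraMap (RN N) (L N) b ≠ 0 := by rwa [Ne, map_eq_zero_iff _ hinj]
  rw [zv.ord_div ha' hb', hzv a ha0, hzv b hb0]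
  have haf : (a : ℍ → ℂ) ≠ 0 := fun h => ha0 (Subtype.ext h)
  have hbf : (b : ℍ → ℂ) ≠ 0 := fun h => hb0 (Subtype.ext h)
  exact dvd_order_sub_of_isPrimitiveRoot a.2.mdiff b.2.mdiff haf hbf s z1 hfix hcross hn hμ

/-- **(E2) on `L N`.** An `S`-fixed nonzero element of `L N` has even order at `i`. -/
theorem two_dvd_zval_of_S_smul_eq {N : ℕ} (zv : ZVal (L N))
    (hzv : ∀ f : RN N, f ≠ 0 → zv.ord (algebraMap (RN N) (L N) f) =
      ((analyticOrderAt ((f : ℍ → ℂ) ∘ ofComplex) (UpperHalfPlane.I : ℂ)).toNat : ℤ))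
    (x : L N) (hx : x ≠ 0) (hsx : ModularGroup.S • x = x) : (2 : ℤ) ∣ zv.ord x :=
  dvd_zval_of_smul_eq ModularGroup.S UpperHalfPlane.I S_smul_I two_ne_zero
    isPrimitiveRoot_denom_S_I zv hzv x hx hsx

/-- **(E3) on `L N`.** An `S * T`-fixed nonzero element of `L N` has order divisible by `3`
at `ρ`. -/
theorem three_dvd_zval_of_ST_smul_eq {N : ℕ} (zv : ZVal (L N))
    (hzv : ∀ f : RN N, f ≠ 0 → zv.ord (algebraMap (RN N) (L N) f) =
      ((analyticOrderAt ((f : ℍ → ℂ) ∘ ofComplex) (rho : ℂ)).toNat : ℤ))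
    (x : L N) (hx : x ≠ 0) (hsx : (ModularGroup.S * ModularGroup.T) • x = x) :
    (3 : ℤ) ∣ zv.ord x :=
  dvd_zval_of_smul_eq (ModularGroup.S * ModularGroup.T) rho ST_smul_rho three_ne_zero
    isPrimitiveRoot_denom_ST_rho zv hzv x hx hsx

/-- **Cusp-width divisibility on `L N`.** If `zv` restricts on `RN N` to the leading exponent in
`q_N = exp (2 π i z / N)` at `i∞`, `w ∣ N`, and `x ≠ 0` is fixed by `T ^ w`, then `N / w` divides
`zv.ord x`. -/
theorem width_dvd_zval_of_T_pow_smul_eq {N : ℕ} [NeZero N] (zv : ZVal (L N))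
    (hzv : ∀ f : RN N, f ≠ 0 → ∃ c : ℂ, c ≠ 0 ∧
      Tendsto (fun z : ℍ => (f : ℍ → ℂ) z *
        cexp (-2 * π * I * (zv.ord (algebraMap (RN N) (L N) f) : ℤ) * z / N)) atImInfty (𝓝 c))
    (x : L N) (w : ℕ) (hx : x ≠ 0) (hw : 0 < w) (hwN : w ∣ N)
    (hsx : ModularGroup.T ^ w • x = x) : ((N / w : ℕ) : ℤ) ∣ zv.ord x := by
  obtain ⟨a, b, ha0, hb0, rfl, hcross⟩ := exists_cross_of_smul_eq (ModularGroup.T ^ w) x hx hsx
  have hinj : Function.Injective (algebraMap (RN N) (L N)) := IsFractionRing.injective _ _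
  have ha' : algebraMap (RN N) (L N) a ≠ 0 := by rwa [Ne, map_eq_zero_iff _ hinj]
  have hb' : algebraMap (RN N) (L N) b ≠ 0 := by rwa [Ne, map_eq_zero_iff _ hinj]
  rw [zv.ord_div ha' hb']
  obtain ⟨cA, hcA, hA⟩ := hzv a ha0
  obtain ⟨cB, hcB, hB⟩ := hzv b hb0
  exact cusp_width_dvd_sub N hcA hcB hA hB w hw hwN hcross

end Fermat.Agent.S24.H41
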