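import Mathlib

set_option autoImplicit false

open UpperHalfPlane ModularForm SlashInvariantForm SlashInvariantFormClass ModularFormClass
  CuspFormClass MatrixGroups OnePoint Filter EisensteinSeries Asymptotics Complex
open scoped Topology Manifold Real

namespace Fermat.Agent.S24.H94

local notation "Δ" => ModularForm.discriminant

/-- Build a level-one modular form from function-level data. -/
noncomputable def mkLevelOne (k : ℤ) (g : ℍ → ℂ) (hg : MDiff g)
    (hinv : ∀ γ : SL(2, ℤ), g ∣[k] γ = g) (hb : IsBoundedAtImInfty g) : ModularForm 𝒮ℒ k where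
  toFun := g
  slash_action_eq' := fun _ ⟨γ, hγ⟩ ↦ hγ ▸ hinv γ
  holo' := hg
  bdd_at_cusps' {c} hc := by
    rw [Subgroup.IsArithmetic.isCusp_iff_isCusp_SL2Z] at hc
    rw [isBoundedAt_iff_forall_SL2Z hc]
    intro γ _
    rw [hinv γ]
    exact hb

@[simp] theorem mkLevelOne_apply (k : ℤ) (g : ℍ → ℂ) (hg : MDiff g)
    (hinv : ∀ γ : SL(2, ℤ), g ∣[k] γ = g) (hb : IsBoundedAtImInfty g) (z : ℍ) :
    mkLevelOne k g hg hinv hb z = g z := rfl

/-- A level-one modular form tends to its value at infinity. -/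
theorem tendsto_valueAtInfty {k : ℤ} (f : ModularForm 𝒮ℒ k) :
    Tendsto f atImInfty (𝓝 (valueAtInfty f)) := by
  have hanal := ModularFormClass.analyticAt_cuspFunction_zero f one_pos one_mem_strictPeriods_SL
  have hper := periodic_comp_ofComplex f one_mem_strictPeriods_SL
  rw [← cuspFunction_apply_zero one_pos hanal hper]
  exact (hanal.continuousAt.tendsto.comp (qParam_tendsto_atImInfty one_pos)).congr
    (fun τ ↦ SlashInvariantFormClass.eq_cuspFunction f τ one_mem_strictPeriods_SL one_ne_zero)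

theorem tendsto_E4 : Tendsto (fun z : ℍ => E₄ z) atImInfty (𝓝 1) := by
  have h := tendsto_valueAtInfty E₄
  have h1 : valueAtInfty E₄ = 1 := by
    rw [← qExpansion_coeff_zero one_pos
      (ModularFormClass.analyticAt_cuspFunction_zero E₄ one_pos one_mem_strictPeriods_SL)
      (periodic_comp_ofComplex E₄ one_mem_strictPeriods_SL)]
    exact E_qExpansion_coeff_zero _ ⟨2, rfl⟩
  rw [h1] at h
  exact h

/-- The power `E₄ ^ (3 * m)` as a level-one modular form of weight `k = 12 * m`. -/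
noncomputable def E4pow (m : ℕ) (k : ℤ) (hk : k = 12 * m) : ModularForm 𝒮ℒ k :=
  ModularForm.mcast (by rw [hk]; push_cast; ring) (E₄.pow (3 * m))

theorem E4pow_apply (m : ℕ) (k : ℤ) (hk : k = 12 * m) (z : ℍ) :
    E4pow m k hk z = E₄ z ^ (3 * m) := by
  have h := congrFun (ModularForm.coe_pow E₄ (3 * m)) z
  simpa [E4pow] using h

/-- Level-one modular forms of weight `12 m` are `Δ ^ m` times a polynomial in `j`. -/
theorem exists_polynomial_of_modularForm (m : ℕ) : ∀ (k : ℤ) (_ : k = 12 * m)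
    (g : ModularForm 𝒮ℒ k), ∃ P : Polynomial ℂ, P.natDegree ≤ m ∧
      ∀ z : ℍ, g z = P.eval (E₄ z ^ 3 / Δ z) * Δ z ^ m := by
  induction m with
  | zero =>
    intro k hk g
    simp only [Nat.cast_zero, mul_zero] at hk
    subst hk
    obtain ⟨c, hc⟩ := levelOne_weight_zero_const g
    refine ⟨Polynomial.C c, by simp, fun z => ?_⟩
    simp [hc]
  | succ m ih =>
    intro k hk g
    -- the constant term
    set c : ℂ := valueAtInfty g with hc
    set G : ModularForm 𝒮ℒ k := g - c • E4pow (m + 1) k hk with hG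
    have hGz : ∀ z : ℍ, G z = g z - c * E₄ z ^ (3 * (m + 1)) := by
      intro z
      simp [hG, E4pow_apply]
    have hzero : IsZeroAtImInfty G := by
      have h1 : Tendsto (fun z : ℍ => g z - c * E₄ z ^ (3 * (m + 1))) atImInfty (𝓝 (c - c * 1 ^ (3 * (m + 1)))) :=
        (tendsto_valueAtInfty g).sub ((tendsto_E4.pow _).const_mul c)
      simp only [one_pow, mul_one, sub_self] at h1
      exact h1.congr fun z => (hGz z).symm
    have hcoeff : (qExpansion 1 G).coeff 0 = 0 := by
      rw [qExpansion_coeff_zero one_pos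
        (ModularFormClass.analyticAt_cuspFunction_zero G one_pos one_mem_strictPeriods_SL)
        (periodic_comp_ofComplex G one_mem_strictPeriods_SL)]
      exact hzero.valueAtInfty_eq_zero
    set f : CuspForm 𝒮ℒ k := toCuspForm G hcoeff with hf
    obtain ⟨P, hPdeg, hP⟩ :=
      ih (k - 12) (by rw [hk]; push_cast; ring) (CuspForm.discriminantEquiv f)
    refine ⟨Polynomial.C c * Polynomial.X ^ (m + 1) + P, ?_, fun z => ?_⟩
    · refine (Polynomial.natDegree_add_le _ _).trans (max_le ?_ (hPdeg.trans (Nat.le_succ m)))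
      exact (Polynomial.natDegree_C_mul_le _ _).trans (Polynomial.natDegree_X_pow_le _)
    have h1 := hP z
    rw [CuspForm.discriminantEquiv_apply] at h1
    have h2 : f z = G z := rfl
    have hΔ : Δ z ≠ 0 := discriminant_ne_zero z
    rw [h2, hGz z, div_eq_iff hΔ] at h1
    simp only [Polynomial.eval_add, Polynomial.eval_mul, Polynomial.eval_C, Polynomial.eval_pow,
      Polynomial.eval_X]
    have hJ : E₄ z ^ 3 = E₄ z ^ 3 / Δ z * Δ z := (div_mul_cancel₀ _ hΔ).symm
    have hE : E₄ z ^ (3 * (m + 1)) = (E₄ z ^ 3 / Δ z) ^ (m + 1) * Δ z ^ (m + 1) := by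
      rw [pow_mul, ← mul_pow, ← hJ]
    rw [hE] at h1
    linear_combination h1

/-- The discriminant as a level-one modular form of weight 12. -/
noncomputable def discModForm : ModularForm 𝒮ℒ 12 := ModularFormClass.modularForm CuspForm.discriminant

theorem discModForm_apply (z : ℍ) : discModForm z = Δ z := rfl

theorem discriminant_pow_slash (m : ℕ) (γ : SL(2, ℤ)) :
    (fun z : ℍ => Δ z ^ m) ∣[((m : ℤ) * 12)] γ = fun z : ℍ => Δ z ^ m := by
  have h : ⇑(discModForm.pow m) ∣[((m : ℤ) * 12)] γ = ⇑(discModForm.pow m) :=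
    (discModForm.pow m).slash_action_eq' _ ⟨γ, rfl⟩
  have h2 : ⇑(discModForm.pow m) = fun z : ℍ => Δ z ^ m := by
    rw [ModularForm.coe_pow]
    rfl
  rw [h2] at h
  exact h

theorem slash_zero_of_invariant (h : ℍ → ℂ)
    (hinv : ∀ (γ : SL(2, ℤ)) (z : ℍ), h (γ • z) = h z) (γ : SL(2, ℤ)) : h ∣[(0 : ℤ)] γ = h := by
  ext z
  rw [SL_slash_apply, hinv γ z]
  simp

/-- `Δ / q` is bounded at `i∞`. -/
theorem isBoundedAtImInfty_tprod :
    IsBoundedAtImInfty (fun z : ℍ => ∏' n : ℕ, (1 - eta_q n z) ^ 24) :=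
  tendsto_atImInfty_tprod_one_sub_eta_q_pow.isBigO_one ℝ

theorem isBoundedAtImInfty_pow {f : ℍ → ℂ} (hf : IsBoundedAtImInfty f) (m : ℕ) :
    IsBoundedAtImInfty (f ^ m) := by
  induction m with
  | zero =>
    rw [pow_zero]
    exact Filter.const_boundedAtFilter atImInfty (1 : ℂ)
  | succ n ih =>
    rw [pow_succ]
    exact ih.mul hf

theorem qParam_pow_eq (m : ℕ) (z : ℍ) :
    (Function.Periodic.qParam 1 (z : ℂ)) ^ m = cexp (2 * π * Complex.I * m * z) := by
  rw [Function.Periodic.qParam, ← Complex.exp_nat_mul]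
  congr 1
  simp
  ring

/-- **Core lemma with degree bound.** A holomorphic `SL(2, ℤ)`-invariant function `h` on the
upper half plane such that `h * q ^ m` is bounded at `i∞` is a polynomial of degree at most `m`
in `j = E₄ ^ 3 / Δ`. -/
theorem invariant_eq_polynomial_of_bounded (h : ℍ → ℂ) (hh : MDiff h)
    (hinv : ∀ (γ : SL(2, ℤ)) (z : ℍ), h (γ • z) = h z) (m : ℕ)
    (hm : IsBoundedAtImInfty (fun z : ℍ => h z * cexp (2 * π * Complex.I * m * z))) :
    ∃ P : Polynomial ℂ, P.natDegree ≤ m ∧ ∀ z, h z = P.eval (E₄ z ^ 3 / Δ z) := by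
  have hΔdiff : MDiff (fun z : ℍ => Δ z ^ m) := by
    have h1 := (discModForm.pow m).holo'
    have h2 : ⇑(discModForm.pow m) = fun z : ℍ => Δ z ^ m := by
      rw [ModularForm.coe_pow]
      rfl
    exact h2 ▸ h1
  have hgdiff : MDiff (fun z : ℍ => h z * Δ z ^ m) := hh.mul hΔdiff
  have hslash : ∀ γ : SL(2, ℤ),
      (fun z : ℍ => h z * Δ z ^ m) ∣[((m : ℤ) * 12)] γ = fun z => h z * Δ z ^ m := by
    intro γ
    have h1 := mul_slash_SL2 0 ((m : ℤ) * 12) γ h (fun z => Δ z ^ m)
    rw [zero_add, slash_zero_of_invariant h hinv γ, discriminant_pow_slash m γ] at h1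
    exact h1
  have hbdd : IsBoundedAtImInfty (fun z : ℍ => h z * Δ z ^ m) := by
    have h1 : (fun z : ℍ => h z * Δ z ^ m) =
        (fun z : ℍ => h z * cexp (2 * π * Complex.I * m * z)) *
          (fun z : ℍ => (∏' n : ℕ, (1 - eta_q n z) ^ 24)) ^ m := by
      ext z
      simp only [Pi.mul_apply, Pi.pow_apply]
      rw [discriminant_eq_q_prod z, mul_pow, qParam_pow_eq]
      ring
    rw [h1]
    exact hm.mul (isBoundedAtImInfty_pow isBoundedAtImInfty_tprod m)
  obtain ⟨P, hPdeg, hP⟩ := exists_polynomial_of_modularForm m ((m : ℤ) * 12) (by ring)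
    (mkLevelOne _ _ hgdiff hslash hbdd)
  refine ⟨P, hPdeg, fun z => ?_⟩
  have h1 := hP z
  rw [mkLevelOne_apply] at h1
  exact mul_right_cancel₀ (pow_ne_zero m (discriminant_ne_zero z)) h1

/-- **Core lemma.** A holomorphic `SL(2, ℤ)`-invariant function on the upper half plane with at
most a pole at `i∞` is a polynomial in `j = E₄ ^ 3 / Δ`. -/
theorem invariant_eq_polynomial (h : ℍ → ℂ) (hh : MDiff h)
    (hinv : ∀ (γ : SL(2, ℤ)) (z : ℍ), h (γ • z) = h z)
    (hm : ∃ m : ℕ, IsBoundedAtImInfty (fun z : ℍ => h z * cexp (2 * π * Complex.I * m * z))) :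
    ∃ P : Polynomial ℂ, ∀ z, h z = P.eval (E₄ z ^ 3 / Δ z) := by
  obtain ⟨m, hm⟩ := hm
  obtain ⟨P, -, hP⟩ := invariant_eq_polynomial_of_bounded h hh hinv m hm
  exact ⟨P, hP⟩

/-- `j` has a pole at `i∞`: its norm tends to infinity. -/
theorem tendsto_norm_J_atTop :
    Tendsto (fun z : ℍ => ‖E₄ z ^ 3 / Δ z‖) atImInfty atTop := by
  have h1 : Tendsto (fun z : ℍ => ‖E₄ z‖ ^ 3) atImInfty (𝓝 (1 : ℝ)) := by
    have := (tendsto_E4.norm).pow 3
    simpa using this
  have h2 : Tendsto (fun z : ℍ => ‖Δ z‖) atImInfty (𝓝[>] (0 : ℝ)) := by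
    rw [tendsto_nhdsWithin_iff]
    refine ⟨?_, Filter.Eventually.of_forall fun z => norm_pos_iff.mpr (discriminant_ne_zero z)⟩
    have := discriminant_isZeroAtImInfty.norm
    simpa using this
  have h3 : Tendsto (fun z : ℍ => ‖Δ z‖⁻¹) atImInfty atTop :=
    tendsto_inv_nhdsGT_zero.comp h2
  have h4 := h3.atTop_mul_pos (zero_lt_one) h1
  refine h4.congr fun z => ?_
  simp only [norm_div, norm_pow]
  rw [div_eq_inv_mul]

/-- `j` is transcendental over `ℂ` as a function: a polynomial vanishing on all values of `j`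
is zero. -/
theorem polynomial_eq_zero_of_eval_J (P : Polynomial ℂ)
    (hP : ∀ z : ℍ, P.eval (E₄ z ^ 3 / Δ z) = 0) : P = 0 := by
  by_contra hne
  have hfin : Set.Finite {w : ℂ | P.IsRoot w} := Polynomial.finite_setOfPred_isRoot hne
  obtain ⟨R, hR⟩ := (hfin.image norm).bddAbove
  have hev := tendsto_norm_J_atTop.eventually_gt_atTop R
  obtain ⟨z, hz⟩ := hev.exists
  have hmem : ‖E₄ z ^ 3 / Δ z‖ ∈ norm '' {w : ℂ | P.IsRoot w} := ⟨_, hP z, rfl⟩
  exact absurd (hR hmem) (not_le.mpr hz)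

/-- Uniqueness of the polynomial in the core lemma. -/
theorem polynomial_unique_of_eval_J (P Q : Polynomial ℂ)
    (hPQ : ∀ z : ℍ, P.eval (E₄ z ^ 3 / Δ z) = Q.eval (E₄ z ^ 3 / Δ z)) : P = Q := by
  have h := polynomial_eq_zero_of_eval_J (P - Q) fun z => by
    rw [Polynomial.eval_sub, hPQ z, sub_self]
  exact sub_eq_zero.mp h

end Fermat.Agent.S24.H94
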