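import Mathlib

/-!
# S24, task B3c (algebraic core; helper26)

* `exists_invariant_fraction` : the norm trick.  A domain `R` with an action of a group `G`
  by ring automorphisms such that a finite-index subgroup `H` acts trivially; `L` its fraction
  field with a compatible action.  Every `G`-fixed element of `L` is a quotient of two `G`-fixed
  elements of `R`.
* `eq_aeval_of_isIntegral` : if `t` is transcendental over the field `k`, an element
  `x = P(t)/Q(t)` that is integral over `k[t]` is a polynomial in `t`.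
-/

set_option autoImplicit false

open Polynomial
open scoped nonZeroDivisors

namespace Fermat.Agent.S24.H26

section General

variable {G M : Type*} [Group G]

/-- If `H` fixes `x`, then `g • x` only depends on the coset `g H`. -/
theorem out_smul_eq_of_fixed [MulAction G M] (H : Subgroup G) (x : M)
    (hx : ∀ h ∈ H, h • x = x) (g : G) :
    (Quotient.out (QuotientGroup.mk g : G ⧸ H) : G) • x = g • x := by
  have h1 : (QuotientGroup.mk (Quotient.out (QuotientGroup.mk g : G ⧸ H)) : G ⧸ H) =
      QuotientGroup.mk g := Quotient.out_eq _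
  rw [QuotientGroup.eq] at h1
  have h2 := hx _ h1
  rw [mul_smul] at h2
  calc (Quotient.out (QuotientGroup.mk g : G ⧸ H) : G) • x
      = (Quotient.out (QuotientGroup.mk g : G ⧸ H) : G) •
          ((Quotient.out (QuotientGroup.mk g : G ⧸ H) : G)⁻¹ • g • x) := by rw [h2]
    _ = g • x := by rw [smul_inv_smul]

/-- The product of the conjugates `q • x` over the cosets `q ∈ G ⧸ H` of a subgroup `H` fixing
`x` is fixed by the whole group. -/
theorem smul_prod_out_smul [CommMonoid M] [MulDistribMulAction G M] (H : Subgroup G)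
    [Fintype (G ⧸ H)] (x : M) (hx : ∀ h ∈ H, h • x = x) (g : G) :
    g • ∏ q : G ⧸ H, (Quotient.out q : G) • x = ∏ q : G ⧸ H, (Quotient.out q : G) • x := by
  classical
  rw [Finset.smul_prod']
  have h1 : ∀ q : G ⧸ H, g • ((Quotient.out q : G) • x) = (Quotient.out (g • q) : G) • x := by
    intro q
    rw [← mul_smul]
    have h2 : g • q = (QuotientGroup.mk (g * Quotient.out q) : G ⧸ H) := by
      conv_lhs => rw [← Quotient.out_eq q]
      rfl
    rw [h2, out_smul_eq_of_fixed H x hx]
  simp_rw [h1]
  exact Fintype.prod_equiv (MulAction.toPerm g) _ _ (fun q => rfl)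

/-- `x` divides the product of its conjugates. -/
theorem dvd_prod_out_smul [CommMonoid M] [MulDistribMulAction G M] (H : Subgroup G)
    [Fintype (G ⧸ H)] (x : M) (hx : ∀ h ∈ H, h • x = x) :
    x ∣ ∏ q : G ⧸ H, (Quotient.out q : G) • x := by
  classical
  have h1 : (Quotient.out (QuotientGroup.mk (1 : G) : G ⧸ H) : G) • x = x := by
    rw [out_smul_eq_of_fixed H x hx, one_smul]
  have h2 := Finset.dvd_prod_of_mem (fun q : G ⧸ H => (Quotient.out q : G) • x)
    (Finset.mem_univ (QuotientGroup.mk (1 : G) : G ⧸ H))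
  rw [h1] at h2
  exact h2

end General

section NormTrick

variable {G R L : Type*} [Group G] [CommRing R] [IsDomain R] [Field L] [Algebra R L]
  [IsFractionRing R L] [MulSemiringAction G R] [MulSemiringAction G L]

/-- The product of the conjugates of `b` over the cosets of `H`. -/
noncomputable def normProd (H : Subgroup G) [H.FiniteIndex] (b : R) : R :=
  letI := Subgroup.fintypeQuotientOfFiniteIndex (H := H)
  ∏ q : G ⧸ H, (Quotient.out q : G) • b

omit [IsDomain R] in
theorem smul_out_eq (H : Subgroup G) (hH : ∀ h ∈ H, ∀ r : R, h • r = r) (g : G) (b : R) :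
    (Quotient.out (QuotientGroup.mk g : G ⧸ H) : G) • b = g • b := by
  have h1 : (QuotientGroup.mk (Quotient.out (QuotientGroup.mk g : G ⧸ H)) : G ⧸ H) =
      QuotientGroup.mk g := Quotient.out_eq _
  rw [QuotientGroup.eq] at h1
  have h2 := hH _ h1 b
  rw [mul_smul] at h2
  calc (Quotient.out (QuotientGroup.mk g : G ⧸ H) : G) • b
      = (Quotient.out (QuotientGroup.mk g : G ⧸ H) : G) •
          ((Quotient.out (QuotientGroup.mk g : G ⧸ H) : G)⁻¹ • g • b) := by rw [h2]
    _ = g • b := by rw [smul_inv_smul]

omit [IsDomain R] in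
theorem smul_normProd (H : Subgroup G) [H.FiniteIndex] (hH : ∀ h ∈ H, ∀ r : R, h • r = r)
    (g : G) (b : R) : g • normProd H b = normProd H b := by
  classical
  let _ := Subgroup.fintypeQuotientOfFiniteIndex (H := H)
  unfold normProd
  rw [Finset.smul_prod']
  have h1 : ∀ q : G ⧸ H, g • ((Quotient.out q : G) • b) = (Quotient.out (g • q) : G) • b := by
    intro q
    rw [← mul_smul]
    have h2 : g • q = (QuotientGroup.mk (g * Quotient.out q) : G ⧸ H) := by
      conv_lhs => rw [← Quotient.out_eq q]
      rfl
    rw [h2, smul_out_eq H hH]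
  simp_rw [h1]
  exact Fintype.prod_equiv (MulAction.toPerm g) _ _ (fun q => rfl)

theorem normProd_ne_zero (H : Subgroup G) [H.FiniteIndex] {b : R} (hb : b ≠ 0) :
    normProd H b ≠ 0 := by
  classical
  let _ := Subgroup.fintypeQuotientOfFiniteIndex (H := H)
  unfold normProd
  exact Finset.prod_ne_zero_iff.mpr fun q _ => (smul_ne_zero_iff_ne _).mpr hb

omit [IsDomain R] in
theorem dvd_normProd (H : Subgroup G) [H.FiniteIndex] (hH : ∀ h ∈ H, ∀ r : R, h • r = r)
    (b : R) : b ∣ normProd H b := by
  classical
  let _ := Subgroup.fintypeQuotientOfFiniteIndex (H := H)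
  unfold normProd
  have h1 : (Quotient.out (QuotientGroup.mk (1 : G) : G ⧸ H) : G) • b = b := by
    rw [smul_out_eq H hH, one_smul]
  have h2 := Finset.dvd_prod_of_mem (fun q : G ⧸ H => (Quotient.out q : G) • b)
    (Finset.mem_univ (QuotientGroup.mk (1 : G) : G ⧸ H))
  rw [h1] at h2
  exact h2

/-- **Norm trick.** Every `G`-fixed element of the fraction field is a quotient of two
`G`-fixed elements of the ring, provided a finite-index subgroup acts trivially on the ring. -/
theorem exists_invariant_fraction
    (hcompat : ∀ (g : G) (r : R), g • algebraMap R L r = algebraMap R L (g • r))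
    (H : Subgroup G) [H.FiniteIndex] (hH : ∀ h ∈ H, ∀ r : R, h • r = r)
    (x : L) (hx : ∀ g : G, g • x = x) :
    ∃ a b : R, b ≠ 0 ∧ (∀ g : G, g • a = a) ∧ (∀ g : G, g • b = b) ∧
      x * algebraMap R L b = algebraMap R L a := by
  obtain ⟨a0, b0, hb0, rfl⟩ := IsFractionRing.div_surjective (A := R) x
  have hb0' : b0 ≠ 0 := nonZeroDivisors.ne_zero hb0
  obtain ⟨c, hc⟩ := dvd_normProd H hH b0
  have hbL : algebraMap R L b0 ≠ 0 := by
    intro h
    exact hb0' ((IsFractionRing.injective R L) (by rw [h, map_zero]))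
  have hkey : algebraMap R L a0 / algebraMap R L b0 * algebraMap R L (normProd H b0) =
      algebraMap R L (a0 * c) := by
    rw [hc, map_mul, map_mul]
    field_simp
  refine ⟨a0 * c, normProd H b0, normProd_ne_zero H hb0', fun g => ?_,
    fun g => smul_normProd H hH g b0, hkey⟩
  apply IsFractionRing.injective R L
  rw [← hcompat, ← hkey, smul_mul', hx g, hcompat, smul_normProd H hH]

end NormTrick

section IntegrallyClosed

variable {k L : Type*} [Field k] [Field L] [Algebra k L]

/-- If `t` is transcendental over `k`, then an element `x = P(t)/Q(t)` of `L` which is integral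
over `k[t]` is a polynomial in `t`. -/
theorem eq_aeval_of_isIntegral (t : L) (ht : Transcendental k t) (x : L) (P Q : k[X])
    (hQ : Q ≠ 0) (h : x * aeval t Q = aeval t P)
    (hint : IsIntegral (Algebra.adjoin k {t}) x) : ∃ P' : k[X], x = aeval t P' := by
  classical
  have hinj : Function.Injective (aeval t : k[X] →ₐ[k] L) := transcendental_iff_injective.mp ht
  have hφ' : k[X]⁰ ≤ L⁰.comap (aeval t : k[X] →ₐ[k] L) :=
    nonZeroDivisors_le_comap_nonZeroDivisors_of_injective _ hinj
  let φ : RatFunc k →ₐ[k] L := RatFunc.liftAlgHom (aeval t : k[X] →ₐ[k] L) hφ'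
  have hφinj : Function.Injective φ := RatFunc.liftAlgHom_injective _ hinj hφ'
  have hφalg : ∀ p : k[X], φ (algebraMap k[X] (RatFunc k) p) = aeval t p := by
    intro p
    have := RatFunc.liftAlgHom_apply_div (φ := (aeval t : k[X] →ₐ[k] L)) (hφ := hφ') p 1
    simpa using this
  set r : RatFunc k := algebraMap k[X] (RatFunc k) P / algebraMap k[X] (RatFunc k) Q with hr
  have hQt : aeval t Q ≠ 0 := fun h0 => hQ (hinj (by rw [h0, map_zero]))
  have hxr : x = φ r := by
    rw [hr, RatFunc.liftAlgHom_apply_div, eq_div_iff hQt]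
    exact h
  -- integrality over `k[X]`
  obtain ⟨p, hpm, hpx⟩ := hint
  let e : k[X] ≃ₐ[k] Algebra.adjoin k {t} := Polynomial.algEquivOfTranscendental k t ht
  have he : ∀ s : Algebra.adjoin k {t}, aeval t (e.symm s) = (s : L) := by
    intro s
    have h1 : (e (e.symm s) : L) = aeval t (e.symm s) := by
      show ((aeval (⟨t, Algebra.self_mem_adjoin_singleton k t⟩ : Algebra.adjoin k {t})
        (e.symm s) : Algebra.adjoin k {t}) : L) = _
      rw [Polynomial.aeval_subalgebra_coe]
    rw [← h1, AlgEquiv.apply_symm_apply]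
  -- the lifted monic polynomial over `k[X]`
  let p' : k[X][X] := p.map (e.symm : Algebra.adjoin k {t} →+* k[X])
  have hp'm : p'.Monic := hpm.map _
  have hev : eval₂ ((φ : RatFunc k →+* L).comp (algebraMap k[X] (RatFunc k))) (φ r) p' = 0 := by
    have h2 : ((φ : RatFunc k →+* L).comp (algebraMap k[X] (RatFunc k))).comp
        (e.symm : Algebra.adjoin k {t} →+* k[X]) = algebraMap (Algebra.adjoin k {t}) L := by
      ext s
      simp only [RingHom.coe_comp, Function.comp_apply, RingHom.coe_coe]
      rw [hφalg, he]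
      rfl
    rw [eval₂_map, h2, ← hxr]
    exact hpx
  have hr_int : IsIntegral k[X] r := by
    refine ⟨p', hp'm, ?_⟩
    apply hφinj
    rw [map_zero, ← hev]
    exact (hom_eval₂ p' (algebraMap k[X] (RatFunc k)) (φ : RatFunc k →+* L) r)
  obtain ⟨P', hP'⟩ := IsIntegrallyClosed.isIntegral_iff.mp hr_int
  exact ⟨P', by rw [hxr, ← hP', hφalg]⟩

end IntegrallyClosed

end Fermat.Agent.S24.H26
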