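import Mathlib
import Fermat.Agent.S24.Defs_helper31
import Fermat.Agent.S24.CoreLemma_helper94
import Fermat.Agent.S24.InvAlg_helper26

/-!
# S24, task B3c (helper26): `SL(2,ℤ)`-invariants of `L N`

`j : RN N` is any element whose underlying function is the `j`-function `jFun`
(in the application: `jd N 1`).  With `jL := algebraMap (RN N) (L N) j`:

* `fixed_mem` : every `SL(2,ℤ)`-fixed element of `L N` is a rational function of `jL`;
* `transcendental_jL` : `jL` is transcendental over `ℂ`;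
* `fixed_integral_mem` : a fixed element that is integral over `ℂ[jL]` is a polynomial in `jL`.
-/

set_option autoImplicit false

open Polynomial UpperHalfPlane CongruenceSubgroup ModularForm
open scoped MatrixGroups ModularForm Manifold Real

namespace Fermat.Agent.S24.H26

open Fermat.Agent.S24.H31

/-- `Γ(N)` acts trivially on `RN N`. -/
theorem gamma_smul_RN {N : ℕ} (γ : SL(2, ℤ)) (hγ : γ ∈ Gamma N) (f : RN N) : γ • f = f := by
  apply Subtype.ext
  funext z
  show (f : ℍ → ℂ) (γ⁻¹ • z) = (f : ℍ → ℂ) z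
  exact f.2.inv γ⁻¹ (inv_mem hγ) z

/-- The underlying function of a polynomial expression in an element of `RN N`. -/
theorem coe_aeval_RN {N : ℕ} (j : RN N) (P : ℂ[X]) (z : ℍ) :
    ((aeval j P : RN N) : ℍ → ℂ) z = P.eval ((j : ℍ → ℂ) z) := by
  induction P using Polynomial.induction_on' with
  | add p q hp hq =>
    rw [map_add, eval_add, ← hp, ← hq]
    rfl
  | monomial n c =>
    rw [aeval_monomial, eval_monomial]
    rfl

/-- Invariant elements of `RN N` are polynomials in `j`. -/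
theorem invariant_RN_eq_aeval {N : ℕ} (j : RN N) (hj : ∀ z : ℍ, (j : ℍ → ℂ) z = jFun z)
    (a : RN N) (ha : ∀ g : SL(2, ℤ), g • a = a) : ∃ P : ℂ[X], a = aeval j P := by
  have hinv : ∀ (γ : SL(2, ℤ)) (z : ℍ), (a : ℍ → ℂ) (γ • z) = (a : ℍ → ℂ) z := by
    intro γ z
    have h1 := congrArg (fun f : RN N => (f : ℍ → ℂ) z) (ha γ⁻¹)
    simp only [smul_RN_apply, inv_inv] at h1
    exact h1
  have hmero : ∃ m : ℕ, IsBoundedAtImInfty
      (fun z : ℍ => (a : ℍ → ℂ) z * Complex.exp (2 * π * Complex.I * m * z)) := by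
    have h1 := a.2.mero 1
    simp only [one_smul] at h1
    exact h1
  obtain ⟨P, hP⟩ := H94.invariant_eq_polynomial (a : ℍ → ℂ) a.2.mdiff hinv hmero
  refine ⟨P, Subtype.ext (funext fun z => ?_)⟩
  rw [coe_aeval_RN, hj z, hP z]
  rfl

/-- **B3c (ii).** Every `SL(2,ℤ)`-fixed element of `L N` is a rational function of `j`. -/
theorem fixed_mem {N : ℕ} [NeZero N] (j : RN N) (hj : ∀ z : ℍ, (j : ℍ → ℂ) z = jFun z)
    (x : L N) (hx : ∀ g : SL(2, ℤ), g • x = x) :
    ∃ P Q : ℂ[X], Q ≠ 0 ∧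
      x * aeval (algebraMap (RN N) (L N) j) Q = aeval (algebraMap (RN N) (L N) j) P := by
  obtain ⟨a, b, hb, ha_inv, hb_inv, hab⟩ :=
    exists_invariant_fraction (G := SL(2, ℤ)) (R := RN N) (L := L N)
      (fun g r => smul_algebraMap_L g r) (Gamma N) (fun h hh r => gamma_smul_RN h hh r) x hx
  obtain ⟨P, hP⟩ := invariant_RN_eq_aeval j hj a ha_inv
  obtain ⟨Q, hQ⟩ := invariant_RN_eq_aeval j hj b hb_inv
  refine ⟨P, Q, ?_, ?_⟩
  · rintro rfl
    rw [map_zero] at hQ
    exact hb hQ
  · rw [aeval_algebraMap_apply, aeval_algebraMap_apply, ← hP, ← hQ]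
    exact hab

/-- `j` is transcendental over `ℂ` in `L N`. -/
theorem transcendental_jL {N : ℕ} (j : RN N) (hj : ∀ z : ℍ, (j : ℍ → ℂ) z = jFun z) :
    Transcendental ℂ (algebraMap (RN N) (L N) j) := by
  rw [transcendental_iff]
  intro P hP
  rw [aeval_algebraMap_apply] at hP
  have h1 : aeval j P = 0 := (IsFractionRing.injective (RN N) (L N)) (by rw [hP, map_zero])
  apply H94.polynomial_eq_zero_of_eval_J
  intro z
  have h2 := congrArg (fun f : RN N => (f : ℍ → ℂ) z) h1
  simp only [coe_aeval_RN, hj z] at h2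
  exact h2

/-- **B3c (iii).** A fixed element of `L N` which is integral over `ℂ[j]` is a polynomial
in `j`. -/
theorem fixed_integral_mem {N : ℕ} [NeZero N] (j : RN N)
    (hj : ∀ z : ℍ, (j : ℍ → ℂ) z = jFun z)
    (x : L N) (hx : ∀ g : SL(2, ℤ), g • x = x)
    (hint : IsIntegral (Algebra.adjoin ℂ {algebraMap (RN N) (L N) j}) x) :
    ∃ P : ℂ[X], x = aeval (algebraMap (RN N) (L N) j) P := by
  obtain ⟨P, Q, hQ, hPQ⟩ := fixed_mem j hj x hx
  exact eq_aeval_of_isIntegral _ (transcendental_jL j hj) x P Q hQ hPQ hint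

end Fermat.Agent.S24.H26
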