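import Mathlib

set_option autoImplicit false

open Polynomial

namespace Fermat.Agent.S24.H76

/-- A complex number which is a root of a monic polynomial with coefficients in (the image of)
an algebraically closed field lies in that image. -/
theorem mem_range_of_monic_eval₂_eq_zero {K : Type*} [Field K] [IsAlgClosed K] (ι : K →+* ℂ)
    (x : ℂ) (q : K[X]) (hq : q.Monic) (hx : q.eval₂ ι x = 0) : ∃ a : K, ι a = x := by
  have hq0 : q.map ι ≠ 0 := (hq.map ι).ne_zero
  have hroot : x ∈ (q.map ι).roots := by
    rw [Polynomial.mem_roots hq0, Polynomial.IsRoot.def, Polynomial.eval_map]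
    exact hx
  rw [(IsAlgClosed.splits q).roots_map ι] at hroot
  obtain ⟨a, _, ha⟩ := Multiset.mem_map.mp hroot
  exact ⟨a, ha⟩

/-- If all values of a complex polynomial `P` at points of (the image of) an infinite field `K`
lie in the image of `K`, then `P` has coefficients in `K`. -/
theorem exists_map_eq_of_forall_eval_mem {K : Type*} [Field K] [Infinite K] (ι : K →+* ℂ)
    (P : ℂ[X]) (hP : ∀ a : K, ∃ b : K, ι b = P.eval (ι a)) : ∃ Q : K[X], Q.map ι = P := by
  classical
  obtain ⟨s, hs⟩ := Infinite.exists_subset_card_eq K (P.natDegree + 1)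
  choose b hb using hP
  refine ⟨Lagrange.interpolate s id b, ?_⟩
  have hinj : Set.InjOn (id : K → K) s := Function.injective_id.injOn
  have hdegQ : (Lagrange.interpolate s id b).degree < (s.card : WithBot ℕ) :=
    Lagrange.degree_interpolate_lt b hinj
  refine Polynomial.eq_of_degrees_lt_of_eval_finset_eq (s.image ι) ?_ ?_ ?_
  · rw [Finset.card_image_of_injective _ ι.injective]
    exact lt_of_le_of_lt (Polynomial.degree_map_le) hdegQ
  · rw [Finset.card_image_of_injective _ ι.injective, hs]
    exact lt_of_le_of_lt Polynomial.degree_le_natDegree (by exact_mod_cast Nat.lt_succ_self _)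
  · intro y hy
    obtain ⟨a, ha, rfl⟩ := Finset.mem_image.mp hy
    rw [Polynomial.eval_map, Polynomial.eval₂_at_apply]
    have h := Lagrange.eval_interpolate_at_node b hinj ha
    simp only [id] at h
    rw [h, hb]

/-- Monic-relation form: a complex polynomial `P` satisfying a monic equation
`P ^ d + ∑ (pᵢ.map ι) * P ^ i = 0` with all `pᵢ ∈ K[X]`, `K` algebraically closed, has
coefficients in `K`. -/
theorem polynomial_mem_range_of_isIntegralElem {K : Type*} [Field K] [IsAlgClosed K]
    (ι : K →+* ℂ) (P : Polynomial ℂ) (hP : (Polynomial.mapRingHom ι).IsIntegralElem P) :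
    ∃ Q : Polynomial K, Q.map ι = P := by
  refine exists_map_eq_of_forall_eval_mem ι P fun a => ?_
  obtain ⟨p, hpm, hp⟩ := hP
  have hg : ι.comp (Polynomial.evalRingHom a) =
      (Polynomial.evalRingHom (ι a)).comp (Polynomial.mapRingHom ι) := by
    ext Q
    · simp
    · simp
  -- evaluate the integrality relation at `ι a`
  have h1 := congrArg (Polynomial.evalRingHom (ι a)) hp
  rw [Polynomial.hom_eval₂, map_zero, ← hg] at h1
  have h2 : (p.map (Polynomial.evalRingHom a)).eval₂ ι (P.eval (ι a)) = 0 := by
    rw [Polynomial.eval₂_map]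
    exact h1
  exact mem_range_of_monic_eval₂_eq_zero ι _ _ (hpm.map _) h2

/-- A complex polynomial that is integral over the subring of polynomials with coefficients in
(the image of) an algebraically closed field `K` has coefficients in `K`. -/
theorem polynomial_mem_range_of_isIntegral {K : Type*} [Field K] [IsAlgClosed K] (ι : K →+* ℂ)
    (P : Polynomial ℂ) (hP : IsIntegral (Polynomial.mapRingHom ι).range P) :
    ∃ Q : Polynomial K, Q.map ι = P := by
  refine polynomial_mem_range_of_isIntegralElem ι P ?_
  obtain ⟨p, hpm, hp⟩ := hP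
  -- the ring isomorphism `K[X] ≃ range`
  have hinj : Function.Injective (Polynomial.mapRingHom ι) := Polynomial.map_injective ι ι.injective
  let e : K[X] ≃+* (Polynomial.mapRingHom ι).range :=
    RingEquiv.ofBijective (Polynomial.mapRingHom ι).rangeRestrict
      ⟨fun x y hxy => hinj (congrArg Subtype.val hxy),
        (Polynomial.mapRingHom ι).rangeRestrict_surjective⟩
  have hg : (Polynomial.mapRingHom ι).comp e.symm.toRingHom =
      algebraMap (Polynomial.mapRingHom ι).range ℂ[X] := by
    ext r : 1
    obtain ⟨Q, rfl⟩ := e.surjective r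
    simp only [RingHom.comp_apply, RingEquiv.toRingHom_eq_coe, RingEquiv.coe_toRingHom,
      RingEquiv.symm_apply_apply]
    rfl
  refine ⟨p.map e.symm.toRingHom, hpm.map _, ?_⟩
  rw [Polynomial.eval₂_map, hg]
  exact hp

/-- Version with `K`-rational values: if the complex polynomial `P` takes values in `ι K` on
`ι K` (`K` infinite), it comes from `K[X]`; stated with an explicit degree bound. -/
theorem exists_map_eq_natDegree_le {K : Type*} [Field K] [IsAlgClosed K] (ι : K →+* ℂ)
    (P : Polynomial ℂ) (hP : IsIntegral (Polynomial.mapRingHom ι).range P) :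
    ∃ Q : Polynomial K, Q.map ι = P ∧ Q.natDegree = P.natDegree := by
  obtain ⟨Q, hQ⟩ := polynomial_mem_range_of_isIntegral ι P hP
  exact ⟨Q, hQ, by rw [← hQ, Polynomial.natDegree_map]⟩

end Fermat.Agent.S24.H76
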