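import Mathlib
import Fermat.Agent.S24.Defs_helper31
import Fermat.Agent.S24.Fixed_helper26
import Fermat.Agent.S24.IntegralPoly_helper76

/-!
# S24, D1b-inv (helper89): `SL(2,ℤ)`-invariants that are integral over `Φ(K[j])` lie in `Φ(K[j])`

These are the fields `invariant_j` and `invariant_jinv` of helper98's contract `AnalyticCover`,
proved with the embedding `Φ` and the element `j : RN N` as parameters.

Inputs: B3c (`H26.fixed_mem`, `H26.transcendental_jL`, `H26.eq_aeval_of_isIntegral`) and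
B3b (`H76.polynomial_mem_range_of_isIntegralElem`).
-/

set_option autoImplicit false

open Polynomial UpperHalfPlane
open scoped MatrixGroups

namespace Fermat.Agent.S24.H89

open Fermat.Agent.S24.H31

section Abstract

variable {K : Type*} [Field K] (ι : K →+* ℂ) {F Λ : Type*} [Field F] [Algebra K F] [Field Λ]
  [Algebra ℂ Λ] (Φ : F →+* Λ)

/-- `Φ` intertwines evaluation of `K`-polynomials at `t` with evaluation of their images at
`Φ t`. -/
theorem Phi_aeval (hΦc : ∀ c : K, Φ (algebraMap K F c) = algebraMap ℂ Λ (ι c)) (t : F)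
    (Q : K[X]) : Φ (aeval t Q) = aeval (Φ t) (Q.map ι) := by
  rw [aeval_def, aeval_def, hom_eval₂, eval₂_map]
  congr 1
  ext c
  exact hΦc c

/-- the elements of `Φ(K[t])` -/
theorem mem_map_adjoin_iff (hΦc : ∀ c : K, Φ (algebraMap K F c) = algebraMap ℂ Λ (ι c)) (t : F)
    (s : Λ) : s ∈ (Algebra.adjoin K {t}).toSubring.map Φ ↔
      ∃ Q : K[X], s = aeval (Φ t) (Q.map ι) := by
  constructor
  · rintro ⟨a, ha, rfl⟩
    have ha' : a ∈ Algebra.adjoin K {t} := ha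
    rw [Algebra.adjoin_singleton_eq_range_aeval] at ha'
    obtain ⟨Q, rfl⟩ := ha'
    exact ⟨Q, Phi_aeval ι Φ hΦc t Q⟩
  · rintro ⟨Q, rfl⟩
    refine ⟨aeval t Q, ?_, Phi_aeval ι Φ hΦc t Q⟩
    show aeval t Q ∈ Algebra.adjoin K {t}
    rw [Algebra.adjoin_singleton_eq_range_aeval]
    exact ⟨Q, rfl⟩

/-- integrality over `Φ(K[t])` implies integrality over `ℂ[Φ t]` -/
theorem isIntegral_adjoin_of_isIntegral_map
    (hΦc : ∀ c : K, Φ (algebraMap K F c) = algebraMap ℂ Λ (ι c)) (t : F) (x : Λ)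
    (hint : IsIntegral ((Algebra.adjoin K {t}).toSubring.map Φ) x) :
    IsIntegral (Algebra.adjoin ℂ {Φ t}) x := by
  obtain ⟨p, hpm, hpx⟩ := hint
  have hle : ∀ s : (Algebra.adjoin K {t}).toSubring.map Φ,
      (s : Λ) ∈ Algebra.adjoin ℂ {Φ t} := by
    intro s
    obtain ⟨Q, hQ⟩ := (mem_map_adjoin_iff ι Φ hΦc t s).mp s.2
    rw [hQ, Algebra.adjoin_singleton_eq_range_aeval]
    exact ⟨_, rfl⟩
  let φ : ((Algebra.adjoin K {t}).toSubring.map Φ) →+* Algebra.adjoin ℂ {Φ t} :=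
    RingHom.codRestrict (Subring.subtype _) (Algebra.adjoin ℂ {Φ t}) hle
  refine ⟨p.map φ, hpm.map _, ?_⟩
  rw [eval₂_map]
  exact hpx

/-- **K-rationality.**  If `Φ t` is transcendental over `ℂ` and the polynomial expression
`P(Φ t)`, `P ∈ ℂ[X]`, is integral over `Φ(K[t])` (`K` algebraically closed), then
`P(Φ t) ∈ Φ(K[t])`. -/
theorem exists_rational_of_isIntegral [IsAlgClosed K]
    (hΦc : ∀ c : K, Φ (algebraMap K F c) = algebraMap ℂ Λ (ι c)) (t : F)
    (htr : Transcendental ℂ (Φ t)) (P : ℂ[X])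
    (hint : IsIntegral ((Algebra.adjoin K {t}).toSubring.map Φ) (aeval (Φ t) P)) :
    ∃ Q : K[X], aeval (Φ t) P = Φ (aeval t Q) := by
  have hinj : Function.Injective (aeval (Φ t) : ℂ[X] →ₐ[ℂ] Λ) :=
    transcendental_iff_injective.mp htr
  -- the ring isomorphism `K[X] ≃ Φ(K[t])`
  let ψ : K[X] →+* ((Algebra.adjoin K {t}).toSubring.map Φ) :=
    RingHom.codRestrict (((aeval (Φ t) : ℂ[X] →ₐ[ℂ] Λ) : ℂ[X] →+* Λ).comp (mapRingHom ι)) _
      (fun Q => (mem_map_adjoin_iff ι Φ hΦc t _).mpr ⟨Q, rfl⟩)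
  have hψ : ∀ Q : K[X], ((ψ Q : (Algebra.adjoin K {t}).toSubring.map Φ) : Λ)
      = aeval (Φ t) (Q.map ι) := fun Q => rfl
  have hψinj : Function.Injective ψ := by
    intro Q₁ Q₂ h
    have h1 : aeval (Φ t) (Q₁.map ι) = aeval (Φ t) (Q₂.map ι) := by
      rw [← hψ, ← hψ, h]
    exact Polynomial.map_injective ι ι.injective (hinj h1)
  have hψsurj : Function.Surjective ψ := by
    intro s
    obtain ⟨Q, hQ⟩ := (mem_map_adjoin_iff ι Φ hΦc t s).mp s.2
    exact ⟨Q, Subtype.ext (by rw [hψ, hQ])⟩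
  let e : K[X] ≃+* ((Algebra.adjoin K {t}).toSubring.map Φ) :=
    RingEquiv.ofBijective ψ ⟨hψinj, hψsurj⟩
  have he : ∀ s : (Algebra.adjoin K {t}).toSubring.map Φ,
      aeval (Φ t) ((e.symm s).map ι) = (s : Λ) := by
    intro s
    have h1 : e (e.symm s) = s := e.apply_symm_apply s
    rw [← hψ]
    exact congrArg Subtype.val h1
  obtain ⟨p, hpm, hpx⟩ := hint
  -- `P` is integral over `K[X]` (mapped into `ℂ[X]`)
  have hP : (mapRingHom ι).IsIntegralElem P := by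
    refine ⟨p.map (e.symm : ((Algebra.adjoin K {t}).toSubring.map Φ) →+* K[X]), hpm.map _, ?_⟩
    apply hinj
    rw [map_zero]
    have h1 := hom_eval₂ (p.map (e.symm : ((Algebra.adjoin K {t}).toSubring.map Φ) →+* K[X]))
      (mapRingHom ι) ((aeval (Φ t) : ℂ[X] →ₐ[ℂ] Λ) : ℂ[X] →+* Λ) P
    have h2 : (((aeval (Φ t) : ℂ[X] →ₐ[ℂ] Λ) : ℂ[X] →+* Λ).comp (mapRingHom ι)).comp
        (e.symm : ((Algebra.adjoin K {t}).toSubring.map Φ) →+* K[X])
        = algebraMap ((Algebra.adjoin K {t}).toSubring.map Φ) Λ := by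
      ext s
      exact he s
    refine h1.trans ?_
    rw [eval₂_map, h2]
    exact hpx
  obtain ⟨Q, hQ⟩ := H76.polynomial_mem_range_of_isIntegralElem ι P hP
  exact ⟨Q, by rw [Phi_aeval ι Φ hΦc t Q, hQ]⟩

/-- Core of D1b-inv: an element `x` of `Λ` of the form `P(Φ t)/Q(Φ t)` which is integral over
`Φ(K[t])` lies in `Φ(K[t])`. -/
theorem exists_aeval_of_fraction_of_isIntegral [IsAlgClosed K]
    (hΦc : ∀ c : K, Φ (algebraMap K F c) = algebraMap ℂ Λ (ι c)) (t : F)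
    (htr : Transcendental ℂ (Φ t)) (x : Λ) (P Q : ℂ[X]) (hQ : Q ≠ 0)
    (h : x * aeval (Φ t) Q = aeval (Φ t) P)
    (hint : IsIntegral ((Algebra.adjoin K {t}).toSubring.map Φ) x) :
    ∃ R : K[X], x = Φ (aeval t R) := by
  obtain ⟨P', hP'⟩ := H26.eq_aeval_of_isIntegral (Φ t) htr x P Q hQ h
    (isIntegral_adjoin_of_isIntegral_map ι Φ hΦc t x hint)
  rw [hP'] at hint ⊢
  exact exists_rational_of_isIntegral ι Φ hΦc t htr P' hint

end Abstract

section Reverse

variable {k Λ : Type*} [Field k] [Field Λ] [Algebra k Λ]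

/-- a rational expression in `u` is a rational expression in `u⁻¹` -/
theorem exists_fraction_inv (u : Λ) (hu : u ≠ 0) (x : Λ) (P Q : k[X]) (hQ : Q ≠ 0)
    (h : x * aeval u Q = aeval u P) :
    ∃ P' Q' : k[X], Q' ≠ 0 ∧ x * aeval u⁻¹ Q' = aeval u⁻¹ P' := by
  have hP : eval₂ (algebraMap k Λ) u⁻¹ P.reverse * u ^ P.natDegree = eval₂ (algebraMap k Λ) u P := by
    let _ : Invertible u := invertibleOfNonzero hu
    have := eval₂_reverse_mul_pow (algebraMap k Λ) u P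
    rwa [invOf_eq_inv] at this
  have hQr : eval₂ (algebraMap k Λ) u⁻¹ Q.reverse * u ^ Q.natDegree = eval₂ (algebraMap k Λ) u Q := by
    let _ : Invertible u := invertibleOfNonzero hu
    have := eval₂_reverse_mul_pow (algebraMap k Λ) u Q
    rwa [invOf_eq_inv] at this
  refine ⟨P.reverse * X ^ Q.natDegree, Q.reverse * X ^ P.natDegree, ?_, ?_⟩
  · exact mul_ne_zero (by rwa [ne_eq, reverse_eq_zero]) (pow_ne_zero _ X_ne_zero)
  · simp only [map_mul, map_pow, aeval_X]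
    rw [aeval_def, aeval_def] at h ⊢
    rw [← hP, ← hQr] at h
    generalize eval₂ (algebraMap k Λ) u⁻¹ P.reverse = B at h ⊢
    generalize eval₂ (algebraMap k Λ) u⁻¹ Q.reverse = A at h ⊢
    have hu' : u ^ P.natDegree ≠ 0 := pow_ne_zero _ hu
    have hu'' : u ^ Q.natDegree ≠ 0 := pow_ne_zero _ hu
    rw [inv_pow, inv_pow]
    field_simp
    linear_combination h

end Reverse

section Modular

variable {N : ℕ} [NeZero N] (j : RN N) (hj : ∀ z : ℍ, (j : ℍ → ℂ) z = jFun z)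
  {K : Type*} [Field K] [IsAlgClosed K] (ι : K →+* ℂ)
  {F : Type*} [Field F] [Algebra K F] (Φ : F →+* L N)
  (hΦc : ∀ c : K, Φ (algebraMap K F c) = algebraMap ℂ (L N) (ι c))
  (t : F) (hΦt : Φ t = algebraMap (RN N) (L N) j)

include hj hΦc hΦt

/-- **D1b-inv (field `invariant_j` of `AnalyticCover`).** -/
theorem invariant_j_of (x : L N) (hx : ∀ g : SL(2, ℤ), g • x = x)
    (hint : IsIntegral ((Algebra.adjoin K {t}).toSubring.map Φ) x) :
    ∃ P : K[X], x = Φ (aeval t P) := by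
  obtain ⟨P, Q, hQ, hPQ⟩ := H26.fixed_mem j hj x hx
  have htr : Transcendental ℂ (Φ t) := hΦt ▸ H26.transcendental_jL j hj
  rw [← hΦt] at hPQ
  exact exists_aeval_of_fraction_of_isIntegral ι Φ hΦc t htr x P Q hQ hPQ hint

/-- **D1b-inv (field `invariant_jinv` of `AnalyticCover`).** -/
theorem invariant_jinv_of (x : L N) (hx : ∀ g : SL(2, ℤ), g • x = x)
    (hint : IsIntegral ((Algebra.adjoin K {t⁻¹}).toSubring.map Φ) x) :
    ∃ P : K[X], x = Φ (aeval t⁻¹ P) := by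
  obtain ⟨P, Q, hQ, hPQ⟩ := H26.fixed_mem j hj x hx
  have htr : Transcendental ℂ (Φ t) := hΦt ▸ H26.transcendental_jL j hj
  have hu : Φ t ≠ 0 := fun h0 => htr (h0 ▸ isAlgebraic_zero)
  have htr' : Transcendental ℂ (Φ t⁻¹) := by
    rw [map_inv₀]
    intro halg
    exact htr (inv_inv (Φ t) ▸ halg.inv)
  rw [← hΦt] at hPQ
  obtain ⟨P', Q', hQ', h'⟩ := exists_fraction_inv (Φ t) hu x P Q hQ hPQ
  rw [← map_inv₀] at h'
  exact exists_aeval_of_fraction_of_isIntegral ι Φ hΦc t⁻¹ htr' x P' Q' hQ' h' hint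

end Modular

end Fermat.Agent.S24.H89
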