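import Mathlib

/-!
S24, task B6 (function level): conjugates of `j(dz)`.
Hermite normal form, growth at `i∞` of `z ↦ J((a z + b)/d)`, invariance of `z ↦ J(dz)` under
`Γ₀(N)` for `d ∣ N`, and distinctness of the conjugates of `z ↦ J(Nz)`.
Owner of this file: helper23.
-/

set_option autoImplicit false

namespace Fermat.Agent.S24.H23

open UpperHalfPlane Filter Topology Complex ModularForm CongruenceSubgroup
open scoped MatrixGroups Real Manifold

local notation "𝕢" => Function.Periodic.qParam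

/-! ### The function `J = E₄³/Δ` -/

/-- The `j`-function (without the factor `1728`), written out. -/
noncomputable def J (z : ℍ) : ℂ := E₄ z ^ 3 / ModularForm.discriminant z

theorem J_apply (z : ℍ) : J z = E₄ z ^ 3 / ModularForm.discriminant z := rfl

theorem E4_smul (γ : SL(2, ℤ)) (z : ℍ) : E₄ (γ • z) = denom γ z ^ (4 : ℤ) * E₄ z := by
  have h := SlashInvariantForm.slash_action_eqn'' E₄
    (show Matrix.SpecialLinearGroup.mapGL ℝ γ ∈ 𝒮ℒ from ⟨γ, rfl⟩) z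
  exact h

theorem discriminant_smul (γ : SL(2, ℤ)) (z : ℍ) :
    ModularForm.discriminant (γ • z) = denom γ z ^ (12 : ℤ) * ModularForm.discriminant z := by
  have h := SlashInvariantForm.slash_action_eqn'' CuspForm.discriminant
    (show Matrix.SpecialLinearGroup.mapGL ℝ γ ∈ 𝒮ℒ from ⟨γ, rfl⟩) z
  exact h

/-- `J` is `SL(2, ℤ)`-invariant. -/
theorem J_smul (γ : SL(2, ℤ)) (z : ℍ) : J (γ • z) = J z := by
  have hd : denom γ z ≠ 0 := denom_ne_zero γ z
  have hΔ := ModularForm.discriminant_ne_zero z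
  rw [J, J, E4_smul, discriminant_smul]
  have h4 : (denom γ z ^ (4 : ℤ)) ^ 3 = denom γ z ^ (12 : ℤ) := by
    rw [← zpow_natCast, ← zpow_mul]; norm_num
  rw [mul_pow, h4]
  field_simp

theorem differentiableOn_J :
    DifferentiableOn ℂ (J ∘ ofComplex) {z : ℂ | 0 < z.im} := by
  have h1 : DifferentiableOn ℂ ((fun z : ℍ => E₄ z) ∘ ofComplex) {z | 0 < z.im} :=
    UpperHalfPlane.mdifferentiable_iff.mp (ModularFormClass.holo E₄)
  have h2 : DifferentiableOn ℂ (ModularForm.discriminant ∘ ofComplex) {z | 0 < z.im} :=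
    UpperHalfPlane.mdifferentiable_iff.mp (ModularFormClass.holo CuspForm.discriminant)
  have h3 : DifferentiableOn ℂ
      (fun w : ℂ => ((fun z : ℍ => E₄ z) ∘ ofComplex) w ^ 3 /
        (ModularForm.discriminant ∘ ofComplex) w) {z | 0 < z.im} :=
    (h1.pow 3).div h2 fun w _ => ModularForm.discriminant_ne_zero _
  exact h3

/-- `J` is holomorphic. -/
theorem mdiff_J : MDiff J :=
  UpperHalfPlane.mdifferentiable_iff.mpr differentiableOn_J

theorem tendsto_E4 : Tendsto (fun z : ℍ => E₄ z) atImInfty (𝓝 1) := by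
  obtain ⟨c, hc, hO⟩ := ModularFormClass.exp_decay_sub_atImInfty' E₄
  have hv : valueAtInfty (E₄ : ℍ → ℂ) = 1 := by
    rw [← UpperHalfPlane.qExpansion_coeff_zero one_pos
      (ModularFormClass.analyticAt_cuspFunction_zero E₄ one_pos one_mem_strictPeriods_SL)
      (SlashInvariantFormClass.periodic_comp_ofComplex E₄ one_mem_strictPeriods_SL)]
    exact EisensteinSeries.E_qExpansion_coeff_zero _ ⟨2, rfl⟩
  rw [hv] at hO
  have h0 : Tendsto (fun τ : ℍ => Real.exp (-c * τ.im)) atImInfty (𝓝 0) := by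
    have h1 : Tendsto (fun τ : ℍ => τ.im) atImInfty atTop := tendsto_comap
    have h2 : Tendsto (fun τ : ℍ => -c * τ.im) atImInfty atBot :=
      h1.const_mul_atTop_of_neg (by linarith)
    exact Real.tendsto_exp_atBot.comp h2
  have h3 := hO.trans_tendsto h0
  have h4 := h3.add_const (1 : ℂ)
  simpa using h4

/-- `J z * q(z) → 1` at `i∞`, `q(z) = exp(2πi z)`. -/
theorem tendsto_J_mul_q : Tendsto (fun z : ℍ => J z * 𝕢 1 z) atImInfty (𝓝 1) := by
  have h1 : Tendsto (fun z : ℍ => E₄ z ^ 3) atImInfty (𝓝 (1 ^ 3)) := tendsto_E4.pow 3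
  have h2 := ModularForm.tendsto_atImInfty_tprod_one_sub_eta_q_pow
  have h3 := h1.div h2 one_ne_zero
  rw [one_pow, div_one] at h3
  refine h3.congr fun z => ?_
  have hq : 𝕢 1 (z : ℂ) ≠ 0 := Function.Periodic.qParam_ne_zero _
  have hΔ := ModularForm.discriminant_ne_zero z
  have hprod : (∏' n, (1 - ModularForm.eta_q n z) ^ 24) ≠ 0 := by
    intro h0
    apply hΔ
    rw [ModularForm.discriminant_eq_q_prod, h0, mul_zero]
  simp only [Pi.div_apply]
  rw [J, ModularForm.discriminant_eq_q_prod]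
  field_simp

/-! ### Hermite normal form -/

/-- Hermite normal form of an integer matrix with positive determinant. -/
theorem exists_hermite (M : Matrix (Fin 2) (Fin 2) ℤ) (hM : 0 < M.det) :
    ∃ (δ : SL(2, ℤ)) (a b d : ℤ), 0 < a ∧ 0 < d ∧
      (δ : Matrix (Fin 2) (Fin 2) ℤ) * M = !![a, b; 0, d] := by
  have hdet : M 0 0 * M 1 1 - M 0 1 * M 1 0 = M.det := (Matrix.det_fin_two M).symm
  have hne : M 0 0 ≠ 0 ∨ M 1 0 ≠ 0 := by
    by_contra hcon
    rw [not_or, not_not, not_not] at hcon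
    rw [hcon.1, hcon.2] at hdet
    simp at hdet
    omega
  have hg : 0 < Int.gcd (M 0 0) (M 1 0) := by
    rcases hne with h | h
    · exact Int.gcd_pos_of_ne_zero_left _ h
    · exact Int.gcd_pos_of_ne_zero_right _ h
  obtain ⟨p', r', hpr, hp, hr⟩ := Int.exists_gcd_one hg
  have hg0 : (0 : ℤ) < (Int.gcd (M 0 0) (M 1 0) : ℤ) := Int.natCast_pos.mpr hg
  generalize (Int.gcd (M 0 0) (M 1 0) : ℤ) = g at hp hr hg0
  have hcop : IsCoprime (-r') p' :=
    (Int.isCoprime_iff_gcd_eq_one.mpr hpr).symm.neg_left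
  obtain ⟨δ, hδ0, hδ1⟩ := hcop.exists_SL2_row 1
  have hδdet : δ 0 0 * δ 1 1 - δ 0 1 * δ 1 0 = 1 := by
    have h0 := δ.det_coe
    rw [Matrix.det_fin_two] at h0
    exact h0
  have hA00 : ((δ : Matrix (Fin 2) (Fin 2) ℤ) * M) 0 0 = g := by
    rw [Matrix.mul_apply, Fin.sum_univ_two, hp, hr]
    rw [hδ0, hδ1] at hδdet
    linear_combination g * hδdet
  have hA10 : ((δ : Matrix (Fin 2) (Fin 2) ℤ) * M) 1 0 = 0 := by
    rw [Matrix.mul_apply, Fin.sum_univ_two, hδ0, hδ1, hp, hr]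
    ring
  have hAdet : ((δ : Matrix (Fin 2) (Fin 2) ℤ) * M).det = M.det := by
    rw [Matrix.det_mul, δ.det_coe, one_mul]
  have hA11 : 0 < ((δ : Matrix (Fin 2) (Fin 2) ℤ) * M) 1 1 := by
    rw [Matrix.det_fin_two, hA00, hA10, mul_zero, sub_zero] at hAdet
    have h1 : 0 < g * ((δ : Matrix (Fin 2) (Fin 2) ℤ) * M) 1 1 := by rw [hAdet]; exact hM
    exact (mul_pos_iff_of_pos_left hg0).mp h1
  refine ⟨δ, g, ((δ : Matrix (Fin 2) (Fin 2) ℤ) * M) 0 1,
    ((δ : Matrix (Fin 2) (Fin 2) ℤ) * M) 1 1, hg0, hA11, ?_⟩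
  ext i j
  fin_cases i <;> fin_cases j
  · exact hA00
  · rfl
  · exact hA10
  · rfl

/-! ### The functions `z ↦ J((a z + b)/d)` -/

theorem im_abd_pos {a d : ℤ} (ha : 0 < a) (hd : 0 < d) (b : ℤ) (z : ℍ) :
    0 < ((((a : ℂ) * z + b) / d)).im := by
  rw [Complex.div_intCast_im]
  have h1 : ((a : ℂ) * z + b).im = a * z.im := by
    simp
  rw [h1]
  have ha' : (0 : ℝ) < a := by exact_mod_cast ha
  have hd' : (0 : ℝ) < d := by exact_mod_cast hd
  exact div_pos (mul_pos ha' z.im_pos) hd'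

/-- `z ↦ J((a z + b)/d)`. -/
noncomputable def Jabd (a b d : ℤ) (z : ℍ) : ℂ := J (ofComplex (((a : ℂ) * z + b) / d))

/-- `z ↦ J(d z)`. -/
noncomputable def jdF (d : ℕ) (z : ℍ) : ℂ := J (ofComplex ((d : ℂ) * z))

theorem jdF_eq_Jabd (d : ℕ) (z : ℍ) : jdF d z = Jabd d 0 1 z := by
  simp [jdF, Jabd]

theorem jdF_one (z : ℍ) : jdF 1 z = J z := by
  simp [jdF]

theorem coe_SL_smul (g : SL(2, ℤ)) (z : ℍ) :
    ((g • z : ℍ) : ℂ) =
      ((g 0 0 : ℂ) * z + (g 0 1 : ℂ)) / ((g 1 0 : ℂ) * z + (g 1 1 : ℂ)) := by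
  rw [coe_specialLinearGroup_apply]
  simp

theorem SL_denom_ne_zero (g : SL(2, ℤ)) (z : ℍ) :
    ((g 1 0 : ℂ) * z + (g 1 1 : ℂ)) ≠ 0 := by
  have h := denom_ne_zero g z
  simpa [denom] using h

theorem im_natCast_mul_pos {e : ℕ} (he : 0 < e) (z : ℍ) : 0 < ((e : ℂ) * (z : ℂ)).im := by
  have h1 : ((e : ℂ) * (z : ℂ)).im = e * z.im := by simp
  rw [h1]
  have he' : (0 : ℝ) < e := by exact_mod_cast he
  exact mul_pos he' z.im_pos

theorem diag_mul_eq (e : ℤ) (g : Matrix (Fin 2) (Fin 2) ℤ) :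
    !![e, 0; 0, 1] * g = !![e * g 0 0, e * g 0 1; g 1 0, g 1 1] := by
  ext i j
  fin_cases i <;> fin_cases j <;> simp [Matrix.mul_apply, Fin.sum_univ_two]

theorem coe_ofComplex_natCast_mul {e : ℕ} (he : 0 < e) (w : ℍ) :
    ((ofComplex ((e : ℂ) * (w : ℂ)) : ℍ) : ℂ) = (e : ℂ) * (w : ℂ) := by
  rw [ofComplex_apply_of_im_pos (im_natCast_mul_pos he w)]

theorem coe_ofComplex_abd {a d : ℤ} (ha : 0 < a) (hd : 0 < d) (b : ℤ) (z : ℍ) :
    ((ofComplex (((a : ℂ) * z + b) / d) : ℍ) : ℂ) = ((a : ℂ) * z + b) / d := by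
  rw [ofComplex_apply_of_im_pos (im_abd_pos ha hd b z)]

/-- **(H)** The conjugate `z ↦ J(e · (g z))` is of the form `z ↦ J((a z + b)/d)` with
`a d = e`, via the Hermite normal form of `diag(e, 1) * g`. -/
theorem exists_jdF_smul_eq_Jabd (g : SL(2, ℤ)) {e : ℕ} (he : 0 < e) :
    ∃ (δ : SL(2, ℤ)) (a b d : ℤ), 0 < a ∧ 0 < d ∧ a * d = e ∧
      (δ : Matrix (Fin 2) (Fin 2) ℤ) * (!![(e : ℤ), 0; 0, 1] * (g : Matrix (Fin 2) (Fin 2) ℤ)) =
        !![a, b; 0, d] ∧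
      ∀ z : ℍ, jdF e (g • z) = Jabd a b d z := by
  have hdetM : (!![(e : ℤ), 0; 0, 1] * (g : Matrix (Fin 2) (Fin 2) ℤ)).det = e := by
    rw [Matrix.det_mul, g.det_coe, Matrix.det_fin_two_of]
    ring
  have hpos : 0 < (!![(e : ℤ), 0; 0, 1] * (g : Matrix (Fin 2) (Fin 2) ℤ)).det := by
    rw [hdetM]; exact_mod_cast he
  obtain ⟨δ, a, b, d, ha, hd, hδM⟩ := exists_hermite _ hpos
  have had : a * d = e := by
    have h1 := congrArg Matrix.det hδM
    rw [Matrix.det_mul, δ.det_coe, one_mul, hdetM, Matrix.det_fin_two_of] at h1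
    linarith
  refine ⟨δ, a, b, d, ha, hd, had, hδM, fun z => ?_⟩
  -- the four entries of the matrix identity
  have hδM' := hδM
  rw [diag_mul_eq] at hδM'
  have h00 : δ 0 0 * ((e : ℤ) * g 0 0) + δ 0 1 * g 1 0 = a := by
    have h := congrFun (congrFun hδM' 0) 0
    simpa [Matrix.mul_apply, Fin.sum_univ_two] using h
  have h01 : δ 0 0 * ((e : ℤ) * g 0 1) + δ 0 1 * g 1 1 = b := by
    have h := congrFun (congrFun hδM' 0) 1
    simpa [Matrix.mul_apply, Fin.sum_univ_two] using h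
  have h10 : δ 1 0 * ((e : ℤ) * g 0 0) + δ 1 1 * g 1 0 = 0 := by
    have h := congrFun (congrFun hδM' 1) 0
    simpa [Matrix.mul_apply, Fin.sum_univ_two] using h
  have h11 : δ 1 0 * ((e : ℤ) * g 0 1) + δ 1 1 * g 1 1 = d := by
    have h := congrFun (congrFun hδM' 1) 1
    simpa [Matrix.mul_apply, Fin.sum_univ_two] using h
  have c00 : (δ 0 0 : ℂ) * ((e : ℂ) * (g 0 0 : ℂ)) + (δ 0 1 : ℂ) * (g 1 0 : ℂ) = a := by
    exact_mod_cast congrArg (Int.cast : ℤ → ℂ) h00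
  have c01 : (δ 0 0 : ℂ) * ((e : ℂ) * (g 0 1 : ℂ)) + (δ 0 1 : ℂ) * (g 1 1 : ℂ) = b := by
    exact_mod_cast congrArg (Int.cast : ℤ → ℂ) h01
  have c10 : (δ 1 0 : ℂ) * ((e : ℂ) * (g 0 0 : ℂ)) + (δ 1 1 : ℂ) * (g 1 0 : ℂ) = 0 := by
    exact_mod_cast congrArg (Int.cast : ℤ → ℂ) h10
  have c11 : (δ 1 0 : ℂ) * ((e : ℂ) * (g 0 1 : ℂ)) + (δ 1 1 : ℂ) * (g 1 1 : ℂ) = d := by
    exact_mod_cast congrArg (Int.cast : ℤ → ℂ) h11
  have hQ := SL_denom_ne_zero g z
  have hdC : (d : ℂ) ≠ 0 := by exact_mod_cast hd.ne'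
  have hclaim : δ • ofComplex ((e : ℂ) * ((g • z : ℍ) : ℂ)) =
      ofComplex (((a : ℂ) * z + b) / d) := by
    apply UpperHalfPlane.ext
    rw [coe_SL_smul δ, coe_ofComplex_natCast_mul he, coe_ofComplex_abd ha hd, coe_SL_smul g z]
    have hwQ : ((g 0 0 : ℂ) * z + (g 0 1 : ℂ)) / ((g 1 0 : ℂ) * z + (g 1 1 : ℂ)) *
        ((g 1 0 : ℂ) * z + (g 1 1 : ℂ)) = (g 0 0 : ℂ) * z + (g 0 1 : ℂ) :=
      div_mul_cancel₀ _ hQ
    have hnum : (δ 0 0 : ℂ) * ((e : ℂ) * (((g 0 0 : ℂ) * z + (g 0 1 : ℂ)) /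
        ((g 1 0 : ℂ) * z + (g 1 1 : ℂ)))) + (δ 0 1 : ℂ) =
        ((a : ℂ) * z + b) / ((g 1 0 : ℂ) * z + (g 1 1 : ℂ)) := by
      rw [eq_div_iff hQ]
      linear_combination (δ 0 0 : ℂ) * (e : ℂ) * hwQ + (z : ℂ) * c00 + c01
    have hden : (δ 1 0 : ℂ) * ((e : ℂ) * (((g 0 0 : ℂ) * z + (g 0 1 : ℂ)) /
        ((g 1 0 : ℂ) * z + (g 1 1 : ℂ)))) + (δ 1 1 : ℂ) =
        (d : ℂ) / ((g 1 0 : ℂ) * z + (g 1 1 : ℂ)) := by
      rw [eq_div_iff hQ]
      linear_combination (δ 1 0 : ℂ) * (e : ℂ) * hwQ + (z : ℂ) * c10 + c11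
    rw [hnum, hden, div_div_div_cancel_right₀ hQ]
  rw [jdF, Jabd, ← hclaim, J_smul]

/-! ### Growth at `i∞` -/

theorem im_ofComplex_abd {a d : ℤ} (ha : 0 < a) (hd : 0 < d) (b : ℤ) (z : ℍ) :
    (ofComplex (((a : ℂ) * z + b) / d)).im = (a / d : ℝ) * z.im := by
  rw [← UpperHalfPlane.coe_im, coe_ofComplex_abd ha hd, Complex.div_intCast_im]
  have h1 : ((a : ℂ) * z + b).im = a * z.im := by
    simp
  rw [h1]
  ring

theorem tendsto_ofComplex_abd {a d : ℤ} (ha : 0 < a) (hd : 0 < d) (b : ℤ) :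
    Tendsto (fun z : ℍ => ofComplex (((a : ℂ) * z + b) / d)) atImInfty atImInfty := by
  rw [atImInfty, tendsto_comap_iff]
  have ha' : (0 : ℝ) < a := by exact_mod_cast ha
  have hd' : (0 : ℝ) < d := by exact_mod_cast hd
  have h1 : (UpperHalfPlane.im ∘ fun z : ℍ => ofComplex (((a : ℂ) * z + b) / d)) =
      fun z : ℍ => (a / d : ℝ) * z.im := by
    funext z
    exact im_ofComplex_abd ha hd b z
  rw [h1]
  exact Tendsto.const_mul_atTop (div_pos ha' hd') tendsto_comap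

/-- **(G)** `J((a z + b)/d) * exp(2πi (a z + b)/d) → 1` at `i∞`. -/
theorem tendsto_Jabd {a d : ℤ} (ha : 0 < a) (hd : 0 < d) (b : ℤ) :
    Tendsto (fun z : ℍ => Jabd a b d z * cexp (2 * π * Complex.I * (((a : ℂ) * z + b) / d)))
      atImInfty (𝓝 1) := by
  refine (tendsto_J_mul_q.comp (tendsto_ofComplex_abd ha hd b)).congr fun z => ?_
  simp only [Function.comp_apply, Jabd, Function.Periodic.qParam,
    ofComplex_apply_of_im_pos (im_abd_pos ha hd b z)]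
  simp

/-- the leading term of `z ↦ J((a z + b)/d)` at `i∞` -/
theorem tendsto_Jabd_mul_exp {a d : ℤ} (ha : 0 < a) (hd : 0 < d) (b : ℤ) :
    Tendsto (fun z : ℍ => Jabd a b d z * cexp (2 * π * Complex.I * ((a : ℂ) * z / d)))
      atImInfty (𝓝 (cexp (-(2 * π * Complex.I * ((b : ℂ) / d))))) := by
  have h1 := (tendsto_Jabd ha hd b).mul_const (cexp (-(2 * π * Complex.I * ((b : ℂ) / d))))
  rw [one_mul] at h1
  refine h1.congr fun z => ?_
  rw [mul_assoc, ← Complex.exp_add]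
  congr 2
  ring

/-- `z ↦ J((a z + b)/d)` has moderate growth at `i∞`. -/
theorem isBoundedAtImInfty_Jabd {a d : ℤ} (ha : 0 < a) (hd : 0 < d) (b : ℤ) :
    IsBoundedAtImInfty (fun z : ℍ => Jabd a b d z * cexp (2 * π * Complex.I * (a.toNat : ℕ) * z)) := by
  have ha' : (0 : ℝ) < a := by exact_mod_cast ha
  have hd' : (1 : ℝ) ≤ d := by exact_mod_cast hd
  have hF : IsBoundedAtImInfty
      (fun z : ℍ => Jabd a b d z * cexp (2 * π * Complex.I * (((a : ℂ) * z + b) / d))) :=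
    (tendsto_Jabd ha hd b).isBigO_one ℝ
  have hG : IsBoundedAtImInfty
      (fun z : ℍ => cexp (2 * π * Complex.I * ((a : ℂ) * z - ((a : ℂ) * z + b) / d))) := by
    refine Asymptotics.IsBigO.of_bound 1 (Eventually.of_forall fun z => ?_)
    rw [Complex.norm_exp]
    have h1 : (2 * π * Complex.I * ((a : ℂ) * z - ((a : ℂ) * z + b) / d)).re =
        -(2 * π * (a * z.im - a * z.im / d)) := by
      have h2 : ((a : ℂ) * z - ((a : ℂ) * z + b) / d).im = a * z.im - a * z.im / d := by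
        rw [Complex.sub_im, Complex.div_intCast_im]
        simp
      have h3 : (2 * π * Complex.I * ((a : ℂ) * z - ((a : ℂ) * z + b) / d)).re =
          -(2 * π * ((a : ℂ) * z - ((a : ℂ) * z + b) / d).im) := by
        simp [Complex.mul_re, Complex.mul_im]
      rw [h3, h2]
    rw [h1]
    have h4 : 0 ≤ a * z.im - a * z.im / d := by
      have h5 : a * z.im / d ≤ a * z.im :=
        div_le_self (mul_pos ha' z.im_pos).le hd'
      linarith
    have h6 : Real.exp (-(2 * π * (a * z.im - a * z.im / d))) ≤ 1 := by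
      rw [Real.exp_le_one_iff]
      have := Real.pi_pos
      nlinarith
    simpa using h6
  have hFG := hF.mul hG
  have hcast : ((a.toNat : ℕ) : ℂ) = (a : ℂ) := by
    have h7 : ((a.toNat : ℕ) : ℤ) = a := Int.toNat_of_nonneg ha.le
    exact_mod_cast congrArg (Int.cast : ℤ → ℂ) h7
  refine hFG.congr' (Eventually.of_forall fun z => ?_) (Eventually.of_forall fun z => ?_)
  · simp only [Pi.mul_apply]
    rw [mul_assoc, ← Complex.exp_add, hcast]
    congr 2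
    ring
  · simp

theorem exists_isBoundedAtImInfty_Jabd {a d : ℤ} (ha : 0 < a) (hd : 0 < d) (b : ℤ) :
    ∃ m : ℕ, IsBoundedAtImInfty (fun z : ℍ => Jabd a b d z * cexp (2 * π * Complex.I * m * z)) :=
  ⟨a.toNat, isBoundedAtImInfty_Jabd ha hd b⟩

/-- every `SL(2, ℤ)`-translate of `z ↦ J(e z)` has moderate growth at `i∞` -/
theorem exists_isBoundedAtImInfty_jdF_smul {e : ℕ} (he : 0 < e) (g : SL(2, ℤ)) :
    ∃ m : ℕ, IsBoundedAtImInfty (fun z : ℍ => jdF e (g • z) * cexp (2 * π * Complex.I * m * z)) := by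
  obtain ⟨δ, a, b, d, ha, hd, -, -, hJ⟩ := exists_jdF_smul_eq_Jabd g he
  obtain ⟨m, hm⟩ := exists_isBoundedAtImInfty_Jabd ha hd b
  refine ⟨m, ?_⟩
  have : (fun z : ℍ => jdF e (g • z) * cexp (2 * π * Complex.I * m * z)) =
      fun z : ℍ => Jabd a b d z * cexp (2 * π * Complex.I * m * z) := by
    funext z
    rw [hJ z]
  rw [this]
  exact hm

/-- leading term at `i∞` in the shape of the cusp valuation: with `q_N = exp(2πi z/N)` the
function `z ↦ J((a z + b)/d)` has exact order `k = -(a N)/d` (when `d ∣ a N`). -/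
theorem tendsto_Jabd_cusp (N : ℕ) [NeZero N] {a d : ℤ} (ha : 0 < a) (hd : 0 < d) (b : ℤ)
    {k : ℤ} (hk : k * d = -(a * N)) :
    Tendsto (fun z : ℍ => Jabd a b d z * cexp (-2 * π * Complex.I * k * z / N))
      atImInfty (𝓝 (cexp (-(2 * π * Complex.I * ((b : ℂ) / d))))) := by
  refine (tendsto_Jabd_mul_exp ha hd b).congr fun z => ?_
  have hdC : (d : ℂ) ≠ 0 := by exact_mod_cast hd.ne'
  have hNC : (N : ℂ) ≠ 0 := by exact_mod_cast NeZero.ne N
  have hkC : (k : ℂ) * d = -((a : ℂ) * N) := by exact_mod_cast congrArg (Int.cast : ℤ → ℂ) hk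
  have hk' : (k : ℂ) = -((a : ℂ) * N) / d := by
    rw [eq_div_iff hdC]; exact hkC
  have harg : 2 * π * Complex.I * ((a : ℂ) * z / d) = -2 * π * Complex.I * k * z / N := by
    rw [hk']
    field_simp
  rw [harg]

/-! ### Holomorphy -/

theorem mdiff_Jabd {a d : ℤ} (ha : 0 < a) (hd : 0 < d) (b : ℤ) : MDiff (Jabd a b d) := by
  rw [UpperHalfPlane.mdifferentiable_iff]
  have hmaps : Set.MapsTo (fun w : ℂ => ((a : ℂ) * w + b) / d) {z : ℂ | 0 < z.im}
      {z : ℂ | 0 < z.im} := by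
    intro w hw
    exact im_abd_pos ha hd b ⟨w, hw⟩
  have h1 : DifferentiableOn ℂ (fun w : ℂ => ((a : ℂ) * w + b) / d) {z : ℂ | 0 < z.im} := by
    intro w _
    apply DifferentiableAt.differentiableWithinAt
    fun_prop
  have h2 := differentiableOn_J.comp h1 hmaps
  refine h2.congr fun w hw => ?_
  simp only [Function.comp_apply, Jabd]
  rw [ofComplex_apply_of_im_pos hw]

theorem mdiff_jdF (d : ℕ) : MDiff (jdF d) := by
  rcases Nat.eq_zero_or_pos d with rfl | hd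
  · have : jdF 0 = fun _ => J (ofComplex 0) := by
      funext z
      simp [jdF]
    rw [this]
    exact mdifferentiable_const
  · have : jdF d = Jabd d 0 1 := funext (jdF_eq_Jabd d)
    rw [this]
    exact mdiff_Jabd (by exact_mod_cast hd) one_pos 0

/-! ### Invariance under `Γ₀(N)` -/

/-- `z ↦ J(d z)` is invariant under `Γ₀(N)` when `d ∣ N`. -/
theorem jdF_smul_of_mem_Gamma0 {N d : ℕ} (hd : 0 < d) (hdN : d ∣ N) {γ : SL(2, ℤ)}
    (hγ : γ ∈ Gamma0 N) (z : ℍ) : jdF d (γ • z) = jdF d z := by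
  rw [Gamma0_mem, ZMod.intCast_zmod_eq_zero_iff_dvd] at hγ
  have hdr : (d : ℤ) ∣ γ 1 0 := (Int.natCast_dvd_natCast.mpr hdN).trans hγ
  obtain ⟨r', hr'⟩ := hdr
  have hdet : γ 0 0 * γ 1 1 - γ 0 1 * γ 1 0 = 1 := by
    have h0 := γ.det_coe
    rw [Matrix.det_fin_two] at h0
    exact h0
  let γ' : SL(2, ℤ) := ⟨!![γ 0 0, (d : ℤ) * γ 0 1; r', γ 1 1], by
    rw [Matrix.det_fin_two_of]
    rw [hr'] at hdet
    linear_combination hdet⟩
  have e00 : γ' 0 0 = γ 0 0 := rfl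
  have e01 : γ' 0 1 = (d : ℤ) * γ 0 1 := rfl
  have e10 : γ' 1 0 = r' := rfl
  have e11 : γ' 1 1 = γ 1 1 := rfl
  have hr'C : (γ 1 0 : ℂ) = (d : ℂ) * (r' : ℂ) := by
    exact_mod_cast congrArg (Int.cast : ℤ → ℂ) hr'
  have hQ := SL_denom_ne_zero γ z
  have hclaim : γ' • ofComplex ((d : ℂ) * (z : ℂ)) = ofComplex ((d : ℂ) * ((γ • z : ℍ) : ℂ)) := by
    apply UpperHalfPlane.ext
    rw [coe_SL_smul γ', coe_ofComplex_natCast_mul hd, coe_ofComplex_natCast_mul hd,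
      coe_SL_smul γ z, e00, e01, e10, e11]
    have hden : ((r' : ℤ) : ℂ) * ((d : ℂ) * (z : ℂ)) + (γ 1 1 : ℂ) =
        (γ 1 0 : ℂ) * z + (γ 1 1 : ℂ) := by
      rw [hr'C]; ring
    rw [hden, ← mul_div_assoc]
    congr 1
    push_cast
    ring
  rw [jdF, jdF, ← hclaim, J_smul]

/-- `z ↦ J(z)` is invariant under all of `SL(2, ℤ)`. -/
theorem jdF_one_smul (g : SL(2, ℤ)) (z : ℍ) : jdF 1 (g • z) = jdF 1 z := by
  rw [jdF_one, jdF_one, J_smul]

/-! ### Distinctness of the conjugates of `z ↦ J(N z)` -/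

theorem norm_cexp_two_pi_I_mul (w : ℂ) :
    ‖cexp (2 * π * Complex.I * w)‖ = Real.exp (-(2 * π * w.im)) := by
  rw [Complex.norm_exp]
  congr 1
  simp [Complex.mul_re, Complex.mul_im]

/-- Two exponential growth rates of the same function agree. -/
theorem rate_le_of_tendsto {F : ℍ → ℂ} {α β : ℝ} {c₁ c₂ : ℂ}
    (h₁ : Tendsto (fun z : ℍ => F z * cexp (2 * π * Complex.I * ((α : ℂ) * z + c₁)))
      atImInfty (𝓝 1))
    (h₂ : Tendsto (fun z : ℍ => F z * cexp (2 * π * Complex.I * ((β : ℂ) * z + c₂)))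
      atImInfty (𝓝 1)) : α ≤ β := by
  by_contra hlt
  rw [not_le] at hlt
  -- `‖F z * e(β z + c₂)‖ = ‖F z * e(α z + c₁)‖ * K * exp (2π (α - β) im z)` tends to infinity
  have n₁ := h₁.norm
  have n₂ := h₂.norm
  rw [norm_one] at n₁ n₂
  set K : ℝ := Real.exp (2 * π * (c₁.im - c₂.im)) with hK
  have hKpos : 0 < K := Real.exp_pos _
  have hexp : Tendsto (fun z : ℍ => Real.exp (2 * π * (α - β) * z.im)) atImInfty atTop := by
    have h1 : Tendsto (fun z : ℍ => z.im) atImInfty atTop := tendsto_comap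
    have hpos : 0 < 2 * π * (α - β) := by
      have := Real.pi_pos
      have : 0 < α - β := by linarith
      positivity
    exact Real.tendsto_exp_atTop.comp (h1.const_mul_atTop hpos)
  have h3 : Tendsto (fun z : ℍ => ‖F z * cexp (2 * π * Complex.I * ((α : ℂ) * z + c₁))‖ * K)
      atImInfty (𝓝 (1 * K)) := n₁.mul_const K
  rw [one_mul] at h3
  have h4 := Filter.Tendsto.pos_mul_atTop hKpos h3 hexp
  have h5 : (fun z : ℍ => ‖F z * cexp (2 * π * Complex.I * ((α : ℂ) * z + c₁))‖ * K *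
      Real.exp (2 * π * (α - β) * z.im)) =
      fun z : ℍ => ‖F z * cexp (2 * π * Complex.I * ((β : ℂ) * z + c₂))‖ := by
    funext z
    rw [norm_mul, norm_mul, norm_cexp_two_pi_I_mul, norm_cexp_two_pi_I_mul, hK, mul_assoc,
      mul_assoc, ← Real.exp_add, ← Real.exp_add]
    congr 2
    simp only [Complex.add_im, Complex.mul_im, Complex.ofReal_re, Complex.ofReal_im,
      UpperHalfPlane.coe_im, UpperHalfPlane.coe_re, zero_mul, add_zero]
    ring
  rw [h5] at h4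
  exact not_tendsto_nhds_of_tendsto_atTop h4 1 n₂

theorem rate_eq_of_tendsto {F : ℍ → ℂ} {α β : ℝ} {c₁ c₂ : ℂ}
    (h₁ : Tendsto (fun z : ℍ => F z * cexp (2 * π * Complex.I * ((α : ℂ) * z + c₁)))
      atImInfty (𝓝 1))
    (h₂ : Tendsto (fun z : ℍ => F z * cexp (2 * π * Complex.I * ((β : ℂ) * z + c₂)))
      atImInfty (𝓝 1)) : α = β :=
  le_antisymm (rate_le_of_tendsto h₁ h₂) (rate_le_of_tendsto h₂ h₁)

theorem tendsto_Jabd' {a d : ℤ} (ha : 0 < a) (hd : 0 < d) (b : ℤ) :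
    Tendsto (fun z : ℍ => Jabd a b d z *
      cexp (2 * π * Complex.I * ((((a / d : ℝ)) : ℂ) * z + (b : ℂ) / d)))
      atImInfty (𝓝 1) := by
  refine (tendsto_Jabd ha hd b).congr fun z => ?_
  congr 3
  push_cast
  ring

/-- If `z ↦ J((a z + b)/d)` and `z ↦ J((a' z + b')/d')` agree then `a/d = a'/d'`. -/
theorem mul_eq_mul_of_Jabd_eq {a d a' d' : ℤ} (ha : 0 < a) (hd : 0 < d) (ha' : 0 < a')
    (hd' : 0 < d') (b b' : ℤ) (h : ∀ z : ℍ, Jabd a b d z = Jabd a' b' d' z) :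
    a * d' = a' * d := by
  have h₁ := tendsto_Jabd' ha hd b
  have h₂ := tendsto_Jabd' ha' hd' b'
  have h₂' : Tendsto (fun z : ℍ => Jabd a b d z *
      cexp (2 * π * Complex.I * ((((a' / d' : ℝ)) : ℂ) * z + (b' : ℂ) / d')))
      atImInfty (𝓝 1) := by
    refine h₂.congr fun z => ?_
    rw [h z]
  have hrate : (a / d : ℝ) = a' / d' := rate_eq_of_tendsto h₁ h₂'
  have hdR : (d : ℝ) ≠ 0 := by exact_mod_cast hd.ne'
  have hd'R : (d' : ℝ) ≠ 0 := by exact_mod_cast hd'.ne'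
  rw [div_eq_div_iff hdR hd'R] at hrate
  exact_mod_cast hrate

/-- **(iii) Distinctness.** If `z ↦ J(N · g z)` equals `z ↦ J(N z)` then `g ∈ Γ₀(N)`. -/
theorem mem_Gamma0_of_jdF_smul_eq (N : ℕ) [NeZero N] (g : SL(2, ℤ))
    (h : ∀ z : ℍ, jdF N (g • z) = jdF N z) : g ∈ Gamma0 N := by
  have hN : 0 < N := Nat.pos_of_ne_zero (NeZero.ne N)
  have hNZ : (0 : ℤ) < (N : ℤ) := by exact_mod_cast hN
  obtain ⟨δ, a, b, d, ha, hd, had, hδM, hJ⟩ := exists_jdF_smul_eq_Jabd g hN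
  have hJ' : ∀ z : ℍ, Jabd a b d z = Jabd (N : ℤ) 0 1 z := by
    intro z
    rw [← hJ z, h z, jdF_eq_Jabd]
  have hcross := mul_eq_mul_of_Jabd_eq ha hd hNZ one_pos b 0 hJ'
  rw [mul_one] at hcross
  -- `a = N d` and `a d = N` force `d = 1`
  have hd1 : d = 1 := by
    have h1 : (N : ℤ) * (d * d) = (N : ℤ) * 1 := by
      rw [hcross] at had
      linear_combination had
    have h2 : d * d = 1 := mul_left_cancel₀ hNZ.ne' h1
    nlinarith
  subst hd1
  -- the bottom row of `δ * (diag(N, 1) * g) = !![N, b; 0, 1]`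
  have hδM' := hδM
  rw [diag_mul_eq] at hδM'
  have h10 : δ 1 0 * ((N : ℤ) * g 0 0) + δ 1 1 * g 1 0 = 0 := by
    have h := congrFun (congrFun hδM' 1) 0
    simpa [Matrix.mul_apply, Fin.sum_univ_two] using h
  have h11 : δ 1 0 * ((N : ℤ) * g 0 1) + δ 1 1 * g 1 1 = 1 := by
    have h := congrFun (congrFun hδM' 1) 1
    simpa [Matrix.mul_apply, Fin.sum_univ_two] using h
  have hdet : g 0 0 * g 1 1 - g 0 1 * g 1 0 = 1 := by
    have h0 := g.det_coe
    rw [Matrix.det_fin_two] at h0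
    exact h0
  have hg10 : g 1 0 = (N : ℤ) * (-δ 1 0) := by
    linear_combination (-(g 1 0)) * h11 + g 1 1 * h10 - (N : ℤ) * δ 1 0 * hdet
  rw [Gamma0_mem, ZMod.intCast_zmod_eq_zero_iff_dvd]
  exact ⟨-δ 1 0, hg10⟩

/-- `g ∈ Γ₀(N)` iff `z ↦ J(N z)` is `g`-invariant. -/
theorem mem_Gamma0_iff_jdF_smul_eq (N : ℕ) [NeZero N] (g : SL(2, ℤ)) :
    g ∈ Gamma0 N ↔ ∀ z : ℍ, jdF N (g • z) = jdF N z :=
  ⟨fun hg z => jdF_smul_of_mem_Gamma0 (Nat.pos_of_ne_zero (NeZero.ne N)) dvd_rfl hg z,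
    mem_Gamma0_of_jdF_smul_eq N g⟩

end Fermat.Agent.S24.H23
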