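import Mathlib
import Fermat.Agent.S24.Defs_helper31
import Fermat.Agent.S24.ConjFun_helper23

/-!
S24, task B6 (packaging against `Defs_helper31`): the functions `z ↦ j(d z)`, `d ∣ N`, as
elements `jd N d hd` of `RN N`; their invariance under `Γ₀(N)`; the stabiliser of `jd N N` is
exactly `Γ₀(N)` (distinctness of the conjugates); leading terms at the cusp.
Owner of this file: helper23.
-/

set_option autoImplicit false

namespace Fermat.Agent.S24.H23

open UpperHalfPlane Filter Topology Complex ModularForm CongruenceSubgroup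
open scoped MatrixGroups Real Manifold
open Fermat.Agent.S24.H31

theorem jFun_eq_J : jFun = J := rfl

theorem jdFun_eq_jdF (d : ℕ) : jdFun d = jdF d := rfl

theorem Gamma_le_Gamma0 (N : ℕ) : CongruenceSubgroup.Gamma N ≤ Gamma0 N := by
  intro γ hγ
  rw [Gamma_mem] at hγ
  rw [Gamma0_mem]
  exact hγ.2.2.1

theorem pos_of_dvd_neZero {N d : ℕ} [NeZero N] (hd : d ∣ N) : 0 < d :=
  Nat.pos_of_dvd_of_pos hd (Nat.pos_of_ne_zero (NeZero.ne N))

/-- every translate of `z ↦ j(e z)` (`e > 0`) has moderate growth at `i∞` -/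
theorem meroAtInfty_jdFun_smul {e : ℕ} (he : 0 < e) (g : SL(2, ℤ)) :
    MeroAtInfty (fun z : ℍ => jdFun e (g • z)) :=
  exists_isBoundedAtImInfty_jdF_smul he g

/-- **(i)** `z ↦ j(d z)` is a weakly holomorphic modular function of level `Γ(N)` for `d ∣ N`. -/
theorem isWH_jdFun {N : ℕ} [NeZero N] {d : ℕ} (hd : d ∣ N) : IsWH N (jdFun d) where
  mdiff := mdiff_jdF d
  inv _ hγ z := jdF_smul_of_mem_Gamma0 (pos_of_dvd_neZero hd) hd (Gamma_le_Gamma0 N hγ) z
  mero g := meroAtInfty_jdFun_smul (pos_of_dvd_neZero hd) g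

/-- **(i)** `z ↦ j(d z)` as an element of `RN N`, for `d ∣ N`. -/
noncomputable def jd (N : ℕ) [NeZero N] (d : ℕ) (hd : d ∣ N) : RN N :=
  ⟨jdFun d, isWH_jdFun hd⟩

@[simp]
theorem coe_jd (N : ℕ) [NeZero N] (d : ℕ) (hd : d ∣ N) :
    ((jd N d hd : RN N) : ℍ → ℂ) = jdFun d := rfl

theorem jd_apply (N : ℕ) [NeZero N] (d : ℕ) (hd : d ∣ N) (z : ℍ) :
    ((jd N d hd : RN N) : ℍ → ℂ) z = jFun (ofComplex ((d : ℂ) * (z : ℂ))) := rfl

theorem jd_one_apply (N : ℕ) [NeZero N] (z : ℍ) :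
    ((jd N 1 (one_dvd N) : RN N) : ℍ → ℂ) z = jFun z :=
  jdF_one z

theorem smul_jd_apply (N : ℕ) [NeZero N] (d : ℕ) (hd : d ∣ N) (g : SL(2, ℤ)) (z : ℍ) :
    ((g • jd N d hd : RN N) : ℍ → ℂ) z = jdFun d (g⁻¹ • z) := rfl

/-- **(ii)** `jd N d` is `Γ₀(N)`-invariant. -/
theorem smul_jd_of_mem_Gamma0 {N : ℕ} [NeZero N] {d : ℕ} (hd : d ∣ N) {γ : SL(2, ℤ)}
    (hγ : γ ∈ Gamma0 N) : γ • jd N d hd = jd N d hd := by
  apply Subtype.ext
  funext z
  exact jdF_smul_of_mem_Gamma0 (pos_of_dvd_neZero hd) hd (inv_mem hγ) z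

/-- **(ii)** `jd N 1 = j` is `SL(2, ℤ)`-invariant. -/
theorem smul_jd_one (N : ℕ) [NeZero N] (g : SL(2, ℤ)) :
    g • jd N 1 (one_dvd N) = jd N 1 (one_dvd N) := by
  apply Subtype.ext
  funext z
  exact jdF_one_smul g⁻¹ z

/-- **(iii)** function form, in the `Defs` shape. -/
theorem mem_Gamma0_of_jdFun_smul_eq (N : ℕ) [NeZero N] (g : SL(2, ℤ))
    (h : ∀ z : ℍ, jdFun N (g • z) = jdFun N z) : g ∈ Gamma0 N :=
  mem_Gamma0_of_jdF_smul_eq N g h

/-- **(iii)** the stabiliser of `jd N N` is `Γ₀(N)`. -/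
theorem smul_jd_self_eq_iff (N : ℕ) [NeZero N] (g : SL(2, ℤ)) :
    g • jd N N dvd_rfl = jd N N dvd_rfl ↔ g ∈ Gamma0 N := by
  constructor
  · intro h
    have h1 : g⁻¹ ∈ Gamma0 N := by
      apply mem_Gamma0_of_jdF_smul_eq N g⁻¹
      intro z
      exact congrFun (congrArg Subtype.val h) z
    simpa using inv_mem h1
  · intro hg
    exact smul_jd_of_mem_Gamma0 dvd_rfl hg

theorem stabilizer_jd_self (N : ℕ) [NeZero N] :
    MulAction.stabilizer SL(2, ℤ) (jd N N dvd_rfl) = Gamma0 N := by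
  ext g
  rw [MulAction.mem_stabilizer_iff]
  exact smul_jd_self_eq_iff N g

/-- **(iii)** the conjugates `g • jd N N` are indexed by the cosets `SL(2, ℤ) ⧸ Γ₀(N)`. -/
theorem smul_jd_self_eq_smul_iff (N : ℕ) [NeZero N] (g h : SL(2, ℤ)) :
    g • jd N N dvd_rfl = h • jd N N dvd_rfl ↔
      (QuotientGroup.mk g : SL(2, ℤ) ⧸ Gamma0 N) = QuotientGroup.mk h := by
  rw [QuotientGroup.eq, ← smul_jd_self_eq_iff N (g⁻¹ * h), mul_smul, inv_smul_eq_iff]
  exact eq_comm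

/-! ### The same statements in the fraction field `L N` -/

theorem algebraMap_L_injective (N : ℕ) : Function.Injective (algebraMap (RN N) (L N)) :=
  IsFractionRing.injective (RN N) (L N)

/-- **(ii)** in `L N`. -/
theorem smul_algebraMap_jd_of_mem_Gamma0 {N : ℕ} [NeZero N] {d : ℕ} (hd : d ∣ N)
    {γ : SL(2, ℤ)} (hγ : γ ∈ Gamma0 N) :
    γ • algebraMap (RN N) (L N) (jd N d hd) = algebraMap (RN N) (L N) (jd N d hd) := by
  rw [smul_algebraMap_L, smul_jd_of_mem_Gamma0 hd hγ]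

/-- **(ii)** in `L N`: `j` is `SL(2, ℤ)`-invariant. -/
theorem smul_algebraMap_jd_one (N : ℕ) [NeZero N] (g : SL(2, ℤ)) :
    g • algebraMap (RN N) (L N) (jd N 1 (one_dvd N)) =
      algebraMap (RN N) (L N) (jd N 1 (one_dvd N)) := by
  rw [smul_algebraMap_L, smul_jd_one]

/-- **(iii)** in `L N`. -/
theorem smul_algebraMap_jd_self_eq_iff (N : ℕ) [NeZero N] (g : SL(2, ℤ)) :
    g • algebraMap (RN N) (L N) (jd N N dvd_rfl) = algebraMap (RN N) (L N) (jd N N dvd_rfl) ↔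
      g ∈ Gamma0 N := by
  rw [smul_algebraMap_L, (algebraMap_L_injective N).eq_iff, smul_jd_self_eq_iff]

/-- **(iii)** in `L N`: the conjugates of `j(N z)` are pairwise distinct on
`SL(2, ℤ) ⧸ Γ₀(N)`. -/
theorem smul_algebraMap_jd_self_eq_smul_iff (N : ℕ) [NeZero N] (g h : SL(2, ℤ)) :
    g • algebraMap (RN N) (L N) (jd N N dvd_rfl) =
        h • algebraMap (RN N) (L N) (jd N N dvd_rfl) ↔
      (QuotientGroup.mk g : SL(2, ℤ) ⧸ Gamma0 N) = QuotientGroup.mk h := by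
  rw [smul_algebraMap_L, smul_algebraMap_L, (algebraMap_L_injective N).eq_iff,
    smul_jd_self_eq_smul_iff]

/-! ### Leading terms at the cusp -/

/-- **(G)** leading term of `j` at `i∞` in the parameter `q_N`: exact order `-N`. -/
theorem tendsto_jd_one_cusp (N : ℕ) [NeZero N] :
    Tendsto (fun z : ℍ => ((jd N 1 (one_dvd N) : RN N) : ℍ → ℂ) z *
      cexp (-2 * π * Complex.I * ((-(N : ℤ) : ℤ) : ℂ) * z / N)) atImInfty (𝓝 1) := by
  have h := tendsto_Jabd_cusp N (a := 1) (d := 1) one_pos one_pos 0 (k := -(N : ℤ))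
    (by ring)
  simp only [Int.cast_zero, Int.cast_one, zero_div, mul_zero, neg_zero, Complex.exp_zero] at h
  refine h.congr fun z => ?_
  rw [coe_jd, jdFun_eq_jdF, jdF_eq_Jabd]
  simp

/-- **(H)+(G)** every translate of `jd N e` is some `z ↦ j((a z + b)/d)` with `a d = e`, and has
exact order `-(a * (N / d))` at `i∞` in the parameter `q_N`. -/
theorem exists_cusp_smul_jd (N : ℕ) [NeZero N] (e : ℕ) (he : e ∣ N) (g : SL(2, ℤ)) :
    ∃ (a b d : ℤ) (c : ℂ), 0 < a ∧ 0 < d ∧ a * d = e ∧ c ≠ 0 ∧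
      (∀ z : ℍ, ((g • jd N e he : RN N) : ℍ → ℂ) z = Jabd a b d z) ∧
      Tendsto (fun z : ℍ => ((g • jd N e he : RN N) : ℍ → ℂ) z *
        cexp (-2 * π * Complex.I * ((-(a * ((N : ℤ) / d)) : ℤ) : ℂ) * z / N))
        atImInfty (𝓝 c) := by
  obtain ⟨δ, a, b, d, ha, hd, had, -, hJ⟩ :=
    exists_jdF_smul_eq_Jabd g⁻¹ (pos_of_dvd_neZero he)
  have hdN : d ∣ (N : ℤ) := (Dvd.intro_left a had).trans (Int.natCast_dvd_natCast.mpr he)
  have hk : -(a * ((N : ℤ) / d)) * d = -(a * N) := by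
    rw [neg_mul, mul_assoc, Int.ediv_mul_cancel hdN]
  refine ⟨a, b, d, cexp (-(2 * π * Complex.I * ((b : ℂ) / d))), ha, hd, had,
    Complex.exp_ne_zero _, fun z => hJ z, ?_⟩
  refine (tendsto_Jabd_cusp N ha hd b hk).congr fun z => ?_
  rw [smul_jd_apply, jdFun_eq_jdF, hJ z]

end Fermat.Agent.S24.H23
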