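import Mathlib
import Fermat.Agent.S24.Spec_helper31
import Fermat.Agent.S24.Conj_helper23

/-!
# S24, row D1b-R1: the `Φ`-block of the analytic cover

`SL(2,ℤ)` fixes the constants and `j`; the stabiliser of `Φ (j(q^N))` is `Γ₀(N)`.
-/

set_option autoImplicit false

open Filter Topology UpperHalfPlane CongruenceSubgroup ModularForm ModularCurve
open scoped MatrixGroups ModularForm Manifold Real

noncomputable section

namespace Fermat.Agent.S24.H31

variable {N : ℕ} [NeZero N]

theorem smul_Phi_const (P : PhiData N) (g : SL(2, ℤ)) (c : Kbar) :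
    g • P.Φ (algebraMap Kbar (FN N) c) = P.Φ (algebraMap Kbar (FN N) c) := by
  rw [P.map_const]
  exact smul_algebraMap_complex_L g _

/-- The image of `Jd N d hd` is the class of helper23's `jd N d hd`. -/
theorem Phi_Jd (P : PhiData N) (d : ℕ) [NeZero d] (hd : d ∣ N) :
    P.Φ (Jd N d hd) = algebraMap (RN N) (L N) (H23.jd N d hd) := by
  obtain ⟨f, hf, hΦ⟩ := P.map_Jd d hd
  rw [hΦ]
  congr 1
  exact Subtype.ext hf

theorem Phi_jBar (P : PhiData N) :
    P.Φ (jBar N) = algebraMap (RN N) (L N) (H23.jd N 1 (one_dvd N)) := by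
  rw [← Jd_one, Phi_Jd]

theorem smul_Phi_jBar (P : PhiData N) (g : SL(2, ℤ)) : g • P.Φ (jBar N) = P.Φ (jBar N) := by
  rw [Phi_jBar]
  exact H23.smul_algebraMap_jd_one N g

theorem mem_Gamma0_of_smul_Phi (P : PhiData N) (g : SL(2, ℤ))
    (h : g • P.Φ (Jd N N dvd_rfl) = P.Φ (Jd N N dvd_rfl)) : g ∈ Gamma0 N := by
  rw [Phi_Jd] at h
  exact (H23.smul_algebraMap_jd_self_eq_iff N g).mp h

end Fermat.Agent.S24.H31
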