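import Mathlib
import Fermat.Agent.S24.Spec_helper31
import Fermat.Agent.S24.DvdL_helper41

/-!
# S24, row D1b-R4: elliptic divisibility on `L N` for the valuations of a `ValSpec`

`ptI_dvd`, `ptRho_dvd`: an `S`-fixed (resp. `S * T`-fixed) nonzero element of `L N` has order
divisible by `2` at `i` (resp. by `3` at `ρ`).  These are helper41's `two_dvd_zval_of_S_smul_eq`
and `three_dvd_zval_of_ST_smul_eq`, instantiated at the point valuations `V.pt z` of a `ValSpec`.
-/

set_option autoImplicit false

open Filter Topology UpperHalfPlane CongruenceSubgroup ModularForm ModularCurve IntermediateField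
open scoped MatrixGroups ModularForm Manifold Real

noncomputable section

namespace Fermat.Agent.S24.H15

open Fermat.Agent.S24.H31

variable {N : ℕ} [NeZero N]

/-- the point valuation of a `ValSpec` restricts on `RN N` to the analytic order -/
theorem pt_ord_algebraMap (V : ValSpec N) (z : ℍ) (f : RN N) (hf : f ≠ 0) :
    (V.pt z).ord (algebraMap (RN N) (L N) f) =
      ((analyticOrderAt ((f : ℍ → ℂ) ∘ ofComplex) (z : ℂ)).toNat : ℤ) := by
  obtain ⟨h0, h1⟩ := V.pt_algebraMap z f hf
  rw [h1, ENat.toNat_natCast]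
  exact (Int.toNat_of_nonneg h0).symm

/-- **R4** at `i`. -/
theorem ptI_dvd (V : ValSpec N) (x : L N) (hx : x ≠ 0) (h : ModularGroup.S • x = x) :
    (2 : ℤ) ∣ (V.pt UpperHalfPlane.I).ord x :=
  H41.two_dvd_zval_of_S_smul_eq (V.pt UpperHalfPlane.I)
    (fun f hf => pt_ord_algebraMap V UpperHalfPlane.I f hf) x hx h

/-- **R4** at `ρ`. -/
theorem ptRho_dvd (V : ValSpec N) (x : L N) (hx : x ≠ 0)
    (h : (ModularGroup.S * ModularGroup.T) • x = x) : (3 : ℤ) ∣ (V.pt rho).ord x :=
  H41.three_dvd_zval_of_ST_smul_eq (V.pt rho)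
    (fun f hf => pt_ord_algebraMap V rho f hf) x hx h

end Fermat.Agent.S24.H15
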