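import Mathlib
import Fermat.Agent.S24.Cover_helper98
import Fermat.Agent.S24.PhiRows_helper31
import Fermat.Agent.S24.CoverPt_helper26
import Fermat.Agent.S24.R4_helper15
import Fermat.Agent.S24.DvdL_helper41
import Fermat.Agent.S24.InvK_helper89

/-!
# S24, row D1b: the analytic cover from the valuations (B1) and the embedding (B4)

`analyticCoverOf V P hfin : H98.AnalyticCover N` assembles helper98's contract from
`V : ValSpec N`, `P : PhiData N` and the finiteness of the function field over `Kbar(j)`.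
-/

set_option autoImplicit false

open Filter Topology UpperHalfPlane CongruenceSubgroup ModularForm ModularCurve IntermediateField
open scoped MatrixGroups ModularForm Manifold Real

noncomputable section

namespace Fermat.Agent.S24.H31

variable {N : ℕ} [NeZero N]

theorem invariant_j (P : PhiData N) (x : L N) (hx : ∀ g : SL(2, ℤ), g • x = x)
    (hint : IsIntegral ((Algebra.adjoin Kbar {jBar N}).toSubring.map P.Φ) x) :
    ∃ Q : Polynomial Kbar, x = P.Φ (Polynomial.aeval (jBar N) Q) :=
  H89.invariant_j_of (H23.jd N 1 (one_dvd N)) (H23.jd_one_apply N) iota P.Φ P.map_const (jBar N)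
    (Phi_jBar P) x hx hint

theorem invariant_jinv (P : PhiData N) (x : L N) (hx : ∀ g : SL(2, ℤ), g • x = x)
    (hint : IsIntegral ((Algebra.adjoin Kbar {(jBar N)⁻¹}).toSubring.map P.Φ) x) :
    ∃ Q : Polynomial Kbar, x = P.Φ (Polynomial.aeval (jBar N)⁻¹ Q) :=
  H89.invariant_jinv_of (H23.jd N 1 (one_dvd N)) (H23.jd_one_apply N) iota P.Φ P.map_const
    (jBar N) (Phi_jBar P) x hx hint

theorem cusp_dvd (V : ValSpec N) (x : L N) (w : ℕ) (hx : x ≠ 0) (hw : 0 < w) (hwN : w ∣ N)
    (h : ModularGroup.T ^ w • x = x) : ((N / w : ℕ) : ℤ) ∣ V.cusp.ord x :=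
  H41.width_dvd_zval_of_T_pow_smul_eq V.cusp (fun f hf => (V.cusp_iff f hf _).mp rfl) x w hx hw
    hwN h

/-- **D1b**: the analytic cover, from the valuations (B1), the embedding (B4) and finiteness. -/
def analyticCoverOf (V : ValSpec N) (P : PhiData N)
    (hfin : FiniteDimensional Kbar⟮jBar N⟯ (FN N)) : H98.AnalyticCover N where
  L := L N
  Φ := P.Φ
  smul_Φ := P.inv
  smul_const := smul_Phi_const P
  smul_j := smul_Phi_jBar P
  mem_Gamma0 := mem_Gamma0_of_smul_Phi P
  finite := hfin
  invariant_j := invariant_j P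
  invariant_jinv := invariant_jinv P
  exists_zval_generic := H26.exists_zval_generic_of V P
  zI := V.pt UpperHalfPlane.I
  zI_const := H26.pt_ord_const V P _
  zI_j := H26.zI_j_of V P
  zI_smul := H26.zI_smul_of V
  zI_dvd := H15.ptI_dvd V
  zRho := V.pt rho
  zRho_const := H26.pt_ord_const V P _
  zRho_j := H26.zRho_j_of V P
  zRho_smul := H26.zRho_smul_of V
  zRho_dvd := H15.ptRho_dvd V
  zInf := V.cusp
  zInf_const := H26.zInf_const_of V P
  zInf_j := H26.zInf_j_of V P
  zInf_smul := H26.zInf_smul_of V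
  zInf_dvd := fun x w hx hw hwN h => cusp_dvd V x w hx hw hwN h

end Fermat.Agent.S24.H31
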