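import Mathlib
import Fermat.Prelude.Def_ModularCurve_GenusNumerics

/-!
# Coset counts for `SL(2, ℤ) ⧸ Γ₀(N)`

Left cosets `γ Γ₀(N)`, with `SL(2, ℤ)` acting by left multiplication; the class of `γ` is
determined by its first column `[a : c]` modulo `N`.

* `index_Gamma0`: the index is `dedekindPsi N`;
* `card_fixedBy_S`: the number of fixed points of `S` is `nuTwo N`;
* `card_fixedBy_ST`: the number of fixed points of `S * T` is `nuThree N`.
-/

set_option autoImplicit false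

open scoped MatrixGroups
open CongruenceSubgroup ModularCurve Matrix.SpecialLinearGroup

namespace Fermat.Agent.S24.H35

/-- The lower-left entry of `γ⁻¹ * γ'`. -/
theorem inv_mul_apply_one_zero (γ γ' : SL(2, ℤ)) :
    (γ⁻¹ * γ') 1 0 = γ 0 0 * γ' 1 0 - γ 1 0 * γ' 0 0 := by
  rw [Matrix.SpecialLinearGroup.coe_mul, Matrix.SpecialLinearGroup.coe_inv,
    Matrix.adjugate_fin_two]
  simp [Matrix.mul_apply, Fin.sum_univ_two]
  ring

/-- Two left cosets of `Γ₀(N)` agree iff the first columns are proportional mod `N`. -/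
theorem mk_eq_mk_iff (N : ℕ) (γ γ' : SL(2, ℤ)) :
    (QuotientGroup.mk γ : SL(2, ℤ) ⧸ Gamma0 N) = QuotientGroup.mk γ' ↔
      ((γ 0 0 : ℤ) : ZMod N) * ((γ' 1 0 : ℤ) : ZMod N)
        - ((γ 1 0 : ℤ) : ZMod N) * ((γ' 0 0 : ℤ) : ZMod N) = 0 := by
  rw [QuotientGroup.eq, Gamma0_mem, inv_mul_apply_one_zero]
  push_cast
  rfl

theorem det_eq_one_zmod (N : ℕ) (γ : SL(2, ℤ)) :
    ((γ 0 0 : ℤ) : ZMod N) * ((γ 1 1 : ℤ) : ZMod N)
      - ((γ 0 1 : ℤ) : ZMod N) * ((γ 1 0 : ℤ) : ZMod N) = 1 := by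
  have h := γ.det_coe
  rw [Matrix.det_fin_two] at h
  have := congrArg (Int.cast : ℤ → ZMod N) h
  push_cast at this
  exact this

/-- The matrix `[[x, -1], [1, 0]]`. -/
def colMat (x : ℤ) : SL(2, ℤ) := ⟨!![x, -1; 1, 0], by simp [Matrix.det_fin_two]⟩

@[simp] theorem colMat_zero_zero (x : ℤ) : colMat x 0 0 = x := rfl
@[simp] theorem colMat_one_zero (x : ℤ) : colMat x 1 0 = 1 := rfl

theorem S_mul_apply_zero_zero (γ : SL(2, ℤ)) : (ModularGroup.S * γ) 0 0 = - γ 1 0 := by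
  rw [Matrix.SpecialLinearGroup.coe_mul, ModularGroup.coe_S]
  simp [Matrix.mul_apply, Fin.sum_univ_two]

theorem S_mul_apply_one_zero (γ : SL(2, ℤ)) : (ModularGroup.S * γ) 1 0 = γ 0 0 := by
  rw [Matrix.SpecialLinearGroup.coe_mul, ModularGroup.coe_S]
  simp [Matrix.mul_apply, Fin.sum_univ_two]

theorem ST_mul_apply_zero_zero (γ : SL(2, ℤ)) :
    (ModularGroup.S * ModularGroup.T * γ) 0 0 = - γ 1 0 := by
  rw [Matrix.SpecialLinearGroup.coe_mul, Matrix.SpecialLinearGroup.coe_mul, ModularGroup.coe_S,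
    ModularGroup.coe_T]
  simp [Matrix.mul_apply, Fin.sum_univ_two]

theorem ST_mul_apply_one_zero (γ : SL(2, ℤ)) :
    (ModularGroup.S * ModularGroup.T * γ) 1 0 = γ 0 0 + γ 1 0 := by
  rw [Matrix.SpecialLinearGroup.coe_mul, Matrix.SpecialLinearGroup.coe_mul, ModularGroup.coe_S,
    ModularGroup.coe_T]
  simp [Matrix.mul_apply, Fin.sum_univ_two]

theorem T_mul_apply_zero_zero (γ : SL(2, ℤ)) :
    (ModularGroup.T * γ) 0 0 = γ 0 0 + γ 1 0 := by
  rw [Matrix.SpecialLinearGroup.coe_mul, ModularGroup.coe_T]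
  simp [Matrix.mul_apply, Fin.sum_univ_two]

theorem T_mul_apply_one_zero (γ : SL(2, ℤ)) : (ModularGroup.T * γ) 1 0 = γ 1 0 := by
  rw [Matrix.SpecialLinearGroup.coe_mul, ModularGroup.coe_T]
  simp [Matrix.mul_apply, Fin.sum_univ_two]

/-- `⟦γ⟧` is fixed by `S` iff `a² + c² = 0` in `ℤ/N`. -/
theorem S_smul_mk_eq_iff (N : ℕ) (γ : SL(2, ℤ)) :
    ModularGroup.S • (QuotientGroup.mk γ : SL(2, ℤ) ⧸ Gamma0 N) = QuotientGroup.mk γ ↔
      ((γ 0 0 : ℤ) : ZMod N) ^ 2 + ((γ 1 0 : ℤ) : ZMod N) ^ 2 = 0 := by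
  rw [MulAction.Quotient.smul_mk, smul_eq_mul, mk_eq_mk_iff, S_mul_apply_zero_zero,
    S_mul_apply_one_zero]
  push_cast
  constructor <;> intro h <;> linear_combination -h

/-- `⟦γ⟧` is fixed by `S * T` iff `a² + a c + c² = 0` in `ℤ/N`. -/
theorem ST_smul_mk_eq_iff (N : ℕ) (γ : SL(2, ℤ)) :
    (ModularGroup.S * ModularGroup.T) • (QuotientGroup.mk γ : SL(2, ℤ) ⧸ Gamma0 N) =
        QuotientGroup.mk γ ↔
      ((γ 0 0 : ℤ) : ZMod N) ^ 2 + ((γ 0 0 : ℤ) : ZMod N) * ((γ 1 0 : ℤ) : ZMod N)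
        + ((γ 1 0 : ℤ) : ZMod N) ^ 2 = 0 := by
  rw [MulAction.Quotient.smul_mk, smul_eq_mul, mk_eq_mk_iff, ST_mul_apply_zero_zero,
    ST_mul_apply_one_zero]
  push_cast
  constructor <;> intro h <;> linear_combination -h

/-- **K2**: the number of fixed points of `S` on `SL(2,ℤ) ⧸ Γ₀(N)` is `nuTwo N`. -/
theorem card_fixedBy_S (N : ℕ) :
    Nat.card (MulAction.fixedBy (SL(2, ℤ) ⧸ Gamma0 N) ModularGroup.S) = nuTwo N := by
  unfold nuTwo
  symm
  refine Nat.card_congr (Equiv.ofBijective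
    (fun x : {x : ZMod N // x ^ 2 + 1 = 0} =>
      (⟨QuotientGroup.mk (colMat ((x : ZMod N).cast : ℤ)), by
        rw [MulAction.mem_fixedBy, S_smul_mk_eq_iff]
        simpa using x.2⟩ : MulAction.fixedBy (SL(2, ℤ) ⧸ Gamma0 N) ModularGroup.S)) ⟨?_, ?_⟩)
  · rintro ⟨x, hx⟩ ⟨y, hy⟩ h
    have h' := congrArg Subtype.val h
    simp only at h'
    rw [mk_eq_mk_iff] at h'
    simp only [colMat_zero_zero, colMat_one_zero, ZMod.intCast_cast, ZMod.cast_id', id_eq,
      Int.cast_one, mul_one, one_mul] at h'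
    exact Subtype.ext (sub_eq_zero.mp h')
  · rintro ⟨q, hq⟩
    induction q using QuotientGroup.induction_on with
    | H γ =>
      rw [MulAction.mem_fixedBy, S_smul_mk_eq_iff] at hq
      have hdet := det_eq_one_zmod N γ
      set A := ((γ 0 0 : ℤ) : ZMod N)
      set B := ((γ 0 1 : ℤ) : ZMod N)
      set C := ((γ 1 0 : ℤ) : ZMod N)
      set D := ((γ 1 1 : ℤ) : ZMod N)
      set E := -(C * D + A * B) * D - B with hE
      have hCE : C * E = 1 := by rw [hE]; linear_combination (-D ^ 2) * hq + (A * D + 1) * hdet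
      refine ⟨⟨A * E, ?_⟩, ?_⟩
      · linear_combination E ^ 2 * hq - (C * E + 1) * hCE
      · apply Subtype.ext
        simp only
        rw [mk_eq_mk_iff]
        simp only [colMat_zero_zero, colMat_one_zero, ZMod.intCast_cast, ZMod.cast_id', id_eq,
          Int.cast_one, one_mul]
        linear_combination A * hCE

/-- **K3**: the number of fixed points of `S * T` on `SL(2,ℤ) ⧸ Γ₀(N)` is `nuThree N`. -/
theorem card_fixedBy_ST (N : ℕ) :
    Nat.card (MulAction.fixedBy (SL(2, ℤ) ⧸ Gamma0 N) (ModularGroup.S * ModularGroup.T)) =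
      nuThree N := by
  unfold nuThree
  symm
  refine Nat.card_congr (Equiv.ofBijective
    (fun x : {x : ZMod N // x ^ 2 + x + 1 = 0} =>
      (⟨QuotientGroup.mk (colMat ((x : ZMod N).cast : ℤ)), by
        rw [MulAction.mem_fixedBy, ST_smul_mk_eq_iff]
        simpa using x.2⟩ :
        MulAction.fixedBy (SL(2, ℤ) ⧸ Gamma0 N) (ModularGroup.S * ModularGroup.T))) ⟨?_, ?_⟩)
  · rintro ⟨x, hx⟩ ⟨y, hy⟩ h
    have h' := congrArg Subtype.val h
    simp only at h'
    rw [mk_eq_mk_iff] at h'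
    simp only [colMat_zero_zero, colMat_one_zero, ZMod.intCast_cast, ZMod.cast_id', id_eq,
      Int.cast_one, mul_one, one_mul] at h'
    exact Subtype.ext (sub_eq_zero.mp h')
  · rintro ⟨q, hq⟩
    induction q using QuotientGroup.induction_on with
    | H γ =>
      rw [MulAction.mem_fixedBy, ST_smul_mk_eq_iff] at hq
      have hdet := det_eq_one_zmod N γ
      set A := ((γ 0 0 : ℤ) : ZMod N)
      set B := ((γ 0 1 : ℤ) : ZMod N)
      set C := ((γ 1 0 : ℤ) : ZMod N)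
      set D := ((γ 1 1 : ℤ) : ZMod N)
      set E := -(A * D + C * D + A * B) * D - B with hE
      have hCE : C * E = 1 := by rw [hE]; linear_combination (-D ^ 2) * hq + (A * D + 1) * hdet
      refine ⟨⟨A * E, ?_⟩, ?_⟩
      · linear_combination E ^ 2 * hq - (C * E + 1 + A * E) * hCE
      · apply Subtype.ext
        simp only
        rw [mk_eq_mk_iff]
        simp only [colMat_zero_zero, colMat_one_zero, ZMod.intCast_cast, ZMod.cast_id', id_eq,
          Int.cast_one, one_mul]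
        linear_combination A * hCE

/-! ### The Dedekind psi function along a prime -/

theorem dedekindPsi_prime_mul_of_dvd {p M : ℕ} (hp : p.Prime) (hM : M ≠ 0) (h : p ∣ M) :
    dedekindPsi (p * M) = p * dedekindPsi M := by
  unfold dedekindPsi
  have hset : (p * M).divisors.filter Squarefree = M.divisors.filter Squarefree := by
    ext d
    simp only [Finset.mem_filter, Nat.mem_divisors]
    constructor
    · rintro ⟨⟨hd, _⟩, hsq⟩
      refine ⟨⟨?_, hM⟩, hsq⟩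
      by_cases hpd : p ∣ d
      · obtain ⟨d', rfl⟩ := hpd
        have hcop : p.Coprime d' := (Nat.squarefree_mul_iff.mp hsq).1
        have hd' : d' ∣ M := Nat.dvd_of_mul_dvd_mul_left hp.pos hd
        exact Nat.Coprime.mul_dvd_of_dvd_of_dvd hcop h hd'
      · have hcop : d.Coprime p := ((Nat.Prime.coprime_iff_not_dvd hp).mpr hpd).symm
        exact hcop.dvd_of_dvd_mul_left hd
    · rintro ⟨⟨hd, _⟩, hsq⟩
      exact ⟨⟨hd.mul_left p, mul_ne_zero hp.ne_zero hM⟩, hsq⟩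
  rw [hset, Finset.mul_sum]
  refine Finset.sum_congr rfl fun d hd => ?_
  simp only [Finset.mem_filter, Nat.mem_divisors] at hd
  exact Nat.mul_div_assoc p hd.1.1

theorem dedekindPsi_prime_mul_of_not_dvd {p M : ℕ} (hp : p.Prime) (hM : M ≠ 0) (h : ¬ p ∣ M) :
    dedekindPsi (p * M) = (p + 1) * dedekindPsi M := by
  unfold dedekindPsi
  have hset : (p * M).divisors.filter Squarefree =
      M.divisors.filter Squarefree ∪ (M.divisors.filter Squarefree).image (p * ·) := by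
    ext d
    simp only [Finset.mem_filter, Nat.mem_divisors, Finset.mem_union, Finset.mem_image]
    constructor
    · rintro ⟨⟨hd, _⟩, hsq⟩
      by_cases hpd : p ∣ d
      · obtain ⟨d', rfl⟩ := hpd
        right
        refine ⟨d', ⟨⟨Nat.dvd_of_mul_dvd_mul_left hp.pos hd, hM⟩,
          (Nat.squarefree_mul_iff.mp hsq).2.2⟩, rfl⟩
      · left
        have hcop : d.Coprime p := ((Nat.Prime.coprime_iff_not_dvd hp).mpr hpd).symm
        exact ⟨⟨hcop.dvd_of_dvd_mul_left hd, hM⟩, hsq⟩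
    · rintro (⟨⟨hd, _⟩, hsq⟩ | ⟨d', ⟨⟨hd, _⟩, hsq⟩, rfl⟩)
      · exact ⟨⟨hd.mul_left p, mul_ne_zero hp.ne_zero hM⟩, hsq⟩
      · refine ⟨⟨Nat.mul_dvd_mul_left p hd, mul_ne_zero hp.ne_zero hM⟩, ?_⟩
        rw [Nat.squarefree_mul_iff]
        refine ⟨(Nat.Prime.coprime_iff_not_dvd hp).mpr fun hpd => h (hpd.trans hd),
          hp.squarefree, hsq⟩
  have hdisj : Disjoint (M.divisors.filter Squarefree)
      ((M.divisors.filter Squarefree).image (p * ·)) := by
    rw [Finset.disjoint_left]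
    intro d hd hd'
    simp only [Finset.mem_filter, Nat.mem_divisors, Finset.mem_image] at hd hd'
    obtain ⟨d', _, rfl⟩ := hd'
    exact h ((dvd_mul_right p d').trans hd.1.1)
  rw [hset, Finset.sum_union hdisj, Finset.sum_image (fun x _ y _ hxy =>
    Nat.eq_of_mul_eq_mul_left hp.pos hxy), add_mul, one_mul, Finset.mul_sum]
  congr 1
  · refine Finset.sum_congr rfl fun d hd => ?_
    simp only [Finset.mem_filter, Nat.mem_divisors] at hd
    exact Nat.mul_div_assoc p hd.1.1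
  · refine Finset.sum_congr rfl fun d hd => ?_
    exact Nat.mul_div_mul_left M d hp.pos

/-! ### Counting cosets through a surjection -/

theorem card_quotient_of_surjective {G T : Type*} [Group G] (H : Subgroup G) (f : G → T)
    (hf : Function.Surjective f) (h : ∀ a b, f a = f b ↔ a⁻¹ * b ∈ H) :
    Nat.card (G ⧸ H) = Nat.card T := by
  refine Nat.card_congr (Equiv.ofBijective
    (Quotient.lift f (fun a b hab => (h a b).mpr (QuotientGroup.leftRel_apply.mp hab))) ⟨?_, ?_⟩)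
  · intro q q'
    induction q using QuotientGroup.induction_on with
    | H a =>
      induction q' using QuotientGroup.induction_on with
      | H b =>
        intro hab
        exact QuotientGroup.eq.mpr ((h a b).mp hab)
  · intro t
    obtain ⟨a, rfl⟩ := hf t
    exact ⟨QuotientGroup.mk a, rfl⟩


/-! ### The relative index of `Γ₀(pM)` in `Γ₀(M)` -/

theorem Gamma0_mul_le (p M : ℕ) : Gamma0 (p * M) ≤ Gamma0 M := by
  intro γ hγ
  rw [Gamma0_mem, ZMod.intCast_zmod_eq_zero_iff_dvd] at hγ ⊢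
  exact (Dvd.intro_left (p : ℤ) (by push_cast; ring)).trans hγ

/-- The quotient `c / M` of the lower-left entry of an element of `Γ₀(M)`. -/
noncomputable def lowQuot (M : ℕ) (γ : Gamma0 M) : ℤ := (γ.1 1 0) / (M : ℤ)

theorem lowQuot_spec (M : ℕ) (γ : Gamma0 M) : (γ.1 1 0 : ℤ) = (M : ℤ) * lowQuot M γ := by
  have h := γ.2
  rw [Gamma0_mem, ZMod.intCast_zmod_eq_zero_iff_dvd] at h
  rw [lowQuot, Int.mul_ediv_cancel' h]

theorem mem_Gamma0_mul_iff {p M : ℕ} (hM : M ≠ 0) (γ γ' : Gamma0 M) :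
    ((γ⁻¹ * γ' : Gamma0 M) : SL(2, ℤ)) ∈ Gamma0 (p * M) ↔
      (((γ.1 0 0 : ℤ) : ZMod p) * ((lowQuot M γ' : ℤ) : ZMod p)
        - ((lowQuot M γ : ℤ) : ZMod p) * ((γ'.1 0 0 : ℤ) : ZMod p)) = 0 := by
  rw [Gamma0_mem, ZMod.intCast_zmod_eq_zero_iff_dvd]
  have h1 : ((γ⁻¹ * γ' : Gamma0 M) : SL(2, ℤ)) 1 0 =
      (M : ℤ) * (γ.1 0 0 * lowQuot M γ' - lowQuot M γ * γ'.1 0 0) := by
    rw [Subgroup.coe_mul, Subgroup.coe_inv, inv_mul_apply_one_zero, lowQuot_spec M γ,
      lowQuot_spec M γ']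
    ring
  rw [h1]
  have h2 : ((γ.1 0 0 : ℤ) : ZMod p) * ((lowQuot M γ' : ℤ) : ZMod p)
        - ((lowQuot M γ : ℤ) : ZMod p) * ((γ'.1 0 0 : ℤ) : ZMod p) =
      ((γ.1 0 0 * lowQuot M γ' - lowQuot M γ * γ'.1 0 0 : ℤ) : ZMod p) := by push_cast; ring
  rw [h2, ZMod.intCast_zmod_eq_zero_iff_dvd]
  push_cast
  rw [mul_comm (p : ℤ) (M : ℤ)]
  exact mul_dvd_mul_iff_left (by exact_mod_cast hM)

/-- The matrix `[[1, 0], [M t, 1]]`. -/
def lowSL (M : ℕ) (t : ℤ) : SL(2, ℤ) :=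
  ⟨(!![1, 0; (M : ℤ) * t, 1] : Matrix (Fin 2) (Fin 2) ℤ), by simp [Matrix.det_fin_two]⟩

theorem lowSL_one_zero (M : ℕ) (t : ℤ) : lowSL M t 1 0 = (M : ℤ) * t := rfl

/-- The element `[[1, 0], [M t, 1]]` of `Γ₀(M)`. -/
def lowMat (M : ℕ) (t : ℤ) : Gamma0 M :=
  ⟨lowSL M t, by
    rw [Gamma0_mem, ZMod.intCast_zmod_eq_zero_iff_dvd, lowSL_one_zero]
    exact Dvd.intro _ rfl⟩

theorem lowMat_zero_zero (M : ℕ) (t : ℤ) : (lowMat M t).1 0 0 = 1 := rfl

theorem lowQuot_lowMat {M : ℕ} (hM : M ≠ 0) (t : ℤ) : lowQuot M (lowMat M t) = t := by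
  have h := lowQuot_spec M (lowMat M t)
  have h' : ((lowMat M t).1 1 0 : ℤ) = (M : ℤ) * t := rfl
  rw [h'] at h
  exact (mul_left_cancel₀ (by exact_mod_cast hM) h).symm


theorem lowQuot_det_zmod (p M : ℕ) (γ : Gamma0 M) :
    ((γ.1 0 0 : ℤ) : ZMod p) * ((γ.1 1 1 : ℤ) : ZMod p)
      - ((γ.1 0 1 : ℤ) : ZMod p) * ((M : ZMod p) * ((lowQuot M γ : ℤ) : ZMod p)) = 1 := by
  have h := det_eq_one_zmod p γ.1
  rw [lowQuot_spec M γ] at h
  push_cast at h
  exact h

theorem relIndex_Gamma0_of_dvd {p M : ℕ} (hp : p.Prime) (hM : M ≠ 0) (h : p ∣ M) :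
    (Gamma0 (p * M)).relIndex (Gamma0 M) = p := by
  have : Fact p.Prime := ⟨hp⟩
  have hMp : (M : ZMod p) = 0 := (ZMod.natCast_eq_zero_iff M p).mpr h
  have hne : ∀ γ : Gamma0 M, ((γ.1 0 0 : ℤ) : ZMod p) ≠ 0 := by
    intro γ h0
    have hdet := lowQuot_det_zmod p M γ
    rw [h0, hMp] at hdet
    simp at hdet
  rw [Subgroup.relIndex, Subgroup.index_eq_card,
    card_quotient_of_surjective _ (fun γ : Gamma0 M =>
      ((lowQuot M γ : ℤ) : ZMod p) / ((γ.1 0 0 : ℤ) : ZMod p)) ?_ ?_, Nat.card_zmod]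
  · intro t
    refine ⟨lowMat M (t.cast : ℤ), ?_⟩
    simp [lowQuot_lowMat hM, lowMat_zero_zero]
  · intro γ γ'
    rw [Subgroup.mem_subgroupOf, mem_Gamma0_mul_iff hM, div_eq_div_iff (hne γ) (hne γ')]
    constructor <;> intro h' <;> linear_combination -h'

theorem relIndex_Gamma0_of_not_dvd {p M : ℕ} (hp : p.Prime) (hM : M ≠ 0) (h : ¬ p ∣ M) :
    (Gamma0 (p * M)).relIndex (Gamma0 M) = p + 1 := by
  have : Fact p.Prime := ⟨hp⟩
  classical
  have hne : ∀ γ : Gamma0 M, ((γ.1 0 0 : ℤ) : ZMod p) = 0 →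
      ((lowQuot M γ : ℤ) : ZMod p) ≠ 0 := by
    intro γ h0 h1
    have hdet := lowQuot_det_zmod p M γ
    rw [h0, h1] at hdet
    simp at hdet
  rw [Subgroup.relIndex, Subgroup.index_eq_card,
    card_quotient_of_surjective _ (fun γ : Gamma0 M =>
      if ((γ.1 0 0 : ℤ) : ZMod p) = 0 then none
      else some (((lowQuot M γ : ℤ) : ZMod p) / ((γ.1 0 0 : ℤ) : ZMod p))) ?_ ?_,
    Nat.card_eq_fintype_card, Fintype.card_option, ZMod.card]
  · rintro (_ | t)
    · have hcop : IsCoprime (p : ℤ) (M : ℤ) := by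
        rw [Int.isCoprime_iff_gcd_eq_one]
        exact_mod_cast (Nat.Prime.coprime_iff_not_dvd hp).mpr h
      obtain ⟨u, v, huv⟩ := hcop
      let δ : SL(2, ℤ) := ⟨(!![(p : ℤ), -v; (M : ℤ), u] : Matrix (Fin 2) (Fin 2) ℤ), by
        rw [Matrix.det_fin_two]; simp; linear_combination huv⟩
      have hδ10 : δ 1 0 = (M : ℤ) := rfl
      have hδ00 : δ 0 0 = (p : ℤ) := rfl
      have hδ : δ ∈ Gamma0 M := by
        rw [Gamma0_mem, hδ10]; simp
      refine ⟨⟨δ, hδ⟩, ?_⟩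
      simp [hδ00]
    · refine ⟨lowMat M (t.cast : ℤ), ?_⟩
      simp [lowQuot_lowMat hM, lowMat_zero_zero]
  · intro γ γ'
    rw [Subgroup.mem_subgroupOf, mem_Gamma0_mul_iff hM]
    by_cases ha : ((γ.1 0 0 : ℤ) : ZMod p) = 0 <;> by_cases ha' : ((γ'.1 0 0 : ℤ) : ZMod p) = 0
    · simp [ha, ha']
    · simp only [ha, ha', if_true, if_false, reduceCtorEq, false_iff, zero_mul, zero_sub,
        neg_eq_zero, mul_eq_zero, not_or]
      exact ⟨hne γ ha, not_false⟩
    · simp only [ha, ha', if_true, if_false, reduceCtorEq, false_iff, mul_zero, sub_zero,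
        mul_eq_zero, not_or]
      exact ⟨not_false, hne γ' ha'⟩
    · simp only [ha, ha', if_false, Option.some.injEq]
      rw [div_eq_div_iff ha ha']
      constructor <;> intro h' <;> linear_combination -h'

/-- **K1**: the index of `Γ₀(N)` in `SL(2, ℤ)` is the Dedekind psi function. -/
theorem index_Gamma0 (N : ℕ) (hN : N ≠ 0) : (Gamma0 N).index = dedekindPsi N := by
  induction N using induction_on_primes with
  | zero => exact absurd rfl hN
  | one =>
    have : Gamma0 1 = ⊤ := by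
      ext γ
      simp only [Gamma0_mem, Subgroup.mem_top, iff_true]
      exact Subsingleton.elim _ _
    rw [this, Subgroup.index_top, dedekindPsi_one]
  | prime_mul p M hp ih =>
    have hM : M ≠ 0 := fun h => hN (by rw [h, mul_zero])
    rw [← Subgroup.relIndex_mul_index (Gamma0_mul_le p M), ih hM]
    by_cases hpM : p ∣ M
    · rw [relIndex_Gamma0_of_dvd hp hM hpM, dedekindPsi_prime_mul_of_dvd hp hM hpM]
    · rw [relIndex_Gamma0_of_not_dvd hp hM hpM, dedekindPsi_prime_mul_of_not_dvd hp hM hpM]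

/-- **K1**, cardinality form. -/
theorem card_quotient_Gamma0 (N : ℕ) (hN : N ≠ 0) :
    Nat.card (SL(2, ℤ) ⧸ Gamma0 N) = dedekindPsi N := by
  rw [← Subgroup.index_eq_card, index_Gamma0 N hN]

end Fermat.Agent.S24.H35
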