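import Mathlib
import Fermat.Prelude.Def_ModularCurve_GenusNumerics
import Fermat.Agent.S24.Cosets_helper35

/-!
# Orbit counts on `SL(2, ℤ) ⧸ Γ₀(N)`

* `sum_card_fixedBy_pow`: Burnside for a cyclic action (if `g ^ n` acts trivially, then `n` times
  the number of `⟨g⟩`-orbits is the sum of the numbers of fixed points of `g ^ m`, `m < n`);
* `two_mul_card_orbits_S`, `three_mul_card_orbits_ST`: the numbers of orbits of `S` and `S * T`;
* `T_pow_smul`: `T ^ N` acts trivially.
-/

set_option autoImplicit false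

open scoped MatrixGroups
open CongruenceSubgroup ModularCurve Matrix.SpecialLinearGroup

namespace Fermat.Agent.S24.H35

section burnside

variable {G X : Type*} [Group G] [MulAction G X]

theorem toPerm_pow_eq_one {g : G} {n : ℕ} (hg : ∀ x : X, g ^ n • x = x) :
    (MulAction.toPerm g : Equiv.Perm X) ^ n = 1 := by
  ext x
  rw [← MulAction.toPermHom_apply, ← map_pow]
  exact hg x

/-- The action of `ℤ/n` on `X` through the powers of `g`, when `g ^ n` acts trivially. -/
noncomputable def cycHom (g : G) (n : ℕ) [NeZero n] (hg : ∀ x : X, g ^ n • x = x) :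
    Multiplicative (ZMod n) →* Equiv.Perm X where
  toFun a := (MulAction.toPerm g : Equiv.Perm X) ^ (ZMod.val (Multiplicative.toAdd a))
  map_one' := by simp
  map_mul' a b := by
    rw [toAdd_mul, ZMod.val_add, ← pow_add, ← pow_eq_pow_mod _ (toPerm_pow_eq_one hg)]

theorem cycHom_apply (g : G) (n : ℕ) [NeZero n] (hg : ∀ x : X, g ^ n • x = x)
    (a : Multiplicative (ZMod n)) (x : X) :
    cycHom g n hg a x = g ^ (ZMod.val (Multiplicative.toAdd a)) • x := by
  change ((MulAction.toPerm g : Equiv.Perm X) ^ (ZMod.val (Multiplicative.toAdd a))) x = _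
  rw [← MulAction.toPermHom_apply, ← map_pow]
  rfl

/-- **Burnside for a cyclic action**: if `g ^ n` acts trivially on the finite set `X`, then the
number of `⟨g⟩`-orbits times `n` is the sum of the numbers of fixed points of `g ^ m`, `m < n`. -/
theorem sum_card_fixedBy_pow [Finite X] (g : G) (n : ℕ) [NeZero n]
    (hg : ∀ x : X, g ^ n • x = x) :
    ∑ m ∈ Finset.range n, Nat.card (MulAction.fixedBy X (g ^ m)) =
      n * Nat.card (MulAction.orbitRel.Quotient (Subgroup.zpowers g) X) := by
  classical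
  let _ : MulAction (Multiplicative (ZMod n)) X := MulAction.compHom X (cycHom g n hg)
  have hsmul : ∀ (a : Multiplicative (ZMod n)) (x : X),
      a • x = g ^ (ZMod.val (Multiplicative.toAdd a)) • x := fun a x => cycHom_apply g n hg a x
  let _ : ∀ a : Multiplicative (ZMod n), Fintype (MulAction.fixedBy X a) :=
    fun a => Fintype.ofFinite _
  let _ : Fintype (Quotient (MulAction.orbitRel (Multiplicative (ZMod n)) X)) :=
    Fintype.ofFinite _
  have hB := MulAction.sum_card_fixedBy_eq_card_orbits_mul_card_group (Multiplicative (ZMod n)) X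
  -- the right-hand side
  have hR : Fintype.card (Quotient (MulAction.orbitRel (Multiplicative (ZMod n)) X)) =
      Nat.card (MulAction.orbitRel.Quotient (Subgroup.zpowers g) X) := by
    rw [← Nat.card_eq_fintype_card]
    refine Nat.card_congr (Quotient.congr (Equiv.refl X) ?_)
    intro x y
    simp only [Equiv.refl_apply]
    rw [MulAction.orbitRel_apply, MulAction.orbitRel_apply, MulAction.mem_orbit_iff,
      MulAction.mem_orbit_iff]
    constructor
    · rintro ⟨a, ha⟩
      refine ⟨⟨g ^ (ZMod.val (Multiplicative.toAdd a)), ?_⟩, ?_⟩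
      · exact Subgroup.pow_mem _ (Subgroup.mem_zpowers g) _
      · rw [← ha, hsmul]; rfl
    · rintro ⟨⟨h, hh⟩, ha⟩
      obtain ⟨k, rfl⟩ := Subgroup.mem_zpowers_iff.mp hh
      refine ⟨Multiplicative.ofAdd (k : ZMod n), ?_⟩
      rw [hsmul, ← ha]
      change g ^ ((k : ZMod n).val) • y = g ^ k • y
      have h1 : ((k : ZMod n).val : ℤ) = k % n := ZMod.val_intCast k
      have h2 : g ^ ((k : ZMod n).val) • y = g ^ (((k : ZMod n).val : ℤ)) • y := by
        rw [zpow_natCast]
      rw [h2, h1]
      -- g ^ (k % n) • y = g ^ k • y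
      have h3 : k = k % n + n * (k / n) := (Int.emod_add_mul_ediv k n).symm
      conv_rhs => rw [h3, zpow_add, mul_smul, zpow_mul, zpow_natCast]
      congr 1
      have h4 : ∀ j : ℤ, (g ^ n) ^ j • y = y := by
        intro j
        have h5 : (MulAction.toPerm (g ^ n) : Equiv.Perm X) = 1 := by
          ext x; exact hg x
        have h6 : (MulAction.toPerm ((g ^ n) ^ j) : Equiv.Perm X) = 1 := by
          rw [← MulAction.toPermHom_apply, map_zpow, MulAction.toPermHom_apply, h5, one_zpow]
        exact congrArg (fun σ : Equiv.Perm X => σ y) h6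
      exact (h4 _).symm
  -- the left-hand side
  have hL : ∑ a : Multiplicative (ZMod n), Fintype.card (MulAction.fixedBy X a) =
      ∑ m ∈ Finset.range n, Nat.card (MulAction.fixedBy X (g ^ m)) := by
    have hF : ∀ a : Multiplicative (ZMod n), Fintype.card (MulAction.fixedBy X a) =
        Nat.card (MulAction.fixedBy X (g ^ (ZMod.val (Multiplicative.toAdd a)))) := by
      intro a
      rw [← Nat.card_eq_fintype_card]
      refine Nat.card_congr (Equiv.subtypeEquivRight ?_)
      intro x
      rw [MulAction.mem_fixedBy, MulAction.mem_fixedBy, hsmul]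
    rw [Finset.sum_congr rfl (fun a _ => hF a)]
    obtain ⟨k, rfl⟩ : ∃ k, n = k + 1 := Nat.exists_eq_succ_of_ne_zero (NeZero.ne n)
    rw [Finset.sum_range]
    exact Fintype.sum_equiv (Multiplicative.toAdd.trans (ZMod.finEquiv (k + 1)).symm.toEquiv)
      _ _ (fun a => rfl)
  rw [← hL, hB, hR, Fintype.card_multiplicative, ZMod.card, mul_comm]

end burnside

theorem S_sq_smul (N : ℕ) (x : SL(2, ℤ) ⧸ Gamma0 N) : ModularGroup.S ^ 2 • x = x := by
  induction x using QuotientGroup.induction_on with
  | H γ =>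
    rw [pow_two, MulAction.Quotient.smul_mk, smul_eq_mul, mk_eq_mk_iff, mul_assoc]
    simp only [S_mul_apply_zero_zero, S_mul_apply_one_zero]
    push_cast
    ring

theorem ST_cube_smul (N : ℕ) (x : SL(2, ℤ) ⧸ Gamma0 N) :
    (ModularGroup.S * ModularGroup.T) ^ 3 • x = x := by
  induction x using QuotientGroup.induction_on with
  | H γ =>
    rw [pow_succ, pow_two, MulAction.Quotient.smul_mk, smul_eq_mul, mk_eq_mk_iff,
      mul_assoc (ModularGroup.S * ModularGroup.T * (ModularGroup.S * ModularGroup.T)),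
      mul_assoc (ModularGroup.S * ModularGroup.T)]
    simp only [ST_mul_apply_zero_zero, ST_mul_apply_one_zero]
    push_cast
    ring

/-- The number of orbits of `S` on `SL(2,ℤ) ⧸ Γ₀(N)`. -/
theorem two_mul_card_orbits_S (N : ℕ) [NeZero N] :
    2 * Nat.card (MulAction.orbitRel.Quotient (Subgroup.zpowers ModularGroup.S)
      (SL(2, ℤ) ⧸ Gamma0 N)) = dedekindPsi N + nuTwo N := by
  have h := sum_card_fixedBy_pow ModularGroup.S 2 (S_sq_smul N)
  rw [Finset.sum_range_succ, Finset.sum_range_one, pow_zero, pow_one, card_fixedBy_S,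
    MulAction.fixedBy_one_eq_univ, Nat.card_congr (Equiv.Set.univ _),
    card_quotient_Gamma0 N (NeZero.ne N)] at h
  exact h.symm

/-- The number of orbits of `S * T` on `SL(2,ℤ) ⧸ Γ₀(N)`. -/
theorem three_mul_card_orbits_ST (N : ℕ) [NeZero N] :
    3 * Nat.card (MulAction.orbitRel.Quotient (Subgroup.zpowers (ModularGroup.S * ModularGroup.T))
      (SL(2, ℤ) ⧸ Gamma0 N)) = dedekindPsi N + 2 * nuThree N := by
  have h2 : MulAction.fixedBy (SL(2, ℤ) ⧸ Gamma0 N) ((ModularGroup.S * ModularGroup.T) ^ 2) =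
      MulAction.fixedBy (SL(2, ℤ) ⧸ Gamma0 N) (ModularGroup.S * ModularGroup.T) := by
    ext x
    rw [MulAction.mem_fixedBy, MulAction.mem_fixedBy]
    have h3 := ST_cube_smul N x
    rw [pow_succ, mul_smul] at h3
    constructor
    · intro h
      have h4 := ST_cube_smul N x
      rw [pow_succ', mul_smul, h] at h4
      exact h4
    · intro h
      rw [h] at h3
      exact h3
  have h := sum_card_fixedBy_pow (ModularGroup.S * ModularGroup.T) 3 (ST_cube_smul N)
  rw [Finset.sum_range_succ, Finset.sum_range_succ, Finset.sum_range_one, pow_zero, pow_one, h2,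
    card_fixedBy_ST, MulAction.fixedBy_one_eq_univ, Nat.card_congr (Equiv.Set.univ _),
    card_quotient_Gamma0 N (NeZero.ne N)] at h
  rw [two_mul, ← add_assoc]
  exact h.symm

theorem T_pow_mul_apply_zero_zero (m : ℕ) (γ : SL(2, ℤ)) :
    (ModularGroup.T ^ m * γ) 0 0 = γ 0 0 + m * γ 1 0 := by
  rw [Matrix.SpecialLinearGroup.coe_mul, ← zpow_natCast, ModularGroup.coe_T_zpow]
  simp [Matrix.mul_apply, Fin.sum_univ_two]

theorem T_pow_mul_apply_one_zero (m : ℕ) (γ : SL(2, ℤ)) :
    (ModularGroup.T ^ m * γ) 1 0 = γ 1 0 := by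
  rw [Matrix.SpecialLinearGroup.coe_mul, ← zpow_natCast, ModularGroup.coe_T_zpow]
  simp [Matrix.mul_apply, Fin.sum_univ_two]

/-- `⟦γ⟧` is fixed by `T ^ m` iff `m c² = 0` in `ℤ/N`. -/
theorem T_pow_smul_mk_eq_iff (N m : ℕ) (γ : SL(2, ℤ)) :
    ModularGroup.T ^ m • (QuotientGroup.mk γ : SL(2, ℤ) ⧸ Gamma0 N) = QuotientGroup.mk γ ↔
      (m : ZMod N) * ((γ 1 0 : ℤ) : ZMod N) ^ 2 = 0 := by
  rw [MulAction.Quotient.smul_mk, smul_eq_mul, mk_eq_mk_iff, T_pow_mul_apply_zero_zero,
    T_pow_mul_apply_one_zero]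
  push_cast
  constructor <;> intro h <;> linear_combination h

theorem T_pow_smul (N : ℕ) (x : SL(2, ℤ) ⧸ Gamma0 N) : ModularGroup.T ^ N • x = x := by
  induction x using QuotientGroup.induction_on with
  | H γ =>
    rw [T_pow_smul_mk_eq_iff, ZMod.natCast_self, zero_mul]

/-- Burnside form of the orbit count of `T`. -/
theorem sum_card_fixedBy_T_pow (N : ℕ) [NeZero N] :
    ∑ m ∈ Finset.range N, Nat.card (MulAction.fixedBy (SL(2, ℤ) ⧸ Gamma0 N) (ModularGroup.T ^ m)) =
      N * Nat.card (MulAction.orbitRel.Quotient (Subgroup.zpowers ModularGroup.T)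
        (SL(2, ℤ) ⧸ Gamma0 N)) :=
  sum_card_fixedBy_pow ModularGroup.T N (T_pow_smul N)

end Fermat.Agent.S24.H35
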