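import Mathlib

/-!
# Counting lemma for the Hurwitz count (S24), helper97

`X` finite, a group element `g` acting on `X`, `V` finite ("places over a point"),
`p : X → V` surjective and constant on `g`-orbits, `e : V → ℕ` ("ramification indices") with
`∑ e = card X` (fundamental identity) and `e (p x) ≤ card (orbit of x)` (local bound).
Then `p` induces a bijection between `⟨g⟩`-orbits and `V`, so `card V = #orbits`,
and `e (p x) = card (orbit of x)`.
-/

set_option autoImplicit false

namespace Fermat.Agent.S24.H97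

open MulAction

section
variable {G X V : Type*} [Group G] [MulAction G X]

/-- `p` is constant on orbits of `zpowers g` when it is `g`-invariant. -/
theorem apply_eq_of_mem_orbit_zpowers (g : G) (p : X → V) (hinv : ∀ x, p (g • x) = p x)
    {x y : X} (h : y ∈ orbit (Subgroup.zpowers g) x) : p y = p x := by
  obtain ⟨⟨k, hk⟩, rfl⟩ := h
  obtain ⟨n, rfl⟩ := Subgroup.mem_zpowers_iff.mp hk
  show p (g ^ n • x) = p x
  have hpos : ∀ m : ℕ, ∀ z : X, p (g ^ m • z) = p z := by
    intro m
    induction m with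
    | zero => intro z; simp
    | succ m ih => intro z; rw [pow_succ', mul_smul, hinv, ih]
  have hneg : ∀ m : ℕ, ∀ z : X, p ((g ^ m)⁻¹ • z) = p z := by
    intro m z
    have := hpos m ((g ^ m)⁻¹ • z)
    rw [smul_inv_smul] at this
    exact this.symm
  cases n with
  | ofNat m => simpa using hpos m x
  | negSucc m => simpa [zpow_negSucc] using hneg (m + 1) x

end

/-- Abstract form: `Ω` = orbit space with orbit sizes `c`. -/
theorem bijective_of_sum_eq {Ω V : Type*} [Fintype Ω] [Fintype V]
    (q : Ω → V) (hq : Function.Surjective q) (e : V → ℕ) (c : Ω → ℕ)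
    (hc : ∀ ω, 0 < c ω) (hle : ∀ ω, e (q ω) ≤ c ω) (hsum : ∑ v, e v = ∑ ω, c ω) :
    Function.Bijective q ∧ ∀ ω, e (q ω) = c ω := by
  classical
  obtain ⟨σ, hσ⟩ := hq.hasRightInverse
  have hσinj : Function.Injective σ := hσ.injective
  -- ∑_v e v = ∑_{ω ∈ image σ} e (q ω)
  have h1 : ∑ v, e v = ∑ ω ∈ Finset.univ.image σ, e (q ω) := by
    rw [Finset.sum_image (fun a _ b _ h => hσinj h)]
    exact Finset.sum_congr rfl (fun v _ => by rw [hσ v])
  have h2 : ∑ ω ∈ Finset.univ.image σ, e (q ω) ≤ ∑ ω, e (q ω) :=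
    Finset.sum_le_sum_of_subset (Finset.subset_univ _)
  have h3 : ∑ ω, e (q ω) ≤ ∑ ω, c ω := Finset.sum_le_sum (fun ω _ => hle ω)
  have h4 : ∑ ω, e (q ω) = ∑ ω, c ω := le_antisymm h3 (by rw [← hsum, h1]; exact h2)
  have h5 : ∀ ω, e (q ω) = c ω := by
    intro ω
    by_contra hne
    have hlt : e (q ω) < c ω := lt_of_le_of_ne (hle ω) hne
    have : ∑ ω, e (q ω) < ∑ ω, c ω :=
      Finset.sum_lt_sum (fun ω _ => hle ω) ⟨ω, Finset.mem_univ _, hlt⟩
    exact absurd h4 (ne_of_lt this)
  have h6 : ∑ ω ∈ Finset.univ.image σ, e (q ω) = ∑ ω, e (q ω) := by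
    apply le_antisymm h2
    rw [h4, ← hsum, h1]
  have hσsurj : Function.Surjective σ := by
    intro ω
    by_contra hω
    have hnot : ω ∉ Finset.univ.image σ := by
      intro hmem
      obtain ⟨v, -, hv⟩ := Finset.mem_image.mp hmem
      exact hω ⟨v, hv⟩
    have hlt : ∑ ω ∈ Finset.univ.image σ, e (q ω) < ∑ ω, e (q ω) := by
      apply Finset.sum_lt_sum_of_subset (Finset.subset_univ _) (Finset.mem_univ ω) hnot
      · rw [h5 ω]; exact hc ω
      · intro j _ _; exact Nat.zero_le _
    exact absurd h6 (ne_of_lt hlt)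
  refine ⟨⟨?_, hq⟩, h5⟩
  intro a b hab
  obtain ⟨va, rfl⟩ := hσsurj a
  obtain ⟨vb, rfl⟩ := hσsurj b
  rw [hσ va, hσ vb] at hab
  rw [hab]

variable {G X V : Type*} [Group G] [MulAction G X] [Fintype X] [Fintype V]

/-- **Counting lemma.** -/
theorem card_eq_card_orbits_of_sum_eq (g : G) (p : X → V) (hp : Function.Surjective p)
    (e : V → ℕ) (hsum : ∑ v, e v = Fintype.card X) (hinv : ∀ x, p (g • x) = p x)
    (hle : ∀ x, e (p x) ≤ Nat.card (orbit (Subgroup.zpowers g) x)) :
    Nat.card V = Nat.card (orbitRel.Quotient (Subgroup.zpowers g) X) ∧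
      (∀ x, e (p x) = Nat.card (orbit (Subgroup.zpowers g) x)) ∧
      (∀ x y, p x = p y → y ∈ orbit (Subgroup.zpowers g) x) := by
  classical
  let Ω := orbitRel.Quotient (Subgroup.zpowers g) X
  let _ : Fintype Ω := Fintype.ofFinite Ω
  -- the induced map on orbits
  let q : Ω → V := Quotient.lift p (fun a b (hab : a ∈ orbit (Subgroup.zpowers g) b) =>
    apply_eq_of_mem_orbit_zpowers g p hinv hab)
  have hqmk : ∀ x, q (Quotient.mk'' x) = p x := fun x => rfl
  have hq : Function.Surjective q := fun v => by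
    obtain ⟨x, rfl⟩ := hp v
    exact ⟨Quotient.mk'' x, rfl⟩
  let c : Ω → ℕ := fun ω => Nat.card ω.orbit
  have hcpos : ∀ ω, 0 < c ω := by
    intro ω
    induction ω using Quotient.inductionOn' with
    | h x =>
      show 0 < Nat.card (orbitRel.Quotient.orbit (Quotient.mk'' x))
      rw [orbitRel.Quotient.orbit_mk]
      have : Nonempty (orbit (Subgroup.zpowers g) x) := ⟨⟨x, mem_orbit_self x⟩⟩
      exact Nat.card_pos
  have hcle : ∀ ω, e (q ω) ≤ c ω := by
    intro ω
    induction ω using Quotient.inductionOn' with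
    | h x =>
      show e (p x) ≤ Nat.card (orbitRel.Quotient.orbit (Quotient.mk'' x))
      rw [orbitRel.Quotient.orbit_mk]
      exact hle x
  have hcsum : ∑ v, e v = ∑ ω, c ω := by
    rw [hsum]
    have := Fintype.card_congr (selfEquivSigmaOrbits' (Subgroup.zpowers g) X)
    rw [this, Fintype.card_sigma]
    exact Finset.sum_congr rfl (fun ω _ => by simp [c, Nat.card_eq_fintype_card])
  obtain ⟨hbij, heq⟩ := bijective_of_sum_eq q hq e c hcpos hcle hcsum
  refine ⟨?_, ?_, ?_⟩
  · exact (Nat.card_congr (Equiv.ofBijective q hbij)).symm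
  · intro x
    have := heq (Quotient.mk'' x)
    simp only [c] at this
    rw [orbitRel.Quotient.orbit_mk] at this
    exact this
  · intro x y hxy
    have h : (Quotient.mk'' x : Ω) = Quotient.mk'' y := hbij.1 (by rw [hqmk, hqmk, hxy])
    exact (Quotient.eq''.mp h.symm)

end Fermat.Agent.S24.H97
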