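import Mathlib
import Fermat.Prelude.Def_AlgebraicCurve_DivisorClassGroup

set_option autoImplicit false

open AlgebraicCurve IsDedekindDomain WithZero IntermediateField Polynomial

namespace Fermat.Agent.S24.H32

section General

variable {K F : Type*} [Field K] [Field F] [Algebra K F]

theorem val_eq_one_of_mem_of_inv_mem (val : Valuation F ℤᵐ⁰) {x : F} (hx0 : x ≠ 0)
    (h1 : val x ≤ 1) (h2 : val x⁻¹ ≤ 1) : val x = 1 := by
  apply le_antisymm h1
  have hne : val x ≠ 0 := (Valuation.ne_zero_iff _).mpr hx0
  rw [map_inv₀] at h2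
  exact (inv_le_one₀ (zero_lt_iff.mpr hne)).1 h2

theorem exp_neg_one_lt_one : (exp (-1 : ℤ) : ℤᵐ⁰) < 1 := by
  rw [← WithZero.exp_zero, WithZero.exp_lt_exp]; omega

theorem le_exp_neg_one_of_lt_one {a : ℤᵐ⁰} (ha : a < 1) : a ≤ exp (-1 : ℤ) := by
  rcases eq_or_ne a 0 with rfl | hne
  · exact zero_le
  · rw [← WithZero.exp_log hne] at ha ⊢
    rw [← WithZero.exp_zero, WithZero.exp_lt_exp] at ha
    rw [WithZero.exp_le_exp]
    omega

/-- A normalised `ℤᵐ⁰`-valued valuation with the same valuation ring as a place computes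
the order function of that place. -/
theorem ord_eq_of_valuation (v : Place K F) (val : Valuation F ℤᵐ⁰)
    (hval : val.valuationSubring = v.toValuationSubring)
    (hunif : ∃ ϖ : F, val ϖ = exp (-1 : ℤ)) (f : F) :
    v.ord f = -(WithZero.log (val f)) := by
  rcases eq_or_ne f 0 with rfl | hf
  · simp
  obtain ⟨π, hπ⟩ := IsDiscreteValuationRing.exists_irreducible v.toValuationSubring
  obtain ⟨u, hu⟩ := v.exists_unit_mul_zpow hf hπ
  have hmem : ∀ x : F, x ∈ v.toValuationSubring ↔ val x ≤ 1 := by
    intro x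
    rw [← hval]
    exact Valuation.mem_valuationSubring_iff val x
  have hunit : ∀ w : v.toValuationSubringˣ, val ((w : v.toValuationSubring) : F) = 1 := by
    intro w
    have h3 : ((w : v.toValuationSubring) : F) *
        (((w⁻¹ : v.toValuationSubringˣ) : v.toValuationSubring) : F) = 1 := by
      rw [← MulMemClass.coe_mul, Units.mul_inv]; rfl
    have hw0 : ((w : v.toValuationSubring) : F) ≠ 0 := left_ne_zero_of_mul_eq_one h3
    have hinv : (((w⁻¹ : v.toValuationSubringˣ) : v.toValuationSubring) : F)
        = ((w : v.toValuationSubring) : F)⁻¹ := eq_inv_of_mul_eq_one_right h3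
    refine val_eq_one_of_mem_of_inv_mem val hw0 ((hmem _).1 (w : v.toValuationSubring).2) ?_
    rw [← hinv]
    exact (hmem _).1 ((w⁻¹ : v.toValuationSubringˣ) : v.toValuationSubring).2
  have hu1 := hunit u
  have hπ0 : (π : F) ≠ 0 := by
    simpa [ne_eq, ZeroMemClass.coe_eq_zero] using hπ.ne_zero
  have hπlt : val (π : F) < 1 := by
    have h1 : val (π : F) ≤ 1 := (hmem _).1 π.2
    refine lt_of_le_of_ne h1 fun h => ?_
    have hinv : ((π : F))⁻¹ ∈ v.toValuationSubring := by
      rw [hmem, map_inv₀, h, inv_one]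
    apply hπ.not_isUnit
    refine isUnit_iff_exists_inv.mpr ⟨⟨(π : F)⁻¹, hinv⟩, ?_⟩
    ext
    simp [hπ0]
  obtain ⟨ϖ, hϖ⟩ := hunif
  have hπval : val (π : F) = exp (-1 : ℤ) := by
    apply le_antisymm (le_exp_neg_one_of_lt_one hπlt)
    have hϖmem : ϖ ∈ v.toValuationSubring := by
      rw [hmem, hϖ]
      exact exp_neg_one_lt_one.le
    have hnu : ¬ IsUnit (⟨ϖ, hϖmem⟩ : v.toValuationSubring) := by
      intro hU
      obtain ⟨w, hw⟩ := hU
      have h1 := hunit w
      rw [hw] at h1
      have h2 : val ϖ = 1 := h1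
      rw [hϖ] at h2
      exact (ne_of_lt exp_neg_one_lt_one) h2
    have hmemmax : (⟨ϖ, hϖmem⟩ : v.toValuationSubring) ∈
        IsLocalRing.maximalIdeal v.toValuationSubring := hnu
    rw [hπ.maximalIdeal_eq, Ideal.mem_span_singleton] at hmemmax
    obtain ⟨c, hc⟩ := hmemmax
    have hc' : ϖ = (π : F) * (c : F) := by
      have := congrArg Subtype.val hc
      simpa using this
    have hcle : val (c : F) ≤ 1 := (hmem _).1 c.2
    calc exp (-1 : ℤ) = val ϖ := hϖ.symm
      _ = val (π : F) * val (c : F) := by rw [hc', map_mul]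
      _ ≤ val (π : F) * 1 := by gcongr
      _ = val (π : F) := mul_one _
  set n := v.ord f with hn'
  rw [hu, map_mul, map_zpow₀, hu1, one_mul, hπval, ← WithZero.exp_zsmul, WithZero.log_exp]
  simp

/-- universe-polymorphic transfer of algebraic closedness along a ring isomorphism. -/
theorem isAlgClosed_of_ringEquiv {k : Type*} {k' : Type*} [Field k] [Field k'] [IsAlgClosed k]
    (e : k ≃+* k') : IsAlgClosed k' := by
  apply IsAlgClosed.of_exists_root
  intro p _ hirr
  have hdeg : (p.map (e.symm : k' →+* k)).degree ≠ 0 := by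
    rw [Polynomial.degree_map]
    exact (Polynomial.degree_pos_of_irreducible hirr).ne'
  obtain ⟨x, hx⟩ := IsAlgClosed.exists_root _ hdeg
  refine ⟨e x, ?_⟩
  have h1 : Polynomial.eval₂ (e.symm : k' →+* k) x p = 0 := by
    rw [← Polynomial.eval_map]; exact hx
  have h2 := Polynomial.hom_eval₂ p (e.symm : k' →+* k) (e : k →+* k') x
  rw [h1, map_zero] at h2
  have h3 : ((e : k →+* k').comp (e.symm : k' →+* k)) = RingHom.id k' := by
    ext z; simp
  rw [h3, Polynomial.eval₂_id] at h2
  exact h2.symm

end General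

section Main

variable {K F : Type*} [Field K] [Field F] [Algebra K F]

variable (K) in
/-- the polynomial subalgebra `K[y]` of `F`. -/
abbrev polyAlg (y : F) : Subalgebra K F := Algebra.adjoin K {y}

variable (K) in
/-- the integral closure of `K[y]` in `F`. -/
abbrev intCl (y : F) : Subalgebra (polyAlg K y) F := integralClosure (polyAlg K y) F

variable (K) in
/-- `y` as an element of `K[y]`. -/
def gen (y : F) : polyAlg K y := ⟨y, Algebra.self_mem_adjoin_singleton K y⟩

variable (K) in
/-- `K[X] ≃ K[y]` for transcendental `y`. -/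
noncomputable def polyEquiv {y : F} (hy : Transcendental K y) : K[X] ≃ₐ[K] polyAlg K y :=
  (AlgEquiv.ofInjective (aeval y) (transcendental_iff_injective.mp hy)).trans
    (Subalgebra.equivOfEq _ _ (Algebra.adjoin_singleton_eq_range_aeval K y).symm)

theorem polyEquiv_X {y : F} (hy : Transcendental K y) : polyEquiv K hy X = gen K y := by
  apply Subtype.ext
  simp [polyEquiv, gen]

theorem coe_polyEquiv {y : F} (hy : Transcendental K y) (P : K[X]) :
    ((polyEquiv K hy P : polyAlg K y) : F) = aeval y P := by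
  simp [polyEquiv]

theorem isPrincipalIdealRing_polyAlg {y : F} (hy : Transcendental K y) :
    IsPrincipalIdealRing (polyAlg K y) :=
  IsPrincipalIdealRing.of_surjective (polyEquiv K hy).toRingEquiv.toRingHom
    (polyEquiv K hy).surjective

variable (K) in
/-- the ideal `(y)` of `K[y]`. -/
def genIdeal (y : F) : Ideal (polyAlg K y) := Ideal.span {gen K y}

variable (K) in
/-- evaluation at `y = 0`. -/
noncomputable def evalZero {y : F} (hy : Transcendental K y) : polyAlg K y →+* K :=
  (Polynomial.evalRingHom (0 : K)).comp (polyEquiv K hy).symm.toRingEquiv.toRingHom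

theorem evalZero_surjective {y : F} (hy : Transcendental K y) :
    Function.Surjective (evalZero K hy) := by
  intro c
  refine ⟨polyEquiv K hy (C c), ?_⟩
  simp [evalZero]

theorem ker_evalZero {y : F} (hy : Transcendental K y) :
    RingHom.ker (evalZero K hy) = genIdeal K y := by
  ext a
  obtain ⟨P, rfl⟩ := (polyEquiv K hy).surjective a
  rw [RingHom.mem_ker, genIdeal, Ideal.mem_span_singleton, ← polyEquiv_X hy]
  have h1 : evalZero K hy (polyEquiv K hy P) = P.eval 0 := by simp [evalZero]
  rw [h1]
  constructor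
  · intro h
    have hX : (X : K[X]) ∣ P := by
      rw [Polynomial.X_dvd_iff, Polynomial.coeff_zero_eq_eval_zero, h]
    obtain ⟨Q, rfl⟩ := hX
    exact ⟨polyEquiv K hy Q, by rw [map_mul]⟩
  · rintro ⟨b, hb⟩
    obtain ⟨Q, rfl⟩ := (polyEquiv K hy).surjective b
    rw [← map_mul] at hb
    have := (polyEquiv K hy).injective hb
    rw [this]
    simp

theorem genIdeal_isMaximal {y : F} (hy : Transcendental K y) : (genIdeal K y).IsMaximal := by
  rw [← ker_evalZero hy]
  exact RingHom.ker_isMaximal_of_surjective _ (evalZero_surjective hy)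

theorem ne_zero_of_transcendental {y : F} (hy : Transcendental K y) : y ≠ 0 := by
  rintro rfl
  exact hy isAlgebraic_zero

theorem gen_ne_zero {y : F} (hy : Transcendental K y) : gen K y ≠ 0 := by
  intro h
  exact ne_zero_of_transcendental hy (congrArg Subtype.val h)

theorem genIdeal_ne_bot {y : F} (hy : Transcendental K y) : genIdeal K y ≠ ⊥ := by
  rw [genIdeal, Ne, Ideal.span_singleton_eq_bot]
  exact gen_ne_zero hy


section IntCl

open scoped IntermediateField.algebraAdjoinAdjoin

variable [CharZero K] {y : F} (hy : Transcendental K y) [FiniteDimensional K⟮y⟯ F]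

include hy

theorem isDedekindDomain_intCl : IsDedekindDomain (intCl K y) := by
  have := isPrincipalIdealRing_polyAlg hy
  exact IsIntegralClosure.isDedekindDomain (polyAlg K y) K⟮y⟯ F (intCl K y)

omit hy [CharZero K] in
theorem isFractionRing_intCl : IsFractionRing (intCl K y) F :=
  integralClosure.isFractionRing_of_finite_extension K⟮y⟯ F

theorem finite_intCl : Module.Finite (polyAlg K y) (intCl K y) := by
  have := isPrincipalIdealRing_polyAlg hy
  exact IsIntegralClosure.finite (polyAlg K y) K⟮y⟯ F (intCl K y)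

theorem free_intCl : Module.Free (polyAlg K y) (intCl K y) := by
  have := isPrincipalIdealRing_polyAlg hy
  exact IsIntegralClosure.module_free (polyAlg K y) K⟮y⟯ F (intCl K y)

theorem finrank_intCl :
    Module.finrank (polyAlg K y) (intCl K y) = Module.finrank K⟮y⟯ F := by
  have := isPrincipalIdealRing_polyAlg hy
  exact IsIntegralClosure.rank (polyAlg K y) K⟮y⟯ F (intCl K y)

theorem sum_ram_inertia [Fintype ((genIdeal K y).primesOver (intCl K y))] :
    ∑ q : (genIdeal K y).primesOver (intCl K y),
      q.1.ramificationIdx (polyAlg K y) * q.1.inertiaDeg (polyAlg K y) = Module.finrank K⟮y⟯ F := by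
  have := genIdeal_isMaximal hy
  have := finite_intCl hy
  have := free_intCl hy
  rw [← finrank_intCl hy]
  exact Ideal.sum_ramification_inertia_eq_finrank (genIdeal K y) (intCl K y)

end IntCl


section PlaceBasics

theorem ord_pos_mem (v : Place K F) {f : F} (h : 0 < v.ord f) :
    ∃ hmem : f ∈ v.toValuationSubring,
      (⟨f, hmem⟩ : v.toValuationSubring) ∈ IsLocalRing.maximalIdeal v.toValuationSubring := by
  have hf : f ≠ 0 := by
    rintro rfl
    simp at h
  obtain ⟨π, hπ⟩ := IsDiscreteValuationRing.exists_irreducible v.toValuationSubring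
  obtain ⟨u, hu⟩ := v.exists_unit_mul_zpow hf hπ
  obtain ⟨n, hn⟩ := Int.eq_ofNat_of_zero_le h.le
  have hn1 : 1 ≤ n := by omega
  rw [hn, zpow_natCast] at hu
  have hfeq : f = (((u : v.toValuationSubring) * π ^ n : v.toValuationSubring) : F) := by
    rw [hu]; push_cast; rfl
  have hmem : f ∈ v.toValuationSubring := by
    rw [hfeq]; exact SetLike.coe_mem _
  refine ⟨hmem, ?_⟩
  have hsub : (⟨f, hmem⟩ : v.toValuationSubring) = (u : v.toValuationSubring) * π ^ n :=
    Subtype.ext hfeq
  rw [hsub, IsLocalRing.mem_maximalIdeal, mem_nonunits_iff]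
  intro hU
  have h2 : IsUnit (π ^ n) := (IsUnit.mul_iff.mp hU).2
  exact hπ.not_isUnit ((isUnit_pow_iff (by omega)).mp h2)

end PlaceBasics

section Dict

/-- the valuation ring of a place contains `K[y]` as soon as it contains `y`. -/
theorem polyAlg_le (v : Place K F) {y : F} (hyv : y ∈ v.toValuationSubring) :
    ∀ a ∈ polyAlg K y, a ∈ v.toValuationSubring := by
  let S : Subalgebra K F :=
    { v.toValuationSubring.toSubring with algebraMap_mem' := v.algebraMap_mem' }
  have hle : polyAlg K y ≤ S := Algebra.adjoin_le (by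
    intro z hz
    rw [Set.mem_singleton_iff] at hz
    rw [hz]
    exact hyv)
  exact fun a ha => hle ha

/-- inclusion `K[y] → O_v`. -/
def polyToVal (v : Place K F) {y : F} (hyv : y ∈ v.toValuationSubring) :
    polyAlg K y →+* v.toValuationSubring :=
  (algebraMap (polyAlg K y) F).codRestrict v.toValuationSubring.toSubring
    (fun a => polyAlg_le v hyv a a.2)

theorem intCl_le (v : Place K F) {y : F} (hyv : y ∈ v.toValuationSubring) :
    ∀ b ∈ intCl K y, b ∈ v.toValuationSubring := by
  intro b hb
  obtain ⟨P, hP, hPb⟩ := hb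
  have hint : IsIntegral v.toValuationSubring b := by
    refine ⟨P.map (polyToVal v hyv), hP.map _, ?_⟩
    rw [Polynomial.eval₂_map]
    exact hPb
  obtain ⟨c, hc⟩ := (IsIntegrallyClosed.isIntegral_iff (R := v.toValuationSubring) (K := F)).mp hint
  rw [← hc]
  exact c.2

/-- inclusion of the integral closure of `K[y]` into `O_v`. -/
def intClToVal (v : Place K F) {y : F} (hyv : y ∈ v.toValuationSubring) :
    intCl K y →+* v.toValuationSubring :=
  (algebraMap (intCl K y) F).codRestrict v.toValuationSubring.toSubring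
    (fun b => intCl_le v hyv b b.2)

/-- the prime of the integral closure cut out by a place. -/
def primeOf (v : Place K F) {y : F} (hyv : y ∈ v.toValuationSubring) : Ideal (intCl K y) :=
  Ideal.comap (intClToVal v hyv) (IsLocalRing.maximalIdeal v.toValuationSubring)

instance primeOf_isPrime (v : Place K F) {y : F} (hyv : y ∈ v.toValuationSubring) :
    (primeOf v hyv).IsPrime :=
  Ideal.comap_isPrime _ _

end Dict


section Dict2

variable [CharZero K] {y : F} [hy : Fact (Transcendental K y)] [FiniteDimensional K⟮y⟯ F]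

local instance : IsDedekindDomain (intCl K y) := isDedekindDomain_intCl hy.out
local instance : IsFractionRing (intCl K y) F := isFractionRing_intCl
local instance : Module.Finite (polyAlg K y) (intCl K y) := finite_intCl hy.out
local instance : (genIdeal K y).IsMaximal := genIdeal_isMaximal hy.out

/-- the image of `y` in the integral closure. -/
def genB (K : Type*) [Field K] [Algebra K F] (y : F) : intCl K y := algebraMap (polyAlg K y) (intCl K y) (gen K y)

omit [CharZero K] hy [FiniteDimensional K⟮y⟯ F] in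
theorem coe_genB : ((genB K y : intCl K y) : F) = y := rfl

omit [CharZero K] hy [FiniteDimensional K⟮y⟯ F] in
theorem genB_ne_zero (hy0 : y ≠ 0) : genB K y ≠ 0 := by
  intro h
  exact hy0 (congrArg Subtype.val h)

omit [CharZero K] hy [FiniteDimensional K⟮y⟯ F] in
theorem map_genIdeal : (genIdeal K y).map (algebraMap (polyAlg K y) (intCl K y)) = Ideal.span {genB K y} := by
  rw [genIdeal, Ideal.map_span, Set.image_singleton]
  rfl

omit [CharZero K] [FiniteDimensional K⟮y⟯ F] in
theorem ne_bot_of_mem_primesOver (q : (genIdeal K y).primesOver (intCl K y)) : q.1 ≠ ⊥ := by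
  intro h
  have hlies : q.1.LiesOver (genIdeal K y) := q.2.2
  have hmem : genB K y ∈ q.1 := by
    have h1 : gen K y ∈ genIdeal K y := Ideal.subset_span rfl
    rw [hlies.over] at h1
    exact h1
  rw [h, Ideal.mem_bot] at hmem
  exact genB_ne_zero (ne_zero_of_transcendental hy.out) hmem

/-- the height one prime attached to a prime over `(y)`. -/
def toHOS (q : (genIdeal K y).primesOver (intCl K y)) : HeightOneSpectrum (intCl K y) :=
  ⟨q.1, q.2.1, ne_bot_of_mem_primesOver q⟩

/-- the place attached to a prime over `(y)`. -/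
noncomputable def toPlace (q : (genIdeal K y).primesOver (intCl K y)) : Place K F :=
  Place.ofHeightOneSpectrum (K := K) (toHOS q)

theorem ord_toPlace (q : (genIdeal K y).primesOver (intCl K y)) (f : F) :
    (toPlace q).ord f = -(WithZero.log ((toHOS q).valuation F f)) :=
  ord_eq_of_valuation (toPlace q) ((toHOS q).valuation F) rfl
    ((toHOS q).valuation_exists_uniformizer F) f

theorem ord_toPlace_gen (q : (genIdeal K y).primesOver (intCl K y)) :
    (toPlace q).ord y = (q.1.ramificationIdx (polyAlg K y) : ℤ) := by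
  classical
  have hy0 : y ≠ 0 := ne_zero_of_transcendental hy.out
  have hg0 : genB K y ≠ 0 := genB_ne_zero hy0
  have hlies : q.1.LiesOver (genIdeal K y) := q.2.2
  have hmap : (genIdeal K y).map (algebraMap (polyAlg K y) (intCl K y)) ≠ ⊥ := by
    rw [map_genIdeal, Ne, Ideal.span_singleton_eq_bot]
    exact hg0
  rw [ord_toPlace, Ideal.IsDedekindDomain.ramificationIdx_eq_normalizedFactors_count _ _ hmap,
    map_genIdeal]
  have h1 : (toHOS q).valuation F y = (toHOS q).intValuation (genB K y) := by
    rw [← (toHOS q).valuation_of_algebraMap (K := F) (genB K y)]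
    rfl
  rw [h1, (toHOS q).intValuation_if_neg hg0, WithZero.log_exp, neg_neg]
  congr 1
  exact Ideal.count_associates_factors_eq (by rwa [Ne, Ideal.zero_eq_bot, Ideal.span_singleton_eq_bot])
    q.2.1 (ne_bot_of_mem_primesOver q)


theorem ord_toPlace_gen_pos (q : (genIdeal K y).primesOver (intCl K y)) :
    0 < (toPlace q).ord y := by
  rw [ord_toPlace_gen]
  have : q.1.IsPrime := q.2.1
  exact_mod_cast Ideal.ramificationIdx_pos q.1 (polyAlg K y)

theorem toPlace_injective :
    Function.Injective (toPlace : (genIdeal K y).primesOver (intCl K y) → Place K F) := by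
  intro q q' h
  have h1 : ((toHOS q).valuation F).valuationSubring = ((toHOS q').valuation F).valuationSubring :=
    congrArg Place.toValuationSubring h
  have h2 : ((toHOS q).valuation F).IsEquiv ((toHOS q').valuation F) :=
    (Valuation.isEquiv_iff_valuationSubring _ _).mpr h1
  have h3 : toHOS q = toHOS q' := HeightOneSpectrum.eq_of_valuation_isEquiv_valuation h2
  exact Subtype.ext (congrArg HeightOneSpectrum.asIdeal h3)

omit [CharZero K] hy [FiniteDimensional K⟮y⟯ F] in
theorem primeOf_mem_iff (v : Place K F) (hyv : y ∈ v.toValuationSubring) (b : intCl K y) :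
    b ∈ primeOf v hyv ↔ intClToVal v hyv b ∈ IsLocalRing.maximalIdeal v.toValuationSubring :=
  Iff.rfl

omit [CharZero K] [FiniteDimensional K⟮y⟯ F] in
theorem primeOf_mem_primesOver (v : Place K F) (hv : 0 < v.ord y) :
    primeOf v (ord_pos_mem v hv).1 ∈ (genIdeal K y).primesOver (intCl K y) := by
  obtain ⟨hyv, hmax⟩ := ord_pos_mem v hv
  refine ⟨inferInstance, ⟨?_⟩⟩
  refine Ideal.IsMaximal.eq_of_le inferInstance (Ideal.IsPrime.ne_top (Ideal.comap_isPrime _ _)) ?_
  rw [genIdeal, Ideal.span_le, Set.singleton_subset_iff]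
  show algebraMap (polyAlg K y) (intCl K y) (gen K y) ∈ primeOf v hyv
  rw [primeOf_mem_iff]
  exact hmax

theorem toPlace_primeOf (v : Place K F) (hv : 0 < v.ord y) :
    toPlace ⟨primeOf v (ord_pos_mem v hv).1, primeOf_mem_primesOver v hv⟩ = v := by
  obtain ⟨hyv, hmax⟩ := ord_pos_mem v hv
  set q : (genIdeal K y).primesOver (intCl K y) := ⟨primeOf v hyv, primeOf_mem_primesOver v hv⟩
    with hq
  apply Place.ext
  show ((toHOS q).valuation F).valuationSubring = v.toValuationSubring
  rw [← HeightOneSpectrum.valuationSubringAtPrime_eq_valuationSubring]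
  refine ValuationSubring.eq_of_le_of_ne_top _ ?_ v.ne_top'
  rw [HeightOneSpectrum.valuationSubringAtPrime_eq_valuationSubring]
  intro x hx
  rw [Valuation.mem_valuationSubring_iff] at hx
  obtain ⟨n, d, hnd⟩ := HeightOneSpectrum.exists_primeCompl_mul_eq_of_integer (toHOS q) x hx
  have hd : (d : intCl K y) ∉ primeOf v hyv := d.2
  rw [primeOf_mem_iff, IsLocalRing.mem_maximalIdeal, mem_nonunits_iff, not_not] at hd
  obtain ⟨u, hu⟩ := hd
  have hd' : ((u : v.toValuationSubring) : F) = algebraMap (intCl K y) F d := by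
    rw [hu]; rfl
  have hu0 : ((u : v.toValuationSubring) : F) ≠ 0 := by
    intro h0
    have : (u : v.toValuationSubring) = 0 := Subtype.ext h0
    exact u.ne_zero this
  have hx' : x = ((intClToVal v hyv n * ((u⁻¹ : v.toValuationSubringˣ) : v.toValuationSubring) :
      v.toValuationSubring) : F) := by
    have h3 : ((u : v.toValuationSubring) : F) *
        (((u⁻¹ : v.toValuationSubringˣ) : v.toValuationSubring) : F) = 1 := by
      rw [← MulMemClass.coe_mul, Units.mul_inv]; rfl
    have hn' : ((intClToVal v hyv n : v.toValuationSubring) : F) = algebraMap (intCl K y) F n := rfl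
    rw [MulMemClass.coe_mul, hn', ← hnd, ← hd', mul_assoc, h3, mul_one]
  rw [hx']
  exact SetLike.coe_mem _

theorem range_toPlace :
    Set.range (toPlace : (genIdeal K y).primesOver (intCl K y) → Place K F)
      = {v : Place K F | 0 < v.ord y} := by
  ext v
  constructor
  · rintro ⟨q, rfl⟩
    exact ord_toPlace_gen_pos q
  · intro hv
    exact ⟨_, toPlace_primeOf v hv⟩

theorem inertiaDeg_eq_one [IsAlgClosed K] (q : (genIdeal K y).primesOver (intCl K y)) :
    q.1.inertiaDeg (polyAlg K y) = 1 := by
  have : q.1.LiesOver (genIdeal K y) := q.2.2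
  have : q.1.IsPrime := q.2.1
  have : q.1.IsMaximal := Ideal.IsPrime.isMaximal q.2.1 (ne_bot_of_mem_primesOver q)
  rw [Ideal.inertiaDeg_eq_of_isMaximal (genIdeal K y) q.1]
  let _ : Field (polyAlg K y ⧸ genIdeal K y) := Ideal.Quotient.field _
  let _ : Field (intCl K y ⧸ q.1) := Ideal.Quotient.field _
  let e : K ≃+* (polyAlg K y ⧸ genIdeal K y) :=
    ((Ideal.quotEquivOfEq (ker_evalZero hy.out)).symm.trans
      (RingHom.quotientKerEquivOfSurjective (evalZero_surjective hy.out))).symm
  have : IsAlgClosed (polyAlg K y ⧸ genIdeal K y) := isAlgClosed_of_ringEquiv e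
  have : Module.Finite (polyAlg K y ⧸ genIdeal K y) (intCl K y ⧸ q.1) := inferInstance
  have hbij : Function.Bijective (algebraMap (polyAlg K y ⧸ genIdeal K y) (intCl K y ⧸ q.1)) :=
    IsAlgClosed.algebraMap_bijective_of_isIntegral
  rw [← Module.finrank_self (polyAlg K y ⧸ genIdeal K y)]
  exact ((AlgEquiv.ofBijective (Algebra.ofId _ _) hbij).toLinearEquiv.finrank_eq).symm


theorem finite_primesOver_gen : ((genIdeal K y).primesOver (intCl K y)).Finite :=
  Algebra.QuasiFinite.finite_primesOver (genIdeal K y)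

theorem ord_toPlace_coe_eq_zero (q : (genIdeal K y).primesOver (intCl K y)) {b : intCl K y}
    (hb : b ∉ q.1) : (toPlace q).ord (b : F) = 0 := by
  rw [ord_toPlace]
  have h1 : (toHOS q).valuation F (algebraMap (intCl K y) F b) = 1 :=
    ((toHOS q).valuation_eq_one_iff_notMem (K := F)).mpr hb
  have h2 : ((b : intCl K y) : F) = algebraMap (intCl K y) F b := rfl
  rw [h2, h1, WithZero.log_one, neg_zero]

theorem ord_toPlace_coe_pos (q : (genIdeal K y).primesOver (intCl K y)) {b : intCl K y}
    (hb0 : b ≠ 0) (hb : b ∈ q.1) : 0 < (toPlace q).ord (b : F) := by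
  rw [ord_toPlace]
  have h1 : (toHOS q).valuation F (algebraMap (intCl K y) F b) < 1 :=
    ((toHOS q).valuation_lt_one_iff_mem b).mpr hb
  have h2 : ((b : intCl K y) : F) = algebraMap (intCl K y) F b := rfl
  have hbF : algebraMap (intCl K y) F b ≠ 0 := by
    rw [← h2]
    intro h
    exact hb0 (Subtype.ext h)
  have h0 : (toHOS q).valuation F (algebraMap (intCl K y) F b) ≠ 0 :=
    (Valuation.ne_zero_iff _).mpr hbF
  rw [h2, neg_pos, ← WithZero.log_one (M := ℤ), WithZero.log_lt_log h0 one_ne_zero]
  exact h1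

/-- prime avoidance in the integral closure: a nonzero integral element vanishing at a chosen
zero `v'` of `y` and at none of finitely many other zeros of `y`. -/
theorem exists_intCl_separating (v' : Place K F) (hv' : 0 < v'.ord y) (S : Finset (Place K F))
    (hS : ∀ v ∈ S, 0 < v.ord y) (hnot : v' ∉ S) :
    ∃ b : intCl K y, b ≠ 0 ∧ 0 < v'.ord (b : F) ∧ ∀ v ∈ S, v.ord (b : F) = 0 := by
  classical
  set q' : (genIdeal K y).primesOver (intCl K y) :=
    ⟨primeOf v' (ord_pos_mem v' hv').1, primeOf_mem_primesOver v' hv'⟩ with hq'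
  let Q : {v // v ∈ S} → (genIdeal K y).primesOver (intCl K y) := fun v =>
    ⟨primeOf v.1 (ord_pos_mem v.1 (hS v.1 v.2)).1, primeOf_mem_primesOver v.1 (hS v.1 v.2)⟩
  have hQ : ∀ v : {v // v ∈ S}, toPlace (Q v) = v.1 := fun v => toPlace_primeOf v.1 (hS v.1 v.2)
  have hq'v : toPlace q' = v' := toPlace_primeOf v' hv'
  have hmax : q'.1.IsMaximal := (toHOS q').isMaximal
  -- step 1: an element of `q'` outside all the `Q v`.
  have hex : ∃ b : intCl K y, b ∈ q'.1 ∧ ∀ v : {v // v ∈ S}, b ∉ (Q v).1 := by
    by_contra hcon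
    have hsub : ((q'.1 : Ideal (intCl K y)) : Set (intCl K y)) ⊆
        ⋃ i ∈ ((S.attach : Finset {v // v ∈ S}) : Set {v // v ∈ S}), ((Q i).1 : Set (intCl K y)) := by
      intro b hb
      by_contra hbn
      apply hcon
      refine ⟨b, hb, fun v hv => hbn ?_⟩
      exact Set.mem_biUnion (Finset.mem_coe.mpr (Finset.mem_attach S v)) hv
    by_cases hne : S.Nonempty
    · obtain ⟨v0, hv0⟩ := hne
      have h := (Ideal.subset_union_prime (s := S.attach) (f := fun i => (Q i).1)
        (⟨v0, hv0⟩ : {v // v ∈ S}) ⟨v0, hv0⟩ (fun i _ _ _ => (Q i).2.1) (I := q'.1)).mp hsub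
      obtain ⟨i, _, hi⟩ := h
      have hprime : (Q i).1.IsPrime := (Q i).2.1
      have heq : q'.1 = (Q i).1 := hmax.eq_of_le hprime.ne_top hi
      have : q' = Q i := Subtype.ext heq
      have hv : v' = i.1 := by rw [← hq'v, this, hQ]
      exact hnot (hv ▸ i.2)
    · rw [Finset.not_nonempty_iff_eq_empty] at hne
      apply hcon
      refine ⟨0, Ideal.zero_mem _, fun v => ?_⟩
      exact absurd v.2 (Finset.eq_empty_iff_forall_notMem.mp hne v.1)
  obtain ⟨b, hbq, hbQ⟩ := hex
  -- step 2: make it nonzero.
  obtain ⟨b, hb0, hbq, hbQ⟩ : ∃ b : intCl K y, b ≠ 0 ∧ b ∈ q'.1 ∧ ∀ v : {v // v ∈ S}, b ∉ (Q v).1 := by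
    by_cases hb0 : b = 0
    · refine ⟨genB K y, genB_ne_zero (ne_zero_of_transcendental hy.out), ?_, fun v => ?_⟩
      · have hlies : q'.1.LiesOver (genIdeal K y) := q'.2.2
        have h1 : gen K y ∈ genIdeal K y := Ideal.subset_span (Set.mem_singleton _)
        rw [hlies.over] at h1
        exact h1
      · exact absurd (hb0 ▸ Ideal.zero_mem _) (hbQ v)
    · exact ⟨b, hb0, hbq, hbQ⟩
  refine ⟨b, hb0, ?_, fun v hv => ?_⟩
  · rw [← hq'v]
    exact ord_toPlace_coe_pos q' hb0 hbq
  · have h : toPlace (Q ⟨v, hv⟩) = v := hQ ⟨v, hv⟩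
    have h0 := ord_toPlace_coe_eq_zero (Q ⟨v, hv⟩) (hbQ ⟨v, hv⟩)
    rwa [h] at h0

end Dict2

section Final

variable [IsAlgClosed K] [CharZero K]

omit [IsAlgClosed K] in
/-- **FI-1**: a transcendental `y` with `F / K(y)` finite has finitely many zeros. -/
theorem finite_zeros {y : F} (hy : Transcendental K y) [FiniteDimensional K⟮y⟯ F] :
    {v : Place K F | 0 < v.ord y}.Finite := by
  have : Fact (Transcendental K y) := ⟨hy⟩
  rw [← range_toPlace]
  have : Finite ((genIdeal K y).primesOver (intCl K y)) := finite_primesOver_gen.to_subtype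
  exact Set.finite_range _

/-- **FI-2**: the fundamental identity: the zeros of `y`, counted with multiplicity, add up to
`[F : K(y)]`. -/
theorem finsum_ord_zeros {y : F} (hy : Transcendental K y) [FiniteDimensional K⟮y⟯ F] :
    ∑ᶠ v ∈ {v : Place K F | 0 < v.ord y}, v.ord y = (Module.finrank K⟮y⟯ F : ℤ) := by
  have : Fact (Transcendental K y) := ⟨hy⟩
  let _ : Fintype ((genIdeal K y).primesOver (intCl K y)) := finite_primesOver_gen.fintype
  rw [← range_toPlace, finsum_mem_range toPlace_injective, finsum_eq_sum_of_fintype,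
    ← sum_ram_inertia hy, Nat.cast_sum]
  refine Finset.sum_congr rfl fun q _ => ?_
  rw [ord_toPlace_gen, inertiaDeg_eq_one, mul_one]

/-- Finset form of **FI-1**/**FI-2**. -/
theorem exists_finset_zeros {y : F} (hy : Transcendental K y) [FiniteDimensional K⟮y⟯ F] :
    ∃ s : Finset (Place K F), (∀ v : Place K F, v ∈ s ↔ 0 < v.ord y) ∧
      ∑ v ∈ s, v.ord y = (Module.finrank K⟮y⟯ F : ℤ) := by
  refine ⟨(finite_zeros hy).toFinset, fun v => by simp, ?_⟩
  rw [← finsum_ord_zeros hy, finsum_mem_eq_finite_toFinset_sum _ (finite_zeros hy)]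

omit [IsAlgClosed K] in
/-- **FI-5**: prime avoidance. Given a zero `v'` of `y` and finitely many other zeros `S` of `y`,
there is a nonzero `f`, integral over `K[y]`, vanishing at `v'` and a unit at every `v ∈ S`. -/
theorem exists_integral_separating (y : F) (hy : Transcendental K y) [FiniteDimensional K⟮y⟯ F]
    (v' : Place K F) (hv' : 0 < v'.ord y) (S : Finset (Place K F))
    (hS : ∀ v ∈ S, 0 < v.ord y) (hnot : v' ∉ S) :
    ∃ f : F, f ≠ 0 ∧ IsIntegral (Algebra.adjoin K {y}) f ∧ 0 < v'.ord f ∧
      ∀ v ∈ S, v.ord f = 0 := by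
  have : Fact (Transcendental K y) := ⟨hy⟩
  obtain ⟨b, hb0, hpos, hzero⟩ := exists_intCl_separating v' hv' S hS hnot
  refine ⟨(b : F), ?_, b.2, hpos, hzero⟩
  intro h
  exact hb0 (Subtype.ext h)

section Corollaries

omit [IsAlgClosed K] [CharZero K] in
theorem finiteDimensional_congr {L L' : IntermediateField K F} (h : L = L') :
    FiniteDimensional L F ↔ FiniteDimensional L' F := by
  subst h; rfl

omit [IsAlgClosed K] [CharZero K] in
theorem finrank_congr {L L' : IntermediateField K F} (h : L = L') :
    Module.finrank L F = Module.finrank L' F := by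
  subst h; rfl

omit [IsAlgClosed K] [CharZero K] in
theorem adjoin_sub_algebraMap (x : F) (c : K) : K⟮x - algebraMap K F c⟯ = K⟮x⟯ := by
  apply le_antisymm
  · rw [IntermediateField.adjoin_simple_le_iff]
    exact sub_mem (IntermediateField.mem_adjoin_simple_self K x) (IntermediateField.algebraMap_mem _ c)
  · rw [IntermediateField.adjoin_simple_le_iff]
    have h : (x - algebraMap K F c) + algebraMap K F c ∈ K⟮x - algebraMap K F c⟯ :=
      add_mem (IntermediateField.mem_adjoin_simple_self K _) (IntermediateField.algebraMap_mem _ c)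
    rwa [sub_add_cancel] at h

omit [IsAlgClosed K] [CharZero K] in
theorem adjoin_inv_eq (x : F) : K⟮x⁻¹⟯ = K⟮x⟯ := by
  apply le_antisymm
  · rw [IntermediateField.adjoin_simple_le_iff]
    exact inv_mem (IntermediateField.mem_adjoin_simple_self K x)
  · rw [IntermediateField.adjoin_simple_le_iff]
    have h : (x⁻¹)⁻¹ ∈ K⟮x⁻¹⟯ := inv_mem (IntermediateField.mem_adjoin_simple_self K _)
    rwa [inv_inv] at h

omit [IsAlgClosed K] [CharZero K] in
theorem transcendental_sub_algebraMap {x : F} (hx : Transcendental K x) (c : K) :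
    Transcendental K (x - algebraMap K F c) := by
  intro h
  apply hx
  have h2 := h.add (isAlgebraic_algebraMap (R := K) (A := F) c)
  simpa using h2

omit [IsAlgClosed K] [CharZero K] in
theorem transcendental_inv {x : F} (hx : Transcendental K x) : Transcendental K x⁻¹ := by
  intro h
  apply hx
  have h2 := h.inv
  simpa using h2

/-- fundamental identity for any generator `y` of the same rational subfield. -/
theorem finsum_ord_zeros_of_adjoin_eq {x y : F} (hy : Transcendental K y) (h : K⟮y⟯ = K⟮x⟯)
    [FiniteDimensional K⟮x⟯ F] :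
    ∑ᶠ v ∈ {v : Place K F | 0 < v.ord y}, v.ord y = (Module.finrank K⟮x⟯ F : ℤ) := by
  have : FiniteDimensional K⟮y⟯ F := (finiteDimensional_congr h).mpr inferInstance
  rw [finsum_ord_zeros hy, finrank_congr h]

omit [IsAlgClosed K] in
theorem finite_zeros_of_adjoin_eq {x y : F} (hy : Transcendental K y) (h : K⟮y⟯ = K⟮x⟯)
    [FiniteDimensional K⟮x⟯ F] : {v : Place K F | 0 < v.ord y}.Finite := by
  have : FiniteDimensional K⟮y⟯ F := (finiteDimensional_congr h).mpr inferInstance
  exact finite_zeros hy

/-- **FI-4a**: the places over `x = c`, counted with multiplicity, add up to `[F : K(x)]`. -/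
theorem finsum_ord_zeros_sub {x : F} (hx : Transcendental K x) [FiniteDimensional K⟮x⟯ F] (c : K) :
    ∑ᶠ v ∈ {v : Place K F | 0 < v.ord (x - algebraMap K F c)}, v.ord (x - algebraMap K F c)
      = (Module.finrank K⟮x⟯ F : ℤ) :=
  finsum_ord_zeros_of_adjoin_eq (transcendental_sub_algebraMap hx c) (adjoin_sub_algebraMap x c)

omit [IsAlgClosed K] in
theorem finite_zeros_sub {x : F} (hx : Transcendental K x) [FiniteDimensional K⟮x⟯ F] (c : K) :
    {v : Place K F | 0 < v.ord (x - algebraMap K F c)}.Finite :=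
  finite_zeros_of_adjoin_eq (transcendental_sub_algebraMap hx c) (adjoin_sub_algebraMap x c)

omit [IsAlgClosed K] in
theorem finite_poles {x : F} (hx : Transcendental K x) [FiniteDimensional K⟮x⟯ F] :
    {v : Place K F | v.ord x < 0}.Finite := by
  have h := finite_zeros_of_adjoin_eq (transcendental_inv hx) (adjoin_inv_eq x)
  have hset : {v : Place K F | 0 < v.ord x⁻¹} = {v : Place K F | v.ord x < 0} := by
    ext v
    show 0 < v.ord x⁻¹ ↔ v.ord x < 0
    rw [Place.ord_inv, neg_pos]
  rwa [hset] at h

/-- **FI-4b**: the poles of `x`, counted with multiplicity, add up to `[F : K(x)]`. -/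
theorem finsum_ord_poles {x : F} (hx : Transcendental K x) [FiniteDimensional K⟮x⟯ F] :
    ∑ᶠ v ∈ {v : Place K F | v.ord x < 0}, -v.ord x = (Module.finrank K⟮x⟯ F : ℤ) := by
  have h := finsum_ord_zeros_of_adjoin_eq (transcendental_inv hx) (adjoin_inv_eq x)
  have hset : {v : Place K F | 0 < v.ord x⁻¹} = {v : Place K F | v.ord x < 0} := by
    ext v
    show 0 < v.ord x⁻¹ ↔ v.ord x < 0
    rw [Place.ord_inv, neg_pos]
  rw [hset] at h
  rw [← h]
  exact finsum_mem_congr rfl fun v _ => (Place.ord_inv v x).symm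

end Corollaries

end Final

end Main

end Fermat.Agent.S24.H32
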