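import Mathlib
import Fermat.Prelude.Def_AlgebraicCurve_CanonicalDivisor
import Fermat.Agent.S24.ZVal_helper31
import Fermat.Agent.S24.CountLemma_helper97
import Fermat.Agent.S24.Basics_helper19
import Fermat.Agent.S24.FundId_helper32

/-!
# S24, row D0: the abstract counting lemma "places above `y` ↔ orbits"

`F/K` a function field, `y ∈ F` transcendental with `F` finite over `K(y)`.  A finite set `X`
of "conjugates" carries valuations `W ξ` on `F` that are positive at `y`, invariant under a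
group element `g` acting on `X`, with value groups inside `d ξ • ℤ`, and local bound
`W ξ y ≤ d ξ * |orbit ξ|`.  A norm-type hypothesis says that every integral `f` vanishing at a
place above `y` vanishes at some `W ξ`.  Then `[F : K(y)] ≤ |X|`, and in case of equality the
places of `F` above `y = 0` are in bijection with the `⟨g⟩`-orbits on `X`.
-/

set_option autoImplicit false

open AlgebraicCurve IntermediateField
open Fermat.Agent.S24.H31

namespace Fermat.Agent.S24.H98

variable {K F : Type*} [Field K] [Field F] [Algebra K F]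

/-- every place has an element of order one -/
theorem exists_ord_eq_one (v : Place K F) : ∃ t : F, t ≠ 0 ∧ v.ord t = 1 := by
  obtain ⟨π, hπ⟩ := IsDiscreteValuationRing.exists_irreducible v.toValuationSubring
  have h1 := v.ord_coe_irreducible hπ
  refine ⟨(π : F), ?_, h1⟩
  intro h
  rw [h, v.ord_zero] at h1
  exact zero_ne_one h1

theorem ord_neg' (v : Place K F) (f : F) : v.ord (-f) = v.ord f := by
  rcases eq_or_ne f 0 with rfl | hf
  · simp
  have h1 : v.ord (-1 : F) = 0 := by
    have h := v.ord_mul (neg_ne_zero.mpr (one_ne_zero (α := F))) (neg_ne_zero.mpr one_ne_zero)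
    rw [neg_mul_neg, mul_one, v.ord_one] at h
    omega
  have h := v.ord_mul (neg_ne_zero.mpr (one_ne_zero (α := F))) hf
  rw [neg_one_mul, h1, zero_add] at h
  exact h

/-- a unit plus an element of positive order is a unit -/
theorem ord_add_eq_zero (v : Place K F) {a b : F} (ha : a ≠ 0) (hoa : v.ord a = 0)
    (hb : b = 0 ∨ 0 < v.ord b) : a + b ≠ 0 ∧ v.ord (a + b) = 0 := by
  rcases hb with rfl | hb
  · rw [add_zero]; exact ⟨ha, hoa⟩
  have hb0 : b ≠ 0 := by
    rintro rfl
    rw [v.ord_zero] at hb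
    exact lt_irrefl _ hb
  have hab : a + b ≠ 0 := by
    intro h
    have : b = -a := by linear_combination h
    rw [this, ord_neg', hoa] at hb
    exact lt_irrefl _ hb
  refine ⟨hab, le_antisymm ?_ ?_⟩
  · by_contra hlt
    replace hlt := not_le.mp hlt
    have h := H19.ord_add_ge v (f := a + b) (g := -b) (by simpa using ha)
    rw [add_neg_cancel_right, ord_neg', hoa] at h
    have : 0 < min (v.ord (a + b)) (v.ord b) := lt_min hlt hb
    omega
  · have h := H19.ord_add_ge v hab
    rw [hoa] at h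
    exact le_trans (le_min le_rfl hb.le) h

/-- a polynomial in `y` with nonzero constant term is a unit at every zero of `y` -/
theorem aeval_ord_eq_zero (v : Place K F) {y : F} (hy : 0 < v.ord y) (p : Polynomial K)
    (hp : p.eval 0 ≠ 0) : Polynomial.aeval y p ≠ 0 ∧ v.ord (Polynomial.aeval y p) = 0 := by
  have hcoeff : p.coeff 0 ≠ 0 := by rwa [Polynomial.coeff_zero_eq_eval_zero]
  have hdecomp : Polynomial.aeval y p
      = algebraMap K F (p.coeff 0) + Polynomial.aeval y p.divX * y := by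
    conv_lhs => rw [← Polynomial.divX_mul_X_add p]
    simp [add_comm]
  rw [hdecomp]
  have ha : algebraMap K F (p.coeff 0) ≠ 0 := by
    simpa using hcoeff
  apply ord_add_eq_zero v ha (H19.ord_algebraMap v _)
  by_cases hq : Polynomial.aeval y p.divX = 0
  · left; rw [hq, zero_mul]
  · right
    have hy0 : y ≠ 0 := by
      rintro rfl
      rw [v.ord_zero] at hy
      exact lt_irrefl _ hy
    rw [v.ord_mul hq hy0]
    have hint : IsIntegral (Algebra.adjoin K {y}) (Polynomial.aeval y p.divX) := by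
      have hmem : Polynomial.aeval y p.divX ∈ Algebra.adjoin K {y} := by
        rw [Algebra.adjoin_singleton_eq_range_aeval]
        exact ⟨_, rfl⟩
      exact isIntegral_algebraMap (R := Algebra.adjoin K {y}) (x := ⟨_, hmem⟩)
    have := H19.isIntegral_ord_nonneg v hy.le hint
    omega

/-- **D0, group-action form.** -/
theorem count_places_action [IsAlgClosed K] [CharZero K] (y : F) (hy : Transcendental K y)
    [FiniteDimensional K⟮y⟯ F] {G X : Type*} [Group G] [MulAction G X] [Fintype X] (g : G)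
    (W : X → ZVal F) (d : X → ℕ) (_hd0 : ∀ ξ, 0 < d ξ)
    (hK : ∀ ξ (c : K), c ≠ 0 → (W ξ).ord (algebraMap K F c) = 0)
    (hy0 : ∀ ξ, 0 < (W ξ).ord y)
    (hσ : ∀ ξ (f : F), (W (g • ξ)).ord f = (W ξ).ord f)
    (hd : ∀ ξ (f : F), f ≠ 0 → (d ξ : ℤ) ∣ (W ξ).ord f)
    (he : ∀ ξ, (W ξ).ord y ≤ d ξ * Nat.card (MulAction.orbit (Subgroup.zpowers g) ξ))
    (hnorm : ∀ f : F, f ≠ 0 → IsIntegral (Algebra.adjoin K {y}) f →
      ∃ (c : F) (p : Polynomial K), IsIntegral (Algebra.adjoin K {y}) c ∧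
        f * c = Polynomial.aeval y p ∧ (p.eval 0 = 0 → ∃ ξ, 0 < (W ξ).ord f)) :
    Module.finrank K⟮y⟯ F ≤ Fintype.card X ∧
      (Module.finrank K⟮y⟯ F = Fintype.card X →
        Nat.card {v : Place K F // 0 < v.ord y}
            = Nat.card (MulAction.orbitRel.Quotient (Subgroup.zpowers g) X) ∧
          ∀ v : Place K F, 0 < v.ord y →
            ∃ ξ : X, v.ord y ≤ Nat.card (MulAction.orbit (Subgroup.zpowers g) ξ)) := by
  classical
  have hy_ne : y ≠ 0 := fun h => hy (h ▸ isAlgebraic_zero)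
  -- Step 1: the places cut out by the `W ξ`
  have hex : ∀ ξ, ∃ (v : Place K F) (m : ℤ), 0 < m ∧
      ∀ f : F, f ≠ 0 → (W ξ).ord f = m * v.ord f :=
    fun ξ => H19.exists_place_of_zval (W ξ) (hK ξ) ⟨y, hy_ne, (hy0 ξ).ne'⟩
  choose vp m hm hW using hex
  -- Step 2: `d ξ ∣ m ξ`
  have hdm : ∀ ξ, (d ξ : ℤ) ∣ m ξ := by
    intro ξ
    obtain ⟨t, ht0, ht⟩ := exists_ord_eq_one (vp ξ)
    have := hd ξ t ht0
    rwa [hW ξ t ht0, ht, mul_one] at this
  -- Step 3: positivity and the local bound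
  have hpos : ∀ ξ, 0 < (vp ξ).ord y := by
    intro ξ
    have := hy0 ξ
    rw [hW ξ y hy_ne] at this
    exact (mul_pos_iff_of_pos_left (hm ξ)).mp this
  have hle : ∀ ξ, (vp ξ).ord y ≤ Nat.card (MulAction.orbit (Subgroup.zpowers g) ξ) := by
    intro ξ
    have h1 := he ξ
    rw [hW ξ y hy_ne] at h1
    have h2 : (d ξ : ℤ) ≤ m ξ := Int.le_of_dvd (hm ξ) (hdm ξ)
    have h3 : m ξ * (vp ξ).ord y
        ≤ m ξ * (Nat.card (MulAction.orbit (Subgroup.zpowers g) ξ) : ℤ) :=
      h1.trans (mul_le_mul_of_nonneg_right h2 (Nat.cast_nonneg _))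
    exact le_of_mul_le_mul_left h3 (hm ξ)
  -- Step 4: invariance
  have hinv : ∀ ξ, vp (g • ξ) = vp ξ := by
    intro ξ
    apply H19.place_ext_of_ord
    intro f
    by_cases hf : f = 0
    · subst hf; simp
    · have h1 := hW (g • ξ) f hf
      have h2 := hW ξ f hf
      rw [hσ ξ f] at h1
      have h12 : m (g • ξ) * (vp (g • ξ)).ord f = m ξ * (vp ξ).ord f := by rw [← h1, ← h2]
      constructor
      · intro h
        have h3 : 0 ≤ m ξ * (vp ξ).ord f := by
          rw [← h12]; exact mul_nonneg (hm _).le h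
        exact le_of_mul_le_mul_left (by simpa using h3) (hm ξ)
      · intro h
        have h3 : 0 ≤ m (g • ξ) * (vp (g • ξ)).ord f := by
          rw [h12]; exact mul_nonneg (hm _).le h
        exact le_of_mul_le_mul_left (by simpa using h3) (hm (g • ξ))
  -- Step 5: the finite set of places above `y`
  obtain ⟨S, hS, hsum⟩ := H32.exists_finset_zeros hy
  let _ : Fintype {v : Place K F // 0 < v.ord y} := Fintype.subtype S hS
  let p : X → {v : Place K F // 0 < v.ord y} := fun ξ => ⟨vp ξ, hpos ξ⟩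
  have hp : Function.Surjective p := by
    rintro ⟨v', hv'⟩
    by_contra hne
    let S' : Finset (Place K F) := Finset.univ.image vp
    have hS' : ∀ v ∈ S', 0 < v.ord y := by
      intro v hv
      obtain ⟨ξ, -, rfl⟩ := Finset.mem_image.mp hv
      exact hpos ξ
    have hnot : v' ∉ S' := by
      intro hv
      obtain ⟨ξ, -, hξ⟩ := Finset.mem_image.mp hv
      exact hne ⟨ξ, Subtype.ext hξ⟩
    obtain ⟨f, hf0, hfint, hfv', hfS⟩ :=
      H32.exists_integral_separating y hy v' hv' S' hS' hnot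
    obtain ⟨c, P, hcint, hfc, hP⟩ := hnorm f hf0 hfint
    have hP0 : P.eval 0 = 0 := by
      by_contra hP0
      obtain ⟨hne', hord⟩ := aeval_ord_eq_zero v' hv' P hP0
      have hc0 : c ≠ 0 := by
        rintro rfl
        rw [mul_zero] at hfc
        exact hne' hfc.symm
      have h1 := v'.ord_mul hf0 hc0
      rw [hfc, hord] at h1
      have hcn := H19.isIntegral_ord_nonneg v' hv'.le hcint
      omega
    obtain ⟨ξ, hξ⟩ := hP hP0
    rw [hW ξ f hf0, hfS (vp ξ) (Finset.mem_image_of_mem _ (Finset.mem_univ ξ)), mul_zero] at hξ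
    exact lt_irrefl _ hξ
  -- ramification indices
  let e : {v : Place K F // 0 < v.ord y} → ℕ := fun v => (v.1.ord y).toNat
  have he_cast : ∀ v : {v : Place K F // 0 < v.ord y}, (e v : ℤ) = v.1.ord y := fun v =>
    Int.toNat_of_nonneg v.2.le
  have hsumV : ∑ v, e v = Module.finrank K⟮y⟯ F := by
    have h1 : ((∑ v, e v : ℕ) : ℤ) = ∑ v ∈ S, v.ord y := by
      rw [Finset.sum_subtype S hS (fun v => v.ord y)]
      push_cast
      exact Finset.sum_congr rfl fun v _ => he_cast v
    exact_mod_cast h1.trans hsum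
  have hinv' : ∀ ξ, p (g • ξ) = p ξ := fun ξ => Subtype.ext (hinv ξ)
  have hle' : ∀ ξ, e (p ξ) ≤ Nat.card (MulAction.orbit (Subgroup.zpowers g) ξ) := by
    intro ξ
    have := hle ξ
    have h2 := he_cast (p ξ)
    have h3 : ((e (p ξ) : ℕ) : ℤ) ≤ (Nat.card (MulAction.orbit (Subgroup.zpowers g) ξ) : ℤ) := by
      rw [h2]; exact this
    exact_mod_cast h3
  -- the inequality `n ≤ |X|`
  have hcardX : ∑ v, e v ≤ Fintype.card X := by
    have hfib : Fintype.card X = ∑ v, Fintype.card {ξ // p ξ = v} := by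
      rw [← Fintype.card_sigma]
      exact Fintype.card_congr (Equiv.sigmaFiberEquiv p).symm
    rw [hfib]
    apply Finset.sum_le_sum
    intro v _
    obtain ⟨ξ, rfl⟩ := hp v
    refine (hle' ξ).trans ?_
    rw [← Nat.card_eq_fintype_card]
    refine Nat.card_le_card_of_injective
      (fun z : MulAction.orbit (Subgroup.zpowers g) ξ =>
        (⟨z.1, H97.apply_eq_of_mem_orbit_zpowers g p hinv' z.2⟩ : {η // p η = p ξ})) ?_
    intro a b hab
    have := congrArg (fun z : {η // p η = p ξ} => (z : X)) hab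
    exact Subtype.ext this
  refine ⟨hsumV ▸ hcardX, fun hn => ?_⟩
  obtain ⟨h1, -, -⟩ := H97.card_eq_card_orbits_of_sum_eq g p hp e (hsumV.trans hn) hinv' hle'
  refine ⟨h1, fun v hv => ?_⟩
  obtain ⟨ξ, hξ⟩ := hp ⟨v, hv⟩
  refine ⟨ξ, ?_⟩
  have : vp ξ = v := congrArg Subtype.val hξ
  rw [← this]
  exact hle ξ

/-- **D0** in the shape of task row 101 (`σ` a permutation of `X`). -/
theorem count_places [IsAlgClosed K] [CharZero K] (y : F) (hy : Transcendental K y)
    [FiniteDimensional K⟮y⟯ F] {X : Type*} [Fintype X] (σ : Equiv.Perm X)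
    (W : X → ZVal F) (d : X → ℕ) (hd0 : ∀ ξ, 0 < d ξ)
    (hK : ∀ ξ (c : K), c ≠ 0 → (W ξ).ord (algebraMap K F c) = 0)
    (hy0 : ∀ ξ, 0 < (W ξ).ord y)
    (hσ : ∀ ξ (f : F), (W (σ ξ)).ord f = (W ξ).ord f)
    (hd : ∀ ξ (f : F), f ≠ 0 → (d ξ : ℤ) ∣ (W ξ).ord f)
    (he : ∀ ξ, (W ξ).ord y ≤ d ξ * Nat.card (MulAction.orbit (Subgroup.zpowers σ) ξ))
    (hnorm : ∀ f : F, f ≠ 0 → IsIntegral (Algebra.adjoin K {y}) f →
      ∃ (c : F) (p : Polynomial K), IsIntegral (Algebra.adjoin K {y}) c ∧
        f * c = Polynomial.aeval y p ∧ (p.eval 0 = 0 → ∃ ξ, 0 < (W ξ).ord f)) :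
    Module.finrank K⟮y⟯ F ≤ Fintype.card X ∧
      (Module.finrank K⟮y⟯ F = Fintype.card X →
        Nat.card {v : Place K F // 0 < v.ord y}
            = Nat.card (MulAction.orbitRel.Quotient (Subgroup.zpowers σ) X) ∧
          ∀ v : Place K F, 0 < v.ord y →
            ∃ ξ : X, v.ord y ≤ Nat.card (MulAction.orbit (Subgroup.zpowers σ) ξ)) :=
  count_places_action y hy σ W d hd0 hK hy0 hσ hd he hnorm

end Fermat.Agent.S24.H98
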