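import Mathlib

/-!
# S24, rows D1a-3 and D1a-4 (helper10)

* `card_le_finrank_of_injective`: a degree lower bound from distinct conjugates.
* `card_orbit_zpowers_of_prime`, `card_orbit_zpowers_dvd`: orbit sizes of cyclic actions.
-/

set_option autoImplicit false

open IntermediateField

namespace Fermat.Agent.S24.H10

section Norm
variable {K F L G : Type*} [Field K] [Field F] [Algebra K F] [Field L] [Group G]
  [MulSemiringAction G L]

/-- **D1a-3** degree lower bound from distinct conjugates -/
theorem card_le_finrank_of_injective (Φ : F →+* L) (x u : F) [FiniteDimensional K⟮x⟯ F]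
    (hfix : ∀ (g : G) (c : F), c ∈ K⟮x⟯ → g • Φ c = Φ c)
    {X : Type*} [Fintype X] (r : X → G)
    (hdist : Function.Injective fun ξ : X => r ξ • Φ u) :
    Fintype.card X ≤ Module.finrank K⟮x⟯ F := by
  classical
  -- the minimal polynomial of `u` over `K⟮x⟯`
  have hint : IsIntegral K⟮x⟯ u := IsIntegral.of_finite K⟮x⟯ u
  set m : Polynomial K⟮x⟯ := minpoly K⟮x⟯ u with hm
  have hmdeg : m.natDegree ≤ Module.finrank K⟮x⟯ F := minpoly.natDegree_le u
  have hm0 : m ≠ 0 := minpoly.ne_zero hint
  -- transport the coefficients to `L`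
  set ψ : K⟮x⟯ →+* L := Φ.comp (algebraMap K⟮x⟯ F) with hψ
  have hψinj : Function.Injective ψ := ψ.injective
  set m' : Polynomial L := m.map ψ with hm'
  have hm'0 : m' ≠ 0 := (Polynomial.map_ne_zero_iff hψinj).2 hm0
  have hm'deg : m'.natDegree = m.natDegree := Polynomial.natDegree_map_eq_of_injective hψinj m
  -- `Φ u` is a root of `m'`
  have hroot0 : m'.eval (Φ u) = 0 := by
    have h1 : m'.eval (Φ u) = Φ (Polynomial.aeval u m) := by
      rw [hm', Polynomial.eval_map, hψ, Polynomial.aeval_def, Polynomial.hom_eval₂]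
    rw [h1, hm, minpoly.aeval, map_zero]
  -- every conjugate is a root of `m'`
  have hroot : ∀ ξ : X, m'.eval (r ξ • Φ u) = 0 := by
    intro ξ
    set σ : L →+* L := MulSemiringAction.toRingHom G L (r ξ) with hσ
    have hσψ : σ.comp ψ = ψ := by
      ext c
      simp only [RingHom.comp_apply, hσ, hψ, MulSemiringAction.toRingHom_apply]
      exact hfix (r ξ) (algebraMap K⟮x⟯ F c) c.2
    have h2 : (m'.map σ).eval (σ (Φ u)) = σ (m'.eval (Φ u)) := by
      rw [Polynomial.eval_map, Polynomial.eval₂_hom]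
    have h3 : m'.map σ = m' := by
      rw [hm', Polynomial.map_map, hσψ]
    rw [h3, hroot0, map_zero] at h2
    simpa [hσ] using h2
  -- count the roots
  set Z : Finset L := Finset.univ.image (fun ξ : X => r ξ • Φ u) with hZ
  have hZcard : Z.card = Fintype.card X := by
    rw [hZ, Finset.card_image_of_injective _ hdist, Finset.card_univ]
  have hZsub : Z.val ⊆ m'.roots := by
    intro z hz
    have hz' : z ∈ Z := hz
    rw [hZ, Finset.mem_image] at hz'
    obtain ⟨ξ, -, rfl⟩ := hz'
    exact (Polynomial.mem_roots hm'0).2 (hroot ξ)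
  have := Polynomial.card_le_degree_of_subset_roots hZsub
  omega

end Norm

section Orbits
variable {G X : Type*} [Group G] [MulAction G X]

/-- the orbit of `ξ` under `zpowers s` has `minimalPeriod (s • ·) ξ` elements. -/
theorem card_orbit_zpowers_eq_minimalPeriod (s : G) (ξ : X) :
    Nat.card (MulAction.orbit (Subgroup.zpowers s) ξ) = Function.minimalPeriod (s • ·) ξ := by
  rw [Nat.card_congr (MulAction.orbitZPowersEquiv s ξ), Nat.card_zmod]

theorem pow_smul_isPeriodicPt (s : G) (n : ℕ) (ξ : X) (h : s ^ n • ξ = ξ) :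
    Function.IsPeriodicPt (s • ·) n ξ := by
  rw [Function.IsPeriodicPt, Function.IsFixedPt, smul_iterate]
  exact h

/-- **D1a-4** orbit sizes of an element whose `n`-th power acts trivially -/
theorem card_orbit_zpowers_dvd (s : G) (n : ℕ) (hn : 0 < n) (hs : ∀ ξ : X, s ^ n • ξ = ξ)
    (ξ : X) :
    0 < Nat.card (MulAction.orbit (Subgroup.zpowers s) ξ) ∧
      Nat.card (MulAction.orbit (Subgroup.zpowers s) ξ) ∣ n ∧
      s ^ Nat.card (MulAction.orbit (Subgroup.zpowers s) ξ) • ξ = ξ := by
  rw [card_orbit_zpowers_eq_minimalPeriod]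
  have hper : Function.IsPeriodicPt (s • ·) n ξ := pow_smul_isPeriodicPt s n ξ (hs ξ)
  refine ⟨hper.minimalPeriod_pos hn, hper.minimalPeriod_dvd, ?_⟩
  have := Function.isPeriodicPt_minimalPeriod (s • ·) ξ
  rw [Function.IsPeriodicPt, Function.IsFixedPt, smul_iterate] at this
  exact this

/-- **D1a-4** orbit sizes of an element whose `p`-th power acts trivially, `p` prime -/
theorem card_orbit_zpowers_of_prime (s : G) (p : ℕ) (hp : p.Prime) (hs : ∀ ξ : X, s ^ p • ξ = ξ)
    (ξ : X) :
    (s • ξ = ξ → Nat.card (MulAction.orbit (Subgroup.zpowers s) ξ) = 1) ∧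
      (s • ξ ≠ ξ → Nat.card (MulAction.orbit (Subgroup.zpowers s) ξ) = p) := by
  rw [card_orbit_zpowers_eq_minimalPeriod]
  have hper : Function.IsPeriodicPt (s • ·) p ξ := pow_smul_isPeriodicPt s p ξ (hs ξ)
  have hdvd : Function.minimalPeriod (s • ·) ξ ∣ p := hper.minimalPeriod_dvd
  constructor
  · intro h
    exact Function.minimalPeriod_eq_one_iff_isFixedPt.2 h
  · intro h
    rcases (Nat.dvd_prime hp).1 hdvd with h1 | h1
    · exact absurd (Function.minimalPeriod_eq_one_iff_isFixedPt.1 h1) h
    · exact h1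

end Orbits

end Fermat.Agent.S24.H10
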