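import Mathlib

/-!
# S24 / D1a-2: norm relation from invariants (abstract algebra)

`exists_norm_relation`: given a family of "conjugation" operators `r ξ` on `L` that is
permuted by the group `G`, every `f` integral over `K[y]` has a multiple `f * c` lying in
`K[y]` whose image in `L` is, up to sign, the product of all conjugates of `Φ f`.
-/

set_option autoImplicit false

namespace Fermat.Agent.S24.H45

open Polynomial

section Norm
variable {K F L G : Type*} [Field K] [Field F] [Algebra K F] [Field L] [Group G]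
  [MulSemiringAction G L]

/-- **D1a-2** norm relation from invariants -/
theorem exists_norm_relation (Φ : F →+* L) (y : F) {X : Type*} [Fintype X] (r : X → G)
    (ξ₀ : X) (hξ₀ : ∀ f : F, r ξ₀ • Φ f = Φ f)
    (hperm : ∀ g : G, ∃ π : Equiv.Perm X, ∀ (ξ : X) (f : F), g • (r ξ • Φ f) = r (π ξ) • Φ f)
    (hfix : ∀ (g : G) (c : F), c ∈ Algebra.adjoin K {y} → g • Φ c = Φ c)
    (hinv : ∀ x : L, (∀ g : G, g • x = x) →
      IsIntegral ((Algebra.adjoin K {y}).toSubring.map Φ) x →
      ∃ P : Polynomial K, x = Φ (Polynomial.aeval y P))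
    (f : F) (hfint : IsIntegral (Algebra.adjoin K {y}) f) :
    ∃ (c : F) (p : Polynomial K), IsIntegral (Algebra.adjoin K {y}) c ∧
      f * c = Polynomial.aeval y p ∧
      (Φ (Polynomial.aeval y p) = ∏ ξ, r ξ • Φ f ∨
        Φ (Polynomial.aeval y p) = - ∏ ξ, r ξ • Φ f) := by
  classical
  set R' : Subring L := (Algebra.adjoin K {y}).toSubring.map Φ with hR'
  set M : L[X] := ∏ ξ, (Polynomial.X - C (r ξ • Φ f)) with hM
  -- `Φ f` is integral over `R'`
  have hΦf : IsIntegral R' (Φ f) := by
    let φ : ↥(Algebra.adjoin K {y}) →+* ↥R' :=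
      RingHom.codRestrict (Φ.comp (Algebra.adjoin K {y}).val.toRingHom) R'
        (fun x => ⟨x.1, x.2, rfl⟩)
    exact IsIntegral.map_of_comp_eq φ Φ (by ext x; rfl) hfint
  -- every conjugate is integral over `R'`
  have hroot : ∀ ξ, IsIntegral R' (r ξ • Φ f) := by
    intro ξ
    have h := IsIntegral.map_of_comp_eq (RingHom.id R') (MulSemiringAction.toRingHom G L (r ξ))
      (by
        ext ⟨x, c, hc, rfl⟩
        simp only [RingHom.comp_id, RingHom.coe_comp, Function.comp_apply,
          MulSemiringAction.toRingHom_apply]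
        exact (hfix (r ξ) c hc).symm) hΦf
    simpa using h
  -- (1) `M` is `G`-invariant
  have hMinv : ∀ g : G, M.map (MulSemiringAction.toRingHom G L g) = M := by
    intro g
    obtain ⟨π, hπ⟩ := hperm g
    rw [hM, Polynomial.map_prod]
    simp only [Polynomial.map_sub, Polynomial.map_X, Polynomial.map_C,
      MulSemiringAction.toRingHom_apply, hπ]
    exact Equiv.prod_comp π (fun ξ => Polynomial.X - C (r ξ • Φ f))
  have hcoef : ∀ (g : G) (i : ℕ), g • M.coeff i = M.coeff i := by
    intro g i
    have h := congrArg (fun p => p.coeff i) (hMinv g)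
    simpa [Polynomial.coeff_map] using h
  -- (2) the coefficients of `M` are integral over `R'`
  have hcoefint : ∀ i, IsIntegral R' (M.coeff i) := by
    intro i
    let S := integralClosure R' L
    let MS : S[X] := ∏ ξ, (Polynomial.X - C (⟨r ξ • Φ f, hroot ξ⟩ : S))
    have hMS : MS.map (S.val : S →+* L) = M := by
      simp [MS, hM, Polynomial.map_prod]
    rw [← hMS, Polynomial.coeff_map]
    exact (MS.coeff i).2
  -- (3) descend the coefficients
  choose P hP using fun i => hinv (M.coeff i) (fun g => hcoef g i) (hcoefint i)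
  set n : ℕ := Fintype.card X with hn
  have hMdeg : M.natDegree = n := by
    rw [hM, Polynomial.natDegree_finsetProd_X_sub_C_eq_card]; rfl
  set M0 : F[X] := ∑ i ∈ Finset.range (n + 1), C (aeval y (P i)) * Polynomial.X ^ i with hM0
  have hM0map : M0.map Φ = M := by
    rw [hM0, Polynomial.map_sum]
    simp only [Polynomial.map_mul, Polynomial.map_pow, Polynomial.map_X, Polynomial.map_C,
      ← hP]
    exact (Polynomial.as_sum_range_C_mul_X_pow' M (by omega)).symm
  have hMroot : M.eval (Φ f) = 0 := by
    rw [hM, Polynomial.eval_prod]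
    exact Finset.prod_eq_zero (Finset.mem_univ ξ₀) (by simp [hξ₀])
  have hev : M0.eval f = 0 := by
    apply Φ.injective
    rw [map_zero, ← Polynomial.eval₂_at_apply, ← Polynomial.eval_map, hM0map]
    exact hMroot
  have hsum : aeval y (P 0) + f * ∑ i ∈ Finset.range n, aeval y (P (i + 1)) * f ^ i = 0 := by
    rw [hM0, Polynomial.eval_finsetSum, Finset.sum_range_succ'] at hev
    simp only [Polynomial.eval_mul, Polynomial.eval_C, Polynomial.eval_pow, Polynomial.eval_X,
      pow_zero, mul_one] at hev
    rw [← hev, Finset.mul_sum, add_comm]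
    congr 1
    apply Finset.sum_congr rfl
    intro i _
    ring
  refine ⟨∑ i ∈ Finset.range n, aeval y (P (i + 1)) * f ^ i, - P 0, ?_, ?_, ?_⟩
  · refine IsIntegral.sum _ (fun i _ => IsIntegral.mul ?_ (hfint.pow i))
    have hmem : aeval y (P (i + 1)) ∈ Algebra.adjoin K {y} := by
      rw [Algebra.adjoin_singleton_eq_range_aeval]
      exact ⟨_, rfl⟩
    exact isIntegral_algebraMap (x := (⟨_, hmem⟩ : Algebra.adjoin K {y}))
  · rw [map_neg]
    exact eq_neg_of_add_eq_zero_right hsum
  · have h0 : Φ (aeval y (P 0)) = (-1) ^ n * ∏ ξ, r ξ • Φ f := by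
      rw [← hP 0, Polynomial.coeff_zero_eq_eval_zero, hM, Polynomial.eval_prod]
      simp only [Polynomial.eval_sub, Polynomial.eval_X, Polynomial.eval_C, zero_sub]
      rw [Finset.prod_neg]
      rfl
    rw [map_neg, map_neg, h0]
    rcases Nat.even_or_odd n with he | ho
    · right
      rw [he.neg_one_pow, one_mul]
    · left
      rw [ho.neg_one_pow]
      ring

end Norm

end Fermat.Agent.S24.H45
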