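import Mathlib
import Fermat.Agent.S24.Cover_helper98
import Fermat.Agent.S24.CountPlaces_helper98
import Fermat.Agent.S24.NormRel_helper45
import Fermat.Agent.S24.CoverAlg_helper10
import Fermat.Agent.S24.CosetOrbits_helper35

/-!
# S24, D1a: from an `AnalyticCover N` to the ramification data of `Kbar(j) ⊆ F_N`
-/

set_option autoImplicit false

open AlgebraicCurve IntermediateField
open scoped MatrixGroups
open ModularCurve CongruenceSubgroup ModularGroup
open Fermat.Agent.S24.H31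

namespace Fermat.Agent.S24.H98

section General

variable {K F : Type*} [Field K] [Field F] [Algebra K F]

theorem adjoin_sub_algebraMap (x : F) (c : K) : K⟮x - algebraMap K F c⟯ = K⟮x⟯ := by
  apply le_antisymm
  · rw [adjoin_simple_le_iff]
    exact sub_mem (mem_adjoin_simple_self K x) (IntermediateField.algebraMap_mem _ c)
  · rw [adjoin_simple_le_iff]
    have h : (x - algebraMap K F c) + algebraMap K F c ∈ K⟮x - algebraMap K F c⟯ :=
      add_mem (mem_adjoin_simple_self K _) (IntermediateField.algebraMap_mem _ c)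
    simpa using h

theorem adjoin_inv (x : F) : K⟮x⁻¹⟯ = K⟮x⟯ := by
  apply le_antisymm
  · rw [adjoin_simple_le_iff]
    exact inv_mem (mem_adjoin_simple_self K x)
  · rw [adjoin_simple_le_iff]
    have h : (x⁻¹)⁻¹ ∈ K⟮x⁻¹⟯ := inv_mem (mem_adjoin_simple_self K _)
    simpa using h

theorem finrank_congr_intermediateField {E₁ E₂ : IntermediateField K F} (h : E₁ = E₂) :
    (FiniteDimensional E₁ F ↔ FiniteDimensional E₂ F) ∧
      Module.finrank E₁ F = Module.finrank E₂ F := by
  subst h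
  exact ⟨Iff.rfl, rfl⟩

theorem transcendental_sub_algebraMap {x : F} (hx : Transcendental K x) (c : K) :
    Transcendental K (x - algebraMap K F c) := by
  intro h
  apply hx
  have h2 : IsAlgebraic K ((x - algebraMap K F c) + algebraMap K F c) :=
    h.add (isAlgebraic_algebraMap c)
  simpa using h2

theorem transcendental_inv {x : F} (hx : Transcendental K x) : Transcendental K x⁻¹ := by
  intro h
  apply hx
  have h2 : IsAlgebraic K (x⁻¹)⁻¹ := h.inv
  simpa using h2

theorem algebraAdjoin_sub_algebraMap (x : F) (c : K) :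
    Algebra.adjoin K {x - algebraMap K F c} = Algebra.adjoin K {x} := by
  apply le_antisymm
  · rw [Algebra.adjoin_le_iff, Set.singleton_subset_iff]
    exact sub_mem (Algebra.self_mem_adjoin_singleton K x) (Subalgebra.algebraMap_mem _ c)
  · rw [Algebra.adjoin_le_iff, Set.singleton_subset_iff]
    have h : (x - algebraMap K F c) + algebraMap K F c ∈ Algebra.adjoin K {x - algebraMap K F c} :=
      add_mem (Algebra.self_mem_adjoin_singleton K _) (Subalgebra.algebraMap_mem _ c)
    simpa using h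

/-- orbits of a trivial group -/
theorem card_orbits_of_subsingleton' (Δ X : Type*) [Group Δ] [Subsingleton Δ] [MulAction Δ X] :
    Nat.card (MulAction.orbitRel.Quotient Δ X) = Nat.card X := by
  symm
  apply Nat.card_congr
  refine Equiv.ofBijective (fun x => Quotient.mk'' x) ⟨?_, Quotient.mk''_surjective⟩
  intro x y hxy
  have h := Quotient.exact hxy
  change x ∈ MulAction.orbit Δ y at h
  obtain ⟨δ, rfl⟩ := h
  rw [Subsingleton.elim δ 1]
  exact one_smul _ _

end General

end Fermat.Agent.S24.H98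

namespace Fermat.Agent.S24.H98

/-- the coset space `SL(2,ℤ) ⧸ Γ₀(N)` -/
abbrev XN (N : ℕ) : Type := SL(2, ℤ) ⧸ Gamma0 N

instance instFiniteXN (N : ℕ) [NeZero N] : Finite (XN N) := by
  apply Nat.finite_of_card_ne_zero
  rw [H35.card_quotient_Gamma0 N (NeZero.ne N)]
  intro h
  have h1 : 1 ≤ dedekindPsi N := by
    unfold dedekindPsi
    have hmem : (1 : ℕ) ∈ N.divisors.filter Squarefree := by
      simp [NeZero.ne N]
    refine le_trans ?_ (Finset.single_le_sum (f := fun d => N / d) (fun _ _ => Nat.zero_le _) hmem)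
    simpa using Nat.one_le_iff_ne_zero.mpr (NeZero.ne N)
  omega

noncomputable instance instFintypeXN (N : ℕ) [NeZero N] : Fintype (XN N) := Fintype.ofFinite _

section Cover

variable {N : ℕ} [NeZero N] (C : AnalyticCover N)

/-- the conjugate embedding attached to a coset -/
noncomputable def AnalyticCover.conj (ξ : XN N) : FN N →+* C.L :=
  (MulSemiringAction.toRingHom SL(2, ℤ) C.L ξ.out).comp C.Φ

theorem AnalyticCover.conj_apply (ξ : XN N) (f : FN N) : C.conj ξ f = ξ.out • C.Φ f := rfl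

theorem AnalyticCover.smul_Φ_eq_conj (g : SL(2, ℤ)) (f : FN N) :
    g • C.Φ f = C.conj (QuotientGroup.mk g : XN N) f := by
  have h : g⁻¹ * (QuotientGroup.mk g : XN N).out ∈ Gamma0 N :=
    QuotientGroup.eq.mp (QuotientGroup.out_eq' _).symm
  rw [C.conj_apply]
  have h2 : (QuotientGroup.mk g : XN N).out = g * (g⁻¹ * (QuotientGroup.mk g : XN N).out) := by
    group
  rw [h2, mul_smul, C.smul_Φ _ h]

theorem AnalyticCover.smul_conj (s : SL(2, ℤ)) (ξ : XN N) (f : FN N) :
    s • C.conj ξ f = C.conj (s • ξ) f := by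
  rw [C.conj_apply, ← mul_smul, C.smul_Φ_eq_conj]
  congr 1
  conv_rhs => rw [← QuotientGroup.out_eq' ξ]
  rfl

theorem AnalyticCover.conj_one (f : FN N) :
    C.conj (QuotientGroup.mk 1 : XN N) f = C.Φ f := by
  rw [← C.smul_Φ_eq_conj, one_smul]

theorem AnalyticCover.conj_ne_zero (ξ : XN N) {f : FN N} (hf : f ≠ 0) : C.conj ξ f ≠ 0 :=
  (map_ne_zero (C.conj ξ)).mpr hf

/-- `SL(2,ℤ)` fixes `Φ (Kbar[j])` -/
theorem AnalyticCover.smul_adjoin_j (g : SL(2, ℤ)) (c : FN N)
    (hc : c ∈ Algebra.adjoin Kbar {jBar N}) : g • C.Φ c = C.Φ c := by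
  induction hc using Algebra.adjoin_induction with
  | mem x hx =>
    rw [Set.mem_singleton_iff] at hx
    subst hx
    exact C.smul_j g
  | algebraMap r => exact C.smul_const g r
  | add x y _ _ hx hy => rw [map_add, smul_add, hx, hy]
  | mul x y _ _ hx hy => rw [map_mul, smul_mul', hx, hy]

/-- `SL(2,ℤ)` fixes `Φ (Kbar(j))` -/
theorem AnalyticCover.smul_field_j (g : SL(2, ℤ)) (c : FN N)
    (hc : c ∈ Kbar⟮jBar N⟯) : g • C.Φ c = C.Φ c := by
  induction hc using IntermediateField.adjoin_induction with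
  | mem x hx =>
    rw [Set.mem_singleton_iff] at hx
    subst hx
    exact C.smul_j g
  | algebraMap r => exact C.smul_const g r
  | add x y _ _ hx hy => rw [map_add, smul_add, hx, hy]
  | mul x y _ _ hx hy => rw [map_mul, smul_mul', hx, hy]
  | inv x _ hx => rw [map_inv₀, smul_inv'', hx]

/-- elements of `Φ(Kbar[y])` have nonnegative order at a valuation positive at `y` -/
theorem AnalyticCover.ord_aeval_nonneg (y : FN N) (hy : y ≠ 0) (z : ZVal C.L)
    (hzc : ∀ c : Kbar, c ≠ 0 → z.ord (C.Φ (algebraMap Kbar (FN N) c)) = 0)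
    (hzy : 0 < z.ord (C.Φ y)) (q : Polynomial Kbar) (hq : Polynomial.aeval y q ≠ 0) :
    0 ≤ z.ord (C.Φ (Polynomial.aeval y q)) := by
  obtain ⟨v, m, hm, hW⟩ := H19.exists_place_of_zval (K := Kbar) (z.comap C.Φ) hzc
    ⟨y, hy, hzy.ne'⟩
  have hvy : 0 < v.ord y := by
    have := hW y hy
    rw [ZVal.comap_ord] at this
    rw [this] at hzy
    exact (mul_pos_iff_of_pos_left hm).mp hzy
  have hint : IsIntegral (Algebra.adjoin Kbar {y}) (Polynomial.aeval y q) := by
    have hmem : Polynomial.aeval y q ∈ Algebra.adjoin Kbar {y} := by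
      rw [Algebra.adjoin_singleton_eq_range_aeval]
      exact ⟨_, rfl⟩
    exact isIntegral_algebraMap (R := Algebra.adjoin Kbar {y}) (x := ⟨_, hmem⟩)
  have h1 := H19.isIntegral_ord_nonneg v hvy.le hint
  have h2 := hW _ hq
  rw [ZVal.comap_ord] at h2
  rw [h2]
  exact mul_nonneg hm.le h1

/-- **The count for one valuation of the cover.** -/
theorem AnalyticCover.count_of_zval (y : FN N) (hy : Transcendental Kbar y)
    [FiniteDimensional Kbar⟮y⟯ (FN N)]
    (hyfix : ∀ (g : SL(2, ℤ)) (c : FN N), c ∈ Algebra.adjoin Kbar {y} → g • C.Φ c = C.Φ c)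
    (hinv : ∀ x : C.L, (∀ g : SL(2, ℤ), g • x = x) →
      IsIntegral ((Algebra.adjoin Kbar {y}).toSubring.map C.Φ) x →
      ∃ P : Polynomial Kbar, x = C.Φ (Polynomial.aeval y P))
    (z : ZVal C.L) (hzc : ∀ c : Kbar, c ≠ 0 → z.ord (C.Φ (algebraMap Kbar (FN N) c)) = 0)
    (hzy : 0 < z.ord (C.Φ y))
    (s : SL(2, ℤ)) (hzs : ∀ x : C.L, z.ord (s • x) = z.ord x)
    (d : XN N → ℕ) (hd0 : ∀ ξ, 0 < d ξ)
    (hd : ∀ (ξ : XN N) (f : FN N), f ≠ 0 → (d ξ : ℤ) ∣ z.ord (C.conj ξ f))
    (he : ∀ ξ : XN N,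
      z.ord (C.Φ y) ≤ d ξ * Nat.card (MulAction.orbit (Subgroup.zpowers s) ξ)) :
    Module.finrank Kbar⟮y⟯ (FN N) ≤ Fintype.card (XN N) ∧
      (Module.finrank Kbar⟮y⟯ (FN N) = Fintype.card (XN N) →
        Nat.card {v : Place Kbar (FN N) // 0 < v.ord y}
            = Nat.card (MulAction.orbitRel.Quotient (Subgroup.zpowers s) (XN N)) ∧
          ∀ v : Place Kbar (FN N), 0 < v.ord y →
            ∃ ξ : XN N, v.ord y ≤ Nat.card (MulAction.orbit (Subgroup.zpowers s) ξ)) := by
  classical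
  have hy_ne : y ≠ 0 := fun h => hy (h ▸ isAlgebraic_zero)
  have hyself : ∀ g : SL(2, ℤ), g • C.Φ y = C.Φ y := fun g =>
    hyfix g y (Algebra.self_mem_adjoin_singleton _ _)
  have hconj_y : ∀ ξ : XN N, C.conj ξ y = C.Φ y := fun ξ => by rw [C.conj_apply, hyself]
  have hconj_c : ∀ (ξ : XN N) (c : Kbar),
      C.conj ξ (algebraMap Kbar (FN N) c) = C.Φ (algebraMap Kbar (FN N) c) := fun ξ c => by
    rw [C.conj_apply, C.smul_const]
  let W : XN N → ZVal (FN N) := fun ξ => z.comap (C.conj ξ)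
  refine count_places_action y hy s W d hd0 ?hK ?hy0 ?hσ ?hd ?he ?hnorm
  case hK =>
    intro ξ c hc
    show z.ord (C.conj ξ _) = 0
    rw [hconj_c]; exact hzc c hc
  case hy0 =>
    intro ξ
    show 0 < z.ord (C.conj ξ y)
    rw [hconj_y]; exact hzy
  case hσ =>
    intro ξ f
    show z.ord (C.conj (s • ξ) f) = z.ord (C.conj ξ f)
    rw [← C.smul_conj, hzs]
  case hd =>
    intro ξ f hf
    exact hd ξ f hf
  case he =>
    intro ξ
    show z.ord (C.conj ξ y) ≤ _
    rw [hconj_y]; exact he ξ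
  case hnorm =>
    intro f hf hfint
    obtain ⟨c, p, hcint, hfc, hprod⟩ := H45.exists_norm_relation (K := Kbar) (G := SL(2, ℤ))
      C.Φ y (fun ξ : XN N => ξ.out) (QuotientGroup.mk 1) (fun f => C.conj_one f)
      (fun g => ⟨MulAction.toPerm g, fun ξ f => C.smul_conj g ξ f⟩) hyfix hinv f hfint
    refine ⟨c, p, hcint, hfc, fun hp0 => ?_⟩
    have hprod_ne : ∏ ξ : XN N, C.conj ξ f ≠ 0 :=
      Finset.prod_ne_zero_iff.mpr fun ξ _ => C.conj_ne_zero ξ hf
    have hprod' : C.Φ (Polynomial.aeval y p) = ∏ ξ : XN N, C.conj ξ f ∨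
        C.Φ (Polynomial.aeval y p) = - ∏ ξ : XN N, C.conj ξ f := hprod
    have hΦp_ne : C.Φ (Polynomial.aeval y p) ≠ 0 := by
      rcases hprod' with h | h
      · rw [h]; exact hprod_ne
      · rw [h]; exact neg_ne_zero.mpr hprod_ne
    have hord : z.ord (C.Φ (Polynomial.aeval y p)) = ∑ ξ : XN N, z.ord (C.conj ξ f) := by
      rcases hprod' with h | h
      · rw [h, z.ord_prod _ _ fun ξ _ => C.conj_ne_zero ξ hf]
      · rw [h, z.ord_neg hprod_ne, z.ord_prod _ _ fun ξ _ => C.conj_ne_zero ξ hf]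
    obtain ⟨q, rfl⟩ : Polynomial.X ∣ p :=
      Polynomial.X_dvd_iff.mpr (by rwa [Polynomial.coeff_zero_eq_eval_zero])
    have hq_ne : Polynomial.aeval y q ≠ 0 := by
      intro h0
      apply hΦp_ne
      rw [map_mul, h0, mul_zero, map_zero]
    have hΦy_ne : C.Φ y ≠ 0 := (map_ne_zero C.Φ).mpr hy_ne
    have hΦq_ne : C.Φ (Polynomial.aeval y q) ≠ 0 := (map_ne_zero C.Φ).mpr hq_ne
    have hqnn := C.ord_aeval_nonneg y hy_ne z hzc hzy q hq_ne
    have hpos : 0 < z.ord (C.Φ (Polynomial.aeval y (Polynomial.X * q))) := by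
      rw [map_mul, Polynomial.aeval_X, map_mul, z.ord_mul hΦy_ne hΦq_ne]
      omega
    by_contra hall
    have hall' : ∀ ξ : XN N, z.ord (C.conj ξ f) ≤ 0 := fun ξ =>
      not_lt.mp fun h => hall ⟨ξ, h⟩
    have hsum : ∑ ξ : XN N, z.ord (C.conj ξ f) ≤ 0 := Finset.sum_nonpos fun ξ _ => hall' ξ
    omega

end Cover

end Fermat.Agent.S24.H98
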