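import Mathlib
import Fermat.Agent.S24.CoverCount_helper98

/-!
# S24, D1a: the ramification data of `Kbar(j) ⊆ F_N` from an `AnalyticCover N`

* the degree is `|SL(2,ℤ) ⧸ Γ₀(N)|`;
* `j` is unramified outside `0, 1728, ∞`;
* the places above `1728`, `0`, `∞` are counted by the orbits of `S`, `S * T`, `T` on the
  coset space.
-/

set_option autoImplicit false

open AlgebraicCurve IntermediateField
open scoped MatrixGroups
open ModularCurve CongruenceSubgroup ModularGroup
open Fermat.Agent.S24.H31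

namespace Fermat.Agent.S24.H98

/-- orbit sizes on the coset space, prime exponent -/
theorem card_orbit_XN_of_prime {N : ℕ} (s : SL(2, ℤ)) (p : ℕ) (hp : p.Prime)
    (hs : ∀ ξ : XN N, s ^ p • ξ = ξ) (ξ : XN N) :
    (s • ξ = ξ → Nat.card (MulAction.orbit (Subgroup.zpowers s) ξ) = 1) ∧
      (s • ξ ≠ ξ → Nat.card (MulAction.orbit (Subgroup.zpowers s) ξ) = p) :=
  H10.card_orbit_zpowers_of_prime s p hp hs ξ

/-- orbit sizes on the coset space, general exponent -/
theorem card_orbit_XN_dvd {N : ℕ} (s : SL(2, ℤ)) (n : ℕ) (hn : 0 < n)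
    (hs : ∀ ξ : XN N, s ^ n • ξ = ξ) (ξ : XN N) :
    0 < Nat.card (MulAction.orbit (Subgroup.zpowers s) ξ) ∧
      Nat.card (MulAction.orbit (Subgroup.zpowers s) ξ) ∣ n ∧
      s ^ Nat.card (MulAction.orbit (Subgroup.zpowers s) ξ) • ξ = ξ :=
  H10.card_orbit_zpowers_dvd s n hn hs ξ

section Cover

variable {N : ℕ} [NeZero N] (C : AnalyticCover N)

/-- `SL(2,ℤ)` fixes `Φ (Kbar[1/j])` -/
theorem AnalyticCover.smul_adjoin_jinv (g : SL(2, ℤ)) (c : FN N)
    (hc : c ∈ Algebra.adjoin Kbar {(jBar N)⁻¹}) : g • C.Φ c = C.Φ c := by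
  induction hc using Algebra.adjoin_induction with
  | mem x hx =>
    rw [Set.mem_singleton_iff] at hx
    subst hx
    rw [map_inv₀, smul_inv'', C.smul_j g]
  | algebraMap r => exact C.smul_const g r
  | add x y _ _ hx hy => rw [map_add, smul_add, hx, hy]
  | mul x y _ _ hx hy => rw [map_mul, smul_mul', hx, hy]

/-- the conjugates of `j(q^N)` are pairwise distinct, hence the degree is at least `|X|` -/
theorem AnalyticCover.card_le_finrank {N : ℕ} [NeZero N] (C : AnalyticCover N)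
    [FiniteDimensional Kbar⟮jBar N⟯ (FN N)] :
    Fintype.card (XN N) ≤ Module.finrank Kbar⟮jBar N⟯ (FN N) := by
  refine H10.card_le_finrank_of_injective (K := Kbar) (G := SL(2, ℤ)) C.Φ (jBar N)
    (jdBar N N dvd_rfl) (fun g c hc => C.smul_field_j g c hc) (fun ξ : XN N => ξ.out) ?_
  intro ξ η h
  have h' : ξ.out • C.Φ (jdBar N N dvd_rfl) = η.out • C.Φ (jdBar N N dvd_rfl) := h
  have h2 : (η.out⁻¹ * ξ.out) • C.Φ (jdBar N N dvd_rfl) = C.Φ (jdBar N N dvd_rfl) := by
    rw [mul_smul, h', ← mul_smul, inv_mul_cancel, one_smul]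
  have h3 := C.mem_Gamma0 _ h2
  have h4 : (QuotientGroup.mk η.out : XN N) = QuotientGroup.mk ξ.out := QuotientGroup.eq.mpr h3
  rw [QuotientGroup.out_eq', QuotientGroup.out_eq'] at h4
  exact h4.symm

/-- `count_of_zval` for `y = j - a`. -/
theorem AnalyticCover.count_sub (a : Kbar) (hx : Transcendental Kbar (jBar N))
    (z : ZVal C.L) (hzc : ∀ c : Kbar, c ≠ 0 → z.ord (C.Φ (algebraMap Kbar (FN N) c)) = 0)
    (hzy : 0 < z.ord (C.Φ (jBar N - algebraMap Kbar (FN N) a)))
    (s : SL(2, ℤ)) (hzs : ∀ x : C.L, z.ord (s • x) = z.ord x)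
    (d : XN N → ℕ) (hd0 : ∀ ξ, 0 < d ξ)
    (hd : ∀ (ξ : XN N) (f : FN N), f ≠ 0 → (d ξ : ℤ) ∣ z.ord (C.conj ξ f))
    (he : ∀ ξ : XN N, z.ord (C.Φ (jBar N - algebraMap Kbar (FN N) a))
      ≤ d ξ * Nat.card (MulAction.orbit (Subgroup.zpowers s) ξ)) :
    Module.finrank Kbar⟮jBar N⟯ (FN N) ≤ Fintype.card (XN N) ∧
      (Module.finrank Kbar⟮jBar N⟯ (FN N) = Fintype.card (XN N) →
        Nat.card {v : Place Kbar (FN N) // 0 < v.ord (jBar N - algebraMap Kbar (FN N) a)}
            = Nat.card (MulAction.orbitRel.Quotient (Subgroup.zpowers s) (XN N)) ∧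
          ∀ v : Place Kbar (FN N), 0 < v.ord (jBar N - algebraMap Kbar (FN N) a) →
            ∃ ξ : XN N, v.ord (jBar N - algebraMap Kbar (FN N) a)
              ≤ Nat.card (MulAction.orbit (Subgroup.zpowers s) ξ)) := by
  have hcongr := finrank_congr_intermediateField (adjoin_sub_algebraMap (jBar N) a)
  haveI : FiniteDimensional Kbar⟮jBar N - algebraMap Kbar (FN N) a⟯ (FN N) :=
    hcongr.1.mpr C.finite
  have hadj := algebraAdjoin_sub_algebraMap (jBar N) a
  have key := C.count_of_zval (jBar N - algebraMap Kbar (FN N) a)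
    (transcendental_sub_algebraMap hx a)
    (fun g c hc => C.smul_adjoin_j g c (hadj ▸ hc))
    (fun x hxfix hxint => by
      rw [hadj] at hxint
      obtain ⟨P, hP⟩ := C.invariant_j x hxfix hxint
      refine ⟨P.comp (Polynomial.X + Polynomial.C a), ?_⟩
      rw [hP, Polynomial.aeval_comp]
      congr 2
      simp)
    z hzc hzy s hzs d hd0 hd he
  rw [hcongr.2] at key
  exact key

/-- `count_of_zval` for `y = 1 / j`. -/
theorem AnalyticCover.count_inv (hx : Transcendental Kbar (jBar N))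
    (z : ZVal C.L) (hzc : ∀ c : Kbar, c ≠ 0 → z.ord (C.Φ (algebraMap Kbar (FN N) c)) = 0)
    (hzy : 0 < z.ord (C.Φ (jBar N)⁻¹))
    (s : SL(2, ℤ)) (hzs : ∀ x : C.L, z.ord (s • x) = z.ord x)
    (d : XN N → ℕ) (hd0 : ∀ ξ, 0 < d ξ)
    (hd : ∀ (ξ : XN N) (f : FN N), f ≠ 0 → (d ξ : ℤ) ∣ z.ord (C.conj ξ f))
    (he : ∀ ξ : XN N, z.ord (C.Φ (jBar N)⁻¹)
      ≤ d ξ * Nat.card (MulAction.orbit (Subgroup.zpowers s) ξ)) :
    Module.finrank Kbar⟮jBar N⟯ (FN N) ≤ Fintype.card (XN N) ∧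
      (Module.finrank Kbar⟮jBar N⟯ (FN N) = Fintype.card (XN N) →
        Nat.card {v : Place Kbar (FN N) // v.ord (jBar N) < 0}
            = Nat.card (MulAction.orbitRel.Quotient (Subgroup.zpowers s) (XN N))) := by
  have hcongr := finrank_congr_intermediateField (adjoin_inv (K := Kbar) (jBar N))
  haveI : FiniteDimensional Kbar⟮(jBar N)⁻¹⟯ (FN N) := hcongr.1.mpr C.finite
  have key := C.count_of_zval (jBar N)⁻¹ (transcendental_inv hx)
    (fun g c hc => C.smul_adjoin_jinv g c hc) C.invariant_jinv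
    z hzc hzy s hzs d hd0 hd he
  rw [hcongr.2] at key
  refine ⟨key.1, fun hn => ?_⟩
  rw [← (key.2 hn).1]
  apply Nat.card_congr
  refine Equiv.subtypeEquivRight fun v => ?_
  rw [Place.ord_inv]
  omega

include C

/-- the degree of `Kbar(j) ⊆ F_N` -/
theorem AnalyticCover.finrank_eq (hx : Transcendental Kbar (jBar N)) :
    Module.finrank Kbar⟮jBar N⟯ (FN N) = Fintype.card (XN N) := by
  haveI := C.finite
  apply le_antisymm _ C.card_le_finrank
  have h1 : (1 : Kbar) ≠ 0 := one_ne_zero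
  have h2 : (1 : Kbar) ≠ 1728 := by norm_num
  obtain ⟨z, hzc, hz1⟩ := C.exists_zval_generic 1 h1 h2
  refine (C.count_sub 1 hx z hzc (by rw [hz1]; exact one_pos) 1 (fun x => by rw [one_smul])
    (fun _ => 1) (fun _ => one_pos) (fun ξ f _ => by simp) (fun ξ => ?_)).1
  rw [hz1]
  have hpos := (card_orbit_XN_dvd (1 : SL(2, ℤ)) 1 one_pos
    (fun ξ : XN N => by simp) ξ).1
  have : (1 : ℤ) ≤ Nat.card (MulAction.orbit (Subgroup.zpowers (1 : SL(2, ℤ))) ξ) := by
    exact_mod_cast hpos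
  simpa using this

/-- `j` is unramified outside `0`, `1728`, `∞`. -/
theorem AnalyticCover.unramified (hx : Transcendental Kbar (jBar N)) (a : Kbar) (ha0 : a ≠ 0)
    (ha1 : a ≠ 1728) (v : Place Kbar (FN N))
    (hv : 0 < v.ord (jBar N - algebraMap Kbar (FN N) a)) :
    v.ord (jBar N - algebraMap Kbar (FN N) a) = 1 := by
  obtain ⟨z, hzc, hz1⟩ := C.exists_zval_generic a ha0 ha1
  have hcard : ∀ ξ : XN N,
      Nat.card (MulAction.orbit (Subgroup.zpowers (1 : SL(2, ℤ))) ξ) = 1 := fun ξ =>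
    Nat.dvd_one.mp (card_orbit_XN_dvd (1 : SL(2, ℤ)) 1 one_pos
      (fun ξ : XN N => by simp) ξ).2.1
  have key := (C.count_sub a hx z hzc (by rw [hz1]; exact one_pos) 1
    (fun x => by rw [one_smul]) (fun _ => 1) (fun _ => one_pos) (fun ξ f _ => by simp)
    (fun ξ => by rw [hz1, hcard]; simp)).2 (C.finrank_eq hx)
  obtain ⟨ξ, hξ⟩ := key.2 v hv
  rw [hcard] at hξ
  have : v.ord (jBar N - algebraMap Kbar (FN N) a) ≤ 1 := by exact_mod_cast hξ
  omega

/-- the places above `j = 1728` are counted by the `S`-orbits -/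
theorem AnalyticCover.card_fibre_1728 (hx : Transcendental Kbar (jBar N)) :
    Nat.card {v : Place Kbar (FN N) // 0 < v.ord (jBar N - algebraMap Kbar (FN N) 1728)}
      = Nat.card (MulAction.orbitRel.Quotient (Subgroup.zpowers S) (XN N)) := by
  classical
  have horb := fun ξ : XN N =>
    card_orbit_XN_of_prime S 2 Nat.prime_two (H35.S_sq_smul N) ξ
  refine ((C.count_sub 1728 hx C.zI C.zI_const (by rw [C.zI_j]; norm_num) S C.zI_smul
    (fun ξ => if S • ξ = ξ then 2 else 1) (fun ξ => by split_ifs <;> norm_num) ?_ ?_).2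
    (C.finrank_eq hx)).1
  · intro ξ f hf
    by_cases h : S • ξ = ξ
    · rw [if_pos h]
      refine C.zI_dvd _ (C.conj_ne_zero ξ hf) ?_
      rw [C.smul_conj, h]
    · rw [if_neg h]; simp
  · intro ξ
    rw [C.zI_j]
    by_cases h : S • ξ = ξ
    · rw [if_pos h, (horb ξ).1 h]; norm_num
    · rw [if_neg h, (horb ξ).2 h]; norm_num

/-- the places above `j = 0` are counted by the `S * T`-orbits -/
theorem AnalyticCover.card_fibre_zero (hx : Transcendental Kbar (jBar N)) :
    Nat.card {v : Place Kbar (FN N) // 0 < v.ord (jBar N - algebraMap Kbar (FN N) 0)}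
      = Nat.card (MulAction.orbitRel.Quotient (Subgroup.zpowers (S * T)) (XN N)) := by
  classical
  have horb := fun ξ : XN N =>
    card_orbit_XN_of_prime (S * T) 3 Nat.prime_three (H35.ST_cube_smul N) ξ
  refine ((C.count_sub 0 hx C.zRho C.zRho_const (by rw [C.zRho_j]; norm_num) (S * T)
    C.zRho_smul (fun ξ => if (S * T) • ξ = ξ then 3 else 1)
    (fun ξ => by split_ifs <;> norm_num) ?_ ?_).2 (C.finrank_eq hx)).1
  · intro ξ f hf
    by_cases h : (S * T) • ξ = ξ
    · rw [if_pos h]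
      refine C.zRho_dvd _ (C.conj_ne_zero ξ hf) ?_
      rw [C.smul_conj, h]
    · rw [if_neg h]; simp
  · intro ξ
    rw [C.zRho_j]
    by_cases h : (S * T) • ξ = ξ
    · rw [if_pos h, (horb ξ).1 h]; norm_num
    · rw [if_neg h, (horb ξ).2 h]; norm_num

/-- the poles of `j` are counted by the `T`-orbits -/
theorem AnalyticCover.card_poles (hx : Transcendental Kbar (jBar N)) :
    Nat.card {v : Place Kbar (FN N) // v.ord (jBar N) < 0}
      = Nat.card (MulAction.orbitRel.Quotient (Subgroup.zpowers T) (XN N)) := by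
  have hN : 0 < N := Nat.pos_of_ne_zero (NeZero.ne N)
  have horb := fun ξ : XN N => card_orbit_XN_dvd T N hN (H35.T_pow_smul N) ξ
  refine (C.count_inv hx C.zInf C.zInf_const (by rw [C.zInf_j]; exact_mod_cast hN) T
    C.zInf_smul (fun ξ => N / Nat.card (MulAction.orbit (Subgroup.zpowers T) ξ))
    (fun ξ => Nat.div_pos (Nat.le_of_dvd hN (horb ξ).2.1) (horb ξ).1) ?_ ?_).2
    (C.finrank_eq hx)
  · intro ξ f hf
    refine C.zInf_dvd _ _ (C.conj_ne_zero ξ hf) (horb ξ).1 (horb ξ).2.1 ?_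
    rw [C.smul_conj, (horb ξ).2.2]
  · intro ξ
    rw [C.zInf_j]
    have := Nat.div_mul_cancel (horb ξ).2.1
    exact_mod_cast this.ge

/-- **D1a.** The ramification data of `Kbar(j) ⊆ F_N`, in orbit form. -/
theorem ramification_data_of_cover (hx : Transcendental Kbar (jBar N)) :
    ∃ _ : FiniteDimensional Kbar⟮jBar N⟯ (FN N),
      Module.finrank Kbar⟮jBar N⟯ (FN N) = Nat.card (XN N) ∧
      (∀ a : Kbar, a ≠ 0 → a ≠ 1728 → ∀ v : Place Kbar (FN N),
        0 < v.ord (jBar N - algebraMap Kbar (FN N) a) →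
          v.ord (jBar N - algebraMap Kbar (FN N) a) = 1) ∧
      Nat.card {v : Place Kbar (FN N) // 0 < v.ord (jBar N - algebraMap Kbar (FN N) 1728)}
        = Nat.card (MulAction.orbitRel.Quotient (Subgroup.zpowers S) (XN N)) ∧
      Nat.card {v : Place Kbar (FN N) // 0 < v.ord (jBar N - algebraMap Kbar (FN N) 0)}
        = Nat.card (MulAction.orbitRel.Quotient (Subgroup.zpowers (S * T)) (XN N)) ∧
      Nat.card {v : Place Kbar (FN N) // v.ord (jBar N) < 0}
        = Nat.card (MulAction.orbitRel.Quotient (Subgroup.zpowers T) (XN N)) :=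
  ⟨C.finite, by rw [C.finrank_eq hx, Nat.card_eq_fintype_card], C.unramified hx,
    C.card_fibre_1728 hx, C.card_fibre_zero hx, C.card_poles hx⟩

end Cover

end Fermat.Agent.S24.H98
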