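import Mathlib
import Fermat.Prelude.Def_ModularCurve_X0
import Fermat.Prelude.Def_ModularCurve_JqCoeff
import Fermat.Prelude.Def_ModularCurve_LaurentCoeff
import Fermat.Prelude.Def_ModularCurve_ArithmeticGalois
import Fermat.Prelude.Thm_ModularCurve_coeff_jqModC_pow_of_lt
import Fermat.Prelude.Thm_ModularCurve_coeff_jqModC_pow_self

/-!
# S24 (helper89): the formal `j`-invariant is transcendental over the constants

`jqModC K = q⁻¹ + 744 + …` has a simple pole, so a nonzero polynomial in it has a pole of
order equal to its degree.  Consequences: `jqModC K` (and hence `coeffEmb K jq`, and the element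
`jBar N` of `modularFunctionFieldBar N`) is transcendental over `K`.
-/

set_option autoImplicit false

open ModularCurve HahnSeries Polynomial

namespace Fermat.Agent.S24.H89

section General

variable (K : Type*) [Field K]

/-- coefficient of `c • x` for a constant `c` -/
theorem coeff_algebraMap_mul (c : K) (x : LaurentSeries K) (m : ℤ) :
    (algebraMap K (LaurentSeries K) c * x).coeff m = c * x.coeff m := by
  rw [algebraMap_laurentSeries_eq_single, HahnSeries.coeff_single_mul, sub_zero]

/-- coefficients of a polynomial in `j` -/
theorem coeff_aeval_jqModC (p : K[X]) (m : ℤ) :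
    (aeval (jqModC K) p).coeff m =
      ∑ b ∈ Finset.range (p.natDegree + 1), p.coeff b * ((jqModC K) ^ b).coeff m := by
  rw [aeval_eq_sum_range]
  rw [← HahnSeries.coeff.addMonoidHom_apply, map_sum]
  refine Finset.sum_congr rfl fun b _ => ?_
  rw [HahnSeries.coeff.addMonoidHom_apply, Algebra.smul_def, coeff_algebraMap_mul]

/-- the leading (most polar) coefficient of `p(j)` is the leading coefficient of `p` -/
theorem coeff_aeval_jqModC_neg_natDegree (p : K[X]) :
    (aeval (jqModC K) p).coeff (-(p.natDegree : ℤ)) = p.leadingCoeff := by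
  rw [coeff_aeval_jqModC, Finset.sum_range_succ, coeff_jqModC_pow_self, mul_one,
    Finset.sum_eq_zero, zero_add, coeff_natDegree]
  intro b hb
  rw [coeff_jqModC_pow_of_lt K (by have := Finset.mem_range.mp hb; omega), mul_zero]

/-- `p(j)` has no terms below `q ^ (- deg p)` -/
theorem coeff_aeval_jqModC_of_lt (p : K[X]) {m : ℤ} (hm : m < -(p.natDegree : ℤ)) :
    (aeval (jqModC K) p).coeff m = 0 := by
  rw [coeff_aeval_jqModC]
  refine Finset.sum_eq_zero fun b hb => ?_
  rw [coeff_jqModC_pow_of_lt K (by have := Finset.mem_range.mp hb; omega), mul_zero]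

/-- a nonzero polynomial does not vanish at `j` -/
theorem aeval_jqModC_ne_zero {p : K[X]} (hp : p ≠ 0) : aeval (jqModC K) p ≠ 0 := by
  intro h
  have h1 := coeff_aeval_jqModC_neg_natDegree K p
  rw [h, HahnSeries.coeff_zero] at h1
  exact hp (leadingCoeff_eq_zero.mp h1.symm)

/-- the order of `p(j)` at `q = 0` is `- deg p` -/
theorem order_aeval_jqModC {p : K[X]} (hp : p ≠ 0) :
    (aeval (jqModC K) p).order = -(p.natDegree : ℤ) := by
  have hne := aeval_jqModC_ne_zero K hp
  refine le_antisymm ?_ ?_
  · refine HahnSeries.order_le_of_coeff_ne_zero ?_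
    rw [coeff_aeval_jqModC_neg_natDegree]
    exact leadingCoeff_ne_zero.mpr hp
  · by_contra hlt
    rw [not_le] at hlt
    exact hne (HahnSeries.coeff_order_eq_zero.mp (coeff_aeval_jqModC_of_lt K p hlt))

/-- **the formal `j`-invariant is transcendental over the field of constants** -/
theorem transcendental_jqModC : Transcendental K (jqModC K) := by
  rw [transcendental_iff]
  intro p hp
  by_contra hne
  exact aeval_jqModC_ne_zero K hne hp

end General

section CoeffEmb

variable (K : Type*) [Field K] [Algebra ℚ K]

/-- base change of the rational `q`-expansion of `j` is the `q`-expansion over `K` -/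
theorem coeffEmb_jq : coeffEmb K jq = jqModC K := by
  rw [← jqModC_rat]
  exact map_jqModC (algebraMap ℚ K)

theorem transcendental_coeffEmb_jq : Transcendental K (coeffEmb K jq) := by
  rw [coeffEmb_jq]
  exact transcendental_jqModC K

/-- transcendence of `j` inside any intermediate field containing it -/
theorem transcendental_mk (E : IntermediateField K (LaurentSeries K))
    (h : coeffEmb K jq ∈ E) : Transcendental K (⟨coeffEmb K jq, h⟩ : E) := by
  intro halg
  refine transcendental_coeffEmb_jq K ?_
  have := halg.algebraMap (A := LaurentSeries K)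
  exact this

end CoeffEmb

/-- **C0 of the S24 skeleton**: `j` is transcendental over `ℚ̄` in `modularFunctionFieldBar N`. -/
theorem transcendental_jBar (N : ℕ) [NeZero N]
    (h : coeffEmb (AlgebraicClosure ℚ) jq ∈ modularFunctionFieldBar N) :
    Transcendental (AlgebraicClosure ℚ)
      (⟨coeffEmb (AlgebraicClosure ℚ) jq, h⟩ : ↥(modularFunctionFieldBar N)) :=
  transcendental_mk (AlgebraicClosure ℚ) (modularFunctionFieldBar N) h

end Fermat.Agent.S24.H89
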