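import Mathlib
import Fermat.Prelude.Def_ModularCurve_ArithmeticGalois
import Fermat.Prelude.Def_ModularCurve_JqCoeff
import Fermat.Prelude.Thm_ModularCurve_coeffMap_qExpand

/-!
# S24, task B4 (abstract core): lifting a field embedding from generators

helper20.  Pure algebra, independent of the analytic definitions:
* `exists_ringHom_of_relations`: generators with the same polynomial relations give a ring hom
  out of the generated intermediate field;
* `relations_iff_of_expansion`: the relations agree if both sides have a common injective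
  "expansion";
* `invariant_of_generators`: invariance under an endomorphism can be checked on generators;
* `modularFunctionFieldBar_eq_adjoin`: the prelude field is generated over `K` by the `j(q^d)`.
-/

set_option autoImplicit false

open IntermediateField
open scoped IntermediateField.algebraAdjoinAdjoin

namespace Fermat.Agent.S24.H20

section Abstract

variable {K : Type*} [Field K] {E : Type*} [Field E] [Algebra K E] {ι : Type*}

/-- Generators with the same polynomial relations: the assignment `s i ↦ t i` extends to a ring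
homomorphism on the generated intermediate field. -/
theorem exists_ringHom_of_relations (s : ι → E) {L : Type*} [Field L] (j : K →+* L) (t : ι → L)
    (hrel : ∀ P : MvPolynomial ι K, MvPolynomial.aeval s P = 0 ↔ MvPolynomial.eval₂ j t P = 0) :
    ∃ Φ : ↥(IntermediateField.adjoin K (Set.range s)) →+* L,
      (∀ c : K, Φ (algebraMap K _ c) = j c) ∧
      (∀ i, Φ ⟨s i, IntermediateField.subset_adjoin K _ (Set.mem_range_self i)⟩ = t i) := by
  classical
  have hrange : Algebra.adjoin K (Set.range s) = (MvPolynomial.aeval s).range :=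
    Algebra.adjoin_range_eq_range_aeval K s
  let ψ : MvPolynomial ι K →+* ↥(Algebra.adjoin K (Set.range s)) :=
    ((MvPolynomial.aeval s : MvPolynomial ι K →ₐ[K] E).codRestrict (Algebra.adjoin K (Set.range s))
      (fun P => by rw [hrange]; exact ⟨P, rfl⟩)).toRingHom
  have hψval : ∀ P, ((ψ P : ↥(Algebra.adjoin K (Set.range s))) : E) = MvPolynomial.aeval s P :=
    fun P => rfl
  have hψ : Function.Surjective ψ := by
    rintro ⟨a, ha⟩
    rw [hrange] at ha
    obtain ⟨P, rfl⟩ := ha
    exact ⟨P, Subtype.ext (hψval P)⟩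
  let g0 : MvPolynomial ι K →+* L := MvPolynomial.eval₂Hom j t
  have hker : RingHom.ker ψ ≤ RingHom.ker g0 := fun P hP => by
    rw [RingHom.mem_ker] at hP ⊢
    have h0 : MvPolynomial.aeval s P = 0 := by rw [← hψval, hP]; rfl
    exact (hrel P).mp h0
  let g : ↥(Algebra.adjoin K (Set.range s)) →+* L := RingHom.liftOfSurjective ψ hψ ⟨g0, hker⟩
  have hg : ∀ P, g (ψ P) = g0 P := fun P =>
    RingHom.liftOfSurjective_comp_apply ψ hψ ⟨g0, hker⟩ P
  have hginj : Function.Injective g := by
    rw [injective_iff_map_eq_zero]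
    intro a ha
    obtain ⟨P, rfl⟩ := hψ a
    rw [hg] at ha
    have h0 := (hrel P).mpr ha
    exact Subtype.ext (by rw [hψval, h0]; rfl)
  refine ⟨IsFractionRing.lift (A := ↥(Algebra.adjoin K (Set.range s)))
    (K := ↥(IntermediateField.adjoin K (Set.range s))) hginj, ?_, ?_⟩
  · intro c
    have e : algebraMap K ↥(IntermediateField.adjoin K (Set.range s)) c
        = algebraMap ↥(Algebra.adjoin K (Set.range s)) ↥(IntermediateField.adjoin K (Set.range s))
          (ψ (MvPolynomial.C c)) := by
      apply Subtype.ext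
      rw [IntermediateField.algebraAdjoinAdjoin.coe_algebraMap, hψval, MvPolynomial.aeval_C]
      rfl
    rw [e, IsFractionRing.lift_algebraMap, hg]
    exact MvPolynomial.eval₂_C j t c
  · intro i
    have e : (⟨s i, IntermediateField.subset_adjoin K _ (Set.mem_range_self i)⟩ :
          ↥(IntermediateField.adjoin K (Set.range s)))
        = algebraMap ↥(Algebra.adjoin K (Set.range s)) ↥(IntermediateField.adjoin K (Set.range s))
          (ψ (MvPolynomial.X i)) := by
      apply Subtype.ext
      rw [IntermediateField.algebraAdjoinAdjoin.coe_algebraMap, hψval, MvPolynomial.aeval_X]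
    rw [e, IsFractionRing.lift_algebraMap, hg]
    exact MvPolynomial.eval₂_X j t i

/-- If the formal side (`φ`) and the analytic side (`Ex`) have compatible injective expansions,
then the polynomial relations agree. -/
theorem relations_iff_of_expansion (s : ι → E) {R : Type*} [CommRing R] (j' : K →+* R)
    (t' : ι → R) {M : Type*} [CommRing M] (φ : E →+* M) (hφ : Function.Injective φ)
    (Ex : R →+* M) (hEx : Function.Injective Ex)
    (hconst : ∀ c : K, Ex (j' c) = φ (algebraMap K E c))
    (hgen : ∀ i, Ex (t' i) = φ (s i)) (P : MvPolynomial ι K) :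
    MvPolynomial.aeval s P = 0 ↔ MvPolynomial.eval₂ j' t' P = 0 := by
  have key : ∀ P : MvPolynomial ι K,
      Ex (MvPolynomial.eval₂ j' t' P) = φ (MvPolynomial.aeval s P) := by
    intro P
    induction P using MvPolynomial.induction_on with
    | C c => rw [MvPolynomial.eval₂_C, MvPolynomial.aeval_C, hconst]
    | add p q hp hq => rw [MvPolynomial.eval₂_add, map_add, map_add, map_add, hp, hq]
    | mul_X p i hp =>
      rw [MvPolynomial.eval₂_mul, MvPolynomial.eval₂_X, map_mul, map_mul, map_mul, hp,
        MvPolynomial.aeval_X, hgen]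
  constructor
  · intro h
    apply hEx
    rw [key, h, map_zero, map_zero]
  · intro h
    apply hφ
    rw [← key, h, map_zero, map_zero]

/-- Invariance under a ring endomorphism of the target can be checked on constants and on
generators. -/
theorem invariant_of_generators {L : Type*} [Field L] {S : Set E}
    (Φ : ↥(IntermediateField.adjoin K S) →+* L) (σ : L →+* L)
    (hc : ∀ c : K, σ (Φ (algebraMap K _ c)) = Φ (algebraMap K _ c))
    (hs : ∀ x (hx : x ∈ S), σ (Φ ⟨x, IntermediateField.subset_adjoin K S hx⟩)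
      = Φ ⟨x, IntermediateField.subset_adjoin K S hx⟩) :
    ∀ f, σ (Φ f) = Φ f := by
  rintro ⟨f, hf⟩
  induction hf using IntermediateField.adjoin_induction with
  | mem x hx => exact hs x hx
  | algebraMap c => exact hc c
  | add x y hx hy ihx ihy =>
    have e : (⟨x + y, add_mem hx hy⟩ : ↥(IntermediateField.adjoin K S))
        = ⟨x, hx⟩ + ⟨y, hy⟩ := rfl
    rw [e, map_add, map_add, ihx, ihy]
  | inv x hx ih =>
    have e : (⟨x⁻¹, inv_mem hx⟩ : ↥(IntermediateField.adjoin K S)) = (⟨x, hx⟩)⁻¹ := rfl
    rw [e, map_inv₀, map_inv₀, ih]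
  | mul x y hx hy ihx ihy =>
    have e : (⟨x * y, mul_mem hx hy⟩ : ↥(IntermediateField.adjoin K S))
        = ⟨x, hx⟩ * ⟨y, hy⟩ := rfl
    rw [e, map_mul, map_mul, ihx, ihy]

/-- Version of `exists_ringHom_of_relations` for an intermediate field that is only propositionally
equal to the adjoin, together with the invariance clause. -/
theorem exists_ringHom_of_relations' (s : ι → E) {L : Type*} [Field L] (j : K →+* L) (t : ι → L)
    (hrel : ∀ P : MvPolynomial ι K, MvPolynomial.aeval s P = 0 ↔ MvPolynomial.eval₂ j t P = 0)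
    (F : IntermediateField K E) (hF : F = IntermediateField.adjoin K (Set.range s)) :
    ∃ Φ : ↥F →+* L,
      (∀ c : K, Φ (algebraMap K _ c) = j c) ∧
      (∀ i (hi : s i ∈ F), Φ ⟨s i, hi⟩ = t i) ∧
      (∀ σ : L →+* L, (∀ c : K, σ (j c) = j c) → (∀ i, σ (t i) = t i) → ∀ f, σ (Φ f) = Φ f) := by
  subst hF
  obtain ⟨Φ, hc, hg⟩ := exists_ringHom_of_relations s j t hrel
  refine ⟨Φ, hc, fun i _ => hg i, ?_⟩
  intro σ hσc hσg f
  refine invariant_of_generators Φ σ ?_ ?_ f
  · intro c
    rw [hc]
    exact hσc c
  · rintro x ⟨i, rfl⟩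
    rw [hg]
    exact hσg i

end Abstract

section Generation

open ModularCurve

/-- The formal generator `j(q^d)` over `ℚ`, indexed by the divisors of `N`. -/
noncomputable def JdQ (N : ℕ) [NeZero N] (d : {d : ℕ // d ∣ N}) : LaurentSeries ℚ :=
  haveI : NeZero d.1 := ⟨fun h => NeZero.ne N (by
    have h2 := d.2
    rw [h] at h2
    exact zero_dvd_iff.mp h2)⟩
  qExpand ℚ d.1 jq

theorem JdQ_eq (N : ℕ) [NeZero N] (d : ℕ) [NeZero d] (hd : d ∣ N) :
    JdQ N ⟨d, hd⟩ = qExpand ℚ d jq := rfl

/-- The formal generator `j(q^d)` over `K`. -/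
noncomputable def Jd (N : ℕ) [NeZero N] (K : Type*) [Field K] [Algebra ℚ K]
    (d : {d : ℕ // d ∣ N}) : LaurentSeries K :=
  coeffEmb K (JdQ N d)

theorem Jd_eq (N : ℕ) [NeZero N] (K : Type*) [Field K] [Algebra ℚ K] (d : ℕ) [NeZero d]
    (hd : d ∣ N) : Jd N K ⟨d, hd⟩ = coeffEmb K (qExpand ℚ d jq) := rfl

theorem divisorExpansions_eq_range (N : ℕ) [NeZero N] :
    divisorExpansions N = Set.range (JdQ N) := by
  ext x
  constructor
  · rintro ⟨d, hne, hdvd, rfl⟩
    exact ⟨⟨d, hdvd⟩, rfl⟩
  · rintro ⟨⟨d, hdvd⟩, rfl⟩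
    have hne : NeZero d := ⟨fun h => NeZero.ne N (by
      rw [h] at hdvd
      exact zero_dvd_iff.mp hdvd)⟩
    exact ⟨d, hne, hdvd, rfl⟩

theorem coeffEmb_algebraMap (K : Type*) [Field K] [Algebra ℚ K] (c : ℚ) :
    coeffEmb K (algebraMap ℚ (LaurentSeries ℚ) c)
      = algebraMap K (LaurentSeries K) (algebraMap ℚ K c) := by
  rw [algebraMap_apply_eq_single, algebraMap_laurentSeries_eq_single, coeffEmb, coeffMap_single]

/-- The base-changed field is generated over `K` by the `j(q^d)`, `d ∣ N`. -/
theorem laurentBaseChange_full_eq_adjoin (N : ℕ) [NeZero N] (K : Type*) [Field K] [Algebra ℚ K] :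
    laurentBaseChange K (modularFunctionFieldFull N)
      = IntermediateField.adjoin K (Set.range (Jd N K)) := by
  apply le_antisymm
  · rw [laurentBaseChange, IntermediateField.adjoin_le_iff]
    rintro _ ⟨x, hx, rfl⟩
    have hx' : x ∈ IntermediateField.adjoin ℚ (divisorExpansions N) := hx
    rw [divisorExpansions_eq_range] at hx'
    clear hx
    induction hx' using IntermediateField.adjoin_induction with
    | mem y hy =>
      obtain ⟨d, rfl⟩ := hy
      exact IntermediateField.subset_adjoin K _ ⟨d, rfl⟩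
    | algebraMap c =>
      rw [coeffEmb_algebraMap]
      exact IntermediateField.algebraMap_mem _ _
    | add y z _ _ ihy ihz =>
      rw [map_add]
      exact add_mem ihy ihz
    | inv y _ ih =>
      rw [map_inv₀]
      exact inv_mem ih
    | mul y z _ _ ihy ihz =>
      rw [map_mul]
      exact mul_mem ihy ihz
  · rw [IntermediateField.adjoin_le_iff]
    rintro _ ⟨d, rfl⟩
    refine IntermediateField.subset_adjoin K _ ⟨JdQ N d, ?_, rfl⟩
    have : JdQ N d ∈ divisorExpansions N := by
      rw [divisorExpansions_eq_range]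
      exact ⟨d, rfl⟩
    exact IntermediateField.subset_adjoin ℚ _ this

theorem modularFunctionFieldBar_eq_adjoin (N : ℕ) [NeZero N] :
    modularFunctionFieldBar N
      = IntermediateField.adjoin (AlgebraicClosure ℚ) (Set.range (Jd N (AlgebraicClosure ℚ))) :=
  laurentBaseChange_full_eq_adjoin N (AlgebraicClosure ℚ)

theorem Jd_mem (N : ℕ) [NeZero N] (K : Type*) [Field K] [Algebra ℚ K] (d : {d : ℕ // d ∣ N}) :
    Jd N K d ∈ laurentBaseChange K (modularFunctionFieldFull N) := by
  rw [laurentBaseChange_full_eq_adjoin]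
  exact IntermediateField.subset_adjoin K _ ⟨d, rfl⟩

/-- **Abstract form of B4.**  Given a domain `R` with fraction field `L` ("analytic functions"),
a coefficient embedding `j' : K →+* R`, analytic generators `t' d : R`, and compatible injective
expansions `φ` (formal side) and `Ex` (analytic side) into a common ring `M`, there is a ring
homomorphism `Φ` from the prelude field to `L` with the expected values on constants and
generators; moreover `Φ` is fixed by any endomorphism of `L` fixing constants and generators. -/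
theorem exists_Phi_abstract (N : ℕ) [NeZero N] {K : Type*} [Field K] [Algebra ℚ K]
    {R : Type*} [CommRing R] {L : Type*} [Field L] [Algebra R L]
    (hRL : Function.Injective (algebraMap R L))
    (j' : K →+* R) (t' : {d : ℕ // d ∣ N} → R)
    {M : Type*} [CommRing M] (φ : LaurentSeries K →+* M) (hφ : Function.Injective φ)
    (Ex : R →+* M) (hEx : Function.Injective Ex)
    (hconst : ∀ c : K, Ex (j' c) = φ (algebraMap K (LaurentSeries K) c))
    (hgen : ∀ d, Ex (t' d) = φ (Jd N K d)) :
    ∃ Φ : ↥(laurentBaseChange K (modularFunctionFieldFull N)) →+* L,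
      (∀ c : K, Φ (algebraMap K _ c) = algebraMap R L (j' c)) ∧
      (∀ d, Φ ⟨Jd N K d, Jd_mem N K d⟩ = algebraMap R L (t' d)) ∧
      (∀ σ : L →+* L, (∀ c : K, σ (algebraMap R L (j' c)) = algebraMap R L (j' c)) →
        (∀ d, σ (algebraMap R L (t' d)) = algebraMap R L (t' d)) → ∀ f, σ (Φ f) = Φ f) := by
  have hrel : ∀ P : MvPolynomial {d : ℕ // d ∣ N} K,
      MvPolynomial.aeval (Jd N K) P = 0 ↔
        MvPolynomial.eval₂ ((algebraMap R L).comp j') (fun d => algebraMap R L (t' d)) P = 0 := by
    intro P
    rw [relations_iff_of_expansion (Jd N K) j' t' φ hφ Ex hEx hconst hgen P]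
    have e : MvPolynomial.eval₂ ((algebraMap R L).comp j') (fun d => algebraMap R L (t' d)) P
        = algebraMap R L (MvPolynomial.eval₂ j' t' P) := by
      rw [MvPolynomial.eval₂_comp_left (algebraMap R L) j' t' P]
      rfl
    rw [e]
    constructor
    · intro h; rw [h, map_zero]
    · intro h; exact hRL (by rw [h, map_zero])
  obtain ⟨Φ, hΦc, hΦg, hΦσ⟩ := exists_ringHom_of_relations' (Jd N K) ((algebraMap R L).comp j')
    (fun d => algebraMap R L (t' d)) hrel _ (laurentBaseChange_full_eq_adjoin N K)
  exact ⟨Φ, hΦc, fun d => hΦg d _, hΦσ⟩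

end Generation

section FormalSide

open ModularCurve

theorem coeffMap_injective {R S : Type*} [CommRing R] [CommRing S] (f : R →+* S)
    (hf : Function.Injective f) : Function.Injective (coeffMap f) := by
  intro x y h
  ext k
  have hk := congrArg (fun z : LaurentSeries S => z.coeff k) h
  simp only [coeffMap_coeff] at hk
  exact hf hk

/-- The formal comparison map `K((q)) → ℂ((q_N))`: coefficientwise `iota`, then `q ↦ q_N^N`. -/
noncomputable def phiFormal (N : ℕ) [NeZero N] {K : Type*} [Field K] (iota : K →+* ℂ) :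
    LaurentSeries K →+* LaurentSeries ℂ :=
  (qExpand ℂ N).comp (coeffMap iota)

theorem phiFormal_injective (N : ℕ) [NeZero N] {K : Type*} [Field K] (iota : K →+* ℂ) :
    Function.Injective (phiFormal N iota) :=
  (qExpand_injective N).comp (coeffMap_injective iota iota.injective)

theorem phiFormal_algebraMap (N : ℕ) [NeZero N] {K : Type*} [Field K] (iota : K →+* ℂ) (c : K) :
    phiFormal N iota (algebraMap K (LaurentSeries K) c)
      = algebraMap ℂ (LaurentSeries ℂ) (iota c) := by
  rw [phiFormal, RingHom.comp_apply, algebraMap_laurentSeries_eq_single,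
    algebraMap_laurentSeries_eq_single, coeffMap_single, qExpand_single, mul_zero]

theorem coeffMap_jq {K : Type*} [Field K] (f : ℚ →+* K) : coeffMap f jq = jqModC K := by
  rw [← jqModC_rat]
  exact map_jqModC f

theorem phiFormal_Jd (N : ℕ) [NeZero N] {K : Type*} [Field K] [Algebra ℚ K] (iota : K →+* ℂ)
    (d : ℕ) [NeZero d] (hd : d ∣ N) :
    phiFormal N iota (Jd N K ⟨d, hd⟩) = qExpand ℂ N (jqNModC ℂ d) := by
  rw [phiFormal, RingHom.comp_apply, Jd_eq, coeffEmb, coeffMap_coeffMap, coeffMap_qExpand,
    coeffMap_jq, jqNModC]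

theorem neZero_of_dvd {N d : ℕ} [NeZero N] (hd : d ∣ N) : NeZero d :=
  ⟨fun h => NeZero.ne N (by rw [h] at hd; exact zero_dvd_iff.mp hd)⟩

/-- **B4, modulo the analytic expansion.**  `R` = ring of analytic functions (`RN N`), `L` its
fraction field, `t' d` = the function `j(dz)`, `Ex` = an injective expansion `R → ℂ((q_N))`
which is the identity on constants and sends `j(dz)` to the formal series `qExpand N (jqNModC ℂ d)`.
Then the prelude field embeds in `L` as expected. -/
theorem exists_Phi_of_expansion (N : ℕ) [NeZero N] (iota : AlgebraicClosure ℚ →+* ℂ)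
    {R : Type*} [CommRing R] [Algebra ℂ R] {L : Type*} [Field L] [Algebra R L]
    (hRL : Function.Injective (algebraMap R L))
    (t' : ∀ d : ℕ, d ∣ N → R)
    (Ex : R →+* LaurentSeries ℂ) (hEx : Function.Injective Ex)
    (hExc : ∀ c : ℂ, Ex (algebraMap ℂ R c) = algebraMap ℂ (LaurentSeries ℂ) c)
    (hExg : ∀ (d : ℕ) [NeZero d] (hd : d ∣ N), Ex (t' d hd) = qExpand ℂ N (jqNModC ℂ d)) :
    ∃ Φ : ↥(modularFunctionFieldBar N) →+* L,
      (∀ c : AlgebraicClosure ℚ,
        Φ (algebraMap _ _ c) = algebraMap R L (algebraMap ℂ R (iota c))) ∧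
      (∀ (d : ℕ) [NeZero d] (hd : d ∣ N)
        (hmem : coeffEmb (AlgebraicClosure ℚ) (qExpand ℚ d jq) ∈ modularFunctionFieldBar N),
          Φ ⟨coeffEmb (AlgebraicClosure ℚ) (qExpand ℚ d jq), hmem⟩ = algebraMap R L (t' d hd)) ∧
      (∀ σ : L →+* L,
        (∀ c : ℂ, σ (algebraMap R L (algebraMap ℂ R c)) = algebraMap R L (algebraMap ℂ R c)) →
        (∀ (d : ℕ) (hd : d ∣ N), σ (algebraMap R L (t' d hd)) = algebraMap R L (t' d hd)) →
          ∀ f, σ (Φ f) = Φ f) := by
  obtain ⟨Φ, h1, h2, h3⟩ := exists_Phi_abstract N (K := AlgebraicClosure ℚ) hRL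
    ((algebraMap ℂ R).comp iota) (fun d => t' d.1 d.2) (phiFormal N iota)
    (phiFormal_injective N iota) Ex hEx
    (fun c => by rw [RingHom.comp_apply, hExc, phiFormal_algebraMap])
    (fun d => by
      haveI : NeZero d.1 := neZero_of_dvd d.2
      rw [hExg d.1 d.2]
      exact (phiFormal_Jd N iota d.1 d.2).symm)
  refine ⟨Φ, fun c => h1 c, ?_, ?_⟩
  · intro d _ hd hmem
    exact h2 ⟨d, hd⟩
  · intro σ hσc hσg f
    exact h3 σ (fun c => hσc _) (fun d => hσg d.1 d.2) f

end FormalSide

end Fermat.Agent.S24.H20
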