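import Mathlib
import Fermat.Prelude.Def_ModularCurve_CanonicalDivisor

/-!
# Differentials of a function field in one variable (plan-independent piece for S24)

`K` a field of characteristic zero, `F/K` a field with a transcendental element `x` such that
`F` is finite over `K⟮x⟯`.

* `kaehlerEquiv x hx : Ω[F⁄K] ≃ₗ[F] F` with `D x ↦ 1`; so `Ω[F⁄K]` is one dimensional.
* for a place `v` of `F/K` with residue field `K`: `v.DCoordGenerates`, and the local formulas
  `v.ordDifferential (D f) = v.ord f - 1` if `v.ord f ≠ 0`, `0 ≤ v.ordDifferential (D f)` if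
  `f` is regular at `v`.
-/

set_option autoImplicit false
set_option linter.style.haveILetI false
set_option linter.unusedSectionVars false

open KaehlerDifferential IntermediateField Polynomial TensorProduct

namespace Fermat.Agent.S24.H88

noncomputable section

variable {K F : Type*} [Field K] [Field F] [Algebra K F]

section Global

variable (K) in
/-- The `K[X]`-algebra structure on `F` sending `X` to `x`. -/
@[reducible] def polyAlg (x : F) : Algebra K[X] F := (Polynomial.aeval x).toAlgebra

variable (K) in
/-- The `K[X]`-algebra structure on `K⟮x⟯` sending `X` to `x`. -/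
@[reducible] def polyAlgAdj (x : F) : Algebra K[X] K⟮x⟯ :=
  (Polynomial.aeval (AdjoinSimple.gen K x)).toAlgebra

theorem polyAlg_algebraMap (x : F) (p : K[X]) :
    letI := polyAlg K x
    algebraMap K[X] F p = Polynomial.aeval x p := rfl

theorem polyAlgAdj_algebraMap (x : F) (p : K[X]) :
    letI := polyAlgAdj K x
    ((algebraMap K[X] K⟮x⟯ p : K⟮x⟯) : F) = Polynomial.aeval x p := by
  letI := polyAlgAdj K x
  show ((Polynomial.aeval (AdjoinSimple.gen K x) p : K⟮x⟯) : F) = _
  rw [← IntermediateField.algebraMap_apply, ← Polynomial.aeval_algebraMap_apply]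
  simp

theorem isScalarTower_polyAlg (x : F) :
    letI := polyAlg K x
    IsScalarTower K K[X] F := by
  letI := polyAlg K x
  refine IsScalarTower.of_algebraMap_eq fun a => ?_
  rw [polyAlg_algebraMap, Polynomial.algebraMap_apply, Polynomial.aeval_C]
  simp

theorem isScalarTower_polyAlgAdj (x : F) :
    letI := polyAlg K x
    letI := polyAlgAdj K x
    IsScalarTower K[X] K⟮x⟯ F := by
  letI := polyAlg K x
  letI := polyAlgAdj K x
  refine IsScalarTower.of_algebraMap_eq fun p => ?_
  rw [polyAlg_algebraMap, IntermediateField.algebraMap_apply, polyAlgAdj_algebraMap]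

theorem isFractionRing_polyAlgAdj (x : F) (hx : Transcendental K x) :
    letI := polyAlgAdj K x
    IsFractionRing K[X] K⟮x⟯ := by
  letI := polyAlgAdj K x
  have hinj : Function.Injective (algebraMap K[X] K⟮x⟯) := by
    intro p q hpq
    have h1 : Polynomial.aeval x p = Polynomial.aeval x q := by
      rw [← polyAlgAdj_algebraMap, ← polyAlgAdj_algebraMap, hpq]
    exact (transcendental_iff_injective.mp hx) h1
  haveI : FaithfulSMul K[X] K⟮x⟯ := (faithfulSMul_iff_algebraMap_injective _ _).mpr hinj
  refine IsFractionRing.of_field (R := K[X]) (K := K⟮x⟯) fun z => ?_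
  obtain ⟨r, s, hrs⟩ := (mem_adjoin_simple_iff K (z : F)).mp z.2
  refine ⟨r, s, Subtype.ext ?_⟩
  rw [hrs]
  push_cast
  rw [polyAlgAdj_algebraMap, polyAlgAdj_algebraMap]

theorem formallyEtale_polyAlg [CharZero K] (x : F) (hx : Transcendental K x)
    [Algebra.IsAlgebraic K⟮x⟯ F] :
    letI := polyAlg K x
    Algebra.FormallyEtale K[X] F := by
  letI := polyAlg K x
  letI := polyAlgAdj K x
  haveI := isScalarTower_polyAlgAdj (K := K) x
  haveI := isFractionRing_polyAlgAdj x hx
  haveI : CharZero K⟮x⟯ := charZero_of_injective_algebraMap (algebraMap K K⟮x⟯).injective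
  haveI : Algebra.FormallyEtale K[X] K⟮x⟯ :=
    Algebra.FormallyEtale.of_isLocalization (nonZeroDivisors K[X])
  haveI : Algebra.FormallyEtale K⟮x⟯ F := Algebra.FormallyEtale.of_isSeparable K⟮x⟯ F
  exact Algebra.FormallyEtale.comp K[X] K⟮x⟯ F

/-- The differentials of `F/K` form a one dimensional space with basis `D x`. -/
def kaehlerEquiv [CharZero K] (x : F) (hx : Transcendental K x)
    [Algebra.IsAlgebraic K⟮x⟯ F] : Ω[F⁄K] ≃ₗ[F] F :=
  letI := polyAlg K x
  haveI := isScalarTower_polyAlg (K := K) x
  haveI := formallyEtale_polyAlg x hx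
  (tensorKaehlerEquivOfFormallyEtale K K[X] F).symm ≪≫ₗ
    (LinearEquiv.baseChange K[X] F _ _ (KaehlerDifferential.polynomialEquiv K)) ≪≫ₗ
    (TensorProduct.AlgebraTensorModule.rid K[X] F F)

theorem kaehlerEquiv_D [CharZero K] (x : F) (hx : Transcendental K x)
    [Algebra.IsAlgebraic K⟮x⟯ F] : kaehlerEquiv x hx (D K F x) = 1 := by
  letI := polyAlg K x
  haveI := isScalarTower_polyAlg (K := K) x
  haveI := formallyEtale_polyAlg x hx
  have h1 : D K F x = D K F (algebraMap K[X] F Polynomial.X) := by
    rw [polyAlg_algebraMap, Polynomial.aeval_X]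
  rw [h1]
  simp only [kaehlerEquiv, LinearEquiv.trans_apply,
    tensorKaehlerEquivOfFormallyEtale_symm_D_algebraMap]
  simp [KaehlerDifferential.polynomialEquiv_D]

end Global

section Local

open AlgebraicCurve

variable (v : Place K F)

/-- Bounded denominators: the differentials of elements of the valuation ring lie in a
rank one lattice. -/
def BD : Prop :=
  ∃ ω₀ : Ω[F⁄K], ω₀ ≠ 0 ∧
    ∀ f ∈ v.toValuationSubring, ∃ g ∈ v.toValuationSubring, D K F f = g • ω₀

/-- The space of differentials is at most one dimensional. -/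
def RankOne (K F : Type*) [Field K] [Field F] [Algebra K F] : Prop :=
  ∀ ω ω' : Ω[F⁄K], ω' ≠ 0 → ∃ c : F, ω = c • ω'

variable {v}

theorem algebraMap_mem (a : K) : algebraMap K F a ∈ v.toValuationSubring :=
  v.algebraMap_mem' a

theorem ord_nonneg_of_mem {g : F} (hg : g ∈ v.toValuationSubring) : 0 ≤ v.ord g := by
  have h1 : v.adicValuation g ≤ 1 := by
    have := v.adicValuation_coe ⟨g, hg⟩
    rw [this]
    exact IsDedekindDomain.HeightOneSpectrum.intValuation_le_one _ _
  rcases eq_or_ne g 0 with rfl | hg0
  · simp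
  have h2 : WithZero.log (v.adicValuation g) ≤ 0 := by
    have := (WithZero.log_le_log (v.adicValuation_ne_zero hg0) one_ne_zero).mpr h1
    simpa using this
  unfold Place.ord
  omega

theorem exists_eq_add_mul (hres : Function.Surjective (algebraMap K v.ResidueField))
    {π : v.toValuationSubring} (hπ : Irreducible π) {f : F} (hf : f ∈ v.toValuationSubring) :
    ∃ a : K, ∃ g ∈ v.toValuationSubring, f = algebraMap K F a + (π : F) * g := by
  obtain ⟨a, ha⟩ := hres (IsLocalRing.residue _ ⟨f, hf⟩)
  have h1 : (⟨f, hf⟩ : v.toValuationSubring) - algebraMap K v.toValuationSubring a ∈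
      IsLocalRing.maximalIdeal v.toValuationSubring := by
    rw [← IsLocalRing.residue_eq_zero_iff, map_sub, sub_eq_zero]
    exact ha.symm
  rw [hπ.maximalIdeal_eq, Ideal.mem_span_singleton'] at h1
  obtain ⟨g, hg⟩ := h1
  refine ⟨a, (g : F), g.2, ?_⟩
  have h2 : (g : F) * (π : F) = f - algebraMap K F a := congrArg Subtype.val hg
  rw [mul_comm, h2]
  ring

theorem coe_irreducible_ne_zero {π : v.toValuationSubring} (hπ : Irreducible π) : (π : F) ≠ 0 := by
  simpa [ne_eq, ZeroMemClass.coe_eq_zero] using hπ.ne_zero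

theorem D_add_mul (a : K) (t g : F) :
    D K F (algebraMap K F a + t * g) = t • D K F g + g • D K F t := by
  rw [map_add, Derivation.map_algebraMap, zero_add, Derivation.leibniz]

/-- Step A of the bootstrap: the differential of a uniformizer does not vanish. -/
theorem D_irreducible_ne_zero (hBD : BD v)
    (hres : Function.Surjective (algebraMap K v.ResidueField))
    {π : v.toValuationSubring} (hπ : Irreducible π) : D K F (π : F) ≠ 0 := by
  intro h0
  obtain ⟨ω₀, hω₀, hbd⟩ := hBD
  have ht0 : (π : F) ≠ 0 := coe_irreducible_ne_zero hπ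
  have claim : ∀ m : ℕ, ∀ f ∈ v.toValuationSubring, ∃ g ∈ v.toValuationSubring,
      D K F f = ((π : F) ^ m * g) • ω₀ := by
    intro m
    induction m with
    | zero =>
      intro f hf
      obtain ⟨g, hg, h⟩ := hbd f hf
      exact ⟨g, hg, by simpa using h⟩
    | succ m ih =>
      intro f hf
      obtain ⟨a, f₁, hf₁, rfl⟩ := exists_eq_add_mul hres hπ hf
      obtain ⟨g₁, hg₁, h⟩ := ih f₁ hf₁
      refine ⟨g₁, hg₁, ?_⟩
      rw [D_add_mul, h0, smul_zero, add_zero, h, smul_smul, pow_succ]
      congr 1
      ring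
  have hzero : ∀ f ∈ v.toValuationSubring, D K F f = 0 := by
    intro f hf
    obtain ⟨g, hg, hDf⟩ := hbd f hf
    by_contra hne
    have hg0 : g ≠ 0 := by
      rintro rfl
      exact hne (by rw [hDf, zero_smul])
    obtain ⟨g', hg', h'⟩ := claim ((v.ord g).toNat + 1) f hf
    have hgg : g = (π : F) ^ ((v.ord g).toNat + 1) * g' := by
      have h3 : (g - (π : F) ^ ((v.ord g).toNat + 1) * g') • ω₀ = 0 := by
        rw [sub_smul, ← hDf, ← h', sub_self]
      rcases smul_eq_zero.mp h3 with h4 | h4
      · exact sub_eq_zero.mp h4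
      · exact absurd h4 hω₀
    have hg'0 : g' ≠ 0 := by
      rintro rfl
      exact hg0 (by rw [hgg, mul_zero])
    have h5 : v.ord g = ((v.ord g).toNat + 1 : ℕ) + v.ord g' := by
      conv_lhs => rw [hgg]
      rw [v.ord_mul (pow_ne_zero _ ht0) hg'0, ← zpow_natCast, v.ord_zpow,
        v.ord_coe_irreducible hπ, mul_one]
    have h6 := ord_nonneg_of_mem hg'
    have h7 := ord_nonneg_of_mem hg
    push_cast at h5
    omega
  have hall : ∀ f : F, D K F f = 0 := by
    intro f
    rcases v.toValuationSubring.mem_or_inv_mem f with hf | hf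
    · exact hzero f hf
    · have h1 := Derivation.leibniz_inv (D K F) f⁻¹
      rw [inv_inv, hzero _ hf, smul_zero] at h1
      exact h1
  have htop := KaehlerDifferential.span_range_derivation K F
  have hle : Submodule.span F (Set.range (D K F)) ≤ ⊥ := by
    rw [Submodule.span_le]
    rintro _ ⟨f, rfl⟩
    simpa using hall f
  rw [htop] at hle
  exact hω₀ (by simpa using hle (Submodule.mem_top (x := ω₀)))

/-- Step B of the bootstrap: `d/dt` preserves the valuation ring. -/
theorem exists_D_eq_smul_of_mem (hrk : RankOne K F) (hBD : BD v)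
    (hres : Function.Surjective (algebraMap K v.ResidueField))
    {π : v.toValuationSubring} (hπ : Irreducible π) {f : F} (hf : f ∈ v.toValuationSubring) :
    ∃ g ∈ v.toValuationSubring, D K F f = g • D K F (π : F) := by
  have ht := D_irreducible_ne_zero hBD hres hπ
  have ht0 : (π : F) ≠ 0 := coe_irreducible_ne_zero hπ
  obtain ⟨ω₀, hω₀, hbd⟩ := hBD
  obtain ⟨c₀, hc₀⟩ := hrk ω₀ _ ht
  have hc₀0 : c₀ ≠ 0 := by
    rintro rfl
    exact hω₀ (by rw [hc₀, zero_smul])
  -- a power of the uniformizer clearing the denominator of `c₀`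
  obtain ⟨k, hk⟩ : ∃ k : ℕ, (π : F) ^ k * c₀ ∈ v.toValuationSubring := by
    obtain ⟨u, hu⟩ := v.exists_unit_mul_zpow hc₀0 hπ
    generalize v.ord c₀ = n at hu
    refine ⟨(-n).toNat, ?_⟩
    have h1 : (π : F) ^ (-n).toNat * c₀ =
        ((u : v.toValuationSubring) : F) * (π : F) ^ ((n + (-n).toNat).toNat) := by
      rw [hu, ← zpow_natCast (π : F) ((n + (-n).toNat).toNat),
        ← zpow_natCast (π : F) (-n).toNat, mul_left_comm, ← zpow_add₀ ht0]
      congr 2
      omega
    rw [h1]
    exact mul_mem (u : v.toValuationSubring).2 (pow_mem π.2 _)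
  have P0 : ∀ f ∈ v.toValuationSubring, ∃ g ∈ v.toValuationSubring,
      (π : F) ^ k • D K F f = g • D K F (π : F) := by
    intro f hf
    obtain ⟨g, hg, h⟩ := hbd f hf
    refine ⟨g * ((π : F) ^ k * c₀), mul_mem hg hk, ?_⟩
    rw [h, hc₀, smul_smul, smul_smul]
    congr 1
    ring
  have step : ∀ j : ℕ, (∀ f ∈ v.toValuationSubring, ∃ g ∈ v.toValuationSubring,
      (π : F) ^ (j + 1) • D K F f = g • D K F (π : F)) →
      ∀ f ∈ v.toValuationSubring, ∃ g ∈ v.toValuationSubring,
      (π : F) ^ j • D K F f = g • D K F (π : F) := by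
    intro j hj f hf
    obtain ⟨a, f₁, hf₁, rfl⟩ := exists_eq_add_mul hres hπ hf
    obtain ⟨g₁, hg₁, h⟩ := hj f₁ hf₁
    refine ⟨g₁ + (π : F) ^ j * f₁, add_mem hg₁ (mul_mem (pow_mem π.2 _) hf₁), ?_⟩
    rw [D_add_mul, smul_add, smul_smul, ← pow_succ, h, smul_smul, add_smul]
  have all : ∀ j : ℕ, (∀ f ∈ v.toValuationSubring, ∃ g ∈ v.toValuationSubring,
      (π : F) ^ j • D K F f = g • D K F (π : F)) →
      ∀ f ∈ v.toValuationSubring, ∃ g ∈ v.toValuationSubring,
      (π : F) ^ 0 • D K F f = g • D K F (π : F) := by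
    intro j
    induction j with
    | zero => exact fun h => h
    | succ j ih => exact fun h => ih (step j h)
  obtain ⟨g, hg, h⟩ := all k P0 f hf
  exact ⟨g, hg, by simpa using h⟩

/-- Step C of the bootstrap: the order of `df/dt` is `ord f - 1` in characteristic zero. -/
theorem exists_D_eq_smul_ord [CharZero K] (hrk : RankOne K F) (hBD : BD v)
    (hres : Function.Surjective (algebraMap K v.ResidueField))
    {π : v.toValuationSubring} (hπ : Irreducible π) {f : F} (hf : f ≠ 0)
    (hm : v.ord f ≠ 0) :
    ∃ c : F, c ≠ 0 ∧ D K F f = c • D K F (π : F) ∧ v.ord c = v.ord f - 1 := by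
  have ht0 : (π : F) ≠ 0 := coe_irreducible_ne_zero hπ
  obtain ⟨u, hu⟩ := v.exists_unit_mul_zpow hf hπ
  generalize v.ord f = m at hu hm ⊢
  obtain ⟨g, hg, hDu⟩ := exists_D_eq_smul_of_mem hrk hBD hres hπ (u : v.toValuationSubring).2
  -- the unit `m u + t g`
  let mK : v.toValuationSubring := algebraMap K v.toValuationSubring (m : K)
  have hmK : IsUnit mK :=
    (IsUnit.mk0 (m : K) (Int.cast_ne_zero.mpr hm)).map (algebraMap K v.toValuationSubring)
  have hmKcoe : (mK : F) = (m : F) := by
    show algebraMap K F (m : K) = (m : F)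
    simp
  let G : v.toValuationSubring := ⟨g, hg⟩
  let U : v.toValuationSubring := mK * u + π * G
  have hU : IsUnit U := by
    rw [← IsLocalRing.notMem_maximalIdeal]
    intro hmem
    have h1 : π * G ∈ IsLocalRing.maximalIdeal v.toValuationSubring :=
      Ideal.mul_mem_right _ _ (hπ.maximalIdeal_eq ▸ Ideal.mem_span_singleton_self π)
    have h2 : mK * u ∈ IsLocalRing.maximalIdeal v.toValuationSubring := by
      have := Ideal.sub_mem _ hmem h1
      simpa [U] using this
    exact (IsLocalRing.mem_maximalIdeal _).mp h2 (hmK.mul u.isUnit)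
  have hUcoe : ((hU.unit : v.toValuationSubring) : F) =
      (m : F) * ((u : v.toValuationSubring) : F) + (π : F) * g := by
    rw [IsUnit.unit_spec]
    show (mK : F) * ((u : v.toValuationSubring) : F) + (π : F) * g = _
    rw [hmKcoe]
  refine ⟨((hU.unit : v.toValuationSubring) : F) * (π : F) ^ (m - 1), ?_, ?_, ?_⟩
  · refine mul_ne_zero ?_ (zpow_ne_zero _ ht0)
    have h4 : (hU.unit : v.toValuationSubring) ≠ 0 := hU.unit.ne_zero
    simpa [ne_eq, ZeroMemClass.coe_eq_zero] using h4
  · rw [hu, Derivation.leibniz, Derivation.leibniz_zpow, hDu, hUcoe, ← Int.cast_smul_eq_zsmul F,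
      smul_smul, smul_smul, smul_smul, ← add_smul]
    congr 1
    have h3 : (π : F) ^ m = (π : F) ^ (m - 1) * (π : F) := by
      rw [← zpow_add_one₀ ht0, sub_add_cancel]
    rw [h3]
    ring
  · exact v.ord_unit_smul_zpow hU.unit hπ (m - 1)

/-- The coordinate differential of the prelude is the differential of a uniformizer. -/
theorem exists_irreducible_dCoord (v : Place K F) :
    ∃ π : v.toValuationSubring, Irreducible π ∧ v.dCoord = D K F (π : F) :=
  ⟨_, (IsDiscreteValuationRing.exists_irreducible v.toValuationSubring).choose_spec, rfl⟩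

theorem nontrivial_of_BD (hBD : BD v) : Nontrivial Ω[F⁄K] := by
  obtain ⟨ω₀, hω₀, -⟩ := hBD
  exact ⟨⟨ω₀, 0, hω₀⟩⟩

theorem dCoord_ne_zero' (hBD : BD v)
    (hres : Function.Surjective (algebraMap K v.ResidueField)) : v.dCoord ≠ 0 := by
  obtain ⟨π, hπ, hd⟩ := exists_irreducible_dCoord v
  rw [hd]
  exact D_irreducible_ne_zero hBD hres hπ

theorem dCoordGenerates (hrk : RankOne K F) (hBD : BD v)
    (hres : Function.Surjective (algebraMap K v.ResidueField)) : v.DCoordGenerates := by
  refine ⟨?_⟩
  rw [eq_top_iff]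
  intro ω _
  rw [Submodule.mem_span_singleton]
  obtain ⟨c, hc⟩ := hrk ω v.dCoord (dCoord_ne_zero' hBD hres)
  exact ⟨c, hc.symm⟩

/-- **Local formula**: `ord_v (df) = ord_v f - 1` when `ord_v f ≠ 0`. -/
theorem ordDifferential_D [CharZero K] (hrk : RankOne K F) (hBD : BD v)
    (hres : Function.Surjective (algebraMap K v.ResidueField)) {f : F}
    (hm : v.ord f ≠ 0) : v.ordDifferential (D K F f) = v.ord f - 1 := by
  have hf : f ≠ 0 := by
    rintro rfl
    exact hm v.ord_zero
  obtain ⟨π, hπ, hd⟩ := exists_irreducible_dCoord v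
  haveI := dCoordGenerates hrk hBD hres
  haveI := nontrivial_of_BD hBD
  obtain ⟨c, -, hc, hord⟩ := exists_D_eq_smul_ord hrk hBD hres hπ hf hm
  rw [Place.ordDifferential, v.differentialCoeff_unique (hd ▸ hc), hord]

/-- `ord_v (df) ≥ 0` when `f` is regular at `v`. -/
theorem ordDifferential_D_nonneg (hrk : RankOne K F) (hBD : BD v)
    (hres : Function.Surjective (algebraMap K v.ResidueField)) {f : F}
    (hf : f ∈ v.toValuationSubring) : 0 ≤ v.ordDifferential (D K F f) := by
  obtain ⟨π, hπ, hd⟩ := exists_irreducible_dCoord v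
  haveI := dCoordGenerates hrk hBD hres
  haveI := nontrivial_of_BD hBD
  obtain ⟨g, hg, hc⟩ := exists_D_eq_smul_of_mem hrk hBD hres hπ hf
  rw [Place.ordDifferential, v.differentialCoeff_unique (hd ▸ hc)]
  exact ord_nonneg_of_mem hg

theorem differentialCoeff_ne_zero (hrk : RankOne K F) (hBD : BD v)
    (hres : Function.Surjective (algebraMap K v.ResidueField)) {ω : Ω[F⁄K]} (hω : ω ≠ 0) :
    v.differentialCoeff ω ≠ 0 := by
  haveI := dCoordGenerates hrk hBD hres
  intro h0
  apply hω
  rw [← v.differentialCoeff_smul_dCoord ω, h0, zero_smul]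

/-- `ord_v (g ω) = ord_v g + ord_v ω`. -/
theorem ordDifferential_smul' (hrk : RankOne K F) (hBD : BD v)
    (hres : Function.Surjective (algebraMap K v.ResidueField)) {g : F} (hg : g ≠ 0)
    {ω : Ω[F⁄K]} (hω : ω ≠ 0) :
    v.ordDifferential (g • ω) = v.ord g + v.ordDifferential ω := by
  haveI := dCoordGenerates hrk hBD hres
  haveI := nontrivial_of_BD hBD
  exact v.ordDifferential_smul hg (differentialCoeff_ne_zero hrk hBD hres hω)

end Local

section GlobalBD

open AlgebraicCurve

/-- Every differential is a multiple of `D x`. -/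
theorem eq_kaehlerEquiv_smul [CharZero K] (x : F) (hx : Transcendental K x)
    [Algebra.IsAlgebraic K⟮x⟯ F] (ω : Ω[F⁄K]) : ω = kaehlerEquiv x hx ω • D K F x := by
  apply (kaehlerEquiv x hx).injective
  rw [map_smul, kaehlerEquiv_D, smul_eq_mul, mul_one]

theorem D_ne_zero [CharZero K] (x : F) (hx : Transcendental K x)
    [Algebra.IsAlgebraic K⟮x⟯ F] : D K F x ≠ 0 := by
  intro h
  have := kaehlerEquiv_D x hx
  rw [h, map_zero] at this
  exact zero_ne_one this

theorem span_D_eq_top [CharZero K] (x : F) (hx : Transcendental K x)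
    [Algebra.IsAlgebraic K⟮x⟯ F] : Submodule.span F {D K F x} = ⊤ := by
  rw [eq_top_iff]
  intro ω _
  rw [Submodule.mem_span_singleton]
  exact ⟨_, (eq_kaehlerEquiv_smul x hx ω).symm⟩

theorem finrank_kaehler [CharZero K] (x : F) (hx : Transcendental K x)
    [Algebra.IsAlgebraic K⟮x⟯ F] : Module.finrank F Ω[F⁄K] = 1 := by
  rw [(kaehlerEquiv x hx).finrank_eq, Module.finrank_self]

theorem rankOne [CharZero K] (x : F) (hx : Transcendental K x)
    [Algebra.IsAlgebraic K⟮x⟯ F] : RankOne K F := by
  intro ω ω' hω'
  have h1 : kaehlerEquiv x hx ω' ≠ 0 := by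
    intro h
    exact hω' ((kaehlerEquiv x hx).injective (by rw [h, map_zero]))
  refine ⟨kaehlerEquiv x hx ω / kaehlerEquiv x hx ω', ?_⟩
  apply (kaehlerEquiv x hx).injective
  rw [map_smul, smul_eq_mul, div_mul_cancel₀ _ h1]

/-- The derivation `d/dx`. -/
def ddx [CharZero K] (x : F) (hx : Transcendental K x)
    [Algebra.IsAlgebraic K⟮x⟯ F] : Derivation K F F :=
  (kaehlerEquiv x hx).toLinearMap.compDer (D K F)

theorem ddx_apply [CharZero K] (x : F) (hx : Transcendental K x)
    [Algebra.IsAlgebraic K⟮x⟯ F] (f : F) : ddx x hx f = kaehlerEquiv x hx (D K F f) := rfl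

theorem ddx_self [CharZero K] (x : F) (hx : Transcendental K x)
    [Algebra.IsAlgebraic K⟮x⟯ F] : ddx x hx x = 1 := kaehlerEquiv_D x hx

theorem D_eq_ddx_smul [CharZero K] (x : F) (hx : Transcendental K x)
    [Algebra.IsAlgebraic K⟮x⟯ F] (f : F) : D K F f = ddx x hx f • D K F x :=
  eq_kaehlerEquiv_smul x hx _

theorem derivation_aeval (d : Derivation K F F) (x : F) (p : K[X]) :
    d (Polynomial.aeval x p) = Polynomial.aeval x (Polynomial.derivative p) * d x := by
  induction p using Polynomial.induction_on' with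
  | add p q hp hq => rw [map_add, map_add, hp, hq, Polynomial.derivative_add, map_add, add_mul]
  | monomial n a =>
    rw [Polynomial.aeval_monomial, Polynomial.derivative_monomial, Polynomial.aeval_monomial,
      Derivation.leibniz, Derivation.map_algebraMap, smul_zero, add_zero, Derivation.leibniz_pow,
      smul_eq_mul, map_mul, map_natCast]
    simp only [nsmul_eq_mul, smul_eq_mul]
    ring

/-- `O_v` as a `K`-subalgebra. -/
def valSubalgebra (v : Place K F) : Subalgebra K F :=
  { v.toValuationSubring.toSubring with algebraMap_mem' := v.algebraMap_mem' }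

theorem aeval_mem (v : Place K F) {x : F} (hx : x ∈ v.toValuationSubring) (p : K[X]) :
    Polynomial.aeval x p ∈ v.toValuationSubring := by
  have h1 : Algebra.adjoin K {x} ≤ valSubalgebra v :=
    Algebra.adjoin_le (Set.singleton_subset_iff.mpr hx)
  exact h1 (Polynomial.aeval_mem_adjoin_singleton K x)

/-- Bounded denominators at a place where `x` is regular. -/
theorem BD_of_mem [CharZero K] (x : F) (hx : Transcendental K x) [FiniteDimensional K⟮x⟯ F]
    (v : Place K F) (hxv : x ∈ v.toValuationSubring) : BD v := by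
  letI := polyAlg K x
  letI := polyAlgAdj K x
  haveI := isScalarTower_polyAlgAdj (K := K) x
  haveI := isFractionRing_polyAlgAdj x hx
  haveI : CharZero K⟮x⟯ := charZero_of_injective_algebraMap (algebraMap K K⟮x⟯).injective
  -- the integral closure of `K[x]`
  haveI : Module.Finite K[X] (integralClosure K[X] F) :=
    IsIntegralClosure.finite K[X] K⟮x⟯ F (integralClosure K[X] F)
  haveI : IsDedekindDomain (integralClosure K[X] F) :=
    integralClosure.isDedekindDomain K[X] K⟮x⟯ F
  haveI : IsFractionRing (integralClosure K[X] F) F :=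
    integralClosure.isFractionRing_of_finite_extension K⟮x⟯ F
  -- `B ⊆ O_v`
  have hBO : ∀ b : F, b ∈ integralClosure K[X] F → b ∈ v.toValuationSubring := by
    intro b hb
    let φ : K[X] →+* v.toValuationSubring :=
      (algebraMap K[X] F).codRestrict v.toValuationSubring.toSubring
        (fun p => aeval_mem v hxv p)
    letI : Algebra K[X] v.toValuationSubring := φ.toAlgebra
    haveI : IsScalarTower K[X] v.toValuationSubring F :=
      IsScalarTower.of_algebraMap_eq (fun _ => rfl)
    have h1 : IsIntegral v.toValuationSubring b := IsIntegral.tower_top (R := K[X]) hb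
    obtain ⟨y, hy⟩ := IsIntegrallyClosed.isIntegral_iff.mp h1
    rw [← hy]
    exact y.2
  -- bounded denominators on `B`
  have hden : ∃ d : F, d ≠ 0 ∧ d ∈ integralClosure K[X] F ∧
      ∀ b ∈ integralClosure K[X] F, d * ddx x hx b ∈ integralClosure K[X] F := by
    classical
    obtain ⟨s, hs⟩ := (Module.Finite.fg_top : (⊤ : Submodule K[X] (integralClosure K[X] F)).FG)
    obtain ⟨d, hd⟩ := IsLocalization.exist_integer_multiples_of_finset
      (nonZeroDivisors (integralClosure K[X] F))
      (s.image (fun b : integralClosure K[X] F => ddx x hx (b : F)))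
    have hd0 : ((d : integralClosure K[X] F) : F) ≠ 0 := by
      exact fun h => nonZeroDivisors.ne_zero d.2 (Subtype.ext h)
    refine ⟨((d : integralClosure K[X] F) : F), hd0, (d : integralClosure K[X] F).2, ?_⟩
    have key : ∀ b : integralClosure K[X] F,
        ((d : integralClosure K[X] F) : F) * ddx x hx (b : F) ∈ integralClosure K[X] F := by
      intro b
      have hb : b ∈ Submodule.span K[X] (s : Set (integralClosure K[X] F)) := by
        rw [hs]; exact Submodule.mem_top
      induction hb using Submodule.span_induction with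
      | mem b hb =>
        obtain ⟨y, hy⟩ := hd (ddx x hx (b : F)) (Finset.mem_image_of_mem _ hb)
        rw [Algebra.smul_def] at hy
        have : ((d : integralClosure K[X] F) : F) * ddx x hx (b : F) = (y : F) := hy.symm
        rw [this]
        exact y.2
      | zero => simp
      | add b c _ _ hb hc =>
        have : ((d : integralClosure K[X] F) : F) * ddx x hx ((b + c : integralClosure K[X] F) : F)
            = ((d : integralClosure K[X] F) : F) * ddx x hx (b : F) +
              ((d : integralClosure K[X] F) : F) * ddx x hx (c : F) := by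
          push_cast
          rw [map_add, mul_add]
        rw [this]
        exact add_mem hb hc
      | smul p b _ hb =>
        have h1 : ((p • b : integralClosure K[X] F) : F) = Polynomial.aeval x p * (b : F) := by
          rw [Algebra.smul_def]
          rfl
        have h2 : ((d : integralClosure K[X] F) : F) * ddx x hx ((p • b : integralClosure K[X] F) : F)
            = algebraMap K[X] F p * (((d : integralClosure K[X] F) : F) * ddx x hx (b : F)) +
              (((d : integralClosure K[X] F) : F) * (b : F)) *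
                algebraMap K[X] F (Polynomial.derivative p) := by
          rw [h1, Derivation.leibniz, derivation_aeval, ddx_self, polyAlg_algebraMap,
            polyAlg_algebraMap]
          simp only [smul_eq_mul]
          ring
        rw [h2]
        exact add_mem (mul_mem (Subalgebra.algebraMap_mem _ _) hb)
          (mul_mem (mul_mem (d : integralClosure K[X] F).2 b.2) (Subalgebra.algebraMap_mem _ _))
    intro b hb
    exact key ⟨b, hb⟩
  obtain ⟨d, hd0, hdB, hd⟩ := hden
  -- the prime of `B` cut out by `v`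
  let ψ : integralClosure K[X] F →+* v.toValuationSubring :=
    (algebraMap (integralClosure K[X] F) F).codRestrict v.toValuationSubring.toSubring
      (fun b => hBO _ b.2)
  have hψ : ∀ b : integralClosure K[X] F, ((ψ b : v.toValuationSubring) : F) = (b : F) :=
    fun _ => rfl
  let P : Ideal (integralClosure K[X] F) :=
    (IsLocalRing.maximalIdeal v.toValuationSubring).comap ψ
  haveI hPprime : P.IsPrime := Ideal.comap_isPrime ψ _
  have hinv : ∀ s : integralClosure K[X] F, s ∉ P → ((s : F))⁻¹ ∈ v.toValuationSubring := by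
    intro s hs
    have h1 : IsUnit (ψ s) := IsLocalRing.notMem_maximalIdeal.mp hs
    obtain ⟨u, hu⟩ := h1.exists_right_inv
    have h2 : (s : F) * (u : F) = 1 := by
      have := congrArg (Subtype.val) hu
      simpa [hψ] using this
    rw [← eq_inv_of_mul_eq_one_right h2]
    exact u.2
  have hPne : P ≠ ⊥ := by
    intro hP
    apply v.ne_top'
    rw [eq_top_iff]
    intro f _
    obtain ⟨a, s, hs, rfl⟩ := IsFractionRing.div_surjective (A := integralClosure K[X] F) f
    have hs0 : s ≠ 0 := nonZeroDivisors.ne_zero hs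
    have hsP : s ∉ P := by
      rw [hP, Ideal.mem_bot]
      exact hs0
    rw [div_eq_mul_inv]
    exact mul_mem (hBO _ a.2) (hinv s hsP)
  let w : IsDedekindDomain.HeightOneSpectrum (integralClosure K[X] F) := ⟨P, hPprime, hPne⟩
  have hle : IsDedekindDomain.HeightOneSpectrum.valuationSubringAtPrime F w ≤
      v.toValuationSubring := by
    rintro f ⟨a, s, hs, rfl⟩
    exact mul_mem (hBO _ a.2) (hinv s hs)
  have heq := ValuationSubring.eq_of_le_of_ne_top _ hle v.ne_top'
  -- assembly
  refine ⟨d⁻¹ • D K F x, smul_ne_zero (inv_ne_zero hd0) (D_ne_zero x hx), ?_⟩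
  intro f hf
  have hval : w.valuation F f ≤ 1 := by
    rw [← Valuation.mem_valuationSubring_iff,
      ← IsDedekindDomain.HeightOneSpectrum.valuationSubringAtPrime_eq_valuationSubring, heq]
    exact hf
  obtain ⟨n, s, hns⟩ := w.exists_primeCompl_mul_eq_of_integer f hval
  have hsP : (s : integralClosure K[X] F) ∉ P := s.2
  have hs0 : ((s : integralClosure K[X] F) : F) ≠ 0 := by
    intro h
    apply hsP
    have : (s : integralClosure K[X] F) = 0 := Subtype.ext h
    rw [this]
    exact Ideal.zero_mem _
  have hfdiv : f = (n : F) / ((s : integralClosure K[X] F) : F) := by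
    rw [eq_div_iff hs0]
    exact hns
  refine ⟨(((s : integralClosure K[X] F) : F))⁻¹ ^ 2 *
      (((s : integralClosure K[X] F) : F) * (d * ddx x hx (n : F)) -
        (n : F) * (d * ddx x hx ((s : integralClosure K[X] F) : F))), ?_, ?_⟩
  · refine mul_mem (pow_mem (hinv _ hsP) 2) (sub_mem ?_ ?_)
    · exact mul_mem (hBO _ (s : integralClosure K[X] F).2) (hBO _ (hd _ n.2))
    · exact mul_mem (hBO _ n.2) (hBO _ (hd _ (s : integralClosure K[X] F).2))
  · rw [D_eq_ddx_smul x hx f, smul_smul]
    congr 1
    rw [hfdiv, Derivation.leibniz_div]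
    simp only [smul_eq_mul]
    field_simp

theorem adjoin_inv_eq (x : F) : K⟮x⁻¹⟯ = K⟮x⟯ := by
  apply le_antisymm
  · rw [adjoin_simple_le_iff]
    exact inv_mem (mem_adjoin_simple_self K x)
  · rw [adjoin_simple_le_iff]
    have := inv_mem (mem_adjoin_simple_self K x⁻¹)
    rwa [inv_inv] at this

/-- Bounded denominators at every place. -/
theorem BD_of_finite [CharZero K] (x : F) (hx : Transcendental K x) [FiniteDimensional K⟮x⟯ F]
    (v : Place K F) : BD v := by
  rcases v.toValuationSubring.mem_or_inv_mem x with h | h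
  · exact BD_of_mem x hx v h
  · have hx' : Transcendental K x⁻¹ := fun h => hx (by simpa using h.inv)
    haveI : FiniteDimensional K⟮x⁻¹⟯ F := (adjoin_inv_eq (K := K) x).symm ▸ inferInstance
    exact BD_of_mem x⁻¹ hx' v h

theorem residue_surjective_of_deg (v : Place K F) (h : v.deg = 1) :
    Function.Surjective (algebraMap K v.ResidueField) := by
  rw [Algebra.surjective_algebraMap_iff]
  exact (Subalgebra.bot_eq_top_iff_finrank_eq_one.mpr h).symm

theorem mem_of_ord_nonneg (v : Place K F) {f : F} (h : 0 ≤ v.ord f) :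
    f ∈ v.toValuationSubring := by
  rcases eq_or_ne f 0 with rfl | hf
  · exact zero_mem _
  obtain ⟨π, hπ⟩ := IsDiscreteValuationRing.exists_irreducible v.toValuationSubring
  obtain ⟨u, hu⟩ := v.exists_unit_mul_zpow hf hπ
  rw [hu]
  lift v.ord f to ℕ using h with n
  rw [zpow_natCast]
  exact mul_mem (u : v.toValuationSubring).2 (pow_mem π.2 n)

end GlobalBD

/-! ### User-facing statements -/

section Main

open AlgebraicCurve

variable [CharZero K] (x : F) (hx : Transcendental K x) [FiniteDimensional K⟮x⟯ F]
  (v : Place K F) (hres : Function.Surjective (algebraMap K v.ResidueField))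

include hx in
theorem nontrivial_kaehler : Nontrivial Ω[F⁄K] :=
  ⟨⟨D K F x, 0, D_ne_zero x hx⟩⟩

include hx hres in
/-- The coordinate differential `v.dCoord` of the prelude generates `Ω[F⁄K]`. -/
theorem dCoordGenerates_of_finite : v.DCoordGenerates :=
  dCoordGenerates (rankOne x hx) (BD_of_finite x hx v) hres

include hx hres in
/-- `ord_v (df) = ord_v f - 1` if `ord_v f ≠ 0`. -/
theorem ordDifferential_D_of_ord_ne_zero {f : F} (hm : v.ord f ≠ 0) :
    v.ordDifferential (D K F f) = v.ord f - 1 :=
  ordDifferential_D (rankOne x hx) (BD_of_finite x hx v) hres hm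

include hx hres in
/-- `ord_v (df) ≥ 0` if `f` is regular at `v`. -/
theorem ordDifferential_D_nonneg_of_mem {f : F} (hf : f ∈ v.toValuationSubring) :
    0 ≤ v.ordDifferential (D K F f) :=
  ordDifferential_D_nonneg (rankOne x hx) (BD_of_finite x hx v) hres hf

include hx hres in
theorem ordDifferential_D_nonneg_of_ord {f : F} (hf : 0 ≤ v.ord f) :
    0 ≤ v.ordDifferential (D K F f) :=
  ordDifferential_D_nonneg_of_mem x hx v hres (mem_of_ord_nonneg v hf)

include hx hres in
/-- `ord_v (g ω) = ord_v g + ord_v ω`. -/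
theorem ordDifferential_smul_of_finite {g : F} (hg : g ≠ 0) {ω : Ω[F⁄K]} (hω : ω ≠ 0) :
    v.ordDifferential (g • ω) = v.ord g + v.ordDifferential ω :=
  ordDifferential_smul' (rankOne x hx) (BD_of_finite x hx v) hres hg hω

include hx hres in
/-- Local Riemann-Hurwitz formula at a place over the finite point `c`:
`ord_v (dy) = ord_v (y - c) - 1`. -/
theorem ordDifferential_D_of_sub_const (y : F) (c : K)
    (h : v.ord (y - algebraMap K F c) ≠ 0) :
    v.ordDifferential (D K F y) = v.ord (y - algebraMap K F c) - 1 := by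
  have h1 : D K F y = D K F (y - algebraMap K F c) := by
    rw [map_sub, Derivation.map_algebraMap, sub_zero]
  rw [h1]
  exact ordDifferential_D_of_ord_ne_zero x hx v hres h

include hx hres in
/-- Local Riemann-Hurwitz formula at a pole: `ord_v (dy) = ord_v y - 1`. -/
theorem ordDifferential_D_of_pole (y : F) (h : v.ord y < 0) :
    v.ordDifferential (D K F y) = v.ord y - 1 :=
  ordDifferential_D_of_ord_ne_zero x hx v hres h.ne

include hx hres in
/-- At a place where `y - c` is a uniformizer the differential `dy` has order zero. -/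
theorem ordDifferential_D_of_unramified (y : F) (c : K)
    (h : v.ord (y - algebraMap K F c) = 1) : v.ordDifferential (D K F y) = 0 := by
  rw [ordDifferential_D_of_sub_const x hx v hres y c (by rw [h]; exact one_ne_zero), h, sub_self]

include hx hres in
/-- Every nonzero differential is `g • D x`, with `ord_v ω = ord_v g + ord_v (dx)`. -/
theorem exists_eq_smul_D {ω : Ω[F⁄K]} (hω : ω ≠ 0) :
    ∃ g : F, g ≠ 0 ∧ ω = g • D K F x ∧
      v.ordDifferential ω = v.ord g + v.ordDifferential (D K F x) := by
  have h := eq_kaehlerEquiv_smul x hx ω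
  have hg : kaehlerEquiv x hx ω ≠ 0 := by
    intro h0
    exact hω (by rw [h, h0, zero_smul])
  refine ⟨_, hg, h, ?_⟩
  conv_lhs => rw [h]
  exact ordDifferential_smul_of_finite x hx v hres hg (D_ne_zero x hx)

end Main

/-! ### Adapters: the residue field hypothesis in other shapes, and the `A2` package in the
shapes consumed by the Riemann-Hurwitz assembly -/

section Adapters

open AlgebraicCurve

/-- The residue field hypothesis in the elementwise shape
(`= H19.residue_eq'` of the `A0` basics file). -/
theorem residue_surjective_of_forall (v : Place K F)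
    (h : ∀ f ∈ v.toValuationSubring, ∃ a : K,
      0 < v.ord (f - algebraMap K F a) ∨ f = algebraMap K F a) :
    Function.Surjective (algebraMap K v.ResidueField) := by
  intro y
  obtain ⟨⟨f, hf⟩, rfl⟩ := IsLocalRing.residue_surjective y
  obtain ⟨a, ha | ha⟩ := h f hf
  · refine ⟨a, ?_⟩
    symm
    show IsLocalRing.residue _ (⟨f, hf⟩ : v.toValuationSubring) =
      IsLocalRing.residue _ (algebraMap K v.toValuationSubring a)
    rw [← sub_eq_zero, ← map_sub, IsLocalRing.residue_eq_zero_iff]
    -- `f - a` has positive order, hence lies in the maximal ideal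
    obtain ⟨π, hπ⟩ := IsDiscreteValuationRing.exists_irreducible v.toValuationSubring
    have hne : f - algebraMap K F a ≠ 0 := by
      intro h0
      rw [h0, v.ord_zero] at ha
      exact lt_irrefl _ ha
    obtain ⟨u, hu⟩ := v.exists_unit_mul_zpow hne hπ
    rw [hπ.maximalIdeal_eq, Ideal.mem_span_singleton']
    obtain ⟨n, hn⟩ : ∃ n : ℕ, v.ord (f - algebraMap K F a) = (n : ℤ) + 1 :=
      ⟨(v.ord (f - algebraMap K F a) - 1).toNat, by omega⟩
    refine ⟨(u : v.toValuationSubring) * π ^ n, Subtype.ext ?_⟩
    show ((u : v.toValuationSubring) : F) * (π : F) ^ n * (π : F) = f - algebraMap K F a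
    rw [hu, hn, zpow_add_one₀ (coe_irreducible_ne_zero hπ), zpow_natCast]
    ring
  · exact ⟨a, by
      show IsLocalRing.residue _ (algebraMap K v.toValuationSubring a) =
        IsLocalRing.residue _ (⟨f, hf⟩ : v.toValuationSubring)
      congr 1
      exact Subtype.ext ha.symm⟩

variable [CharZero K] (x : F) (hx : Transcendental K x) [FiniteDimensional K⟮x⟯ F]
  (hdeg : ∀ v : Place K F, v.deg = 1)

include hx hdeg in
/-- `A2` in the shape `hzero` of `H14.RHInputs.of_deep`. -/
theorem hzero_of_deg : ∀ (v : Place K F) (c : K), 0 < v.ord (x - algebraMap K F c) →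
    v.ordDifferential (D K F x) = v.ord (x - algebraMap K F c) - 1 :=
  fun v c h => ordDifferential_D_of_sub_const x hx v
    (residue_surjective_of_deg v (hdeg v)) x c h.ne'

include hx hdeg in
/-- `A2` in the shape `hpole` of `H14.RHInputs.of_deep`. -/
theorem hpole_of_deg : ∀ v : Place K F, v.ord x < 0 →
    v.ordDifferential (D K F x) = v.ord x - 1 :=
  fun v h => ordDifferential_D_of_pole x hx v (residue_surjective_of_deg v (hdeg v)) x h

include hx hdeg in
/-- `A2` in the shape `hsmul` of `H14.RHInputs.of_deep`. -/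
theorem hsmul_of_deg : ∀ (v : Place K F) (g : F) (ω : Ω[F⁄K]), g ≠ 0 → ω ≠ 0 →
    v.ordDifferential (g • ω) = v.ord g + v.ordDifferential ω :=
  fun v _ _ hg hω => ordDifferential_smul_of_finite x hx v
    (residue_surjective_of_deg v (hdeg v)) hg hω

include hx hdeg in
theorem dCoordGenerates_of_deg (v : Place K F) : v.DCoordGenerates :=
  dCoordGenerates_of_finite x hx v (residue_surjective_of_deg v (hdeg v))

end Adapters


end

end Fermat.Agent.S24.H88
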