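import Mathlib
import Fermat.Prelude.Def_AlgebraicCurve_CanonicalDivisor

/-!
# S24, block A4: the abstract Riemann–Hurwitz assembly

`K` algebraically closed of characteristic zero, `F ⊇ K(x)` finite, `x` transcendental.
From the function-field inputs of blocks A0 (places), A1 (fundamental identity) and
A2 (differentials), collected in the hypothesis structure `RHInputs`, we compute the degree
of the divisor of any nonzero differential and hence the prelude genus.
-/

set_option autoImplicit false

open AlgebraicCurve IntermediateField KaehlerDifferential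

namespace Fermat.Agent.S24.H14

variable {K F : Type*} [Field K] [Field F] [Algebra K F]

/-- The function-field inputs (blocks A0, A1, A2) used by the Riemann–Hurwitz assembly. -/
structure RHInputs (K F : Type*) [Field K] [Field F] [Algebra K F] (x : F) : Prop where
  /-- every place has degree one -/
  deg_eq_one : ∀ v : Place K F, v.deg = 1
  /-- constants have order zero -/
  ord_algebraMap : ∀ (v : Place K F) (c : K), v.ord (algebraMap K F c) = 0
  /-- every place that is not a pole of `x` lies over some `c` -/
  center : ∀ v : Place K F, 0 ≤ v.ord x → ∃ c : K, 0 < v.ord (x - algebraMap K F c)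
  /-- a place lies over at most one `c` -/
  center_unique : ∀ (v : Place K F) (a b : K), 0 < v.ord (x - algebraMap K F a) →
    0 < v.ord (x - algebraMap K F b) → a = b
  /-- a place over `c` is not a pole of `x` -/
  center_not_pole : ∀ (v : Place K F) (a : K), 0 < v.ord (x - algebraMap K F a) → 0 ≤ v.ord x
  /-- a nonconstant function has finitely many zeros -/
  finite_zeros : ∀ y : F, Transcendental K y → {v : Place K F | 0 < v.ord y}.Finite
  /-- the fundamental identity `∑ e = n` for the zeros of a nonconstant function -/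
  sum_zeros : ∀ y : F, Transcendental K y →
    ∑ᶠ v ∈ {v : Place K F | 0 < v.ord y}, v.ord y = (Module.finrank K⟮y⟯ F : ℤ)
  /-- `dx` generates the differentials -/
  span : Submodule.span F {D K F x} = ⊤
  /-- `dx` is not zero -/
  dx_ne_zero : D K F x ≠ 0
  /-- order of `dx` at a place over `c` -/
  ordDiff_zero : ∀ (v : Place K F) (c : K), 0 < v.ord (x - algebraMap K F c) →
    v.ordDifferential (D K F x) = v.ord (x - algebraMap K F c) - 1
  /-- order of `dx` at a pole of `x` -/
  ordDiff_pole : ∀ v : Place K F, v.ord x < 0 → v.ordDifferential (D K F x) = v.ord x - 1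
  /-- order of a multiple of a differential -/
  ordDiff_smul : ∀ (v : Place K F) (g : F) (ω : Ω[F⁄K]), g ≠ 0 → ω ≠ 0 →
    v.ordDifferential (g • ω) = v.ord g + v.ordDifferential ω

section Basic

theorem adjoin_inv_eq (g : F) : K⟮g⁻¹⟯ = K⟮g⟯ := by
  apply le_antisymm
  · rw [adjoin_simple_le_iff]
    exact inv_mem (mem_adjoin_simple_self K g)
  · rw [adjoin_simple_le_iff]
    have := inv_mem (mem_adjoin_simple_self K g⁻¹)
    simpa using this

theorem adjoin_sub_const_eq (x : F) (a : K) : K⟮x - algebraMap K F a⟯ = K⟮x⟯ := by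
  apply le_antisymm
  · rw [adjoin_simple_le_iff]
    exact sub_mem (mem_adjoin_simple_self K x) (IntermediateField.algebraMap_mem _ a)
  · rw [adjoin_simple_le_iff]
    have := add_mem (mem_adjoin_simple_self K (x - algebraMap K F a))
      (IntermediateField.algebraMap_mem K⟮x - algebraMap K F a⟯ a)
    simpa using this

theorem finrank_congr_of_eq {E₁ E₂ : IntermediateField K F} (h : E₁ = E₂) :
    Module.finrank E₁ F = Module.finrank E₂ F := by
  subst h; rfl

theorem transcendental_sub_const {x : F} (hx : Transcendental K x) (a : K) :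
    Transcendental K (x - algebraMap K F a) := by
  intro h
  apply hx
  have := h.add (isAlgebraic_algebraMap (R := K) (A := F) a)
  simpa using this

theorem transcendental_inv {x : F} (hx : Transcendental K x) : Transcendental K x⁻¹ := by
  intro h
  exact hx (by simpa using h.inv)

theorem exists_eq_algebraMap_of_isAlgebraic [IsAlgClosed K] {g : F} (hg : IsAlgebraic K g) :
    ∃ c : K, g = algebraMap K F c := by
  have h1 := IsAlgClosed.degree_eq_one_of_irreducible K (minpoly.irreducible hg.isIntegral)
  obtain ⟨c, hc⟩ := minpoly.mem_range_of_degree_eq_one K g h1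
  exact ⟨c, hc.symm⟩

/-- constants have order zero at every place -/
theorem ord_algebraMap_eq_zero (v : Place K F) (c : K) : v.ord (algebraMap K F c) = 0 := by
  rcases eq_or_ne c 0 with rfl | hc
  · simp
  · let u : v.toValuationSubringˣ :=
      ⟨⟨algebraMap K F c, v.algebraMap_mem' c⟩, ⟨algebraMap K F c⁻¹, v.algebraMap_mem' c⁻¹⟩,
        by ext; simp [hc], by ext; simp [hc]⟩
    exact v.ord_coe_unit u

/-- the ultrametric inequality for the order at a place -/
theorem min_ord_le_ord_add (v : Place K F) {f g : F} (hf : f ≠ 0) (hg : g ≠ 0)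
    (hfg : f + g ≠ 0) : min (v.ord f) (v.ord g) ≤ v.ord (f + g) := by
  have h1 : v.adicValuation (f + g) ≤ max (v.adicValuation f) (v.adicValuation g) :=
    Valuation.map_add _ f g
  have hf' := v.adicValuation_ne_zero hf
  have hg' := v.adicValuation_ne_zero hg
  have hfg' := v.adicValuation_ne_zero hfg
  simp only [Place.ord]
  rcases le_max_iff.mp h1 with h2 | h2
  · have := (WithZero.log_le_log hfg' hf').mpr h2
    exact (min_le_left _ _).trans (neg_le_neg this)
  · have := (WithZero.log_le_log hfg' hg').mpr h2
    exact (min_le_right _ _).trans (neg_le_neg this)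

/-- a place lies over at most one constant -/
theorem center_unique_aux (v : Place K F) (x : F) (a b : K)
    (ha : 0 < v.ord (x - algebraMap K F a)) (hb : 0 < v.ord (x - algebraMap K F b)) : a = b := by
  by_contra hab
  have hba : algebraMap K F (a - b) ≠ 0 := by
    rw [Ne, map_eq_zero]
    exact sub_ne_zero.mpr hab
  have hxa : x - algebraMap K F a ≠ 0 := by
    intro h0
    rw [h0, v.ord_zero] at ha
    exact lt_irrefl _ ha
  have hxb : x - algebraMap K F b ≠ 0 := by
    intro h0
    rw [h0, v.ord_zero] at hb
    exact lt_irrefl _ hb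
  have hsum : (x - algebraMap K F b) + -(x - algebraMap K F a) = algebraMap K F (a - b) := by
    rw [map_sub]; ring
  have h1 := min_ord_le_ord_add v hxb (neg_ne_zero.mpr hxa) (by rw [hsum]; exact hba)
  have hneg : v.ord (-(x - algebraMap K F a)) = v.ord (x - algebraMap K F a) := by
    have hm1 : (-1 : F) = algebraMap K F (-1) := by simp
    rw [neg_eq_neg_one_mul, v.ord_mul (by norm_num) hxa, hm1, ord_algebraMap_eq_zero, zero_add]
  rw [hsum, ord_algebraMap_eq_zero, hneg] at h1
  have := lt_min hb ha
  omega

/-- a place over a constant is not a pole -/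
theorem center_not_pole_aux (v : Place K F) (x : F) (a : K)
    (ha : 0 < v.ord (x - algebraMap K F a)) : 0 ≤ v.ord x := by
  rcases eq_or_ne a 0 with rfl | ha0
  · simp only [map_zero, sub_zero] at ha
    exact ha.le
  have hxa : x - algebraMap K F a ≠ 0 := by
    intro h0
    rw [h0, v.ord_zero] at ha
    exact lt_irrefl _ ha
  have ha' : algebraMap K F a ≠ 0 := by
    rw [Ne, map_eq_zero]; exact ha0
  rcases eq_or_ne x 0 with rfl | hx0
  · simp
  have h1 := min_ord_le_ord_add v hxa ha' (by rw [sub_add_cancel]; exact hx0)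
  rw [sub_add_cancel, ord_algebraMap_eq_zero] at h1
  have := le_min ha.le (le_refl (0 : ℤ))
  omega

end Basic

/-- `RHInputs` from the deep inputs only (the elementary fields are proved above). -/
theorem RHInputs.of_deep {x : F} (hdeg : ∀ v : Place K F, v.deg = 1)
    (hcenter : ∀ v : Place K F, 0 ≤ v.ord x → ∃ c : K, 0 < v.ord (x - algebraMap K F c))
    (hfin : ∀ y : F, Transcendental K y → {v : Place K F | 0 < v.ord y}.Finite)
    (hsum : ∀ y : F, Transcendental K y →
      ∑ᶠ v ∈ {v : Place K F | 0 < v.ord y}, v.ord y = (Module.finrank K⟮y⟯ F : ℤ))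
    (hspan : Submodule.span F {D K F x} = ⊤) (hdx : D K F x ≠ 0)
    (hzero : ∀ (v : Place K F) (c : K), 0 < v.ord (x - algebraMap K F c) →
      v.ordDifferential (D K F x) = v.ord (x - algebraMap K F c) - 1)
    (hpole : ∀ v : Place K F, v.ord x < 0 → v.ordDifferential (D K F x) = v.ord x - 1)
    (hsmul : ∀ (v : Place K F) (g : F) (ω : Ω[F⁄K]), g ≠ 0 → ω ≠ 0 →
      v.ordDifferential (g • ω) = v.ord g + v.ordDifferential ω) : RHInputs K F x where
  deg_eq_one := hdeg
  ord_algebraMap := ord_algebraMap_eq_zero
  center := hcenter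
  center_unique := fun v a b => center_unique_aux v x a b
  center_not_pole := fun v a => center_not_pole_aux v x a
  finite_zeros := hfin
  sum_zeros := hsum
  span := hspan
  dx_ne_zero := hdx
  ordDiff_zero := hzero
  ordDiff_pole := hpole
  ordDiff_smul := hsmul

section Sums

variable {x : F}

theorem sum_filter_pos (h : RHInputs K F x) {y : F} (hy : Transcendental K y)
    (S : Finset (Place K F)) (hS : ∀ v : Place K F, 0 < v.ord y → v ∈ S) :
    ∑ v ∈ S.filter (fun v => 0 < v.ord y), v.ord y = (Module.finrank K⟮y⟯ F : ℤ) := by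
  rw [← h.sum_zeros y hy, finsum_mem_eq_finite_toFinset_sum _ (h.finite_zeros y hy)]
  apply Finset.sum_congr _ (fun _ _ => rfl)
  ext v
  simp only [Finset.mem_filter, Set.Finite.mem_toFinset, Set.mem_ofPred_eq]
  exact ⟨fun hv => hv.2, fun hv => ⟨hS v hv, hv⟩⟩

theorem card_filter_pos {y : F} (S : Finset (Place K F))
    (hS : ∀ v : Place K F, 0 < v.ord y → v ∈ S) :
    (S.filter (fun v => 0 < v.ord y)).card = Nat.card {v : Place K F // 0 < v.ord y} := by
  symm
  apply Nat.subtype_card
  intro v
  simp only [Finset.mem_filter]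
  exact ⟨fun hv => hv.2, fun hv => ⟨hS v hv, hv⟩⟩

theorem finite_pos (h : RHInputs K F x) [IsAlgClosed K] (g : F) :
    {v : Place K F | 0 < v.ord g}.Finite := by
  by_cases hg : IsAlgebraic K g
  · obtain ⟨c, rfl⟩ := exists_eq_algebraMap_of_isAlgebraic hg
    convert Set.finite_empty (α := Place K F)
    ext v
    simp [h.ord_algebraMap]
  · exact h.finite_zeros g hg

theorem finite_neg (h : RHInputs K F x) [IsAlgClosed K] (g : F) :
    {v : Place K F | v.ord g < 0}.Finite := by
  have := finite_pos h g⁻¹
  convert this using 2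
  ext v
  rw [v.ord_inv]
  omega

/-- a principal divisor has degree zero -/
theorem sum_ord_eq_zero (h : RHInputs K F x) [IsAlgClosed K] (g : F) (S : Finset (Place K F))
    (hS1 : ∀ v : Place K F, 0 < v.ord g → v ∈ S) (hS2 : ∀ v : Place K F, v.ord g < 0 → v ∈ S) :
    ∑ v ∈ S, v.ord g = 0 := by
  by_cases hg : IsAlgebraic K g
  · obtain ⟨c, rfl⟩ := exists_eq_algebraMap_of_isAlgebraic hg
    simp [h.ord_algebraMap]
  · have hg' : Transcendental K g⁻¹ := transcendental_inv hg
    have e1 := sum_filter_pos h hg S hS1
    have e2 := sum_filter_pos h hg' S (fun v hv => hS2 v (by rw [v.ord_inv] at hv; omega))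
    rw [finrank_congr_of_eq (adjoin_inv_eq g)] at e2
    rw [Finset.sum_filter] at e1 e2
    have key : ∀ v : Place K F, v.ord g =
        (if 0 < v.ord g then v.ord g else 0) - (if 0 < v.ord g⁻¹ then v.ord g⁻¹ else 0) := by
      intro v
      rw [v.ord_inv]
      split_ifs <;> omega
    rw [Finset.sum_congr rfl (fun v _ => key v), Finset.sum_sub_distrib, e1, e2, sub_self]

end Sums

section Main

variable {x : F}

/-- **Riemann–Hurwitz**, abstract form: the degree of the divisor of a nonzero differential. -/
theorem degree_canonical_of (h : RHInputs K F x) [IsAlgClosed K] (hx : Transcendental K x)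
    (T : Finset K)
    (hT : ∀ a : K, a ∉ T → ∀ v : Place K F, 0 < v.ord (x - algebraMap K F a) →
      v.ord (x - algebraMap K F a) = 1)
    (ω : Ω[F⁄K]) (hω : ω ≠ 0) (Dv : Divisor K F) (hD : ∀ v, Dv v = v.ordDifferential ω) :
    Divisor.degree Dv = -2 * (Module.finrank K⟮x⟯ F : ℤ)
      + ∑ a ∈ T, ((Module.finrank K⟮x⟯ F : ℤ)
          - Nat.card {v : Place K F // 0 < v.ord (x - algebraMap K F a)})
      + ((Module.finrank K⟮x⟯ F : ℤ) - Nat.card {v : Place K F // v.ord x < 0}) := by
  classical
  -- `ω = g • dx`
  obtain ⟨g, hgω⟩ : ∃ g : F, g • D K F x = ω := by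
    have hmem : ω ∈ Submodule.span F {D K F x} := by rw [h.span]; trivial
    exact Submodule.mem_span_singleton.mp hmem
  have hg0 : g ≠ 0 := by
    rintro rfl
    exact hω (by rw [← hgω, zero_smul])
  have hDx0 : D K F x ≠ 0 := by
    intro h0
    exact hω (by rw [← hgω, h0, smul_zero])
  have hDv : ∀ v, Dv v = v.ord g + v.ordDifferential (D K F x) := by
    intro v
    rw [hD, ← hgω]
    exact h.ordDiff_smul v g _ hg0 hDx0
  have hxa : ∀ a : K, Transcendental K (x - algebraMap K F a) := transcendental_sub_const hx
  have hxi : Transcendental K x⁻¹ := transcendental_inv hx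
  -- a finite set of places containing everything relevant
  let U : Set (Place K F) := ↑Dv.support ∪ {v | 0 < v.ord g} ∪ {v | v.ord g < 0} ∪
    {v | 0 < v.ord x⁻¹} ∪ ⋃ a ∈ T, {v | 0 < v.ord (x - algebraMap K F a)}
  have hU : U.Finite := by
    refine Set.Finite.union (Set.Finite.union (Set.Finite.union (Set.Finite.union
      Dv.support.finite_toSet (finite_pos h g)) (finite_neg h g)) (h.finite_zeros _ hxi)) ?_
    exact Set.Finite.biUnion T.finite_toSet (fun a _ => h.finite_zeros _ (hxa a))
  let S : Finset (Place K F) := hU.toFinset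
  have hS : ∀ v, v ∈ S ↔ v ∈ U := fun v => Set.Finite.mem_toFinset hU
  have hS_supp : Dv.support ⊆ S := by
    intro v hv
    rw [hS]
    exact Or.inl (Or.inl (Or.inl (Or.inl hv)))
  have hS_gpos : ∀ v : Place K F, 0 < v.ord g → v ∈ S := fun v hv =>
    (hS v).mpr (Or.inl (Or.inl (Or.inl (Or.inr hv))))
  have hS_gneg : ∀ v : Place K F, v.ord g < 0 → v ∈ S := fun v hv =>
    (hS v).mpr (Or.inl (Or.inl (Or.inr hv)))
  have hS_inf : ∀ v : Place K F, 0 < v.ord x⁻¹ → v ∈ S := fun v hv =>
    (hS v).mpr (Or.inl (Or.inr hv))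
  have hS_a : ∀ a ∈ T, ∀ v : Place K F, 0 < v.ord (x - algebraMap K F a) → v ∈ S :=
    fun a ha v hv => (hS v).mpr (Or.inr (Set.mem_biUnion ha hv))
  -- degree as a finite sum
  have hdeg : Divisor.degree Dv = ∑ v ∈ S, Dv v := by
    have h1 : Divisor.degree Dv = Dv.sum (fun v n => n * (v.deg : ℤ)) := by
      simp [Divisor.degree, Finsupp.liftAddHom_apply]
    rw [h1, Finsupp.sum_of_support_subset Dv hS_supp _ (by simp)]
    refine Finset.sum_congr rfl (fun v _ => ?_)
    rw [h.deg_eq_one v]
    simp
  -- local contributions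
  set ψ : K → Place K F → ℤ := fun a v =>
    if 0 < v.ord (x - algebraMap K F a) then v.ord (x - algebraMap K F a) - 1 else 0 with hψ
  set ψinf : Place K F → ℤ := fun v => if 0 < v.ord x⁻¹ then - v.ord x⁻¹ - 1 else 0 with hψinf
  have hφ : ∀ v : Place K F, v.ordDifferential (D K F x) = ∑ a ∈ T, ψ a v + ψinf v := by
    intro v
    rcases lt_or_ge (v.ord x) 0 with hneg | hnn
    · -- a pole of `x`
      have h1 : ∀ a ∈ T, ψ a v = 0 := by
        intro a _
        simp only [hψ]
        rw [if_neg]
        intro hpos
        exact absurd (h.center_not_pole v a hpos) (not_le.mpr hneg)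
      rw [Finset.sum_eq_zero h1, zero_add, h.ordDiff_pole v hneg]
      simp only [hψinf]
      rw [v.ord_inv, if_pos (by omega)]
      ring
    · obtain ⟨c, hc⟩ := h.center v hnn
      have h1 : ψinf v = 0 := by
        simp only [hψinf]
        rw [v.ord_inv, if_neg (by omega)]
      have h2 : ∀ a ∈ T, a ≠ c → ψ a v = 0 := by
        intro a _ hac
        simp only [hψ]
        rw [if_neg]
        intro hpos
        exact hac (h.center_unique v a c hpos hc)
      rw [h1, add_zero, h.ordDiff_zero v c hc]
      by_cases hcT : c ∈ T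
      · rw [Finset.sum_eq_single c (fun a ha hac => h2 a ha hac) (fun hc' => absurd hcT hc')]
        simp only [hψ]
        rw [if_pos hc]
      · rw [Finset.sum_eq_zero (fun a ha => h2 a ha (fun hac => hcT (hac ▸ ha))), hT c hcT v hc]
        norm_num
  -- the sums of the local contributions
  have hsum_a : ∀ a ∈ T, ∑ v ∈ S, ψ a v = (Module.finrank K⟮x⟯ F : ℤ)
      - Nat.card {v : Place K F // 0 < v.ord (x - algebraMap K F a)} := by
    intro a ha
    have e1 := sum_filter_pos h (hxa a) S (hS_a a ha)
    have e2 := card_filter_pos (y := x - algebraMap K F a) S (hS_a a ha)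
    rw [finrank_congr_of_eq (adjoin_sub_const_eq x a)] at e1
    simp only [hψ]
    rw [← Finset.sum_filter, Finset.sum_sub_distrib, e1, Finset.sum_const, e2]
    simp
  have hsum_inf : ∑ v ∈ S, ψinf v = - (Module.finrank K⟮x⟯ F : ℤ)
      - Nat.card {v : Place K F // v.ord x < 0} := by
    have e1 := sum_filter_pos h hxi S hS_inf
    have e2 : (S.filter (fun v => 0 < v.ord x⁻¹)).card
        = Nat.card {v : Place K F // v.ord x < 0} := by
      symm
      apply Nat.subtype_card
      intro v
      simp only [Finset.mem_filter]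
      rw [v.ord_inv]
      constructor
      · intro hv; omega
      · intro hv
        have : 0 < v.ord x⁻¹ := by rw [v.ord_inv]; omega
        exact ⟨hS_inf v this, by omega⟩
    rw [finrank_congr_of_eq (adjoin_inv_eq x)] at e1
    simp only [hψinf]
    rw [← Finset.sum_filter, Finset.sum_sub_distrib, Finset.sum_neg_distrib, e1, Finset.sum_const,
      e2]
    simp
  -- assemble
  rw [hdeg, Finset.sum_congr rfl (fun v _ => hDv v), Finset.sum_add_distrib,
    sum_ord_eq_zero h g S hS_gpos hS_gneg, zero_add,
    Finset.sum_congr rfl (fun v _ => hφ v), Finset.sum_add_distrib, Finset.sum_comm,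
    Finset.sum_congr rfl hsum_a, hsum_inf]
  ring

/-- the prelude genus from the Riemann–Hurwitz count -/
theorem genus_eq_of (h : RHInputs K F x) [IsAlgClosed K]
    [AlgebraicCurve.HasCanonicalDivisor (K := K) (F := F)] (hx : Transcendental K x)
    (T : Finset K)
    (hT : ∀ a : K, a ∉ T → ∀ v : Place K F, 0 < v.ord (x - algebraMap K F a) →
      v.ord (x - algebraMap K F a) = 1)
    (g : ℕ)
    (hg : 2 * (g : ℤ) - 2 = -2 * (Module.finrank K⟮x⟯ F : ℤ)
      + ∑ a ∈ T, ((Module.finrank K⟮x⟯ F : ℤ)
          - Nat.card {v : Place K F // 0 < v.ord (x - algebraMap K F a)})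
      + ((Module.finrank K⟮x⟯ F : ℤ) - Nat.card {v : Place K F // v.ord x < 0})) :
    AlgebraicCurve.genus K F = g := by
  have hex : ∃ ω : Ω[F⁄K], ω ≠ 0 := ⟨D K F x, h.dx_ne_zero⟩
  unfold AlgebraicCurve.genus
  rw [dif_pos hex, degree_canonical_of h hx T hT _ hex.choose_spec
    (canonicalDivisorOf hex.choose_spec) (fun v => canonicalDivisorOf_apply _ v), ← hg]
  omega

/-- the degree of `K(x) ⊆ F` is the number of places in any unramified fibre -/
theorem finrank_eq_card_of_unramified (h : RHInputs K F x) (hx : Transcendental K x) (c : K)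
    (hc : ∀ v : Place K F, 0 < v.ord (x - algebraMap K F c) →
      v.ord (x - algebraMap K F c) = 1) :
    Module.finrank K⟮x⟯ F = Nat.card {v : Place K F // 0 < v.ord (x - algebraMap K F c)} := by
  have hxc := transcendental_sub_const hx c
  set S : Finset (Place K F) := (h.finite_zeros _ hxc).toFinset with hS
  have hmem : ∀ v : Place K F, 0 < v.ord (x - algebraMap K F c) → v ∈ S := fun v hv =>
    (Set.Finite.mem_toFinset _).mpr hv
  have e1 := sum_filter_pos h hxc S hmem
  have e2 := card_filter_pos (y := x - algebraMap K F c) S hmem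
  rw [finrank_congr_of_eq (adjoin_sub_const_eq x c)] at e1
  rw [Finset.sum_congr rfl (fun v hv => hc v (Finset.mem_filter.mp hv).2), Finset.sum_const,
    e2] at e1
  have e3 : ((Nat.card {v : Place K F // 0 < v.ord (x - algebraMap K F c)} : ℕ) : ℤ)
      = (Module.finrank K⟮x⟯ F : ℤ) := by simpa using e1
  exact_mod_cast e3.symm

/-- **Riemann–Hurwitz** in the shape (I1) of the top assembly: `n` is the common size of the
unramified fibres. -/
theorem degree_canonicalDivisor_of (h : RHInputs K F x) [IsAlgClosed K] (hx : Transcendental K x)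
    (n : ℕ) (S : Finset K)
    (hunr : ∀ c : K, c ∉ S → ∀ v : Place K F,
      0 < v.ord (x - algebraMap K F c) → v.ord (x - algebraMap K F c) = 1)
    (hn : ∀ c : K, c ∉ S →
      Nat.card {v : Place K F // 0 < v.ord (x - algebraMap K F c)} = n)
    [HasCanonicalDivisor (K := K) (F := F)] {ω : Ω[F⁄K]} (hω : ω ≠ 0) :
    Divisor.degree (canonicalDivisorOf hω) =
      ∑ c ∈ S, ((n : ℤ) - Nat.card {v : Place K F // 0 < v.ord (x - algebraMap K F c)})
        - n - Nat.card {v : Place K F // v.ord x < 0} := by
  have hinf : Infinite K := IsAlgClosed.instInfinite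
  obtain ⟨c, hc⟩ := Infinite.exists_notMem_finset S
  have hfr : Module.finrank K⟮x⟯ F = n := by
    rw [finrank_eq_card_of_unramified h hx c (hunr c hc), hn c hc]
  rw [degree_canonical_of h hx S hunr ω hω (canonicalDivisorOf hω)
    (fun v => canonicalDivisorOf_apply hω v), hfr]
  ring

end Main

end Fermat.Agent.S24.H14
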