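import Mathlib
import Fermat.Agent.S24.Hurwitz_helper14
import Fermat.Agent.S24.Basics_helper19
import Fermat.Agent.S24.FundId_helper32
import Fermat.Agent.S24.Diff_helper88

/-!
# S24, block A4: Riemann–Hurwitz for `K(x) ⊆ F` (hypothesis-free form)

The abstract assembly of `Hurwitz_helper14.lean`, instantiated with
A0 (`Basics_helper19`), A1 (`FundId_helper32`) and A2 (`Diff_helper88`).
-/

set_option autoImplicit false

open AlgebraicCurve IntermediateField KaehlerDifferential

namespace Fermat.Agent.S24.H14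

variable {K F : Type*} [Field K] [Field F] [Algebra K F] [IsAlgClosed K] [CharZero K]

/-- all function-field inputs of the Riemann–Hurwitz assembly hold -/
theorem rhInputs (x : F) (hx : Transcendental K x) [hfin : FiniteDimensional K⟮x⟯ F] :
    RHInputs K F x := by
  have hdeg : ∀ v : Place K F, v.deg = 1 := fun v => H19.deg_eq_one x hx hfin v
  refine RHInputs.of_deep hdeg ?_ ?_ ?_ (H88.span_D_eq_top x hx) (H88.D_ne_zero x hx)
    (H88.hzero_of_deg x hx hdeg) (H88.hpole_of_deg x hx hdeg) (H88.hsmul_of_deg x hx hdeg)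
  · intro v hv
    obtain ⟨c, hc | hc⟩ := H19.residue_eq x hx hfin v (H19.mem_of_ord_nonneg v hv)
    · exact absurd (hc ▸ isAlgebraic_algebraMap c) hx
    · exact ⟨c, hc⟩
  · intro y hy
    have := H19.finiteDimensional_adjoin x y hx hfin hy
    exact H32.finite_zeros hy
  · intro y hy
    have := H19.finiteDimensional_adjoin x y hx hfin hy
    exact H32.finsum_ord_zeros hy

/-- there is a nonzero differential -/
theorem exists_differential_ne_zero (x : F) (hx : Transcendental K x)
    [FiniteDimensional K⟮x⟯ F] : ∃ ω : Ω[F⁄K], ω ≠ 0 :=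
  ⟨D K F x, (rhInputs x hx).dx_ne_zero⟩

/-- **Riemann–Hurwitz**: the degree of the divisor of a nonzero differential. -/
theorem degree_canonical (x : F) (hx : Transcendental K x) [FiniteDimensional K⟮x⟯ F]
    (T : Finset K)
    (hT : ∀ a : K, a ∉ T → ∀ v : Place K F, 0 < v.ord (x - algebraMap K F a) →
      v.ord (x - algebraMap K F a) = 1)
    (ω : Ω[F⁄K]) (hω : ω ≠ 0) (Dv : Divisor K F) (hD : ∀ v, Dv v = v.ordDifferential ω) :
    Divisor.degree Dv = -2 * (Module.finrank K⟮x⟯ F : ℤ)
      + ∑ a ∈ T, ((Module.finrank K⟮x⟯ F : ℤ)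
          - Nat.card {v : Place K F // 0 < v.ord (x - algebraMap K F a)})
      + ((Module.finrank K⟮x⟯ F : ℤ) - Nat.card {v : Place K F // v.ord x < 0}) :=
  degree_canonical_of (rhInputs x hx) hx T hT ω hω Dv hD

/-- the prelude genus from the Riemann–Hurwitz count -/
theorem genus_eq [AlgebraicCurve.HasCanonicalDivisor (K := K) (F := F)]
    (x : F) (hx : Transcendental K x) [FiniteDimensional K⟮x⟯ F] (T : Finset K)
    (hT : ∀ a : K, a ∉ T → ∀ v : Place K F, 0 < v.ord (x - algebraMap K F a) →
      v.ord (x - algebraMap K F a) = 1)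
    (g : ℕ)
    (hg : 2 * (g : ℤ) - 2 = -2 * (Module.finrank K⟮x⟯ F : ℤ)
      + ∑ a ∈ T, ((Module.finrank K⟮x⟯ F : ℤ)
          - Nat.card {v : Place K F // 0 < v.ord (x - algebraMap K F a)})
      + ((Module.finrank K⟮x⟯ F : ℤ) - Nat.card {v : Place K F // v.ord x < 0})) :
    AlgebraicCurve.genus K F = g :=
  genus_eq_of (rhInputs x hx) hx T hT g hg

/-- **Riemann–Hurwitz** in the shape (I1) of the top assembly. -/
theorem degree_canonicalDivisor (x : F) (hx : Transcendental K x) [FiniteDimensional K⟮x⟯ F]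
    (n : ℕ) (S : Finset K)
    (hunr : ∀ c : K, c ∉ S → ∀ v : Place K F,
      0 < v.ord (x - algebraMap K F c) → v.ord (x - algebraMap K F c) = 1)
    (hn : ∀ c : K, c ∉ S →
      Nat.card {v : Place K F // 0 < v.ord (x - algebraMap K F c)} = n)
    [HasCanonicalDivisor (K := K) (F := F)] {ω : Ω[F⁄K]} (hω : ω ≠ 0) :
    Divisor.degree (canonicalDivisorOf hω) =
      ∑ c ∈ S, ((n : ℤ) - Nat.card {v : Place K F // 0 < v.ord (x - algebraMap K F c)})
        - n - Nat.card {v : Place K F // v.ord x < 0} :=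
  degree_canonicalDivisor_of (rhInputs x hx) hx n S hunr hn hω

/-- the degree `[F : K(x)]` is the number of places in any unramified fibre -/
theorem finrank_eq_card_fibre (x : F) (hx : Transcendental K x) [FiniteDimensional K⟮x⟯ F]
    (c : K)
    (hc : ∀ v : Place K F, 0 < v.ord (x - algebraMap K F c) →
      v.ord (x - algebraMap K F c) = 1) :
    Module.finrank K⟮x⟯ F = Nat.card {v : Place K F // 0 < v.ord (x - algebraMap K F c)} :=
  finrank_eq_card_of_unramified (rhInputs x hx) hx c hc

end Fermat.Agent.S24.H14
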