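import Mathlib
import Fermat.Prelude.Def_ModularCurve_LaurentCoeff

/-!
# S24: linear disjointness of `K((q))` and `C` over `K`

`K`-linearly independent Laurent series stay `C`-linearly independent after extending the
coefficients along a field embedding `φ : K →+* C`.
-/

set_option autoImplicit false

open ModularCurve

noncomputable section

namespace Fermat.Agent.S24.H31

/-- A nontrivial `C`-linear relation among the coefficientwise images of Laurent series over `K`
yields a nontrivial `K`-linear relation among the series themselves. -/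
theorem exists_relation_of_coeffMap {K C : Type*} [Field K] [Field C] (φ : K →+* C) {m : ℕ}
    (u : Fin m → LaurentSeries K) (c : Fin m → C) (hc : c ≠ 0)
    (h : ∑ k, c k • coeffMap φ (u k) = 0) :
    ∃ a : Fin m → K, a ≠ 0 ∧ ∑ k, a k • u k = 0 := by
  classical
  let _ : Algebra K C := φ.toAlgebra
  let b := Module.Basis.ofVectorSpace K C
  obtain ⟨k₀, hk₀⟩ : ∃ k₀, c k₀ ≠ 0 := by
    by_contra hne
    push Not at hne
    exact hc (funext hne)
  obtain ⟨i₀, hi₀⟩ : ∃ i₀, b.repr (c k₀) i₀ ≠ 0 := by
    by_contra hne
    push Not at hne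
    apply hk₀
    have : b.repr (c k₀) = 0 := Finsupp.ext hne
    simpa using this
  refine ⟨fun k => b.repr (c k) i₀, fun h0 => hi₀ (congrFun h0 k₀), ?_⟩
  ext n
  have hn : ∑ k, c k * φ ((u k).coeff n) = 0 := by
    have := congrArg (fun x : LaurentSeries C => x.coeff n) h
    simpa [HahnSeries.coeff_sum] using this
  have hn' : ∑ k, (u k).coeff n • c k = 0 := by
    rw [← hn]
    refine Finset.sum_congr rfl fun k _ => ?_
    rw [Algebra.smul_def, mul_comm]
    rfl
  have h2 := congrArg (fun x => b.repr x i₀) hn'
  simp only [map_sum, map_smul, Finsupp.coe_finsetSum, Finsupp.coe_smul, Finset.sum_apply,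
    Pi.smul_apply, smul_eq_mul, map_zero, Finsupp.coe_zero, Pi.zero_apply] at h2
  simp only [HahnSeries.coeff_sum, HahnSeries.coeff_smul, smul_eq_mul, HahnSeries.coeff_zero]
  rw [← h2]
  exact Finset.sum_congr rfl fun k _ => mul_comm _ _

end Fermat.Agent.S24.H31
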