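/-
S24 helper library (helper69): Taylor series at `0` of functions `ℂ → ℂ` as formal power series,
and the identification of the `q`-expansions of `E₄`, `Δ` with the Prelude's formal series
`ModularCurve.eisenstein4`, `ModularCurve.dedekindEtaUnit`.
-/
import Mathlib
import Fermat.Prelude.Def_ModularCurve_JqCoeff

set_option autoImplicit false

noncomputable section

namespace Fermat.Agent.S24.H69

open ModularForm UpperHalfPlane Function Complex Filter Topology

/-- Taylor series at `0` of a function `ℂ → ℂ`, as a formal power series. -/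
def taylorPS (f : ℂ → ℂ) : PowerSeries ℂ :=
  PowerSeries.mk fun m => ((m.factorial : ℂ))⁻¹ * iteratedDeriv m f 0

theorem coeff_taylorPS (f : ℂ → ℂ) (m : ℕ) :
    PowerSeries.coeff m (taylorPS f) = ((m.factorial : ℂ))⁻¹ * iteratedDeriv m f 0 := by
  simp [taylorPS]

theorem qExpansion_eq_taylorPS (h : ℝ) (f : ℍ → ℂ) :
    qExpansion h f = taylorPS (cuspFunction h f) := rfl

theorem taylorPS_congr {f g : ℂ → ℂ} (h : f =ᶠ[𝓝 0] g) : taylorPS f = taylorPS g := by
  ext m
  rw [coeff_taylorPS, coeff_taylorPS, h.iteratedDeriv_eq m]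

theorem taylorPS_mul {f g : ℂ → ℂ} (hf : AnalyticAt ℂ f 0) (hg : AnalyticAt ℂ g 0) :
    taylorPS (f * g) = taylorPS f * taylorPS g := by
  ext n
  simp only [coeff_taylorPS, iteratedDeriv_mul hf.contDiffAt hg.contDiffAt, Finset.mul_sum,
    PowerSeries.coeff_mul, Finset.Nat.sum_antidiagonal_eq_sum_range_succ_mk, Nat.succ_eq_add_one]
  refine Finset.sum_congr rfl fun i hi ↦ ?_
  rw [Nat.cast_choose _ (by grind)]
  field_simp [Nat.factorial_ne_zero]

theorem taylorPS_add {f g : ℂ → ℂ} (hf : AnalyticAt ℂ f 0) (hg : AnalyticAt ℂ g 0) :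
    taylorPS (f + g) = taylorPS f + taylorPS g := by
  ext n
  simp [coeff_taylorPS, iteratedDeriv_add hf.contDiffAt hg.contDiffAt, mul_add]

theorem taylorPS_const (c : ℂ) : taylorPS (fun _ => c) = PowerSeries.C c := by
  ext n
  rw [coeff_taylorPS, PowerSeries.coeff_C]
  rcases n with _ | n
  · simp
  · simp [iteratedDeriv_const]

theorem taylorPS_one : taylorPS (1 : ℂ → ℂ) = 1 := by
  show taylorPS (fun _ => (1 : ℂ)) = 1
  rw [taylorPS_const]
  simp

theorem taylorPS_id : taylorPS (fun q : ℂ => q) = PowerSeries.X := by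
  ext n
  rw [coeff_taylorPS, PowerSeries.coeff_X]
  rcases n with _ | _ | n
  · simp
  · simp [iteratedDeriv_succ]
  · have h1 : deriv (fun q : ℂ => q) = fun _ => (1 : ℂ) := by
      funext x; simp
    rw [iteratedDeriv_succ', h1]
    simp [iteratedDeriv_const]

theorem analyticAt_fun_id (x : ℂ) : AnalyticAt ℂ (fun q : ℂ => q) x := analyticAt_id

theorem taylorPS_neg {f : ℂ → ℂ} (hf : AnalyticAt ℂ f 0) : taylorPS (-f) = -taylorPS f := by
  have h1 : (-f) = (fun _ => (-1 : ℂ)) * f := by
    funext x; simp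
  rw [h1, taylorPS_mul analyticAt_const hf, taylorPS_const]
  simp

theorem taylorPS_sub {f g : ℂ → ℂ} (hf : AnalyticAt ℂ f 0) (hg : AnalyticAt ℂ g 0) :
    taylorPS (f - g) = taylorPS f - taylorPS g := by
  rw [sub_eq_add_neg, taylorPS_add hf hg.neg, taylorPS_neg hg, sub_eq_add_neg]

theorem taylorPS_pow {f : ℂ → ℂ} (hf : AnalyticAt ℂ f 0) (n : ℕ) :
    taylorPS (f ^ n) = taylorPS f ^ n := by
  induction n with
  | zero => simpa using taylorPS_one
  | succ n ih => rw [pow_succ, taylorPS_mul (hf.pow n) hf, ih, pow_succ]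

theorem taylorPS_prod {ι : Type*} (s : Finset ι) (F : ι → ℂ → ℂ)
    (hF : ∀ i ∈ s, AnalyticAt ℂ (F i) 0) :
    taylorPS (∏ i ∈ s, F i) = ∏ i ∈ s, taylorPS (F i) := by
  classical
  induction s using Finset.induction_on with
  | empty => simpa using taylorPS_one
  | insert a s ha ih =>
    rw [Finset.prod_insert ha, Finset.prod_insert ha, taylorPS_mul (hF a (Finset.mem_insert_self a s))
      (Finset.analyticAt_prod _ fun i hi => hF i (Finset.mem_insert_of_mem hi)),
      ih fun i hi => hF i (Finset.mem_insert_of_mem hi)]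

/-- The Taylor series of a function differentiable on a ball around `0` sums to the function. -/
theorem hasSum_taylorPS {f : ℂ → ℂ} {r : ℝ} (hf : DifferentiableOn ℂ f (Metric.ball 0 r))
    {q : ℂ} (hq : q ∈ Metric.ball (0 : ℂ) r) :
    HasSum (fun m : ℕ => PowerSeries.coeff m (taylorPS f) * q ^ m) (f q) := by
  have h := hasSum_taylorSeries_on_ball hf hq
  refine h.congr_fun fun m => ?_  
  rw [coeff_taylorPS]
  simp [smul_eq_mul, mul_comm, mul_left_comm]

/-- Locally uniform limits of holomorphic functions: iterated derivatives converge. -/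
theorem tendstoLocallyUniformlyOn_iteratedDeriv {ι : Type*} {φ : Filter ι} [φ.NeBot]
    {F : ι → ℂ → ℂ} {f : ℂ → ℂ} {U : Set ℂ} (hU : IsOpen U)
    (hF : ∀ n, DifferentiableOn ℂ (F n) U) (hf : TendstoLocallyUniformlyOn F f φ U) (m : ℕ) :
    TendstoLocallyUniformlyOn (fun n => iteratedDeriv m (F n)) (iteratedDeriv m f) φ U ∧
      ∀ n, DifferentiableOn ℂ (iteratedDeriv m (F n)) U := by
  induction m with
  | zero =>
    simp only [iteratedDeriv_zero]
    exact ⟨hf, hF⟩
  | succ m ih =>
    constructor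
    · have h := ih.1.deriv (Eventually.of_forall ih.2) hU
      simpa only [iteratedDeriv_succ, Function.comp_def] using h
    · intro n
      rw [iteratedDeriv_succ]
      exact (ih.2 n).deriv hU

/-! ### The Euler product `∏ (1 - q^(n+1))` -/

open scoped PowerSeries.WithPiTopology

/-- The analytic Euler product `∏ (1 - q^(n+1))` on the unit disc. -/
def etaFun (q : ℂ) : ℂ := ∏' n : ℕ, (1 - q ^ (n + 1))

theorem differentiableOn_etaFun : DifferentiableOn ℂ etaFun (Metric.ball 0 1) :=
  differentiableOn_tprod_one_sub_pow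

theorem analyticAt_etaFun_zero : AnalyticAt ℂ etaFun 0 :=
  differentiableOn_etaFun.analyticAt (Metric.ball_mem_nhds 0 one_pos)

theorem etaFun_ne_zero {q : ℂ} (hq : ‖q‖ < 1) : etaFun q ≠ 0 := by
  have hs : Summable fun n : ℕ => ‖-q ^ (n + 1)‖ := by
    simpa [summable_nat_add_iff] using summable_geometric_of_lt_one (norm_nonneg q) hq
  have h := tprod_one_add_ne_zero_of_summable (f := fun n : ℕ => -q ^ (n + 1)) (fun i => ?_) hs
  · simpa [etaFun, sub_eq_add_neg] using h
  · intro h0
    have h1 : q ^ (i + 1) = 1 := by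
      have := eq_neg_of_add_eq_zero_left h0
      simpa using this.symm
    have h2 : ‖q‖ ^ (i + 1) = 1 := by rw [← norm_pow, h1, norm_one]
    have h3 : ‖q‖ ^ (i + 1) < 1 := pow_lt_one₀ (norm_nonneg q) hq (by omega)
    linarith

theorem taylorPS_one_sub_pow (i : ℕ) :
    taylorPS (fun q : ℂ => 1 - q ^ (i + 1)) = 1 - PowerSeries.X ^ (i + 1) := by
  have h : (fun q : ℂ => 1 - q ^ (i + 1)) = (1 : ℂ → ℂ) - (fun q : ℂ => q) ^ (i + 1) := by
    funext q; simp
  have h1 : AnalyticAt ℂ (1 : ℂ → ℂ) 0 := analyticAt_const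
  rw [h, taylorPS_sub h1 ((analyticAt_fun_id 0).pow _), taylorPS_one,
    taylorPS_pow (analyticAt_fun_id 0), taylorPS_id]

/-- The Taylor series of the analytic Euler product is the Prelude's formal product. -/
theorem taylorPS_etaFun :
    taylorPS etaFun = ModularCurve.etaProd.map (Int.castRingHom ℂ) := by
  ext m
  have hloc : TendstoLocallyUniformlyOn
      (fun (s : Finset ℕ) (q : ℂ) => ∏ i ∈ s, (1 - q ^ (i + 1))) etaFun atTop
      (Metric.ball 0 1) :=
    multipliableLocallyUniformlyOn_one_sub_pow.hasProdLocallyUniformlyOn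
  have hdiff : ∀ s : Finset ℕ,
      DifferentiableOn ℂ (fun q : ℂ => ∏ i ∈ s, (1 - q ^ (i + 1))) (Metric.ball 0 1) :=
    fun s => DifferentiableOn.fun_finsetProd fun i _ => by fun_prop
  have h1 := ((tendstoLocallyUniformlyOn_iteratedDeriv Metric.isOpen_ball hdiff hloc m).1).tendsto_at
    (Metric.mem_ball_self one_pos)
  have h2 : ∀ s : Finset ℕ,
      ((m.factorial : ℂ))⁻¹ * iteratedDeriv m (fun q : ℂ => ∏ i ∈ s, (1 - q ^ (i + 1))) 0 =
        ((PowerSeries.coeff m (∏ i ∈ s, (1 - PowerSeries.X ^ (i + 1)) : PowerSeries ℤ) : ℤ) : ℂ) := by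
    intro s
    have h : (fun q : ℂ => ∏ i ∈ s, (1 - q ^ (i + 1))) = ∏ i ∈ s, (fun q : ℂ => 1 - q ^ (i + 1)) := by
      funext q; simp [Finset.prod_apply]
    rw [← coeff_taylorPS, h, taylorPS_prod _ _ (fun i _ => by fun_prop)]
    simp_rw [taylorPS_one_sub_pow]
    have h' : (∏ i ∈ s, (1 - PowerSeries.X ^ (i + 1)) : PowerSeries ℂ) =
        PowerSeries.map (Int.castRingHom ℂ) (∏ i ∈ s, (1 - PowerSeries.X ^ (i + 1))) := by
      simp [map_prod]
    rw [h', PowerSeries.coeff_map]
    rfl
  have h4 : Tendsto (fun s : Finset ℕ =>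
      ((PowerSeries.coeff m (∏ i ∈ s, (1 - PowerSeries.X ^ (i + 1)) : PowerSeries ℤ) : ℤ) : ℂ)) atTop
      (𝓝 ((PowerSeries.coeff m ModularCurve.etaProd : ℤ) : ℂ)) := by
    have hp : HasProd (fun n : ℕ => (1 - PowerSeries.X ^ (n + 1) : PowerSeries ℤ))
        ModularCurve.etaProd :=
      (PowerSeries.WithPiTopology.multipliable_one_sub_X_pow ℤ).hasProd
    have hc := ((PowerSeries.WithPiTopology.continuous_coeff ℤ m).tendsto _).comp hp
    exact ((continuous_of_discreteTopology (f := fun z : ℤ => (z : ℂ))).tendsto _).comp hc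
  rw [coeff_taylorPS, PowerSeries.coeff_map]
  have h5 := h1.const_mul ((m.factorial : ℂ))⁻¹
  simp_rw [h2] at h5
  exact tendsto_nhds_unique h5 h4

/-! ### `q`-expansions of `E₄` and `Δ` -/

theorem qExpansion_E4 :
    qExpansion 1 E₄ = ModularCurve.eisenstein4.map (Int.castRingHom ℂ) := by
  ext m
  rw [EisensteinSeries.E_qExpansion_coeff _ ⟨2, rfl⟩ m, PowerSeries.coeff_map,
    ModularCurve.eisenstein4, PowerSeries.coeff_mk]
  have hb : bernoulli 4 = -1 / 30 := by
    rw [bernoulli_eq_bernoulli'_of_ne_one (by norm_num), bernoulli'_four]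
  by_cases hm : m = 0
  · simp [hm]
  · simp only [hm, if_false]
    rw [hb, ArithmeticFunction.sigma_apply, eq_intCast]
    push_cast
    ring

theorem cuspFunction_discriminant_eventuallyEq :
    cuspFunction 1 ModularForm.discriminant =ᶠ[𝓝 0] (fun q : ℂ => q) * etaFun ^ 24 := by
  filter_upwards [Metric.ball_mem_nhds (0 : ℂ) one_pos] with q hq
  rw [discriminant_cuspFunction_eqOn hq]
  have hq' : ‖q‖ < 1 := by simpa using hq
  simp only [Pi.mul_apply, Pi.pow_apply, etaFun]
  rw [(multipliable_one_sub_pow hq').tprod_pow 24]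

theorem qExpansion_discriminant :
    qExpansion 1 ModularForm.discriminant =
      PowerSeries.X * ModularCurve.dedekindEtaUnit.map (Int.castRingHom ℂ) := by
  rw [qExpansion_eq_taylorPS, taylorPS_congr cuspFunction_discriminant_eventuallyEq,
    taylorPS_mul (analyticAt_fun_id 0) (analyticAt_etaFun_zero.pow 24), taylorPS_id,
    taylorPS_pow analyticAt_etaFun_zero, taylorPS_etaFun, ModularCurve.dedekindEtaUnit, map_pow]

/-! ### The `j`-function: analytic `j = E₄³/Δ` versus the Prelude's formal `jq` -/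

theorem coeff_jqModC (K : Type*) [CommRing K] (n : ℕ) :
    (ModularCurve.jqModC K).coeff ((n : ℤ) - 1) =
      ((PowerSeries.coeff n ModularCurve.jNum : ℤ) : K) := by
  rw [ModularCurve.jqModC, HahnSeries.coeff_single_mul, one_mul, sub_neg_eq_add, sub_add_cancel,
    HahnSeries.ofPowerSeries_apply_coeff, PowerSeries.coeff_map, eq_intCast]

/-- Formal bridge: `E₄³ = jq · Δ` as Laurent series, with `E₄`, `Δ` the analytic `q`-expansions. -/
theorem jq_bridge :
    HahnSeries.ofPowerSeries ℤ ℂ (qExpansion 1 E₄) ^ 3 =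
      ModularCurve.jqModC ℂ *
        HahnSeries.ofPowerSeries ℤ ℂ (qExpansion 1 ModularForm.discriminant) := by
  rw [qExpansion_E4, qExpansion_discriminant, ModularCurve.jqModC, map_mul,
    HahnSeries.ofPowerSeries_X]
  have h1 : (HahnSeries.single (-1 : ℤ) (1 : ℂ)) * (HahnSeries.single (1 : ℤ) (1 : ℂ)) = 1 := by
    rw [HahnSeries.single_mul_single]
    simp
  have h2 : PowerSeries.map (Int.castRingHom ℂ) ModularCurve.jNum *
      PowerSeries.map (Int.castRingHom ℂ) ModularCurve.dedekindEtaUnit =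
      PowerSeries.map (Int.castRingHom ℂ) ModularCurve.eisenstein4 ^ 3 := by
    rw [← map_mul, ← map_pow, ModularCurve.jNum, mul_assoc,
      mul_comm ModularCurve.dedekindEtaUnitInv, ModularCurve.dedekindEtaUnit_mul_inv, mul_one]
  calc HahnSeries.ofPowerSeries ℤ ℂ (PowerSeries.map (Int.castRingHom ℂ) ModularCurve.eisenstein4) ^ 3
      = (HahnSeries.single (-1 : ℤ) (1 : ℂ) * HahnSeries.single (1 : ℤ) (1 : ℂ)) *
          HahnSeries.ofPowerSeries ℤ ℂ
            (PowerSeries.map (Int.castRingHom ℂ) ModularCurve.jNum *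
              PowerSeries.map (Int.castRingHom ℂ) ModularCurve.dedekindEtaUnit) := by
        rw [h1, one_mul, h2, map_pow]
    _ = _ := by
        rw [map_mul]
        ring

/-- `q ↦ q · j(q)` as an analytic function on the unit disc. -/
def qjFun (q : ℂ) : ℂ := cuspFunction 1 E₄ q ^ 3 / etaFun q ^ 24

theorem differentiableOn_cuspFunction_E4 :
    DifferentiableOn ℂ (cuspFunction 1 E₄) (Metric.ball 0 1) := fun q hq =>
  (ModularFormClass.differentiableAt_cuspFunction E₄ one_pos one_mem_strictPeriods_SL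
    (by simpa using hq)).differentiableWithinAt

theorem differentiableOn_qjFun : DifferentiableOn ℂ qjFun (Metric.ball 0 1) := by
  refine (differentiableOn_cuspFunction_E4.pow 3).div (differentiableOn_etaFun.pow 24) ?_
  intro q hq
  exact pow_ne_zero _ (etaFun_ne_zero (by simpa using hq))

theorem taylorPS_qjFun : taylorPS qjFun = ModularCurve.jNum.map (Int.castRingHom ℂ) := by
  have hE : AnalyticAt ℂ (cuspFunction 1 E₄) 0 :=
    differentiableOn_cuspFunction_E4.analyticAt (Metric.ball_mem_nhds 0 one_pos)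
  have hJ : AnalyticAt ℂ qjFun 0 :=
    differentiableOn_qjFun.analyticAt (Metric.ball_mem_nhds 0 one_pos)
  have h1 : qjFun * etaFun ^ 24 =ᶠ[𝓝 0] cuspFunction 1 E₄ ^ 3 := by
    filter_upwards [Metric.ball_mem_nhds (0 : ℂ) one_pos] with q hq
    have hne : etaFun q ≠ 0 := etaFun_ne_zero (by simpa using hq)
    simp only [Pi.mul_apply, Pi.pow_apply, qjFun]
    field_simp
  have h2 := taylorPS_congr h1
  rw [taylorPS_mul hJ (analyticAt_etaFun_zero.pow 24), taylorPS_pow analyticAt_etaFun_zero,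
    taylorPS_etaFun, taylorPS_pow hE, ← qExpansion_eq_taylorPS, qExpansion_E4] at h2
  have h3 : PowerSeries.map (Int.castRingHom ℂ) ModularCurve.etaProd ^ 24 *
      PowerSeries.map (Int.castRingHom ℂ) ModularCurve.dedekindEtaUnitInv = 1 := by
    rw [← map_pow, ← map_mul]
    have := ModularCurve.dedekindEtaUnit_mul_inv
    rw [ModularCurve.dedekindEtaUnit] at this
    rw [this, map_one]
  calc taylorPS qjFun
      = taylorPS qjFun * (PowerSeries.map (Int.castRingHom ℂ) ModularCurve.etaProd ^ 24 *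
          PowerSeries.map (Int.castRingHom ℂ) ModularCurve.dedekindEtaUnitInv) := by
        rw [h3, mul_one]
    _ = PowerSeries.map (Int.castRingHom ℂ) ModularCurve.eisenstein4 ^ 3 *
          PowerSeries.map (Int.castRingHom ℂ) ModularCurve.dedekindEtaUnitInv := by
        rw [← mul_assoc, h2]
    _ = _ := by rw [ModularCurve.jNum, map_mul, map_pow]

theorem hasSum_qjFun {q : ℂ} (hq : ‖q‖ < 1) :
    HasSum (fun m : ℕ => ((PowerSeries.coeff m ModularCurve.jNum : ℤ) : ℂ) * q ^ m) (qjFun q) := by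
  have h := hasSum_taylorPS differentiableOn_qjFun (q := q) (by simpa using hq)
  simpa [taylorPS_qjFun, PowerSeries.coeff_map] using h

theorem qjFun_qParam (τ : ℍ) :
    qjFun (Periodic.qParam 1 τ) =
      Periodic.qParam 1 τ * (E₄ τ ^ 3 / ModularForm.discriminant τ) := by
  have h1 : cuspFunction 1 E₄ (Periodic.qParam 1 τ) = E₄ τ :=
    SlashInvariantFormClass.eq_cuspFunction E₄ τ one_mem_strictPeriods_SL one_ne_zero
  have hq : ‖Periodic.qParam 1 (τ : ℂ)‖ < 1 := Periodic.norm_qParam_lt_one one_pos τ.im_pos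
  have h2 : ModularForm.discriminant τ = Periodic.qParam 1 τ * etaFun (Periodic.qParam 1 τ) ^ 24 := by
    rw [discriminant_eq_q_prod, etaFun, ← (multipliable_one_sub_pow hq).tprod_pow 24]
  have hne : etaFun (Periodic.qParam 1 (τ : ℂ)) ≠ 0 := etaFun_ne_zero hq
  have hq0 : Periodic.qParam 1 (τ : ℂ) ≠ 0 := Periodic.qParam_ne_zero _
  rw [qjFun, h1, h2]
  field_simp

/-- **Analytic bridge**: `q · j(τ) = ∑_{m ≥ 0} c_{m-1} q^m` where `c_n` are the coefficients of
the Prelude's formal Laurent series `jq` (`jqModC ℂ`), `q = exp(2πiτ)`, `j = E₄³/Δ`. -/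
theorem hasSum_q_mul_j (τ : ℍ) :
    HasSum (fun m : ℕ => (ModularCurve.jqModC ℂ).coeff ((m : ℤ) - 1) * Periodic.qParam 1 τ ^ m)
      (Periodic.qParam 1 τ * (E₄ τ ^ 3 / ModularForm.discriminant τ)) := by
  have hq : ‖Periodic.qParam 1 (τ : ℂ)‖ < 1 := Periodic.norm_qParam_lt_one one_pos τ.im_pos
  have h := hasSum_qjFun hq
  rw [qjFun_qParam] at h
  simpa [coeff_jqModC] using h

end Fermat.Agent.S24.H69
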