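/-
S24 helper library (helper69): Laurent `q_h`-expansions of holomorphic `h`-periodic functions on
the upper half plane that are meromorphic at `i∞`, as an injective ring homomorphism into
`LaurentSeries ℂ`; value on `τ ↦ j(dτ)` = the Prelude's formal series `jqNModC ℂ d`.
-/
import Mathlib
import Fermat.Agent.S24.TaylorPS_helper69

set_option autoImplicit false

noncomputable section

namespace Fermat.Agent.S24.H69

open ModularForm Function Complex Filter Topology
open UpperHalfPlane hiding I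
open scoped Manifold Real

local notation "𝕢" => Periodic.qParam

/-! ### Periodicity helper -/

/-- A function on `ℍ` invariant under `z ↦ z + h` gives an `h`-periodic function on `ℂ`
after composing with `ofComplex`. -/
theorem periodic_comp_ofComplex_of_vadd {f : ℍ → ℂ} {h : ℝ}
    (hf : ∀ z : ℍ, f (h +ᵥ z) = f z) : Periodic (f ∘ ofComplex) (h : ℂ) := by
  intro w
  by_cases hw : 0 < im w
  · have hw' : 0 < im (w + h) := by simp [hw]
    simp only [comp_apply, ofComplex_apply_of_im_pos hw', ofComplex_apply_of_im_pos hw]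
    rw [← hf ⟨w, hw⟩]
    congr 1
    ext
    simp [add_comm]
  · have hw0 : im w ≤ 0 := not_lt.mp hw
    have hw' : im (w + h) ≤ 0 := by simpa using hw0
    simp [ofComplex_apply_of_im_nonpos hw', ofComplex_apply_of_im_nonpos hw0]

theorem vadd_of_periodic_comp_ofComplex {f : ℍ → ℂ} {h : ℝ}
    (hf : Periodic (f ∘ ofComplex) (h : ℂ)) (z : ℍ) : f (h +ᵥ z) = f z := by
  have h1 := hf (z : ℂ)
  simp only [comp_apply, ofComplex_apply] at h1
  rw [← h1]
  congr 1
  have h2 : 0 < im ((z : ℂ) + h) := by simpa using z.im_pos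
  rw [ofComplex_apply_of_im_pos h2]
  ext
  simp [add_comm]

/-- Uniqueness of `q`-expansion coefficients, for plain functions `ℍ → ℂ`. -/
theorem qExpansion_coeff_unique' {h : ℝ} {f : ℍ → ℂ} {c : ℕ → ℂ} (hh : 0 < h)
    (hfanalytic : AnalyticAt ℂ (cuspFunction h f) 0)
    (hf : ∀ τ : ℍ, HasSum (fun m ↦ c m • 𝕢 h τ ^ m) (f τ)) (m : ℕ) :
    c m = PowerSeries.coeff m (qExpansion h f) := by
  have h1 := (hasFPowerSeriesOnBall_cuspFunction hh hfanalytic hf).hasFPowerSeriesAt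
  have h2 := hfanalytic.hasFPowerSeriesAt
  have h3 := congr_arg (FormalMultilinearSeries.coeff · m) (h1.eq_formalMultilinearSeries h2)
  simp only [FormalMultilinearSeries.coeff_ofScalars] at h3
  rw [h3, qExpansion_coeff, div_eq_mul_inv, mul_comm]

/-! ### Nice functions: holomorphic, `h`-periodic, bounded at `i∞` -/

/-- Holomorphic on `ℍ`, `h`-periodic and bounded at `i∞`. -/
structure IsQNice (h : ℕ) (g : ℍ → ℂ) : Prop where
  mdiff : MDifferentiable 𝓘(ℂ) 𝓘(ℂ) g
  periodic : Periodic (g ∘ ofComplex) ((h : ℝ) : ℂ)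
  bdd : IsBoundedAtImInfty g

namespace IsQNice

variable {h : ℕ} {f g : ℍ → ℂ}

theorem analyticAt (hh : 0 < h) (hg : IsQNice h g) : AnalyticAt ℂ (cuspFunction h g) 0 :=
  analyticAt_cuspFunction_zero (by exact_mod_cast hh) hg.periodic hg.mdiff hg.bdd

theorem mul (hf : IsQNice h f) (hg : IsQNice h g) : IsQNice h (f * g) where
  mdiff := hf.mdiff.mul hg.mdiff
  periodic := hf.periodic.mul hg.periodic
  bdd := hf.bdd.mul hg.bdd

theorem add (hf : IsQNice h f) (hg : IsQNice h g) : IsQNice h (f + g) where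
  mdiff := hf.mdiff.add hg.mdiff
  periodic := hf.periodic.add hg.periodic
  bdd := hf.bdd.add hg.bdd

theorem const (h : ℕ) (c : ℂ) : IsQNice h (fun _ => c) where
  mdiff := mdifferentiable_const
  periodic := fun _ => rfl
  bdd := const_boundedAtFilter _ c

theorem hasSum (hh : 0 < h) (hg : IsQNice h g) (z : ℍ) :
    HasSum (fun m : ℕ => (PowerSeries.coeff m (qExpansion h g)) * 𝕢 h z ^ m) (g z) := by
  have := hasSum_qExpansion (h := (h : ℝ)) (by exact_mod_cast hh) hg.periodic hg.mdiff hg.bdd z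
  simpa [smul_eq_mul] using this

end IsQNice

theorem qParam_vadd {h : ℕ} (hh : 0 < h) (z : ℍ) :
    𝕢 h ((((h : ℝ) +ᵥ z : ℍ)) : ℂ) = 𝕢 h (z : ℂ) := by
  have : ((((h : ℝ) +ᵥ z : ℍ)) : ℂ) = (z : ℂ) + ((h : ℝ) : ℂ) := by simp [add_comm]
  rw [this]
  simp only [Periodic.qParam]
  have hh' : ((h : ℝ) : ℂ) ≠ 0 := by exact_mod_cast hh.ne'
  rw [show 2 * (π : ℂ) * Complex.I * ((z : ℂ) + ((h : ℝ) : ℂ)) / ((h : ℝ) : ℂ)
      = 2 * π * Complex.I * z / ((h : ℝ) : ℂ) + 2 * π * Complex.I by field_simp, Complex.exp_add,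
    Complex.exp_two_pi_mul_I, mul_one]

/-- The function `z ↦ q_h(z)^k` on the upper half plane. -/
def qpowFn (h k : ℕ) : ℍ → ℂ := fun z => 𝕢 h z ^ k

theorem qpowFn_apply (h k : ℕ) (z : ℍ) : qpowFn h k z = 𝕢 h z ^ k := rfl

theorem qpowFn_ne_zero (h k : ℕ) (z : ℍ) : qpowFn h k z ≠ 0 :=
  pow_ne_zero _ (Periodic.qParam_ne_zero _)

theorem qpowFn_add (h k l : ℕ) : qpowFn h (k + l) = qpowFn h k * qpowFn h l := by
  funext z
  simp [qpowFn, pow_add]

theorem qpowFn_zero (h : ℕ) : qpowFn h 0 = 1 := by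
  funext z
  simp [qpowFn]

theorem norm_qpowFn_le_one {h : ℕ} (hh : 0 < h) (k : ℕ) (z : ℍ) : ‖qpowFn h k z‖ ≤ 1 := by
  rw [qpowFn, norm_pow]
  exact pow_le_one₀ (norm_nonneg _)
    (Periodic.norm_qParam_lt_one (by exact_mod_cast hh) z.im_pos).le

theorem isQNice_qpowFn {h : ℕ} (hh : 0 < h) (k : ℕ) : IsQNice h (qpowFn h k) where
  mdiff := by
    rw [UpperHalfPlane.mdifferentiable_iff]
    have hd : DifferentiableOn ℂ (fun w : ℂ => 𝕢 h w ^ k) {z | 0 < z.im} :=
      ((Periodic.differentiable_qParam (h := (h : ℝ))).pow k).differentiableOn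
    refine hd.congr fun w hw => ?_
    simp [qpowFn, ofComplex_apply_of_im_pos hw]
  periodic := by
    apply periodic_comp_ofComplex_of_vadd
    intro z
    simp only [qpowFn]
    rw [qParam_vadd hh]
  bdd := by
    rw [isBoundedAtImInfty_iff]
    exact ⟨1, 0, fun z _ => norm_qpowFn_le_one hh k z⟩

theorem qExpansion_qpowFn {h : ℕ} (hh : 0 < h) (k : ℕ) :
    qExpansion h (qpowFn h k) = PowerSeries.X ^ k := by
  ext m
  have h1 := qExpansion_coeff_unique' (h := (h : ℝ)) (f := qpowFn h k)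
    (c := fun m => if m = k then 1 else 0) (by exact_mod_cast hh)
    ((isQNice_qpowFn hh k).analyticAt hh) (fun τ => by
      have := hasSum_single (f := fun m : ℕ => (if m = k then (1 : ℂ) else 0) • 𝕢 h τ ^ m) k
        (fun m hm => by simp [hm])
      simpa [qpowFn_apply] using this) m
  rw [← h1, PowerSeries.coeff_X_pow]

/-! ### Functions meromorphic at `i∞` and their Laurent `q_h`-expansion -/

/-- Holomorphic on `ℍ`, `h`-periodic and meromorphic at `i∞` (some `f · q_h^k` is bounded). -/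
structure IsQMero (h : ℕ) (f : ℍ → ℂ) : Prop where
  mdiff : MDifferentiable 𝓘(ℂ) 𝓘(ℂ) f
  periodic : Periodic (f ∘ ofComplex) ((h : ℝ) : ℂ)
  mero : ∃ k : ℕ, IsBoundedAtImInfty (f * qpowFn h k)

/-- The Laurent `q_h`-expansion of a function on `ℍ` (junk value `0` unless some `f · q_h^k`
is bounded at `i∞`). -/
def qL (h : ℕ) (f : ℍ → ℂ) : LaurentSeries ℂ :=
  open Classical in
  if hf : ∃ k : ℕ, IsBoundedAtImInfty (f * qpowFn h k) then
    HahnSeries.single (-(Nat.find hf : ℤ)) (1 : ℂ) *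
      HahnSeries.ofPowerSeries ℤ ℂ (qExpansion h (f * qpowFn h (Nat.find hf)))
  else 0

namespace IsQMero

variable {h : ℕ} {f g : ℍ → ℂ}

theorem nice (hf : IsQMero h f) (hh : 0 < h) {k : ℕ} (hk : IsBoundedAtImInfty (f * qpowFn h k)) :
    IsQNice h (f * qpowFn h k) where
  mdiff := hf.mdiff.mul (isQNice_qpowFn hh k).mdiff
  periodic := hf.periodic.mul (isQNice_qpowFn hh k).periodic
  bdd := hk

theorem bdd_add (hh : 0 < h) {k : ℕ} (hk : IsBoundedAtImInfty (f * qpowFn h k)) (l : ℕ) :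
    IsBoundedAtImInfty (f * qpowFn h (k + l)) := by
  rw [qpowFn_add, ← mul_assoc]
  exact hk.mul (isQNice_qpowFn hh l).bdd

theorem of_nice (hf : IsQNice h f) : IsQMero h f where
  mdiff := hf.mdiff
  periodic := hf.periodic
  mero := ⟨0, by simpa [qpowFn_zero] using hf.bdd⟩

end IsQMero

theorem single_neg_mul_single (k : ℕ) :
    HahnSeries.single (-(k : ℤ)) (1 : ℂ) * HahnSeries.single (k : ℤ) (1 : ℂ) = 1 := by
  rw [HahnSeries.single_mul_single]
  simp

/-- The defining formula for `qL`, valid for every admissible exponent `k`. -/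
theorem qL_eq {h : ℕ} (hh : 0 < h) {f : ℍ → ℂ} (hf : IsQMero h f) {k : ℕ}
    (hk : IsBoundedAtImInfty (f * qpowFn h k)) :
    qL h f = HahnSeries.single (-(k : ℤ)) (1 : ℂ) *
      HahnSeries.ofPowerSeries ℤ ℂ (qExpansion h (f * qpowFn h k)) := by
  classical
  have hex : ∃ k : ℕ, IsBoundedAtImInfty (f * qpowFn h k) := ⟨k, hk⟩
  rw [qL, dif_pos hex]
  set k₀ := Nat.find hex with hk₀
  have hk₀b : IsBoundedAtImInfty (f * qpowFn h k₀) := Nat.find_spec hex
  obtain ⟨l, rfl⟩ : ∃ l, k = k₀ + l := Nat.exists_eq_add_of_le (Nat.find_min' hex hk)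
  have h1 : f * qpowFn h (k₀ + l) = (f * qpowFn h k₀) * qpowFn h l := by
    rw [qpowFn_add, mul_assoc]
  rw [h1, qExpansion_mul ((hf.nice hh hk₀b).analyticAt hh) ((isQNice_qpowFn hh l).analyticAt hh),
    qExpansion_qpowFn hh, map_mul, HahnSeries.ofPowerSeries_X_pow]
  have h2 : HahnSeries.single (-((k₀ + l : ℕ) : ℤ)) (1 : ℂ) * HahnSeries.single (l : ℤ) (1 : ℂ)
      = HahnSeries.single (-(k₀ : ℤ)) (1 : ℂ) := by
    have e : (-((k₀ + l : ℕ) : ℤ) + (l : ℤ)) = -(k₀ : ℤ) := by omega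
    rw [HahnSeries.single_mul_single, e, mul_one]
  rw [← h2]
  ring

theorem qL_of_nice {h : ℕ} (hh : 0 < h) {f : ℍ → ℂ} (hf : IsQNice h f) :
    qL h f = HahnSeries.ofPowerSeries ℤ ℂ (qExpansion h f) := by
  have h0 : IsBoundedAtImInfty (f * qpowFn h 0) := by simpa [qpowFn_zero] using hf.bdd
  rw [qL_eq hh (IsQMero.of_nice hf) h0]
  simp [qpowFn_zero]

theorem IsQMero.mul {h : ℕ} {f g : ℍ → ℂ} (hf : IsQMero h f) (hg : IsQMero h g) :
    IsQMero h (f * g) where
  mdiff := hf.mdiff.mul hg.mdiff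
  periodic := hf.periodic.mul hg.periodic
  mero := by
    obtain ⟨k, hk⟩ := hf.mero
    obtain ⟨l, hl⟩ := hg.mero
    refine ⟨k + l, ?_⟩
    have : f * g * qpowFn h (k + l) = (f * qpowFn h k) * (g * qpowFn h l) := by
      rw [qpowFn_add]; ring
    rw [this]
    exact hk.mul hl

theorem IsQMero.add {h : ℕ} (hh : 0 < h) {f g : ℍ → ℂ} (hf : IsQMero h f) (hg : IsQMero h g) :
    IsQMero h (f + g) where
  mdiff := hf.mdiff.add hg.mdiff
  periodic := hf.periodic.add hg.periodic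
  mero := by
    obtain ⟨k, hk⟩ := hf.mero
    obtain ⟨l, hl⟩ := hg.mero
    refine ⟨k + l, ?_⟩
    have h1 := IsQMero.bdd_add hh hk l
    have h2 := IsQMero.bdd_add hh hl k
    rw [add_comm l k] at h2
    rw [add_mul]
    exact h1.add h2

theorem IsQMero.const (h : ℕ) (c : ℂ) : IsQMero h (fun _ => c) :=
  IsQMero.of_nice (IsQNice.const h c)

theorem IsQMero.neg {h : ℕ} {f : ℍ → ℂ} (hf : IsQMero h f) : IsQMero h (-f) := by
  have := (IsQMero.const h (-1)).mul hf
  convert this using 1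
  funext z
  simp

theorem qL_mul {h : ℕ} (hh : 0 < h) {f g : ℍ → ℂ} (hf : IsQMero h f) (hg : IsQMero h g) :
    qL h (f * g) = qL h f * qL h g := by
  obtain ⟨k, hk⟩ := hf.mero
  obtain ⟨l, hl⟩ := hg.mero
  have e : f * g * qpowFn h (k + l) = (f * qpowFn h k) * (g * qpowFn h l) := by
    rw [qpowFn_add]; ring
  have hkl : IsBoundedAtImInfty (f * g * qpowFn h (k + l)) := by
    rw [e]; exact hk.mul hl
  rw [qL_eq hh (hf.mul hg) hkl, qL_eq hh hf hk, qL_eq hh hg hl, e,
    qExpansion_mul ((hf.nice hh hk).analyticAt hh) ((hg.nice hh hl).analyticAt hh), map_mul]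
  have h2 : HahnSeries.single (-((k + l : ℕ) : ℤ)) (1 : ℂ)
      = HahnSeries.single (-(k : ℤ)) (1 : ℂ) * HahnSeries.single (-(l : ℤ)) (1 : ℂ) := by
    have e : (-(k : ℤ) + -(l : ℤ)) = -((k + l : ℕ) : ℤ) := by omega
    rw [HahnSeries.single_mul_single, e, mul_one]
  rw [h2]
  ring

theorem qL_add {h : ℕ} (hh : 0 < h) {f g : ℍ → ℂ} (hf : IsQMero h f) (hg : IsQMero h g) :
    qL h (f + g) = qL h f + qL h g := by
  obtain ⟨k, hk⟩ := hf.mero
  obtain ⟨l, hl⟩ := hg.mero
  have h1 := IsQMero.bdd_add hh hk l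
  have h2 := IsQMero.bdd_add hh hl k
  rw [add_comm l k] at h2
  have h3 : IsBoundedAtImInfty ((f + g) * qpowFn h (k + l)) := by
    rw [add_mul]; exact h1.add h2
  rw [qL_eq hh (hf.add hh hg) h3, qL_eq hh hf h1, qL_eq hh hg h2, add_mul,
    qExpansion_add ((hf.nice hh h1).analyticAt hh) ((hg.nice hh h2).analyticAt hh), map_add, mul_add]

theorem qExpansion_const {h : ℕ} (hh : 0 < h) (c : ℂ) :
    qExpansion h (fun _ : ℍ => c) = PowerSeries.C c := by
  have h1 : (fun _ : ℍ => c) = c • (1 : ℍ → ℂ) := by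
    funext z; simp
  have h2 : AnalyticAt ℂ (cuspFunction h (1 : ℍ → ℂ)) 0 := (IsQNice.const h (1 : ℂ)).analyticAt hh
  rw [h1, qExpansion_smul h2, qExpansion_one, PowerSeries.smul_eq_C_mul, mul_one]

theorem qL_const {h : ℕ} (hh : 0 < h) (c : ℂ) :
    qL h (fun _ : ℍ => c) = HahnSeries.C c := by
  rw [qL_of_nice hh (IsQNice.const h c), qExpansion_const hh, HahnSeries.ofPowerSeries_C]

theorem qL_one {h : ℕ} (hh : 0 < h) : qL h (1 : ℍ → ℂ) = 1 := by
  show qL h (fun _ : ℍ => (1 : ℂ)) = 1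
  rw [qL_const hh, map_one]

theorem qL_zero {h : ℕ} (hh : 0 < h) : qL h (0 : ℍ → ℂ) = 0 := by
  show qL h (fun _ : ℍ => (0 : ℂ)) = 0
  rw [qL_const hh, map_zero]

theorem qL_neg {h : ℕ} (hh : 0 < h) {f : ℍ → ℂ} (hf : IsQMero h f) : qL h (-f) = -qL h f := by
  have h1 : -f = (fun _ : ℍ => (-1 : ℂ)) * f := by
    funext z; simp
  rw [h1, qL_mul hh (IsQMero.const h (-1)) hf, qL_const hh, map_neg, map_one]
  ring

/-- Injectivity of the Laurent expansion. -/
theorem qL_eq_zero_iff {h : ℕ} (hh : 0 < h) {f : ℍ → ℂ} (hf : IsQMero h f) :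
    qL h f = 0 ↔ f = 0 := by
  constructor
  · intro h0
    obtain ⟨k, hk⟩ := hf.mero
    rw [qL_eq hh hf hk] at h0
    have h1 : HahnSeries.ofPowerSeries ℤ ℂ (qExpansion h (f * qpowFn h k)) = 0 := by
      have := congrArg (fun x => HahnSeries.single (k : ℤ) (1 : ℂ) * x) h0
      simp only [mul_zero, ← mul_assoc] at this
      rwa [mul_comm (HahnSeries.single (k : ℤ) (1 : ℂ)), single_neg_mul_single, one_mul] at this
    have h2 : qExpansion h (f * qpowFn h k) = 0 :=
      HahnSeries.ofPowerSeries_injective (by rw [h1, map_zero])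
    have hn := hf.nice hh hk
    have h3 : f * qpowFn h k = 0 :=
      (qExpansion_eq_zero_iff (h := (h : ℝ)) (by exact_mod_cast hh) hn.periodic hn.mdiff hn.bdd).mp h2
    funext z
    have h4 := congrFun h3 z
    simp only [Pi.mul_apply, Pi.zero_apply, mul_eq_zero] at h4
    exact h4.resolve_right (qpowFn_ne_zero h k z)
  · rintro rfl
    exact qL_zero hh

theorem qL_injOn {h : ℕ} (hh : 0 < h) {f g : ℍ → ℂ} (hf : IsQMero h f) (hg : IsQMero h g)
    (hfg : qL h f = qL h g) : f = g := by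
  have h1 : qL h (f + -g) = 0 := by
    rw [qL_add hh hf hg.neg, qL_neg hh hg, hfg, add_neg_cancel]
  have h2 := (qL_eq_zero_iff hh (hf.add hh hg.neg)).mp h1
  funext z
  have := congrFun h2 z
  simp only [Pi.add_apply, Pi.neg_apply, Pi.zero_apply] at this
  exact add_neg_eq_zero.mp this

theorem algebraMap_laurentSeries_eq_C (c : ℂ) :
    algebraMap ℂ (LaurentSeries ℂ) c = HahnSeries.C c := by
  have h1 : algebraMap ℂ (PowerSeries ℂ) c = PowerSeries.C c := by simp
  rw [HahnSeries.algebraMap_apply', h1, HahnSeries.ofPowerSeries_C]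

/-- The subalgebra of holomorphic `h`-periodic functions meromorphic at `i∞`. -/
def qMero (h : ℕ) [NeZero h] : Subalgebra ℂ (ℍ → ℂ) where
  carrier := {f | IsQMero h f}
  mul_mem' hf hg := hf.mul hg
  add_mem' hf hg := hf.add (Nat.pos_of_ne_zero (NeZero.ne h)) hg
  algebraMap_mem' c := IsQMero.const h c

theorem mem_qMero {h : ℕ} [NeZero h] {f : ℍ → ℂ} : f ∈ qMero h ↔ IsQMero h f := Iff.rfl

/-- The Laurent `q_h`-expansion as a `ℂ`-algebra homomorphism. -/
def qLHom (h : ℕ) [NeZero h] : qMero h →ₐ[ℂ] LaurentSeries ℂ where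
  toFun f := qL h f.1
  map_one' := qL_one (Nat.pos_of_ne_zero (NeZero.ne h))
  map_mul' f g := qL_mul (Nat.pos_of_ne_zero (NeZero.ne h)) f.2 g.2
  map_zero' := qL_zero (Nat.pos_of_ne_zero (NeZero.ne h))
  map_add' f g := qL_add (Nat.pos_of_ne_zero (NeZero.ne h)) f.2 g.2
  commutes' c := by
    show qL h (fun _ : ℍ => c) = _
    rw [qL_const (Nat.pos_of_ne_zero (NeZero.ne h)), algebraMap_laurentSeries_eq_C]

@[simp]
theorem qLHom_apply (h : ℕ) [NeZero h] (f : qMero h) : qLHom h f = qL h f.1 := rfl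

theorem qLHom_injective (h : ℕ) [NeZero h] : Function.Injective (qLHom h) := by
  intro f g hfg
  exact Subtype.ext (qL_injOn (Nat.pos_of_ne_zero (NeZero.ne h)) f.2 g.2 hfg)

/-! ### Convergent expansions determine `qL` -/

theorem coeff_single_neg_mul_ofPowerSeries (k : ℕ) (E : PowerSeries ℂ) (n : ℕ) :
    (HahnSeries.single (-(k : ℤ)) (1 : ℂ) * HahnSeries.ofPowerSeries ℤ ℂ E).coeff ((n : ℤ) - k)
      = PowerSeries.coeff n E := by
  rw [HahnSeries.coeff_single_mul, one_mul, sub_neg_eq_add, sub_add_cancel,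
    HahnSeries.ofPowerSeries_apply_coeff]

theorem hasSum_qL {h : ℕ} (hh : 0 < h) {f : ℍ → ℂ} (hf : IsQMero h f) {k : ℕ}
    (hk : IsBoundedAtImInfty (f * qpowFn h k)) (z : ℍ) :
    HasSum (fun n : ℕ => (qL h f).coeff ((n : ℤ) - k) * 𝕢 h z ^ n) (f z * 𝕢 h z ^ k) := by
  have h1 := (hf.nice hh hk).hasSum hh z
  simp_rw [qL_eq hh hf hk, coeff_single_neg_mul_ofPowerSeries]
  exact h1

theorem qL_eq_of_hasSum {h : ℕ} (hh : 0 < h) {f : ℍ → ℂ} (hf : IsQMero h f) (k : ℕ)
    (c : ℕ → ℂ) (hs : ∀ z : ℍ, HasSum (fun n : ℕ => c n * 𝕢 h z ^ n) (f z * 𝕢 h z ^ k)) :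
    qL h f = HahnSeries.single (-(k : ℤ)) (1 : ℂ) *
      HahnSeries.ofPowerSeries ℤ ℂ (PowerSeries.mk c) := by
  have hs' : ∀ τ : ℍ, HasSum (fun m => c m • 𝕢 h τ ^ m) ((f * qpowFn h k) τ) := fun τ => by
    simpa [smul_eq_mul, qpowFn_apply] using hs τ
  have hb : IsBoundedAtImInfty (f * qpowFn h k) :=
    isBoundedAtImInfty_of_hasSum_qExpansion (h := (h : ℝ)) (by exact_mod_cast hh) hs'
  rw [qL_eq hh hf hb]
  congr 2
  ext m
  rw [PowerSeries.coeff_mk]
  exact (qExpansion_coeff_unique' (by exact_mod_cast hh) ((hf.nice hh hb).analyticAt hh) hs' m).symm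

/-! ### Functions of `q` -/

theorem qParam_mem_ball {h : ℕ} (hh : 0 < h) (z : ℍ) : 𝕢 h (z : ℂ) ∈ Metric.ball (0 : ℂ) 1 := by
  simpa using Periodic.norm_qParam_lt_one (h := (h : ℝ)) (by exact_mod_cast hh) z.im_pos

/-- A function of `q_h` that is differentiable on the unit disc is nice. -/
theorem isQNice_comp_qParam {h : ℕ} (hh : 0 < h) {G : ℂ → ℂ}
    (hG : DifferentiableOn ℂ G (Metric.ball 0 1)) : IsQNice h (fun z : ℍ => G (𝕢 h z)) where
  mdiff := by
    rw [UpperHalfPlane.mdifferentiable_iff]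
    have hd : DifferentiableOn ℂ (fun w : ℂ => G (𝕢 h w)) {z | 0 < z.im} := by
      intro w hw
      have hw' : 𝕢 h w ∈ Metric.ball (0 : ℂ) 1 := by
        simpa using Periodic.norm_qParam_lt_one (h := (h : ℝ)) (by exact_mod_cast hh) hw
      exact ((hG.differentiableAt (Metric.isOpen_ball.mem_nhds hw')).comp w
        (Periodic.differentiable_qParam w)).differentiableWithinAt
    refine hd.congr fun w hw => ?_
    simp [ofComplex_apply_of_im_pos hw]
  periodic := by
    apply periodic_comp_ofComplex_of_vadd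
    intro z
    rw [qParam_vadd hh]
  bdd := isBoundedAtImInfty_of_hasSum_qExpansion (h := (h : ℝ))
    (c := fun m => PowerSeries.coeff m (taylorPS G)) (by exact_mod_cast hh) fun τ => by
      simpa [smul_eq_mul] using hasSum_taylorPS hG (qParam_mem_ball hh τ)

theorem qExpansion_comp_qParam {h : ℕ} (hh : 0 < h) {G : ℂ → ℂ}
    (hG : DifferentiableOn ℂ G (Metric.ball 0 1)) :
    qExpansion h (fun z : ℍ => G (𝕢 h z)) = taylorPS G := by
  ext m
  exact (qExpansion_coeff_unique' (h := (h : ℝ)) (by exact_mod_cast hh)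
    ((isQNice_comp_qParam hh hG).analyticAt hh) (fun τ => by
      simpa [smul_eq_mul] using hasSum_taylorPS hG (qParam_mem_ball hh τ)) m).symm

/-- The function `z ↦ (q_h(z)^k)⁻¹` on the upper half plane. -/
def qinvFn (h k : ℕ) : ℍ → ℂ := fun z => (𝕢 h z ^ k)⁻¹

theorem qinvFn_mul_qpowFn (h k : ℕ) : qinvFn h k * qpowFn h k = 1 := by
  funext z
  simp [qinvFn, qpowFn, Periodic.qParam_ne_zero]

theorem mdifferentiable_qinvFn (h k : ℕ) : MDifferentiable 𝓘(ℂ) 𝓘(ℂ) (qinvFn h k) := by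
  rw [UpperHalfPlane.mdifferentiable_iff]
  have hd : DifferentiableOn ℂ (fun w : ℂ => (𝕢 h w ^ k)⁻¹) {z | 0 < z.im} := by
    intro w _
    exact ((Periodic.differentiable_qParam (h := (h : ℝ)) w).pow k).inv
      (pow_ne_zero _ (Periodic.qParam_ne_zero _)) |>.differentiableWithinAt
  refine hd.congr fun w hw => ?_
  simp [qinvFn, ofComplex_apply_of_im_pos hw]

theorem periodic_qinvFn {h : ℕ} (hh : 0 < h) (k : ℕ) :
    Periodic (qinvFn h k ∘ ofComplex) ((h : ℝ) : ℂ) := by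
  apply periodic_comp_ofComplex_of_vadd
  intro z
  simp only [qinvFn]
  rw [qParam_vadd hh]

/-- If `f · q_h^k = G(q_h)` with `G` differentiable on the unit disc, then `f` is meromorphic at
`i∞` and its Laurent expansion is `q^(-k)` times the Taylor series of `G`. -/
theorem isQMero_of_mul_qpow_eq {h : ℕ} (hh : 0 < h) {f : ℍ → ℂ} {k : ℕ} {G : ℂ → ℂ}
    (hG : DifferentiableOn ℂ G (Metric.ball 0 1))
    (hfG : ∀ z : ℍ, f z * 𝕢 h z ^ k = G (𝕢 h z)) : IsQMero h f := by
  have hn := isQNice_comp_qParam hh hG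
  have hf : f = (fun z : ℍ => G (𝕢 h z)) * qinvFn h k := by
    funext z
    simp only [Pi.mul_apply, qinvFn, ← hfG z]
    field_simp [Periodic.qParam_ne_zero]
  refine ⟨?_, ?_, ⟨k, ?_⟩⟩
  · rw [hf]; exact hn.mdiff.mul (mdifferentiable_qinvFn h k)
  · rw [hf]; exact hn.periodic.mul (periodic_qinvFn hh k)
  · have : f * qpowFn h k = fun z : ℍ => G (𝕢 h z) := by
      funext z
      simpa [qpowFn_apply] using hfG z
    rw [this]; exact hn.bdd

theorem qL_of_mul_qpow_eq {h : ℕ} (hh : 0 < h) {f : ℍ → ℂ} {k : ℕ} {G : ℂ → ℂ}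
    (hG : DifferentiableOn ℂ G (Metric.ball 0 1))
    (hfG : ∀ z : ℍ, f z * 𝕢 h z ^ k = G (𝕢 h z)) :
    qL h f = HahnSeries.single (-(k : ℤ)) (1 : ℂ) * HahnSeries.ofPowerSeries ℤ ℂ (taylorPS G) := by
  have hn := isQNice_comp_qParam hh hG
  have hfk : f * qpowFn h k = fun z : ℍ => G (𝕢 h z) := by
    funext z
    simpa [qpowFn_apply] using hfG z
  have hb : IsBoundedAtImInfty (f * qpowFn h k) := by rw [hfk]; exact hn.bdd
  rw [qL_eq hh (isQMero_of_mul_qpow_eq hh hG hfG) hb, hfk, qExpansion_comp_qParam hh hG]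

/-! ### The functions `z ↦ j(d z)` -/

/-- Coefficients of the Prelude's `jNum`, spread out by `d`. -/
def jSpread (d : ℕ) (n : ℕ) : ℂ :=
  if d ∣ n then ((PowerSeries.coeff (n / d) ModularCurve.jNum : ℤ) : ℂ) else 0

theorem hasSum_jSpread {d : ℕ} (hd : 0 < d) {q : ℂ} (hq : ‖q‖ < 1) :
    HasSum (fun n : ℕ => jSpread d n * q ^ n) (qjFun (q ^ d)) := by
  have hqd : ‖q ^ d‖ < 1 := by
    rw [norm_pow]
    exact pow_lt_one₀ (norm_nonneg q) hq hd.ne'
  have h1 := hasSum_qjFun hqd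
  have hinj : Function.Injective (fun m : ℕ => d * m) :=
    fun a b hab => Nat.eq_of_mul_eq_mul_left hd hab
  refine (hinj.hasSum_iff ?_).mp ?_
  · intro n hn
    have : ¬ d ∣ n := fun ⟨m, hm⟩ => hn ⟨m, hm.symm⟩
    simp [jSpread, this]
  · convert h1 using 1
    funext m
    simp [jSpread, Nat.mul_div_cancel_left m hd, pow_mul]

theorem differentiableOn_qjFun_pow {d : ℕ} (hd : 0 < d) :
    DifferentiableOn ℂ (fun q : ℂ => qjFun (q ^ d)) (Metric.ball 0 1) := by
  intro q hq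
  have hq' : ‖q‖ < 1 := by simpa using hq
  have hqd : q ^ d ∈ Metric.ball (0 : ℂ) 1 := by
    simp only [Metric.mem_ball, dist_zero_right, norm_pow]
    exact pow_lt_one₀ (norm_nonneg q) hq' hd.ne'
  exact ((differentiableOn_qjFun.differentiableAt (Metric.isOpen_ball.mem_nhds hqd)).comp q
    (differentiableAt_pow (n := d) (x := q))).differentiableWithinAt

theorem taylorPS_qjFun_pow {d : ℕ} (hd : 0 < d) :
    taylorPS (fun q : ℂ => qjFun (q ^ d)) = PowerSeries.mk (jSpread d) := by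
  ext m
  rw [PowerSeries.coeff_mk, ← qExpansion_comp_qParam (h := 1) one_pos (differentiableOn_qjFun_pow hd)]
  exact (qExpansion_coeff_unique' (h := ((1 : ℕ) : ℝ)) (by norm_num)
    ((isQNice_comp_qParam one_pos (differentiableOn_qjFun_pow hd)).analyticAt one_pos) (fun τ => by
      have hq : ‖𝕢 (1 : ℕ) (τ : ℂ)‖ < 1 := by simpa using qParam_mem_ball (h := 1) one_pos τ
      simpa [smul_eq_mul] using hasSum_jSpread hd hq) m).symm

theorem jd_mul_qpow {d : ℕ} (hd : 0 < d) (z : ℍ) :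
    (E₄ (ofComplex ((d : ℂ) * (z : ℂ))) ^ 3 /
        ModularForm.discriminant (ofComplex ((d : ℂ) * (z : ℂ)))) * 𝕢 (1 : ℕ) z ^ d
      = qjFun (𝕢 (1 : ℕ) z ^ d) := by
  have him : 0 < ((d : ℂ) * (z : ℂ)).im := by
    have : ((d : ℂ) * (z : ℂ)).im = d * (z : ℂ).im := by simp
    rw [this]
    exact mul_pos (by exact_mod_cast hd) z.im_pos
  set τ : ℍ := ⟨(d : ℂ) * z, him⟩ with hτdef
  have hτ : ofComplex ((d : ℂ) * (z : ℂ)) = τ := ofComplex_apply_of_im_pos him
  have hq : 𝕢 (1 : ℝ) (τ : ℂ) = 𝕢 (1 : ℕ) (z : ℂ) ^ d := by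
    simp only [Periodic.qParam, hτdef, Nat.cast_one, ofReal_one, div_one]
    rw [← Complex.exp_nat_mul]
    congr 1
    show 2 * (π : ℂ) * Complex.I * ((d : ℂ) * (z : ℂ)) = _
    ring
  rw [hτ, ← hq, qjFun_qParam]
  ring

theorem isQMero_jd {d : ℕ} (hd : 0 < d) :
    IsQMero 1 (fun z : ℍ => E₄ (ofComplex ((d : ℂ) * (z : ℂ))) ^ 3 /
      ModularForm.discriminant (ofComplex ((d : ℂ) * (z : ℂ)))) :=
  isQMero_of_mul_qpow_eq (k := d) one_pos (differentiableOn_qjFun_pow hd) (fun z => jd_mul_qpow hd z)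

theorem coeff_jqModC_of_lt {k : ℤ} (hk : k < -1) : (ModularCurve.jqModC ℂ).coeff k = 0 := by
  rw [ModularCurve.jqModC, HahnSeries.coeff_single_mul, one_mul]
  exact ModularCurve.ofPowerSeries_coeff_of_neg _ (by omega)

theorem single_mul_jSpread_eq (d : ℕ) [NeZero d] :
    HahnSeries.single (-(d : ℤ)) (1 : ℂ) *
        HahnSeries.ofPowerSeries ℤ ℂ (PowerSeries.mk (jSpread d))
      = ModularCurve.jqNModC ℂ d := by
  have hd : 0 < d := Nat.pos_of_ne_zero (NeZero.ne d)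
  ext n
  rw [HahnSeries.coeff_single_mul, one_mul, sub_neg_eq_add, ModularCurve.jqNModC]
  by_cases hdn : (d : ℤ) ∣ n
  · obtain ⟨k, rfl⟩ := hdn
    rw [ModularCurve.qExpand_coeff_mul]
    rcases lt_or_ge (k + 1) 0 with hk | hk
    · rw [coeff_jqModC_of_lt (by omega)]
      apply ModularCurve.ofPowerSeries_coeff_of_neg
      have : (d : ℤ) * k + d = d * (k + 1) := by ring
      rw [this]
      exact mul_neg_of_pos_of_neg (by exact_mod_cast hd) hk
    · obtain ⟨m, hm⟩ := Int.eq_ofNat_of_zero_le hk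
      have e1 : (d : ℤ) * k + d = ((d * m : ℕ) : ℤ) := by
        push_cast; rw [← hm]; ring
      have e2 : k = (m : ℤ) - 1 := by omega
      rw [e1, HahnSeries.ofPowerSeries_apply_coeff, PowerSeries.coeff_mk, e2, coeff_jqModC]
      simp [jSpread, Nat.mul_div_cancel_left m hd]
  · rw [ModularCurve.qExpand_coeff_of_not_dvd d _ hdn]
    rcases lt_or_ge (n + (d : ℤ)) 0 with hk | hk
    · exact ModularCurve.ofPowerSeries_coeff_of_neg _ hk
    · obtain ⟨m, hm⟩ := Int.eq_ofNat_of_zero_le hk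
      rw [hm, HahnSeries.ofPowerSeries_apply_coeff, PowerSeries.coeff_mk]
      have : ¬ d ∣ m := by
        intro hdm
        apply hdn
        have h1 : (d : ℤ) ∣ (m : ℤ) := by exact_mod_cast hdm
        rw [← hm] at h1
        exact (Int.dvd_add_left (dvd_refl _)).mp h1
      simp [jSpread, this]

/-- **Main bridge theorem**: the Laurent `q`-expansion of `z ↦ j(d z)` (`j = E₄³/Δ`) is the
Prelude's formal series `jqNModC ℂ d = qExpand ℂ d (jqModC ℂ)`. -/
theorem qL_jd (d : ℕ) [NeZero d] :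
    qL 1 (fun z : ℍ => E₄ (ofComplex ((d : ℂ) * (z : ℂ))) ^ 3 /
      ModularForm.discriminant (ofComplex ((d : ℂ) * (z : ℂ)))) = ModularCurve.jqNModC ℂ d := by
  have hd : 0 < d := Nat.pos_of_ne_zero (NeZero.ne d)
  rw [qL_of_mul_qpow_eq (k := d) one_pos (differentiableOn_qjFun_pow hd)
    (fun z => jd_mul_qpow hd z), taylorPS_qjFun_pow hd, single_mul_jSpread_eq]

end Fermat.Agent.S24.H69
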