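import Mathlib
import Fermat.Agent.S24.Defs_helper31
import Fermat.Agent.S24.QLaurent_helper69

/-!
# S24: the `q_N`-expansion homomorphism on `RN N`

* `qL_mul_period`: change of period, `qL (h * m) f = qExpand ℂ m (qL h f)`.
* `isQMero_of_meroAtInfty`: converter from the `MeroAtInfty` shape of `Defs_helper31`.
* `ExRN N : RN N →ₐ[ℂ] LaurentSeries ℂ`: the injective `q_N`-expansion homomorphism.
* `ExRN_jd`: `ExRN N (j (d ·)) = qExpand ℂ N (jqNModC ℂ d)`.
-/

set_option autoImplicit false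

open Filter Topology UpperHalfPlane CongruenceSubgroup ModularForm Function
open scoped MatrixGroups ModularForm Manifold Real

noncomputable section

namespace Fermat.Agent.S24.H69

local notation "𝕢" => Periodic.qParam

/-! ### Change of period -/

theorem qParam_mul_period_pow {h m : ℕ} (hh : 0 < h) (hm : 0 < m) (z : ℂ) :
    𝕢 ((h * m : ℕ) : ℝ) z ^ m = 𝕢 (h : ℝ) z := by
  simp only [Periodic.qParam]
  rw [← Complex.exp_nat_mul]
  congr 1
  have h1 : (h : ℂ) ≠ 0 := by exact_mod_cast hh.ne'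
  have h2 : (m : ℂ) ≠ 0 := by exact_mod_cast hm.ne'
  push_cast
  field_simp

theorem qpowFn_mul_period {h m : ℕ} (hh : 0 < h) (hm : 0 < m) (k : ℕ) :
    qpowFn (h * m) (m * k) = qpowFn h k := by
  funext z
  simp only [qpowFn_apply]
  rw [pow_mul, qParam_mul_period_pow hh hm]

theorem IsQMero.mul_period {h : ℕ} (hh : 0 < h) {f : ℍ → ℂ} (hf : IsQMero h f) {m : ℕ}
    (hm : 0 < m) : IsQMero (h * m) f where
  mdiff := hf.mdiff
  periodic := by
    have h1 := hf.periodic.nat_mul m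
    have e : (((h * m : ℕ) : ℝ) : ℂ) = (m : ℂ) * ((h : ℝ) : ℂ) := by push_cast; ring
    rw [e]
    exact h1
  mero := by
    obtain ⟨k, hk⟩ := hf.mero
    exact ⟨m * k, by rw [qpowFn_mul_period hh hm]; exact hk⟩

/-- Spreading out a Laurent series by `m`, in the `single * ofPowerSeries` shape. -/
theorem single_mul_spread_eq (m k : ℕ) [NeZero m] (F : LaurentSeries ℂ)
    (hF : ∀ j : ℤ, j < -(k : ℤ) → F.coeff j = 0) :
    HahnSeries.single (-((m * k : ℕ) : ℤ)) (1 : ℂ) *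
        HahnSeries.ofPowerSeries ℤ ℂ
          (PowerSeries.mk fun i : ℕ => if m ∣ i then F.coeff (((i / m : ℕ) : ℤ) - k) else 0)
      = ModularCurve.qExpand ℂ m F := by
  have hm : 0 < m := Nat.pos_of_ne_zero (NeZero.ne m)
  ext n
  rw [HahnSeries.coeff_single_mul, one_mul, sub_neg_eq_add]
  by_cases hdn : (m : ℤ) ∣ n
  · obtain ⟨j, rfl⟩ := hdn
    rw [ModularCurve.qExpand_coeff_mul]
    rcases lt_or_ge (j + k) 0 with hk | hk
    · rw [hF j (by omega)]
      apply ModularCurve.ofPowerSeries_coeff_of_neg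
      have : (m : ℤ) * j + ((m * k : ℕ) : ℤ) = m * (j + k) := by push_cast; ring
      rw [this]
      exact mul_neg_of_pos_of_neg (by exact_mod_cast hm) hk
    · obtain ⟨i, hi⟩ := Int.eq_ofNat_of_zero_le hk
      have e1 : (m : ℤ) * j + ((m * k : ℕ) : ℤ) = ((m * i : ℕ) : ℤ) := by
        push_cast; rw [← hi]; ring
      rw [e1, HahnSeries.ofPowerSeries_apply_coeff, PowerSeries.coeff_mk,
        if_pos (dvd_mul_right m i), Nat.mul_div_cancel_left i hm]
      congr 1
      omega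
  · rw [ModularCurve.qExpand_coeff_of_not_dvd m _ hdn]
    rcases lt_or_ge (n + ((m * k : ℕ) : ℤ)) 0 with hk | hk
    · exact ModularCurve.ofPowerSeries_coeff_of_neg _ hk
    · obtain ⟨i, hi⟩ := Int.eq_ofNat_of_zero_le hk
      rw [hi, HahnSeries.ofPowerSeries_apply_coeff, PowerSeries.coeff_mk]
      have : ¬ m ∣ i := by
        intro hdm
        apply hdn
        have h1 : (m : ℤ) ∣ (i : ℤ) := by exact_mod_cast hdm
        rw [← hi] at h1
        have h2 : (m : ℤ) ∣ ((m * k : ℕ) : ℤ) := by push_cast; exact dvd_mul_right _ _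
        exact (Int.dvd_add_left h2).mp h1
      rw [if_neg this]

theorem qL_coeff_of_lt {h : ℕ} (hh : 0 < h) {f : ℍ → ℂ} (hf : IsQMero h f) {k : ℕ}
    (hk : IsBoundedAtImInfty (f * qpowFn h k)) {j : ℤ} (hj : j < -(k : ℤ)) :
    (qL h f).coeff j = 0 := by
  rw [qL_eq hh hf hk, HahnSeries.coeff_single_mul, one_mul]
  exact ModularCurve.ofPowerSeries_coeff_of_neg _ (by omega)

/-- **Change of period**: the `q_{hm}`-expansion of an `h`-periodic function is its
`q_h`-expansion with `q ↦ q^m`. -/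
theorem qL_mul_period {h : ℕ} (hh : 0 < h) {f : ℍ → ℂ} (hf : IsQMero h f) (m : ℕ) [NeZero m] :
    qL (h * m) f = ModularCurve.qExpand ℂ m (qL h f) := by
  have hm : 0 < m := Nat.pos_of_ne_zero (NeZero.ne m)
  obtain ⟨k, hk⟩ := hf.mero
  have hhm : 0 < h * m := Nat.mul_pos hh hm
  rw [← single_mul_spread_eq m k (qL h f) (fun j hj => qL_coeff_of_lt hh hf hk hj)]
  refine qL_eq_of_hasSum hhm (hf.mul_period hh hm) (m * k) _ (fun z => ?_)
  have h1 := hasSum_qL hh hf hk z
  have hinj : Function.Injective (fun n : ℕ => m * n) :=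
    fun a b hab => Nat.eq_of_mul_eq_mul_left hm hab
  refine (hinj.hasSum_iff ?_).mp ?_
  · intro n hn
    have : ¬ m ∣ n := fun ⟨i, hi⟩ => hn ⟨i, hi.symm⟩
    simp [this]
  · convert h1 using 1
    · funext n
      simp only [Function.comp_apply]
      rw [if_pos (dvd_mul_right m n), Nat.mul_div_cancel_left n hm, pow_mul,
        qParam_mul_period_pow hh hm]
    · rw [pow_mul, qParam_mul_period_pow hh hm]

theorem qL_of_period_one {f : ℍ → ℂ} (hf : IsQMero 1 f) (N : ℕ) [NeZero N] :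
    qL N f = ModularCurve.qExpand ℂ N (qL 1 f) := by
  have := qL_mul_period one_pos hf N
  rwa [one_mul] at this

theorem IsQMero.of_period_one {f : ℍ → ℂ} (hf : IsQMero 1 f) {N : ℕ} (hN : 0 < N) :
    IsQMero N f := by
  have := hf.mul_period one_pos hN
  rwa [one_mul] at this

/-! ### From `MeroAtInfty` to `IsQMero` -/

theorem exp_eq_qParam_pow {h : ℕ} (hh : 0 < h) (m : ℕ) (z : ℂ) :
    Complex.exp (2 * π * Complex.I * m * z) = 𝕢 (h : ℝ) z ^ (h * m) := by
  simp only [Periodic.qParam]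
  rw [← Complex.exp_nat_mul]
  congr 1
  have h1 : (h : ℂ) ≠ 0 := by exact_mod_cast hh.ne'
  push_cast
  field_simp

theorem isQMero_of_meroAtInfty {h : ℕ} (hh : 0 < h) {f : ℍ → ℂ}
    (hmd : MDifferentiable 𝓘(ℂ) 𝓘(ℂ) f) (hper : ∀ z : ℍ, f ((h : ℝ) +ᵥ z) = f z)
    (hm : H31.MeroAtInfty f) : IsQMero h f where
  mdiff := hmd
  periodic := periodic_comp_ofComplex_of_vadd hper
  mero := by
    obtain ⟨m, hm⟩ := hm
    refine ⟨h * m, ?_⟩
    convert hm using 1
    funext z
    simp only [Pi.mul_apply, qpowFn_apply, exp_eq_qParam_pow hh]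

theorem meroAtInfty_of_isQMero {h : ℕ} (hh : 0 < h) {f : ℍ → ℂ} (hf : IsQMero h f) :
    H31.MeroAtInfty f := by
  obtain ⟨k, hk⟩ := hf.mero
  refine ⟨k, ?_⟩
  have h2 : IsBoundedAtImInfty (f * qpowFn h (h * k)) := by
    have hb : IsBoundedAtImInfty (qpowFn h (h * k - k)) := (isQNice_qpowFn hh _).bdd
    have e : f * qpowFn h (h * k) = f * qpowFn h k * qpowFn h (h * k - k) := by
      funext z
      simp only [Pi.mul_apply, qpowFn_apply]
      rw [mul_assoc, ← pow_add]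
      congr 2
      have : k ≤ h * k := Nat.le_mul_of_pos_left k hh
      omega
    rw [e]
    exact hk.mul hb
  convert h2 using 1
  funext z
  simp only [Pi.mul_apply, qpowFn_apply, exp_eq_qParam_pow hh]

theorem T_zpow_smul_eq_vadd (n : ℕ) (z : ℍ) :
    ModularGroup.T ^ (n : ℤ) • z = ((n : ℝ) +ᵥ z : ℍ) := by
  apply UpperHalfPlane.ext
  rw [ModularGroup.coe_T_zpow_smul_eq]
  simp [add_comm]

theorem vadd_eq_of_isWH {N : ℕ} {f : ℍ → ℂ} (hf : H31.IsWH N f) (z : ℍ) :
    f ((N : ℝ) +ᵥ z) = f z := by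
  have hT : ModularGroup.T ^ (N : ℤ) ∈ Gamma N := by
    simpa using ModularGroup_T_pow_mem_Gamma (N : ℤ) (N : ℤ) dvd_rfl
  rw [← T_zpow_smul_eq_vadd]
  exact hf.inv _ hT z

theorem isQMero_of_isWH {N : ℕ} [NeZero N] {f : ℍ → ℂ} (hf : H31.IsWH N f) : IsQMero N f := by
  have hN : 0 < N := Nat.pos_of_ne_zero (NeZero.ne N)
  refine isQMero_of_meroAtInfty hN hf.mdiff (vadd_eq_of_isWH hf) ?_
  simpa using hf.mero 1

/-! ### The expansion homomorphism on `RN N` -/

theorem RN_le_qMero (N : ℕ) [NeZero N] : H31.RN N ≤ qMero N :=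
  fun f hf => (isQMero_of_isWH (N := N) (f := f) hf : IsQMero N f)

/-- The `q_N`-expansion (`q_N = exp (2πiz/N)`) as a `ℂ`-algebra homomorphism on `RN N`. -/
def ExRN (N : ℕ) [NeZero N] : H31.RN N →ₐ[ℂ] LaurentSeries ℂ :=
  (qLHom N).comp (Subalgebra.inclusion (RN_le_qMero N))

theorem ExRN_apply (N : ℕ) [NeZero N] (f : H31.RN N) : ExRN N f = qL N (f : ℍ → ℂ) := rfl

theorem ExRN_injective (N : ℕ) [NeZero N] : Function.Injective (ExRN N) :=
  (qLHom_injective N).comp (Subalgebra.inclusion_injective (RN_le_qMero N))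

theorem ExRN_algebraMap (N : ℕ) [NeZero N] (c : ℂ) :
    ExRN N (algebraMap ℂ (H31.RN N) c) = algebraMap ℂ (LaurentSeries ℂ) c :=
  (ExRN N).commutes c

theorem isQMero_jdFun {d : ℕ} (hd : 0 < d) : IsQMero 1 (H31.jdFun d) := isQMero_jd hd

theorem qL_one_jdFun (d : ℕ) [NeZero d] : qL 1 (H31.jdFun d) = ModularCurve.jqNModC ℂ d :=
  qL_jd d

theorem qL_jdFun (N d : ℕ) [NeZero N] [NeZero d] :
    qL N (H31.jdFun d) = ModularCurve.qExpand ℂ N (ModularCurve.jqNModC ℂ d) := by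
  rw [qL_of_period_one (isQMero_jdFun (Nat.pos_of_ne_zero (NeZero.ne d))) N, qL_one_jdFun]

/-- The expansion of `z ↦ j (d z)` is the Prelude's formal series. -/
theorem ExRN_jd (N d : ℕ) [NeZero N] [NeZero d] (f : H31.RN N)
    (hf : (f : ℍ → ℂ) = H31.jdFun d) :
    ExRN N f = ModularCurve.qExpand ℂ N (ModularCurve.jqNModC ℂ d) := by
  rw [ExRN_apply, hf, qL_jdFun]

end Fermat.Agent.S24.H69
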