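import Mathlib
import Fermat.Agent.S24.ZVal_helper31

/-!
# S24 / B1 (function level): integer valuations from order functions

* `zvalOfFraction`: a `ZVal` on the fraction field of a domain from an additive order function.
* order at a point of the upper half plane of a holomorphic function;
* order at the cusp of a periodic holomorphic function of moderate growth (leading-term limit).
-/

set_option autoImplicit false

namespace Fermat.Agent.S24.H90

open Fermat.Agent.S24.H31

section ofFraction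

variable {R F : Type*} [CommRing R] [IsDomain R] [Field F] [Algebra R F] [IsFractionRing R F]

open Classical in
/-- Order function on the fraction field induced by an order function on the domain
(normalised to `0` at `0`). -/
noncomputable def fracOrd (o : R → ℤ) (x : F) : ℤ :=
  if x = 0 then 0 else
    o (IsLocalization.sec (nonZeroDivisors R) x).1 -
      o ((IsLocalization.sec (nonZeroDivisors R) x).2 : R)

omit [IsDomain R] in
theorem fracOrd_zero (o : R → ℤ) : fracOrd (F := F) o 0 = 0 := by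
  unfold fracOrd
  rw [if_pos rfl]

theorem fracOrd_div (o : R → ℤ)
    (hmul : ∀ a b : R, a ≠ 0 → b ≠ 0 → o (a * b) = o a + o b)
    {a b : R} (ha : a ≠ 0) (hb : b ≠ 0) :
    fracOrd (F := F) o (algebraMap R F a / algebraMap R F b) = o a - o b := by
  set x : F := algebraMap R F a / algebraMap R F b with hx
  have hinj : Function.Injective (algebraMap R F) := IsFractionRing.injective R F
  have hbF : algebraMap R F b ≠ 0 := fun h => hb (hinj (by rw [h, map_zero]))
  have haF : algebraMap R F a ≠ 0 := fun h => ha (hinj (by rw [h, map_zero]))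
  have hspec := IsLocalization.sec_spec (nonZeroDivisors R) x
  set a' := (IsLocalization.sec (nonZeroDivisors R) x).1 with ha'
  set s := (IsLocalization.sec (nonZeroDivisors R) x).2 with hs
  have hs0 : (s : R) ≠ 0 := nonZeroDivisors.coe_ne_zero s
  -- x * s = a'
  have h1 : algebraMap R F a * algebraMap R F (s : R) = algebraMap R F a' * algebraMap R F b := by
    have : x * algebraMap R F (s : R) = algebraMap R F a' := hspec
    rw [hx] at this
    field_simp at this
    linear_combination this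
  have h2 : a * (s : R) = a' * b := hinj (by rw [map_mul, map_mul, h1])
  have ha'0 : a' ≠ 0 := by
    intro h
    rw [h, zero_mul] at h2
    exact (mul_ne_zero ha hs0) h2
  have h3 := hmul a s ha hs0
  have h4 := hmul a' b ha'0 hb
  rw [h2] at h3
  have hx0 : x ≠ 0 := div_ne_zero haF hbF
  unfold fracOrd
  rw [if_neg hx0, ← ha', ← hs]
  linarith

theorem fracOrd_algebraMap (o : R → ℤ)
    (hmul : ∀ a b : R, a ≠ 0 → b ≠ 0 → o (a * b) = o a + o b)
    {a : R} (ha : a ≠ 0) :
    fracOrd (F := F) o (algebraMap R F a) = o a := by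
  have h := fracOrd_div (F := F) o hmul ha (one_ne_zero (α := R))
  have h1 : o (1 : R) = 0 := by
    have := hmul 1 1 one_ne_zero one_ne_zero
    rw [mul_one] at this
    linarith
  rw [map_one, div_one] at h
  rw [h, h1, sub_zero]

/-- A `ZVal` on the fraction field of a domain from an order function on the domain. -/
noncomputable def zvalOfFraction (o : R → ℤ)
    (hmul : ∀ a b : R, a ≠ 0 → b ≠ 0 → o (a * b) = o a + o b)
    (hadd : ∀ a b : R, a ≠ 0 → b ≠ 0 → a + b ≠ 0 → min (o a) (o b) ≤ o (a + b)) :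
    ZVal F where
  ord := fracOrd o
  ord_mul {f g} hf hg := by
    obtain ⟨a, b, hb, rfl⟩ := IsFractionRing.div_surjective (A := R) f
    obtain ⟨c, d, hd, rfl⟩ := IsFractionRing.div_surjective (A := R) g
    have hinj : Function.Injective (algebraMap R F) := IsFractionRing.injective R F
    have hb0 : b ≠ 0 := nonZeroDivisors.ne_zero hb
    have hd0 : d ≠ 0 := nonZeroDivisors.ne_zero hd
    have ha0 : a ≠ 0 := by
      rintro rfl
      simp at hf
    have hc0 : c ≠ 0 := by
      rintro rfl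
      simp at hg
    have e : algebraMap R F a / algebraMap R F b * (algebraMap R F c / algebraMap R F d)
        = algebraMap R F (a * c) / algebraMap R F (b * d) := by
      rw [map_mul, map_mul, div_mul_div_comm]
    rw [e, fracOrd_div o hmul (mul_ne_zero ha0 hc0) (mul_ne_zero hb0 hd0),
      fracOrd_div o hmul ha0 hb0, fracOrd_div o hmul hc0 hd0, hmul a c ha0 hc0, hmul b d hb0 hd0]
    ring
  ord_add {f g} hf hg hfg := by
    obtain ⟨a, b, hb, rfl⟩ := IsFractionRing.div_surjective (A := R) f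
    obtain ⟨c, d, hd, rfl⟩ := IsFractionRing.div_surjective (A := R) g
    have hinj : Function.Injective (algebraMap R F) := IsFractionRing.injective R F
    have hb0 : b ≠ 0 := nonZeroDivisors.ne_zero hb
    have hd0 : d ≠ 0 := nonZeroDivisors.ne_zero hd
    have hbF : algebraMap R F b ≠ 0 := fun h => hb0 (hinj (by rw [h, map_zero]))
    have hdF : algebraMap R F d ≠ 0 := fun h => hd0 (hinj (by rw [h, map_zero]))
    have ha0 : a ≠ 0 := by
      rintro rfl
      simp at hf
    have hc0 : c ≠ 0 := by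
      rintro rfl
      simp at hg
    have e : algebraMap R F a / algebraMap R F b + algebraMap R F c / algebraMap R F d
        = algebraMap R F (a * d + c * b) / algebraMap R F (b * d) := by
      rw [map_add, map_mul, map_mul, map_mul]
      field_simp
    have hnum : a * d + c * b ≠ 0 := by
      intro h
      rw [e, h, map_zero, zero_div] at hfg
      exact hfg rfl
    rw [e, fracOrd_div o hmul hnum (mul_ne_zero hb0 hd0),
      fracOrd_div o hmul ha0 hb0, fracOrd_div o hmul hc0 hd0, hmul b d hb0 hd0]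
    have h1 := hadd (a * d) (c * b) (mul_ne_zero ha0 hd0) (mul_ne_zero hc0 hb0) hnum
    rw [hmul a d ha0 hd0, hmul c b hc0 hb0] at h1
    rcases min_le_iff.mp h1 with h | h
    · exact min_le_iff.mpr (Or.inl (by linarith))
    · exact min_le_iff.mpr (Or.inr (by linarith))

theorem zvalOfFraction_zero (o : R → ℤ)
    (hmul : ∀ a b : R, a ≠ 0 → b ≠ 0 → o (a * b) = o a + o b)
    (hadd : ∀ a b : R, a ≠ 0 → b ≠ 0 → a + b ≠ 0 → min (o a) (o b) ≤ o (a + b)) :
    (zvalOfFraction (F := F) o hmul hadd).ord 0 = 0 :=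
  fracOrd_zero o

theorem zvalOfFraction_algebraMap (o : R → ℤ)
    (hmul : ∀ a b : R, a ≠ 0 → b ≠ 0 → o (a * b) = o a + o b)
    (hadd : ∀ a b : R, a ≠ 0 → b ≠ 0 → a + b ≠ 0 → min (o a) (o b) ≤ o (a + b))
    {a : R} (ha : a ≠ 0) :
    (zvalOfFraction (F := F) o hmul hadd).ord (algebraMap R F a) = o a :=
  fracOrd_algebraMap o hmul ha

theorem zvalOfFraction_div (o : R → ℤ)
    (hmul : ∀ a b : R, a ≠ 0 → b ≠ 0 → o (a * b) = o a + o b)
    (hadd : ∀ a b : R, a ≠ 0 → b ≠ 0 → a + b ≠ 0 → min (o a) (o b) ≤ o (a + b))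
    {a b : R} (ha : a ≠ 0) (hb : b ≠ 0) :
    (zvalOfFraction (F := F) o hmul hadd).ord (algebraMap R F a / algebraMap R F b)
      = o a - o b :=
  fracOrd_div o hmul ha hb

/-- Two `ZVal`s built from order functions that are intertwined by a ring automorphism. -/
theorem zvalOfFraction_map (o o' : R → ℤ)
    (hmul : ∀ a b : R, a ≠ 0 → b ≠ 0 → o (a * b) = o a + o b)
    (hadd : ∀ a b : R, a ≠ 0 → b ≠ 0 → a + b ≠ 0 → min (o a) (o b) ≤ o (a + b))
    (hmul' : ∀ a b : R, a ≠ 0 → b ≠ 0 → o' (a * b) = o' a + o' b)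
    (hadd' : ∀ a b : R, a ≠ 0 → b ≠ 0 → a + b ≠ 0 → min (o' a) (o' b) ≤ o' (a + b))
    (φ : F →+* F) (ψ : R → R) (hψ0 : ∀ a : R, a ≠ 0 → ψ a ≠ 0)
    (hφψ : ∀ a : R, φ (algebraMap R F a) = algebraMap R F (ψ a))
    (ho : ∀ a : R, a ≠ 0 → o (ψ a) = o' a) (x : F) :
    (zvalOfFraction (F := F) o hmul hadd).ord (φ x)
      = (zvalOfFraction (F := F) o' hmul' hadd').ord x := by
  by_cases hx : x = 0
  · rw [hx, map_zero]
    exact (fracOrd_zero o).trans (fracOrd_zero o').symm
  obtain ⟨a, b, hb, rfl⟩ := IsFractionRing.div_surjective (A := R) x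
  have hb0 : b ≠ 0 := nonZeroDivisors.ne_zero hb
  have ha0 : a ≠ 0 := by
    rintro rfl
    simp at hx
  rw [map_div₀, hφψ, hφψ, zvalOfFraction_div o hmul hadd (hψ0 a ha0) (hψ0 b hb0),
    zvalOfFraction_div o' hmul' hadd' ha0 hb0, ho a ha0, ho b hb0]

end ofFraction


open UpperHalfPlane hiding I
open Complex Filter Topology Function
open scoped MatrixGroups Manifold Real



section pointOrder

/-- The upper half plane as an open subset of `ℂ`. -/
theorem isOpen_upperHalfPlaneSet' : IsOpen {w : ℂ | 0 < w.im} :=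
  isOpen_lt continuous_const Complex.continuous_im

theorem analyticAt_comp_ofComplex {f : ℍ → ℂ} (hf : MDiff f) {w : ℂ} (hw : 0 < w.im) :
    AnalyticAt ℂ (f ∘ ofComplex) w := by
  have hd : DifferentiableOn ℂ (f ∘ ofComplex) {w : ℂ | 0 < w.im} := fun z hz =>
    (UpperHalfPlane.mdifferentiableAt_iff.mp (hf ⟨z, hz⟩)).differentiableWithinAt
  exact hd.analyticAt (isOpen_upperHalfPlaneSet'.mem_nhds hw)

theorem analyticOnNhd_comp_ofComplex {f : ℍ → ℂ} (hf : MDiff f) :
    AnalyticOnNhd ℂ (f ∘ ofComplex) {w : ℂ | 0 < w.im} :=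
  fun _ hw => analyticAt_comp_ofComplex hf hw

theorem isPreconnected_upperHalfPlaneSet' : IsPreconnected {w : ℂ | 0 < w.im} :=
  (convex_halfSpace_im_gt 0).isPreconnected

/-- A holomorphic function on `ℍ` which is not identically zero has finite order everywhere. -/
theorem analyticOrderAt_ne_top_of_ne_zero {f : ℍ → ℂ} (hf : MDiff f) (hf0 : f ≠ 0) (z : ℍ) :
    analyticOrderAt (f ∘ ofComplex) (z : ℂ) ≠ ⊤ := by
  obtain ⟨x, hx⟩ : ∃ x : ℍ, f x ≠ 0 := by
    by_contra h
    exact hf0 (funext fun x => not_not.mp fun hx => h ⟨x, hx⟩)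
  have hx' : analyticOrderAt (f ∘ ofComplex) (x : ℂ) ≠ ⊤ := by
    have h0 : analyticOrderAt (f ∘ ofComplex) (x : ℂ) = 0 := by
      rw [analyticOrderAt_eq_zero]
      right
      simpa using hx
    rw [h0]
    exact ENat.zero_ne_top
  exact (analyticOnNhd_comp_ofComplex hf).analyticOrderAt_ne_top_of_isPreconnected
    isPreconnected_upperHalfPlaneSet' x.im_pos z.im_pos hx'

/-- Integer order at a point of `ℍ`. -/
noncomputable def ordAtFn (z : ℍ) (f : ℍ → ℂ) : ℤ :=
  ((analyticOrderAt (f ∘ ofComplex) (z : ℂ)).toNat : ℤ)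

theorem ordAtFn_nonneg (z : ℍ) (f : ℍ → ℂ) : 0 ≤ ordAtFn z f := Int.natCast_nonneg _

theorem ordAtFn_mul {f g : ℍ → ℂ} (hf : MDiff f) (hg : MDiff g) (hf0 : f ≠ 0) (hg0 : g ≠ 0)
    (z : ℍ) : ordAtFn z (f * g) = ordAtFn z f + ordAtFn z g := by
  unfold ordAtFn
  have h : (f * g) ∘ ofComplex = (f ∘ ofComplex) * (g ∘ ofComplex) := rfl
  rw [h, analyticOrderAt_mul (analyticAt_comp_ofComplex hf z.im_pos)
    (analyticAt_comp_ofComplex hg z.im_pos),
    ENat.toNat_add (analyticOrderAt_ne_top_of_ne_zero hf hf0 z)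
      (analyticOrderAt_ne_top_of_ne_zero hg hg0 z)]
  push_cast
  rfl

theorem ordAtFn_add {f g : ℍ → ℂ} (hf : MDiff f) (hg : MDiff g) (hf0 : f ≠ 0) (hg0 : g ≠ 0)
    (hfg : f + g ≠ 0) (z : ℍ) : min (ordAtFn z f) (ordAtFn z g) ≤ ordAtFn z (f + g) := by
  unfold ordAtFn
  have h : (f + g) ∘ ofComplex = (f ∘ ofComplex) + (g ∘ ofComplex) := rfl
  have h1 := le_analyticOrderAt_add (f := f ∘ ofComplex) (g := g ∘ ofComplex) (z₀ := (z : ℂ))
  rw [← h] at h1
  have hf' := analyticOrderAt_ne_top_of_ne_zero hf hf0 z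
  have hg' := analyticOrderAt_ne_top_of_ne_zero hg hg0 z
  have hfg' := analyticOrderAt_ne_top_of_ne_zero (hf.add hg) hfg z
  obtain ⟨a, ha⟩ := ENat.ne_top_iff_exists.mp hf'
  obtain ⟨b, hb⟩ := ENat.ne_top_iff_exists.mp hg'
  obtain ⟨c, hc⟩ := ENat.ne_top_iff_exists.mp hfg'
  rw [← ha, ← hb, ← hc] at h1 ⊢
  simp only [ENat.toNat_natCast]
  have h2 : min a b ≤ c := by
    rcases min_le_iff.mp h1 with h | h
    · exact min_le_iff.mpr (Or.inl (by exact_mod_cast h))
    · exact min_le_iff.mpr (Or.inr (by exact_mod_cast h))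
  exact_mod_cast h2

theorem ordAtFn_const (z : ℍ) {c : ℂ} (hc : c ≠ 0) : ordAtFn z (fun _ => c) = 0 := by
  unfold ordAtFn
  have h0 : analyticOrderAt ((fun _ : ℍ => c) ∘ ofComplex) (z : ℂ) = 0 := by
    rw [analyticOrderAt_eq_zero]
    right
    simpa using hc
  rw [h0]
  simp

end pointOrder




section moebius

/-- The Möbius map attached to `g : SL(2,ℤ)` as a function on `ℂ`. -/
noncomputable def moeb (g : SL(2, ℤ)) (w : ℂ) : ℂ :=
  (((g 0 0 : ℤ) : ℂ) * w + ((g 0 1 : ℤ) : ℂ)) / (((g 1 0 : ℤ) : ℂ) * w + ((g 1 1 : ℤ) : ℂ))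

theorem coe_smul_eq_moeb (g : SL(2, ℤ)) (z : ℍ) : ((g • z : ℍ) : ℂ) = moeb g z := by
  rw [coe_specialLinearGroup_apply]
  simp [moeb]

theorem moeb_denom_ne_zero (g : SL(2, ℤ)) {w : ℂ} (hw : 0 < w.im) :
    ((g 1 0 : ℤ) : ℂ) * w + ((g 1 1 : ℤ) : ℂ) ≠ 0 := by
  intro h
  have him := congrArg Complex.im h
  have hre := congrArg Complex.re h
  simp at him hre
  have hdet : g 0 0 * g 1 1 - g 0 1 * g 1 0 = 1 := by
    have := g.det_coe
    rw [Matrix.det_fin_two] at this
    exact this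
  rcases him with h0 | h0
  · have h10 : g 1 0 = 0 := by exact_mod_cast h0
    rw [h10] at hre hdet
    simp at hre
    have h11 : g 1 1 = 0 := by exact_mod_cast hre
    rw [h11] at hdet
    simp at hdet
  · exact hw.ne' h0

theorem hasDerivAt_moeb (g : SL(2, ℤ)) {w : ℂ} (hw : 0 < w.im) :
    HasDerivAt (moeb g) (1 / (((g 1 0 : ℤ) : ℂ) * w + ((g 1 1 : ℤ) : ℂ)) ^ 2) w := by
  have hden := moeb_denom_ne_zero g hw
  have h1 : HasDerivAt (fun w : ℂ => ((g 0 0 : ℤ) : ℂ) * w + ((g 0 1 : ℤ) : ℂ))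
      ((g 0 0 : ℤ) : ℂ) w := by
    simpa using ((hasDerivAt_id w).const_mul ((g 0 0 : ℤ) : ℂ)).add_const ((g 0 1 : ℤ) : ℂ)
  have h2 : HasDerivAt (fun w : ℂ => ((g 1 0 : ℤ) : ℂ) * w + ((g 1 1 : ℤ) : ℂ))
      ((g 1 0 : ℤ) : ℂ) w := by
    simpa using ((hasDerivAt_id w).const_mul ((g 1 0 : ℤ) : ℂ)).add_const ((g 1 1 : ℤ) : ℂ)
  have h3 := h1.div h2 hden
  have hdet : ((g 0 0 : ℤ) : ℂ) * ((g 1 1 : ℤ) : ℂ) - ((g 0 1 : ℤ) : ℂ) * ((g 1 0 : ℤ) : ℂ) = 1 := by
    have := g.det_coe
    rw [Matrix.det_fin_two] at this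
    exact_mod_cast this
  have e : (((g 0 0 : ℤ) : ℂ) * (((g 1 0 : ℤ) : ℂ) * w + ((g 1 1 : ℤ) : ℂ))
      - (((g 0 0 : ℤ) : ℂ) * w + ((g 0 1 : ℤ) : ℂ)) * ((g 1 0 : ℤ) : ℂ))
      / (((g 1 0 : ℤ) : ℂ) * w + ((g 1 1 : ℤ) : ℂ)) ^ 2
      = 1 / (((g 1 0 : ℤ) : ℂ) * w + ((g 1 1 : ℤ) : ℂ)) ^ 2 := by
    congr 1
    linear_combination hdet
  rw [← e]
  exact h3

theorem analyticAt_moeb (g : SL(2, ℤ)) {w : ℂ} (hw : 0 < w.im) : AnalyticAt ℂ (moeb g) w := by
  have hden := moeb_denom_ne_zero g hw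
  unfold moeb
  fun_prop (disch := exact hden)

theorem deriv_moeb_ne_zero (g : SL(2, ℤ)) {w : ℂ} (hw : 0 < w.im) : deriv (moeb g) w ≠ 0 := by
  rw [(hasDerivAt_moeb g hw).deriv]
  exact one_div_ne_zero (pow_ne_zero 2 (moeb_denom_ne_zero g hw))

/-- Orders are transported by the action of `SL(2,ℤ)`. -/
theorem analyticOrderAt_smul (g : SL(2, ℤ)) (f : ℍ → ℂ) (z : ℍ) :
    analyticOrderAt ((fun w : ℍ => f (g • w)) ∘ ofComplex) (z : ℂ)
      = analyticOrderAt (f ∘ ofComplex) ((g • z : ℍ) : ℂ) := by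
  have hev : ((fun w : ℍ => f (g • w)) ∘ ofComplex) =ᶠ[𝓝 (z : ℂ)] (f ∘ ofComplex) ∘ moeb g := by
    have hopen : IsOpen {w : ℂ | 0 < w.im} := isOpen_lt continuous_const Complex.continuous_im
    filter_upwards [hopen.mem_nhds z.im_pos] with w hw
    have hw' : 0 < w.im := hw
    simp only [Function.comp_apply]
    rw [ofComplex_apply_of_im_pos hw', ← coe_smul_eq_moeb g ⟨w, hw'⟩, ofComplex_apply]
  rw [analyticOrderAt_congr hev,
    analyticOrderAt_comp_of_deriv_ne_zero (analyticAt_moeb g z.im_pos) (deriv_moeb_ne_zero g z.im_pos),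
    coe_smul_eq_moeb]

end moebius




section cusp

/-- `f` has leading term `c * q_N ^ k` at the cusp `i∞` (with `q_N = exp (2πi z / N)`). -/
def HasCuspLead (N : ℕ) (f : ℍ → ℂ) (k : ℤ) (c : ℂ) : Prop :=
  c ≠ 0 ∧ Tendsto (fun z : ℍ => f z * cexp (-2 * π * I * k * z / N)) atImInfty (𝓝 c)

theorem tendsto_cexp_pos {N : ℕ} [NeZero N] {n : ℤ} (hn : 0 < n) :
    Tendsto (fun z : ℍ => cexp (2 * π * I * n * z / N)) atImInfty (𝓝 0) := by
  have hN : (0 : ℝ) < N := Nat.cast_pos.mpr (NeZero.pos N)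
  have hn' : (0 : ℝ) < n := Int.cast_pos.mpr hn
  have h := UpperHalfPlane.qParam_tendsto_atImInfty (h := (N : ℝ) / n) (div_pos hN hn')
  refine h.congr fun z => ?_
  unfold Function.Periodic.qParam
  congr 1
  have hn0 : (n : ℂ) ≠ 0 := by exact_mod_cast hn.ne'
  have hN0 : (N : ℂ) ≠ 0 := by exact_mod_cast (NeZero.ne N)
  push_cast
  field_simp

theorem HasCuspLead.const (N : ℕ) {c : ℂ} (hc : c ≠ 0) : HasCuspLead N (fun _ => c) 0 c := by
  refine ⟨hc, ?_⟩
  simp

theorem HasCuspLead.mul {N : ℕ} {f g : ℍ → ℂ} {k l : ℤ} {c d : ℂ} (hf : HasCuspLead N f k c)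
    (hg : HasCuspLead N g l d) : HasCuspLead N (f * g) (k + l) (c * d) := by
  refine ⟨mul_ne_zero hf.1 hg.1, ?_⟩
  refine (hf.2.mul hg.2).congr fun z => ?_
  simp only [Pi.mul_apply]
  rw [mul_mul_mul_comm, ← Complex.exp_add]
  congr 2
  push_cast
  ring

theorem HasCuspLead.unique {N : ℕ} [NeZero N] {f : ℍ → ℂ} {k k' : ℤ} {c c' : ℂ}
    (h : HasCuspLead N f k c) (h' : HasCuspLead N f k' c') : k = k' := by
  by_contra hne
  wlog hlt : k < k' generalizing k k' c c'
  · exact this h' h (Ne.symm hne) (lt_of_le_of_ne (not_lt.mp hlt) (Ne.symm hne))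
  have h0 := h'.2.mul (tendsto_cexp_pos (N := N) (sub_pos.mpr hlt))
  rw [mul_zero] at h0
  have h1 : Tendsto (fun z : ℍ => f z * cexp (-2 * π * I * k * z / N)) atImInfty (𝓝 0) := by
    refine h0.congr fun z => ?_
    have e1 : cexp (-2 * π * I * k' * z / N) * cexp (2 * π * I * (k' - k : ℤ) * z / N)
        = cexp (-2 * π * I * k * z / N) := by
      rw [← Complex.exp_add]
      congr 1
      push_cast
      ring
    rw [mul_assoc, e1]
  exact h.1 (tendsto_nhds_unique h.2 h1)

theorem HasCuspLead.add_le {N : ℕ} [NeZero N] {f g : ℍ → ℂ} {k l j : ℤ} {c d e : ℂ}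
    (hf : HasCuspLead N f k c) (hg : HasCuspLead N g l d) (hfg : HasCuspLead N (f + g) j e) :
    min k l ≤ j := by
  by_contra hlt
  rw [not_le, lt_min_iff] at hlt
  have h1 := hf.2.mul (tendsto_cexp_pos (N := N) (sub_pos.mpr hlt.1))
  have h2 := hg.2.mul (tendsto_cexp_pos (N := N) (sub_pos.mpr hlt.2))
  have h3 := h1.add h2
  rw [mul_zero, mul_zero, add_zero] at h3
  have h4 : Tendsto (fun z : ℍ => (f + g) z * cexp (-2 * π * I * j * z / N)) atImInfty (𝓝 0) := by
    refine h3.congr fun z => ?_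
    have e1 : cexp (-2 * π * I * k * z / N) * cexp (2 * π * I * (k - j : ℤ) * z / N)
        = cexp (-2 * π * I * j * z / N) := by
      rw [← Complex.exp_add]
      congr 1
      push_cast
      ring
    have e2 : cexp (-2 * π * I * l * z / N) * cexp (2 * π * I * (l - j : ℤ) * z / N)
        = cexp (-2 * π * I * j * z / N) := by
      rw [← Complex.exp_add]
      congr 1
      push_cast
      ring
    simp only [Pi.add_apply]
    rw [mul_assoc (f z), e1, mul_assoc (g z), e2, add_mul]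
  exact hfg.1 (tendsto_nhds_unique hfg.2 h4)

theorem tendsto_vadd_atImInfty (x : ℝ) : Tendsto (fun z : ℍ => x +ᵥ z) atImInfty atImInfty := by
  rw [atImInfty, tendsto_comap_iff]
  have : (UpperHalfPlane.im ∘ fun z : ℍ => x +ᵥ z) = UpperHalfPlane.im := by
    funext z
    simp
  rw [this]
  exact tendsto_comap

theorem HasCuspLead.vadd {N : ℕ} {f : ℍ → ℂ} {k : ℤ} {c : ℂ} (h : HasCuspLead N f k c) (x : ℝ) :
    HasCuspLead N (fun z => f (x +ᵥ z)) k (c * cexp (2 * π * I * k * x / N)) := by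
  refine ⟨mul_ne_zero h.1 (Complex.exp_ne_zero _), ?_⟩
  have h1 := (h.2.comp (tendsto_vadd_atImInfty x)).mul_const (cexp (2 * π * I * k * x / N))
  refine h1.congr fun z => ?_
  simp only [Function.comp_apply]
  rw [mul_assoc, ← Complex.exp_add]
  congr 2
  rw [UpperHalfPlane.coe_vadd]
  ring

end cusp

section exist

theorem mdiff_cexp_mul (a : ℂ) : MDiff (fun z : ℍ => cexp (a * z)) := by
  intro z
  rw [UpperHalfPlane.mdifferentiableAt_iff]
  have hopen : IsOpen {w : ℂ | 0 < w.im} := isOpen_lt continuous_const Complex.continuous_im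
  have hev : ((fun z : ℍ => cexp (a * z)) ∘ ofComplex) =ᶠ[𝓝 (z : ℂ)] fun w : ℂ => cexp (a * w) := by
    filter_upwards [hopen.mem_nhds z.im_pos] with w hw
    have hw' : 0 < w.im := hw
    simp only [Function.comp_apply]
    rw [ofComplex_apply_of_im_pos hw']
  have hd : DifferentiableAt ℂ (fun w : ℂ => cexp (a * w)) (z : ℂ) := by fun_prop
  exact hd.congr_of_eventuallyEq hev

theorem periodic_mul_cexp {N : ℕ} {f : ℍ → ℂ} (hper : Periodic (f ∘ ofComplex) (N : ℝ)) (m : ℕ) :
    Periodic ((fun z : ℍ => f z * cexp (2 * π * I * m * z)) ∘ ofComplex) (N : ℝ) := by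
  intro w
  have h1 := hper w
  simp only [Function.comp_apply] at h1 ⊢
  rw [h1]
  congr 1
  by_cases hw : 0 < w.im
  · have hw' : 0 < (w + (N : ℝ)).im := by simpa using hw
    rw [ofComplex_apply_of_im_pos hw', ofComplex_apply_of_im_pos hw]
    show cexp (2 * π * I * m * (w + (N : ℝ))) = cexp (2 * π * I * m * w)
    have : 2 * π * I * m * (w + (N : ℝ)) = 2 * π * I * m * w + ((m * N : ℕ) : ℤ) * (2 * π * I) := by
      push_cast
      ring
    rw [this, Complex.exp_add, Complex.exp_int_mul_two_pi_mul_I, mul_one]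
  · have hw' : (w + (N : ℝ)).im ≤ 0 := by simpa using not_lt.mp hw
    rw [ofComplex_apply_eq_of_im_nonpos hw' (not_lt.mp hw)]

/-- Existence of the leading term at the cusp for periodic holomorphic functions of moderate
growth. -/
theorem exists_hasCuspLead {N : ℕ} [NeZero N] {f : ℍ → ℂ} (hf : MDiff f)
    (hper : Periodic (f ∘ ofComplex) (N : ℝ))
    (hm : ∃ m : ℕ, IsBoundedAtImInfty (fun z : ℍ => f z * cexp (2 * π * I * m * z)))
    (hf0 : f ≠ 0) : ∃ (k : ℤ) (c : ℂ), HasCuspLead N f k c := by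
  obtain ⟨m, hm⟩ := hm
  have hN : (0 : ℝ) < N := Nat.cast_pos.mpr (NeZero.pos N)
  have hN0 : (N : ℂ) ≠ 0 := by exact_mod_cast (NeZero.ne N)
  set G : ℍ → ℂ := fun z : ℍ => f z * cexp (2 * π * I * m * z) with hG
  have hGd : MDiff G := by
    have h2 : MDiff (fun z : ℍ => cexp (2 * π * I * m * z)) := mdiff_cexp_mul (2 * π * I * m)
    exact hf.mul h2
  have hGper : Periodic (G ∘ ofComplex) (N : ℝ) := periodic_mul_cexp hper m
  have hGan : AnalyticAt ℂ (cuspFunction N G) 0 :=
    analyticAt_cuspFunction_zero hN hGper hGd hm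
  have hGeq : ∀ z : ℍ, cuspFunction N G (Function.Periodic.qParam N z) = G z :=
    fun z => eq_cuspFunction z hN.ne' hGper
  have hq : Tendsto (fun z : ℍ => Function.Periodic.qParam N z) atImInfty (𝓝 0) :=
    UpperHalfPlane.qParam_tendsto_atImInfty hN
  -- the order at 0 is finite
  have hfin : analyticOrderAt (cuspFunction N G) 0 ≠ ⊤ := by
    intro htop
    rw [analyticOrderAt_eq_top] at htop
    have hev : ∀ᶠ z : ℍ in atImInfty, G z = 0 := by
      have := hq.eventually htop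
      filter_upwards [this] with z hz
      rw [← hGeq z]
      exact hz
    obtain ⟨A, hA⟩ := (UpperHalfPlane.atImInfty_mem _).mp hev
    -- a point high up
    have hpos : 0 < (⟨0, max A 0 + 1⟩ : ℂ).im := by
      show 0 < max A 0 + 1
      positivity
    set z₀ : ℍ := ⟨⟨0, max A 0 + 1⟩, hpos⟩ with hz₀
    have hopen : IsOpen {w : ℂ | A < w.im ∧ 0 < w.im} :=
      (isOpen_lt continuous_const Complex.continuous_im).inter
        (isOpen_lt continuous_const Complex.continuous_im)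
    have hz₀mem : (z₀ : ℂ) ∈ {w : ℂ | A < w.im ∧ 0 < w.im} := by
      refine ⟨?_, hpos⟩
      show A < max A 0 + 1
      have := le_max_left A 0
      linarith
    have hloc : (G ∘ ofComplex) =ᶠ[𝓝 (z₀ : ℂ)] 0 := by
      filter_upwards [hopen.mem_nhds hz₀mem] with w hw
      simp only [Function.comp_apply, Pi.zero_apply]
      rw [ofComplex_apply_of_im_pos hw.2]
      exact hA ⟨w, hw.2⟩ hw.1.le
    have hzero : Set.EqOn (G ∘ ofComplex) 0 {w : ℂ | 0 < w.im} :=
      AnalyticOnNhd.eqOn_zero_of_preconnected_of_eventuallyEq_zero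
        (fun w hw => analyticAt_comp_ofComplex hGd hw)
        (convex_halfSpace_im_gt 0).isPreconnected hpos hloc
    apply hf0
    funext z
    have h1 := hzero z.im_pos
    simp only [Function.comp_apply, Pi.zero_apply, ofComplex_apply] at h1
    rcases mul_eq_zero.mp h1 with h | h
    · exact h
    · exact absurd h (Complex.exp_ne_zero _)
  obtain ⟨g, hgan, hg0, hgeq⟩ := (hGan.analyticOrderAt_ne_top).mp hfin
  set n : ℕ := analyticOrderNatAt (cuspFunction N G) 0 with hn
  refine ⟨(n : ℤ) - m * N, g 0, hg0, ?_⟩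
  have hlim : Tendsto (fun z : ℍ => g (Function.Periodic.qParam N z)) atImInfty (𝓝 (g 0)) :=
    hgan.continuousAt.tendsto.comp hq
  refine hlim.congr' ?_
  have hev := hq.eventually hgeq
  filter_upwards [hev] with z hz
  have hqne : Function.Periodic.qParam N (z : ℂ) ≠ 0 := Function.Periodic.qParam_ne_zero _
  rw [hGeq z] at hz
  simp only [sub_zero, smul_eq_mul] at hz
  -- G z = q^n * g q
  have hexp : cexp (-2 * π * I * ((n : ℤ) - m * N : ℤ) * z / N)
      = cexp (2 * π * I * m * z) * ((Function.Periodic.qParam N (z : ℂ)) ^ n)⁻¹ := by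
    unfold Function.Periodic.qParam
    rw [← Complex.exp_nat_mul, ← Complex.exp_neg, ← Complex.exp_add]
    congr 1
    push_cast
    field_simp
    ring
  have hGz : G z = f z * cexp (2 * π * I * m * z) := rfl
  rw [hexp, ← mul_assoc, ← hGz, hz]
  field_simp

end exist



section cuspOrd

/-- `Γ(N)`-invariant functions are `N`-periodic. -/
theorem periodic_of_Gamma_inv {N : ℕ} {f : ℍ → ℂ}
    (hinv : ∀ γ ∈ CongruenceSubgroup.Gamma N, ∀ z : ℍ, f (γ • z) = f z) :
    Periodic (f ∘ ofComplex) (N : ℝ) := by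
  intro w
  simp only [Function.comp_apply]
  by_cases hw : 0 < w.im
  · have hw' : 0 < (w + (N : ℝ)).im := by simpa using hw
    rw [ofComplex_apply_of_im_pos hw', ofComplex_apply_of_im_pos hw]
    have hT : ModularGroup.T ^ (N : ℤ) ∈ CongruenceSubgroup.Gamma N := by
      have := CongruenceSubgroup.ModularGroup_T_pow_mem_Gamma (N : ℤ) (N : ℤ) dvd_rfl
      simpa using this
    have h1 := hinv _ hT ⟨w, hw⟩
    rw [← h1]
    congr 1
    rw [modular_T_zpow_smul]
    apply UpperHalfPlane.ext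
    rw [UpperHalfPlane.coe_vadd]
    push_cast
    ring
  · have hw' : (w + (N : ℝ)).im ≤ 0 := by simpa using not_lt.mp hw
    rw [ofComplex_apply_eq_of_im_nonpos hw' (not_lt.mp hw)]

open Classical in
/-- Integer order at the cusp `i∞` in the local parameter `q_N = exp (2πi z / N)`
(junk value `0` when there is no leading term). -/
noncomputable def cuspOrdFn (N : ℕ) (f : ℍ → ℂ) : ℤ :=
  if h : ∃ (k : ℤ) (c : ℂ), HasCuspLead N f k c then h.choose else 0

theorem cuspOrdFn_eq {N : ℕ} [NeZero N] {f : ℍ → ℂ} {k : ℤ} {c : ℂ} (h : HasCuspLead N f k c) :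
    cuspOrdFn N f = k := by
  have hex : ∃ (k : ℤ) (c : ℂ), HasCuspLead N f k c := ⟨k, c, h⟩
  unfold cuspOrdFn
  rw [dif_pos hex]
  obtain ⟨c', hc'⟩ := hex.choose_spec
  exact hc'.unique h

theorem hasCuspLead_cuspOrdFn {N : ℕ} [NeZero N] {f : ℍ → ℂ}
    (hex : ∃ (k : ℤ) (c : ℂ), HasCuspLead N f k c) :
    ∃ c : ℂ, HasCuspLead N f (cuspOrdFn N f) c := by
  obtain ⟨k, c, h⟩ := hex
  exact ⟨c, by rw [cuspOrdFn_eq h]; exact h⟩

end cuspOrd

end Fermat.Agent.S24.H90
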