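import Mathlib
import Fermat.Agent.S24.Defs_helper31
import Fermat.Agent.S24.ValFn_helper90

/-!
# S24 / B1: the analytic valuations on `L N`

* `zvalAt N z`: order at a point `z : ℍ`;
* `zvalCusp N`: order at the cusp `i∞` in the local parameter `q_N = exp (2πi z / N)`.

Both are `ZVal (L N)` (normalised to `0` at `0`), together with their compatibility with the
`SL(2,ℤ)`-action.
-/

set_option autoImplicit false

namespace Fermat.Agent.S24.H90

open Fermat.Agent.S24.H31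
open UpperHalfPlane hiding I
open Complex Filter Topology Function
open scoped MatrixGroups Manifold Real

theorem coe_ne_zero_RN {N : ℕ} {f : RN N} (hf : f ≠ 0) : (f : ℍ → ℂ) ≠ 0 :=
  fun h => hf (Subtype.ext h)

theorem coe_algebraMap_RN (N : ℕ) (c : ℂ) :
    ((algebraMap ℂ (RN N) c : RN N) : ℍ → ℂ) = fun _ => c := rfl

theorem algebraMap_RN_ne_zero (N : ℕ) {c : ℂ} (hc : c ≠ 0) : algebraMap ℂ (RN N) c ≠ 0 := by
  intro h
  have h' := congrArg (fun f : RN N => (f : ℍ → ℂ) UpperHalfPlane.I) h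
  simp only [coe_algebraMap_RN] at h'
  exact hc h'

theorem smul_RN_ne_zero {N : ℕ} (g : SL(2, ℤ)) {f : RN N} (hf : f ≠ 0) : g • f ≠ 0 :=
  (smul_ne_zero_iff_ne g).mpr hf

section pointVal

/-- Order at a point `z : ℍ`, as a `ZVal` on `L N`. -/
noncomputable def zvalAt (N : ℕ) [NeZero N] (z : ℍ) : ZVal (L N) :=
  zvalOfFraction (R := RN N) (F := L N) (fun f : RN N => ordAtFn z (f : ℍ → ℂ))
    (fun a b ha hb =>
      ordAtFn_mul a.2.mdiff b.2.mdiff (coe_ne_zero_RN ha) (coe_ne_zero_RN hb) z)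
    (fun a b ha hb hab =>
      ordAtFn_add a.2.mdiff b.2.mdiff (coe_ne_zero_RN ha) (coe_ne_zero_RN hb)
        (coe_ne_zero_RN hab) z)

theorem zvalAt_zero (N : ℕ) [NeZero N] (z : ℍ) : (zvalAt N z).ord 0 = 0 :=
  zvalOfFraction_zero _ _ _

theorem zvalAt_algebraMap_eq (N : ℕ) [NeZero N] (z : ℍ) (f : RN N) (hf : f ≠ 0) :
    (zvalAt N z).ord (algebraMap (RN N) (L N) f) = ordAtFn z (f : ℍ → ℂ) :=
  zvalOfFraction_algebraMap _ _ _ hf

/-- On holomorphic functions `zvalAt` is the (finite, nonnegative) analytic order. -/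
theorem zvalAt_algebraMap (N : ℕ) [NeZero N] (z : ℍ) (f : RN N) (hf : f ≠ 0) :
    analyticOrderAt ((f : ℍ → ℂ) ∘ ofComplex) (z : ℂ)
        = (((zvalAt N z).ord (algebraMap (RN N) (L N) f)).toNat : ℕ∞) ∧
      0 ≤ (zvalAt N z).ord (algebraMap (RN N) (L N) f) := by
  rw [zvalAt_algebraMap_eq N z f hf]
  refine ⟨?_, ordAtFn_nonneg z _⟩
  unfold ordAtFn
  rw [Int.toNat_natCast,
    ENat.natCast_toNat (analyticOrderAt_ne_top_of_ne_zero f.2.mdiff (coe_ne_zero_RN hf) z)]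

/-- `zvalAt` is equivariant for the `SL(2,ℤ)`-action. -/
theorem zvalAt_smul (N : ℕ) [NeZero N] (z : ℍ) (g : SL(2, ℤ)) (x : L N) :
    (zvalAt N z).ord (g • x) = (zvalAt N (g⁻¹ • z)).ord x := by
  refine zvalOfFraction_map (R := RN N) (F := L N) _ _ _ _ _ _
    (MulSemiringAction.toRingHom SL(2, ℤ) (L N) g) (fun f : RN N => g • f)
    (fun a ha => smul_RN_ne_zero g ha) (fun a => smul_algebraMap_L g a) (fun a _ => ?_) x
  show ordAtFn z ((g • a : RN N) : ℍ → ℂ) = ordAtFn (g⁻¹ • z) (a : ℍ → ℂ)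
  unfold ordAtFn
  have h := analyticOrderAt_smul g⁻¹ (a : ℍ → ℂ) z
  have e : ((g • a : RN N) : ℍ → ℂ) = fun w : ℍ => (a : ℍ → ℂ) (g⁻¹ • w) := rfl
  rw [e, h]

/-- Constants have order `0` at every point. -/
theorem zvalAt_const (N : ℕ) [NeZero N] (z : ℍ) (c : ℂ) :
    (zvalAt N z).ord (algebraMap ℂ (L N) c) = 0 := by
  by_cases hc : c = 0
  · rw [hc, map_zero]
    exact zvalAt_zero N z
  rw [IsScalarTower.algebraMap_apply ℂ (RN N) (L N),
    zvalAt_algebraMap_eq N z _ (algebraMap_RN_ne_zero N hc), coe_algebraMap_RN]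
  exact ordAtFn_const z hc

end pointVal

section cuspVal

theorem exists_hasCuspLead_RN {N : ℕ} [NeZero N] (f : RN N) (hf : f ≠ 0) :
    ∃ (k : ℤ) (c : ℂ), HasCuspLead N (f : ℍ → ℂ) k c := by
  have hm : MeroAtInfty (fun z : ℍ => (f : ℍ → ℂ) ((1 : SL(2, ℤ)) • z)) := f.2.mero 1
  simp only [one_smul] at hm
  exact exists_hasCuspLead f.2.mdiff (periodic_of_Gamma_inv f.2.inv) hm (coe_ne_zero_RN hf)

/-- Order at the cusp `i∞` (in the parameter `q_N`), as a `ZVal` on `L N`. -/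
noncomputable def zvalCusp (N : ℕ) [NeZero N] : ZVal (L N) :=
  zvalOfFraction (R := RN N) (F := L N) (fun f : RN N => cuspOrdFn N (f : ℍ → ℂ))
    (fun a b ha hb => by
      obtain ⟨k, c, h1⟩ := exists_hasCuspLead_RN a ha
      obtain ⟨l, d, h2⟩ := exists_hasCuspLead_RN b hb
      have h3 := h1.mul h2
      show cuspOrdFn N ((a : ℍ → ℂ) * (b : ℍ → ℂ)) = _
      rw [cuspOrdFn_eq h1, cuspOrdFn_eq h2, cuspOrdFn_eq h3])
    (fun a b ha hb hab => by
      obtain ⟨k, c, h1⟩ := exists_hasCuspLead_RN a ha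
      obtain ⟨l, d, h2⟩ := exists_hasCuspLead_RN b hb
      obtain ⟨j, e, h3⟩ := exists_hasCuspLead_RN (a + b) hab
      have h3' : HasCuspLead N ((a : ℍ → ℂ) + (b : ℍ → ℂ)) j e := h3
      show min (cuspOrdFn N (a : ℍ → ℂ)) (cuspOrdFn N (b : ℍ → ℂ))
        ≤ cuspOrdFn N ((a : ℍ → ℂ) + (b : ℍ → ℂ))
      rw [cuspOrdFn_eq h1, cuspOrdFn_eq h2, cuspOrdFn_eq h3']
      exact h1.add_le h2 h3')

theorem zvalCusp_zero (N : ℕ) [NeZero N] : (zvalCusp N).ord 0 = 0 :=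
  zvalOfFraction_zero _ _ _

theorem zvalCusp_algebraMap_eq (N : ℕ) [NeZero N] (f : RN N) (hf : f ≠ 0) :
    (zvalCusp N).ord (algebraMap (RN N) (L N) f) = cuspOrdFn N (f : ℍ → ℂ) :=
  zvalOfFraction_algebraMap _ _ _ hf

/-- Characterisation of `zvalCusp` on holomorphic functions by the leading term of the
`q_N`-expansion. -/
theorem zvalCusp_algebraMap_eq_iff (N : ℕ) [NeZero N] (f : RN N) (hf : f ≠ 0) (k : ℤ) :
    (zvalCusp N).ord (algebraMap (RN N) (L N) f) = k ↔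
      ∃ c : ℂ, c ≠ 0 ∧
        Tendsto (fun z : ℍ => (f : ℍ → ℂ) z * cexp (-2 * π * I * k * z / N)) atImInfty (𝓝 c) := by
  rw [zvalCusp_algebraMap_eq N f hf]
  constructor
  · rintro rfl
    obtain ⟨c, hc⟩ := hasCuspLead_cuspOrdFn (exists_hasCuspLead_RN f hf)
    exact ⟨c, hc.1, hc.2⟩
  · rintro ⟨c, hc0, hc⟩
    exact cuspOrdFn_eq ⟨hc0, hc⟩

/-- `zvalCusp` is invariant under the translation `T`. -/
theorem zvalCusp_T_smul (N : ℕ) [NeZero N] (x : L N) :
    (zvalCusp N).ord (ModularGroup.T • x) = (zvalCusp N).ord x := by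
  refine zvalOfFraction_map (R := RN N) (F := L N) _ _ _ _ _ _
    (MulSemiringAction.toRingHom SL(2, ℤ) (L N) ModularGroup.T)
    (fun f : RN N => ModularGroup.T • f)
    (fun a ha => smul_RN_ne_zero _ ha) (fun a => smul_algebraMap_L _ a) (fun a ha => ?_) x
  show cuspOrdFn N ((ModularGroup.T • a : RN N) : ℍ → ℂ) = cuspOrdFn N (a : ℍ → ℂ)
  obtain ⟨k, c, h1⟩ := exists_hasCuspLead_RN a ha
  have h2 := h1.vadd (-1)
  have e : ((ModularGroup.T • a : RN N) : ℍ → ℂ) = fun z : ℍ => (a : ℍ → ℂ) ((-1 : ℝ) +ᵥ z) := by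
    funext z
    rw [smul_RN_apply]
    have := modular_T_zpow_smul z (-1)
    rw [zpow_neg_one] at this
    rw [this]
    push_cast
    rfl
  rw [e, cuspOrdFn_eq h1, cuspOrdFn_eq h2]

/-- Constants have order `0` at the cusp. -/
theorem zvalCusp_const (N : ℕ) [NeZero N] (c : ℂ) :
    (zvalCusp N).ord (algebraMap ℂ (L N) c) = 0 := by
  by_cases hc : c = 0
  · rw [hc, map_zero]
    exact zvalCusp_zero N
  rw [IsScalarTower.algebraMap_apply ℂ (RN N) (L N),
    zvalCusp_algebraMap_eq N _ (algebraMap_RN_ne_zero N hc), coe_algebraMap_RN]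
  exact cuspOrdFn_eq (HasCuspLead.const N hc)

end cuspVal

end Fermat.Agent.S24.H90
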