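import Mathlib
import Fermat.Agent.S24.Spec_helper31
import Fermat.Agent.S24.Val_helper90

/-!
# S24 / B1: the `ValSpec` delivered by the analytic valuations `zvalAt` and `zvalCusp`
-/

set_option autoImplicit false

namespace Fermat.Agent.S24.H90

open Fermat.Agent.S24.H31

/-- Row B1: the analytic valuations on `L N`, packaged as a `ValSpec`. -/
noncomputable def valSpec (N : ℕ) [NeZero N] : ValSpec N where
  pt := zvalAt N
  pt_algebraMap z f hf := ⟨(zvalAt_algebraMap N z f hf).2, (zvalAt_algebraMap N z f hf).1⟩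
  pt_smul z g x _ := zvalAt_smul N z g x
  cusp := zvalCusp N
  cusp_iff f hf k := zvalCusp_algebraMap_eq_iff N f hf k
  cusp_T x _ := zvalCusp_T_smul N x

@[simp]
theorem valSpec_pt (N : ℕ) [NeZero N] (z : UpperHalfPlane) : (valSpec N).pt z = zvalAt N z := rfl

@[simp]
theorem valSpec_cusp (N : ℕ) [NeZero N] : (valSpec N).cusp = zvalCusp N := rfl

end Fermat.Agent.S24.H90
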