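import Mathlib
import Fermat.Prelude.Def_ModularCurve_JqCoeff
import Fermat.Agent.S23.Nice_helper52

/-!
# Formal vs analytic `q`-expansions for `j` (helper74)

Bridge between the formal Laurent series `ModularCurve.jq` of the Prelude
(`q⁻¹ * eisenstein4 ^ 3 * (etaProd ^ 24)⁻¹`) and the analytic function
`J τ = E₄ τ ^ 3 / Δ τ` on the upper half plane.

Part 1: the formal infinite product `etaProd = ∏' (1 - X ^ (n+1))` (Pi topology on `ℤ⟦X⟧`)
evaluates, at every `q` of the open unit disc, to the analytic infinite product.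
-/

set_option autoImplicit false

namespace Fermat.Agent.S24.H74

open scoped PowerSeries.WithPiTopology
open Filter Topology Finset

/-- partial products `∏_{i<N} (1 - X^(i+1))` as integer polynomials -/
noncomputable def pP (N : ℕ) : Polynomial ℤ := ∏ i ∈ range N, (1 - Polynomial.X ^ (i + 1))

/-- majorant partial products `∏_{i<N} (1 + X^(i+1))` -/
noncomputable def pQ (N : ℕ) : Polynomial ℤ := ∏ i ∈ range N, (1 + Polynomial.X ^ (i + 1))

lemma pP_succ (N : ℕ) : pP (N + 1) = pP N * (1 - Polynomial.X ^ (N + 1)) := by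
  simp [pP, prod_range_succ]

lemma pQ_succ (N : ℕ) : pQ (N + 1) = pQ N * (1 + Polynomial.X ^ (N + 1)) := by
  simp [pQ, prod_range_succ]

lemma coeff_pP_succ (N n : ℕ) : (pP (N + 1)).coeff n =
    (pP N).coeff n - if N + 1 ≤ n then (pP N).coeff (n - (N + 1)) else 0 := by
  rw [pP_succ, mul_sub, mul_one, Polynomial.coeff_sub, Polynomial.coeff_mul_X_pow']

lemma coeff_pQ_succ (N n : ℕ) : (pQ (N + 1)).coeff n =
    (pQ N).coeff n + if N + 1 ≤ n then (pQ N).coeff (n - (N + 1)) else 0 := by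
  rw [pQ_succ, mul_add, mul_one, Polynomial.coeff_add, Polynomial.coeff_mul_X_pow']

lemma abs_coeff_pP_le (N : ℕ) : ∀ n : ℕ, |(pP N).coeff n| ≤ (pQ N).coeff n := by
  induction N with
  | zero =>
    intro n
    simp only [pP, pQ, range_zero, prod_empty, Polynomial.coeff_one]
    split_ifs <;> simp
  | succ N ih =>
    intro n
    rw [coeff_pP_succ, coeff_pQ_succ]
    split_ifs with h
    · exact (abs_sub _ _).trans (add_le_add (ih n) (ih _))
    · simpa using ih n

lemma coeff_pQ_nonneg (N n : ℕ) : 0 ≤ (pQ N).coeff n :=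
  (abs_nonneg _).trans (abs_coeff_pP_le N n)

lemma eval₂_pQ (N : ℕ) (R : ℝ) :
    (pQ N).eval₂ (Int.castRingHom ℝ) R = ∏ i ∈ range N, (1 + R ^ (i + 1)) := by
  simp [pQ, Polynomial.eval₂_finsetProd]

lemma eval₂_pP (N : ℕ) (q : ℂ) :
    (pP N).eval₂ (Int.castRingHom ℂ) q = ∏ i ∈ range N, (1 - q ^ (i + 1)) := by
  simp [pP, Polynomial.eval₂_finsetProd]

lemma coeff_pQ_mul_pow_le (N n : ℕ) {R : ℝ} (hR : 0 ≤ R) :
    ((pQ N).coeff n : ℝ) * R ^ n ≤ ∏ i ∈ range N, (1 + R ^ (i + 1)) := by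
  rw [← eval₂_pQ, Polynomial.eval₂_eq_sum_range]
  have hnn : ∀ i ∈ range ((pQ N).natDegree + 1),
      0 ≤ (Int.castRingHom ℝ) ((pQ N).coeff i) * R ^ i := fun i _ =>
    mul_nonneg (by simpa using coeff_pQ_nonneg N i) (pow_nonneg hR i)
  by_cases hn : n ∈ range ((pQ N).natDegree + 1)
  · simpa using single_le_sum hnn hn
  · have h0 : (pQ N).coeff n = 0 :=
      Polynomial.coeff_eq_zero_of_natDegree_lt (by simpa using hn)
    simpa [h0] using sum_nonneg hnn

lemma prod_one_add_pow_le {R : ℝ} (hR : 0 ≤ R) (hR1 : R < 1) (N : ℕ) :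
    ∏ i ∈ range N, (1 + R ^ (i + 1)) ≤ Real.exp (∑' i : ℕ, R ^ (i + 1)) := by
  have hs : Summable fun i : ℕ => R ^ (i + 1) :=
    (summable_nat_add_iff 1).mpr (summable_geometric_of_lt_one hR hR1)
  calc ∏ i ∈ range N, (1 + R ^ (i + 1)) ≤ ∏ i ∈ range N, Real.exp (R ^ (i + 1)) :=
        prod_le_prod (fun i _ => by positivity)
          (fun i _ => by linarith [Real.add_one_le_exp (R ^ (i + 1))])
    _ = Real.exp (∑ i ∈ range N, R ^ (i + 1)) := (Real.exp_sum _ _).symm
    _ ≤ Real.exp (∑' i : ℕ, R ^ (i + 1)) :=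
        Real.exp_le_exp.mpr (hs.sum_le_tsum _ (fun i _ => by positivity))

lemma coe_pP (N : ℕ) :
    ((pP N : Polynomial ℤ) : PowerSeries ℤ) = ∏ i ∈ range N, (1 - PowerSeries.X ^ (i + 1)) := by
  induction N with
  | zero => simp [pP]
  | succ N ih => rw [pP_succ, Polynomial.coe_mul, ih, prod_range_succ]; simp

lemma eventually_coeff_pP (n : ℕ) :
    ∀ᶠ N in atTop, (pP N).coeff n = PowerSeries.coeff n ModularCurve.etaProd := by
  have h := (PowerSeries.WithPiTopology.multipliable_one_sub_X_pow ℤ).hasProd.tendsto_prod_nat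
  rw [PowerSeries.WithPiTopology.tendsto_iff_coeff_tendsto] at h
  have hn := h n
  rw [nhds_discrete, tendsto_pure] at hn
  filter_upwards [hn] with N hN
  rw [← Polynomial.coeff_coe, coe_pP, hN]
  rfl

/-- uniform geometric bound for the coefficients of the partial products -/
lemma norm_coeff_pP_mul_pow_le (N n : ℕ) {q : ℂ} {R : ℝ} (hR : ‖q‖ < R) (hR1 : R < 1) :
    ‖((pP N).coeff n : ℂ) * q ^ n‖ ≤ Real.exp (∑' i : ℕ, R ^ (i + 1)) * (‖q‖ / R) ^ n := by
  have hR0 : 0 < R := (norm_nonneg q).trans_lt hR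
  have h1 : ‖((pP N).coeff n : ℂ)‖ ≤ ((pQ N).coeff n : ℝ) := by
    rw [Complex.norm_intCast]
    exact_mod_cast abs_coeff_pP_le N n
  have h2 : ((pQ N).coeff n : ℝ) * R ^ n ≤ Real.exp (∑' i : ℕ, R ^ (i + 1)) :=
    (coeff_pQ_mul_pow_le N n hR0.le).trans (prod_one_add_pow_le hR0.le hR1 N)
  calc ‖((pP N).coeff n : ℂ) * q ^ n‖ = ‖((pP N).coeff n : ℂ)‖ * ‖q‖ ^ n := by
        rw [norm_mul, norm_pow]
    _ ≤ ((pQ N).coeff n : ℝ) * ‖q‖ ^ n := by gcongr
    _ = ((pQ N).coeff n : ℝ) * R ^ n * (‖q‖ / R) ^ n := by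
        rw [div_pow]; field_simp
    _ ≤ Real.exp (∑' i : ℕ, R ^ (i + 1)) * (‖q‖ / R) ^ n := by gcongr

lemma tsum_coeff_pP (N : ℕ) (q : ℂ) :
    ∑' n : ℕ, ((pP N).coeff n : ℂ) * q ^ n = ∏ i ∈ range N, (1 - q ^ (i + 1)) := by
  rw [← eval₂_pP, Polynomial.eval₂_eq_sum_range]
  rw [tsum_eq_sum (s := range ((pP N).natDegree + 1))]
  · simp
  · intro n hn
    have h0 : (pP N).coeff n = 0 :=
      Polynomial.coeff_eq_zero_of_natDegree_lt (by simpa using hn)
    simp [h0]

/-- coefficient bound for `etaProd` itself -/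
lemma norm_coeff_etaProd_mul_pow_le (n : ℕ) {q : ℂ} {R : ℝ} (hR : ‖q‖ < R) (hR1 : R < 1) :
    ‖((PowerSeries.coeff n ModularCurve.etaProd : ℤ) : ℂ) * q ^ n‖
      ≤ Real.exp (∑' i : ℕ, R ^ (i + 1)) * (‖q‖ / R) ^ n := by
  obtain ⟨N, hN⟩ := (eventually_coeff_pP n).exists
  rw [← hN]
  exact norm_coeff_pP_mul_pow_le N n hR hR1

lemma summable_bound {q : ℂ} {R : ℝ} (hR : ‖q‖ < R) :
    Summable fun n : ℕ => Real.exp (∑' i : ℕ, R ^ (i + 1)) * (‖q‖ / R) ^ n := by
  have hR0 : 0 < R := (norm_nonneg q).trans_lt hR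
  exact (summable_geometric_of_lt_one (by positivity) ((div_lt_one hR0).mpr hR)).mul_left _

/-- absolute convergence of the `etaProd` series on the open unit disc -/
theorem summable_norm_etaProd {q : ℂ} (hq : ‖q‖ < 1) :
    Summable fun n : ℕ => ‖((PowerSeries.coeff n ModularCurve.etaProd : ℤ) : ℂ) * q ^ n‖ := by
  have hR : ‖q‖ < (‖q‖ + 1) / 2 := by linarith
  have hR1 : (‖q‖ + 1) / 2 < 1 := by linarith
  exact Summable.of_nonneg_of_le (fun n => norm_nonneg _)
    (fun n => norm_coeff_etaProd_mul_pow_le n hR hR1) (summable_bound hR)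

/-- **(QB-2)** The formal infinite product `etaProd = ∏' (1 - X^(n+1))` evaluated at a point of
the open unit disc is the analytic infinite product. -/
theorem hasSum_etaProd {q : ℂ} (hq : ‖q‖ < 1) :
    HasSum (fun n : ℕ => ((PowerSeries.coeff n ModularCurve.etaProd : ℤ) : ℂ) * q ^ n)
      (∏' n : ℕ, (1 - q ^ (n + 1))) := by
  have hR : ‖q‖ < (‖q‖ + 1) / 2 := by linarith
  have hR1 : (‖q‖ + 1) / 2 < 1 := by linarith
  have key := tendsto_tsum_of_dominated_convergence (𝓕 := atTop)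
    (f := fun (N : ℕ) (n : ℕ) => ((pP N).coeff n : ℂ) * q ^ n)
    (g := fun n : ℕ => ((PowerSeries.coeff n ModularCurve.etaProd : ℤ) : ℂ) * q ^ n)
    (summable_bound hR)
    (fun n => by
      refine tendsto_nhds_of_eventually_eq ?_
      filter_upwards [eventually_coeff_pP n] with N hN
      rw [hN])
    (Eventually.of_forall fun N n => norm_coeff_pP_mul_pow_le N n hR hR1)
  simp only [tsum_coeff_pP] at key
  have h2 := (ModularForm.multipliable_one_sub_pow hq).hasProd.tendsto_prod_nat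
  have heq := tendsto_nhds_unique key h2
  rw [← heq]
  exact (summable_norm_etaProd hq).of_norm.hasSum

/-! ## Part 2: the analytic side -/

section Analytic

open UpperHalfPlane ModularForm EisensteinSeries Function
open Fermat.Agent.S23.H30 Fermat.Agent.S23.H52
open scoped Manifold MatrixGroups

local notation "𝕢" => Function.Periodic.qParam
local notation "Δ" => ModularForm.discriminant

lemma qParam_one_add_one (w : ℂ) : 𝕢 1 (w + 1) = 𝕢 1 w := by
  simp only [Function.Periodic.qParam, Complex.ofReal_one, div_one, mul_add, mul_one,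
    Complex.exp_add, Complex.exp_two_pi_mul_I]

/-- `q ↦ ∏' (1 - q^(n+1))` -/
noncomputable def etaDisc (q : ℂ) : ℂ := ∏' n : ℕ, (1 - q ^ (n + 1))

/-- `τ ↦ ∏' (1 - q^(n+1))`, `q = exp (2πiτ)` -/
noncomputable def etaFun (τ : ℍ) : ℂ := etaDisc (𝕢 1 τ)

lemma norm_qParam_one_lt_one (τ : ℍ) : ‖𝕢 1 (τ : ℂ)‖ < 1 :=
  Function.Periodic.norm_qParam_lt_one one_pos τ.im_pos

lemma etaFun_ne_zero (τ : ℍ) : etaFun τ ≠ 0 := ModularForm.eta_tprod_ne_zero τ.2

lemma discriminant_eq_qParam_mul (τ : ℍ) : Δ τ = 𝕢 1 τ * etaFun τ ^ 24 := by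
  rw [discriminant_eq_q_prod]
  congr 1
  exact (ModularForm.multipliable_one_sub_pow (norm_qParam_one_lt_one τ)).tprod_pow 24

lemma hasSum_etaFun (τ : ℍ) :
    HasSum (fun m : ℕ => ((PowerSeries.coeff m ModularCurve.etaProd : ℤ) : ℂ) • 𝕢 1 τ ^ m)
      (etaFun τ) := by
  simpa [etaFun, etaDisc] using hasSum_etaProd (norm_qParam_one_lt_one τ)

lemma tendsto_etaDisc_zero : Tendsto etaDisc (𝓝 0) (𝓝 1) := by
  have h : ContinuousAt etaDisc 0 :=
    (ModularForm.differentiableOn_tprod_one_sub_pow.continuousOn).continuousAt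
      (Metric.ball_mem_nhds 0 one_pos)
  have h0 : etaDisc 0 = 1 := by simp [etaDisc]
  simpa [h0] using h.tendsto

lemma tendsto_etaFun : Tendsto etaFun atImInfty (𝓝 1) :=
  tendsto_etaDisc_zero.comp (qParam_tendsto_atImInfty one_pos)

lemma isNice_etaFun : IsNice etaFun where
  mdiff := by
    rw [UpperHalfPlane.mdifferentiable_iff]
    have h : DifferentiableOn ℂ (etaDisc ∘ 𝕢 1) {z : ℂ | 0 < z.im} :=
      ModularForm.differentiableOn_tprod_one_sub_pow.comp
        (Function.Periodic.differentiable_qParam.differentiableOn)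
        (fun z hz => by
          simpa using Function.Periodic.norm_qParam_lt_one one_pos (z := z) hz)
    refine h.congr fun z hz => ?_
    simp [etaFun, ofComplex_apply_of_im_pos hz]
  periodic := by
    intro w
    by_cases hw : 0 < w.im
    · have hw1 : 0 < (w + 1).im := by simpa using hw
      simp only [comp_apply, ofComplex_apply_of_im_pos hw1, ofComplex_apply_of_im_pos hw,
        etaFun, UpperHalfPlane.coe_mk]
      rw [qParam_one_add_one]
    · have hw0 : w.im ≤ 0 := not_lt.mp hw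
      have hw1 : (w + 1).im ≤ 0 := by simpa using hw0
      simp [ofComplex_apply_of_im_nonpos hw1, ofComplex_apply_of_im_nonpos hw0]
  bdd := tendsto_etaFun.isBigO_one ℝ

/-- uniqueness of `q`-expansion coefficients for nice functions -/
lemma qExpansion_coeff_unique_of_isNice {f : ℍ → ℂ} {c : ℕ → ℂ} (hf : IsNice f)
    (h : ∀ τ : ℍ, HasSum (fun m => c m • 𝕢 1 τ ^ m) (f τ)) (m : ℕ) :
    c m = (qExpansion 1 f).coeff m := by
  have h1 := (hasFPowerSeriesOnBall_cuspFunction one_pos hf.analyticAt h).hasFPowerSeriesAt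
  have h2 := (hasFPowerSeriesOnBall_cuspFunction one_pos hf.analyticAt
    hf.hasSum_qExpansion).hasFPowerSeriesAt
  simpa [FormalMultilinearSeries.coeff_ofScalars] using
    congr_arg (FormalMultilinearSeries.coeff · m) (h1.eq_formalMultilinearSeries h2)

/-- **(QB-2')** `q`-expansion of the analytic `∏ (1 - qⁿ)` is the Prelude's formal `etaProd`. -/
theorem qExpansion_etaFun :
    qExpansion 1 etaFun = ModularCurve.etaProd.map (Int.castRingHom ℂ) := by
  ext m
  rw [PowerSeries.coeff_map]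
  have := qExpansion_coeff_unique_of_isNice isNice_etaFun
    (c := fun m => ((PowerSeries.coeff m ModularCurve.etaProd : ℤ) : ℂ)) hasSum_etaFun m
  rw [← this]
  simp

/-- **(QB-1)** `q`-expansion of `E₄` is the Prelude's formal `eisenstein4`. -/
theorem qExpansion_E4 :
    qExpansion 1 E₄ = ModularCurve.eisenstein4.map (Int.castRingHom ℂ) := by
  ext m
  rw [PowerSeries.coeff_map, E_qExpansion_coeff (by norm_num) ⟨2, rfl⟩ m]
  have hb : bernoulli 4 = -1 / 30 := by
    rw [bernoulli_eq_bernoulli'_of_ne_one (by norm_num), bernoulli'_four]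
  simp only [ModularCurve.eisenstein4, PowerSeries.coeff_mk]
  split_ifs with h
  · simp
  · rw [hb]
    simp only [ArithmeticFunction.sigma_apply, eq_intCast]
    push_cast
    ring

/-- `q · J` as a function on `ℍ`: `E₄³ / ∏ (1 - qⁿ)^24`. -/
noncomputable def qJ (τ : ℍ) : ℂ := E₄ τ ^ 3 / etaFun τ ^ 24

lemma qJ_eq (τ : ℍ) : qJ τ = 𝕢 1 τ * (E₄ τ ^ 3 / Δ τ) := by
  rw [qJ, discriminant_eq_qParam_mul]
  have h1 := Function.Periodic.qParam_ne_zero (h := 1) (τ : ℂ)
  have h2 := etaFun_ne_zero τ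
  field_simp

lemma isNice_E4 : IsNice (⇑E₄) := isNice_of_levelOne E₄

lemma tendsto_inv_etaFun_pow : Tendsto (fun τ => (etaFun τ ^ 24)⁻¹) atImInfty (𝓝 1) := by
  simpa using (tendsto_etaFun.pow 24).inv₀ (by simp)

lemma isNice_qJ : IsNice qJ where
  mdiff := by
    rw [UpperHalfPlane.mdifferentiable_iff]
    have h1 := UpperHalfPlane.mdifferentiable_iff.mp (isNice_E4.pow 3).mdiff
    have h2 := UpperHalfPlane.mdifferentiable_iff.mp (isNice_etaFun.pow 24).mdiff
    refine (h1.div h2 (fun z hz => ?_)).congr (fun z hz => ?_)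
    · simp [etaFun_ne_zero]
    · simp [qJ]
  periodic := by
    have h1 := (isNice_E4.pow 3).periodic
    have h2 := (isNice_etaFun.pow 24).periodic
    intro w
    have e1 := h1 w
    have e2 := h2 w
    simp only [comp_apply, Pi.pow_apply] at e1 e2
    simp only [comp_apply, qJ, e1, e2]
  bdd := by
    have h1 : IsBoundedAtImInfty (fun τ => (etaFun τ ^ 24)⁻¹) :=
      tendsto_inv_etaFun_pow.isBigO_one ℝ
    have h2 := (isNice_E4.pow 3).bdd
    have h3 : qJ = (⇑E₄ ^ 3) * (fun τ => (etaFun τ ^ 24)⁻¹) := by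
      ext τ; simp [qJ, div_eq_mul_inv]
    rw [h3]
    exact h2.mul h1

/-- **(QB-3, power-series form)** the `q`-expansion of `q · J` is the Prelude's `jNum`. -/
theorem qExpansion_qJ : qExpansion 1 qJ = ModularCurve.jNum.map (Int.castRingHom ℂ) := by
  have hmul : qJ * etaFun ^ 24 = (⇑E₄) ^ 3 := by
    ext τ
    have h2 := etaFun_ne_zero τ
    simp only [Pi.mul_apply, Pi.pow_apply, qJ]
    field_simp
  have h1 : qExpansion 1 qJ * (qExpansion 1 etaFun) ^ 24 = (qExpansion 1 E₄) ^ 3 := by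
    rw [← isNice_etaFun.qExpansion_pow, ← isNice_qJ.qExpansion_mul (isNice_etaFun.pow 24), hmul,
      isNice_E4.qExpansion_pow]
  rw [qExpansion_etaFun, qExpansion_E4] at h1
  have h2 : (ModularCurve.etaProd.map (Int.castRingHom ℂ)) ^ 24 *
      ModularCurve.dedekindEtaUnitInv.map (Int.castRingHom ℂ) = 1 := by
    rw [← map_pow, ← map_mul]
    have h := ModularCurve.dedekindEtaUnit_mul_inv
    rw [ModularCurve.dedekindEtaUnit] at h
    rw [h, map_one]
  calc qExpansion 1 qJ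
      = qExpansion 1 qJ * ((ModularCurve.etaProd.map (Int.castRingHom ℂ)) ^ 24 *
          ModularCurve.dedekindEtaUnitInv.map (Int.castRingHom ℂ)) := by rw [h2, mul_one]
    _ = (ModularCurve.eisenstein4.map (Int.castRingHom ℂ)) ^ 3 *
          ModularCurve.dedekindEtaUnitInv.map (Int.castRingHom ℂ) := by rw [← mul_assoc, h1]
    _ = ModularCurve.jNum.map (Int.castRingHom ℂ) := by
        rw [ModularCurve.jNum, map_mul, map_pow]

/-- **(QB-3)** `q · J(τ) = ∑ cₙ qⁿ` with `cₙ` the coefficients of the Prelude's `jNumQ`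
(recall `jq = q⁻¹ · jNumQ`). -/
theorem hasSum_jNumQ (τ : ℍ) :
    HasSum (fun n : ℕ => ((PowerSeries.coeff n ModularCurve.jNumQ : ℚ) : ℂ) * 𝕢 1 τ ^ n)
      (𝕢 1 τ * (E₄ τ ^ 3 / Δ τ)) := by
  have h := isNice_qJ.hasSum_qExpansion τ
  rw [qExpansion_qJ, qJ_eq] at h
  convert h using 2 with n
  simp [ModularCurve.jNumQ, PowerSeries.coeff_map]

/-- **(QB-3, scaled)** the same for `J(dτ)`, matching `qExpand d jq`. -/
theorem hasSum_jNumQ_scaled (d : ℕ) (τ τ' : ℍ) (h : (τ' : ℂ) = d * τ) :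
    HasSum (fun n : ℕ => ((PowerSeries.coeff n ModularCurve.jNumQ : ℚ) : ℂ) * 𝕢 1 τ ^ (d * n))
      (𝕢 1 τ ^ d * (E₄ τ' ^ 3 / Δ τ')) := by
  have hq : 𝕢 1 (τ' : ℂ) = 𝕢 1 τ ^ d := by
    rw [h]
    simp only [Function.Periodic.qParam, Complex.ofReal_one, div_one, ← Complex.exp_nat_mul]
    ring_nf
  have h1 := hasSum_jNumQ τ'
  simpa [hq, pow_mul] using h1

/-- `τ ↦ q = exp (2πiτ)` -/
noncomputable def qFun (τ : ℍ) : ℂ := 𝕢 1 τ

lemma isNice_qFun : IsNice qFun where
  mdiff := by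
    rw [UpperHalfPlane.mdifferentiable_iff]
    refine (Function.Periodic.differentiable_qParam (h := 1)).differentiableOn.congr
      fun z hz => ?_
    simp [qFun, ofComplex_apply_of_im_pos hz]
  periodic := by
    intro w
    by_cases hw : 0 < w.im
    · have hw1 : 0 < (w + 1).im := by simpa using hw
      simp only [comp_apply, ofComplex_apply_of_im_pos hw1, ofComplex_apply_of_im_pos hw,
        qFun, UpperHalfPlane.coe_mk]
      rw [qParam_one_add_one]
    · have hw0 : w.im ≤ 0 := not_lt.mp hw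
      have hw1 : (w + 1).im ≤ 0 := by simpa using hw0
      simp [ofComplex_apply_of_im_nonpos hw1, ofComplex_apply_of_im_nonpos hw0]
  bdd := (qParam_tendsto_atImInfty one_pos).isBigO_one ℝ

lemma qExpansion_qFun : qExpansion 1 qFun = PowerSeries.X := by
  ext m
  have := qExpansion_coeff_unique_of_isNice isNice_qFun
    (c := fun m => if m = 1 then 1 else 0) (fun τ => ?_) m
  · rw [← this, PowerSeries.coeff_X]
  · show HasSum _ (𝕢 1 (τ : ℂ))
    convert hasSum_ite_eq 1 (𝕢 1 (τ : ℂ)) using 2 with m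
    split_ifs with h
    · simp [h]
    · simp

lemma discriminant_eq_qFun_mul : (Δ : ℍ → ℂ) = qFun * etaFun ^ 24 := by
  ext τ
  simp [qFun, discriminant_eq_qParam_mul]

/-- **(JB-2)** `q`-expansion of `Δ` is `X * etaProd ^ 24` (Prelude's `dedekindEtaUnit`). -/
theorem qExpansion_discriminant :
    qExpansion 1 Δ = PowerSeries.X * ModularCurve.dedekindEtaUnit.map (Int.castRingHom ℂ) := by
  rw [discriminant_eq_qFun_mul, isNice_qFun.qExpansion_mul (isNice_etaFun.pow 24),
    isNice_etaFun.qExpansion_pow, qExpansion_qFun, qExpansion_etaFun, ModularCurve.dedekindEtaUnit,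
    map_pow]

/-- **(JB-3, formal)** `E₄³ = jq · Δ` as Laurent series over `ℂ` (with the Prelude's `jqModC`). -/
theorem jq_bridge :
    HahnSeries.ofPowerSeries ℤ ℂ (qExpansion 1 E₄) ^ 3 =
      ModularCurve.jqModC ℂ * HahnSeries.ofPowerSeries ℤ ℂ (qExpansion 1 Δ) := by
  rw [qExpansion_E4, qExpansion_discriminant, ModularCurve.jqModC, map_mul,
    HahnSeries.ofPowerSeries_X, ← map_pow]
  have h1 : (HahnSeries.single (-1 : ℤ) (1 : ℂ)) * HahnSeries.single (1 : ℤ) (1 : ℂ) = 1 := by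
    rw [HahnSeries.single_mul_single]; simp
  have h2 : ModularCurve.jNum.map (Int.castRingHom ℂ) *
      ModularCurve.dedekindEtaUnit.map (Int.castRingHom ℂ) =
      (ModularCurve.eisenstein4.map (Int.castRingHom ℂ)) ^ 3 := by
    rw [← map_mul, ← map_pow, ModularCurve.jNum, mul_assoc,
      mul_comm ModularCurve.dedekindEtaUnitInv, ModularCurve.dedekindEtaUnit_mul_inv, mul_one]
  calc HahnSeries.ofPowerSeries ℤ ℂ ((ModularCurve.eisenstein4.map (Int.castRingHom ℂ)) ^ 3)
      = (HahnSeries.single (-1 : ℤ) (1 : ℂ) * HahnSeries.single (1 : ℤ) (1 : ℂ)) *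
          HahnSeries.ofPowerSeries ℤ ℂ (ModularCurve.jNum.map (Int.castRingHom ℂ) *
            ModularCurve.dedekindEtaUnit.map (Int.castRingHom ℂ)) := by rw [h1, one_mul, h2]
    _ = _ := by rw [map_mul]; ring

lemma coeff_jqModC (n : ℕ) :
    (ModularCurve.jqModC ℂ).coeff ((n : ℤ) - 1) = ((PowerSeries.coeff n ModularCurve.jNum : ℤ) : ℂ) := by
  rw [ModularCurve.jqModC, HahnSeries.coeff_single_mul, one_mul, sub_neg_eq_add,
    sub_add_cancel, HahnSeries.ofPowerSeries_apply_coeff, PowerSeries.coeff_map]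
  simp

/-- **(JB-3, analytic)** `q · J(τ) = ∑ (jq).coeff (n - 1) qⁿ`. -/
theorem hasSum_jqModC (τ : ℍ) :
    HasSum (fun n : ℕ => (ModularCurve.jqModC ℂ).coeff ((n : ℤ) - 1) * 𝕢 1 τ ^ n)
      (𝕢 1 τ * (E₄ τ ^ 3 / Δ τ)) := by
  have h := isNice_qJ.hasSum_qExpansion τ
  rw [qExpansion_qJ, qJ_eq] at h
  convert h using 2 with n
  rw [coeff_jqModC, PowerSeries.coeff_map]
  simp

end Analytic

end Fermat.Agent.S24.H74
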