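import Mathlib

/-!
# Core lemma for S24 (helper40)

A holomorphic `SL(2,ℤ)`-invariant function on the upper half plane with a pole of order `≤ m`
at `i∞` is a polynomial of degree `≤ m` in `J = E₄³/Δ`.
-/

set_option autoImplicit false

namespace Fermat.Agent.S24.H40

open UpperHalfPlane ModularForm ModularFormClass MatrixGroups EisensteinSeries Complex Filter
  Function Asymptotics CongruenceSubgroup
open scoped Manifold Topology

local notation "𝕢" => Periodic.qParam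

/-- The `j`-function `E₄³/Δ` (equal to helper38's `J` by unfolding). -/
noncomputable def Jc (τ : ℍ) : ℂ := E₄ τ ^ 3 / discriminant τ

theorem Jc_def (τ : ℍ) : Jc τ = E₄ τ ^ 3 / discriminant τ := rfl

/-! ### Invariant, holomorphic, bounded at `i∞` implies constant -/

theorem slash_zero_eq_of_invariant (h : ℍ → ℂ)
    (hinv : ∀ (γ : SL(2, ℤ)) (τ : ℍ), h (γ • τ) = h τ) (γ : SL(2, ℤ)) :
    h ∣[(0 : ℤ)] γ = h := by
  ext τ
  rw [SL_slash_apply, hinv]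
  simp

theorem const_of_invariant_of_bounded (h : ℍ → ℂ) (hhol : MDiff h)
    (hinv : ∀ (γ : SL(2, ℤ)) (τ : ℍ), h (γ • τ) = h τ) (hbd : IsBoundedAtImInfty h) :
    ∃ c : ℂ, ∀ τ, h τ = c := by
  let f : ModularForm 𝒮ℒ 0 :=
    { toFun := h
      slash_action_eq' := by
        rintro A ⟨γ, rfl⟩
        exact slash_zero_eq_of_invariant h hinv γ
      holo' := hhol
      bdd_at_cusps' := by
        intro c hc
        rw [OnePoint.isBoundedAt_iff_forall_SL2Z hc]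
        intro γ _
        rw [slash_zero_eq_of_invariant h hinv γ]
        exact hbd }
  obtain ⟨c, hc⟩ := levelOne_weight_zero_const f
  exact ⟨c, fun τ => congrFun hc τ⟩

/-! ### Basic facts on `J` -/

theorem E4_smul (γ : SL(2, ℤ)) (τ : ℍ) :
    E₄ (γ • τ) = denom (Matrix.SpecialLinearGroup.toGL
      ((Matrix.SpecialLinearGroup.map (Int.castRingHom ℝ)) γ)) τ ^ (4 : ℤ) * E₄ τ := by
  have : SlashInvariantFormClass (ModularForm 𝒮ℒ 4) Γ(1) 4 :=
    CongruenceSubgroup.Gamma_one_coe_eq_SL ▸ inferInstance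
  exact SlashInvariantForm.slash_action_eqn_SL'' E₄ (CongruenceSubgroup.mem_Gamma_one γ) τ

theorem discriminant_smul (γ : SL(2, ℤ)) (τ : ℍ) :
    discriminant (γ • τ) = denom (Matrix.SpecialLinearGroup.toGL
      ((Matrix.SpecialLinearGroup.map (Int.castRingHom ℝ)) γ)) τ ^ (12 : ℤ) * discriminant τ := by
  have : SlashInvariantFormClass (CuspForm 𝒮ℒ 12) Γ(1) 12 :=
    CongruenceSubgroup.Gamma_one_coe_eq_SL ▸ inferInstance
  exact SlashInvariantForm.slash_action_eqn_SL'' CuspForm.discriminant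
    (CongruenceSubgroup.mem_Gamma_one γ) τ

theorem Jc_smul (γ : SL(2, ℤ)) (τ : ℍ) : Jc (γ • τ) = Jc τ := by
  unfold Jc
  rw [E4_smul, discriminant_smul]
  have hd : denom (Matrix.SpecialLinearGroup.toGL
      ((Matrix.SpecialLinearGroup.map (Int.castRingHom ℝ)) γ)) τ ≠ 0 := denom_ne_zero _ _
  have hΔ := discriminant_ne_zero τ
  field_simp


theorem Jc_mdiff : MDiff Jc := by
  have h4 : MDiff (E₄ : ℍ → ℂ) := ModularFormClass.holo E₄
  have hΔ : MDiff (discriminant : ℍ → ℂ) := CuspFormClass.holo CuspForm.discriminant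
  rw [UpperHalfPlane.mdifferentiable_iff] at h4 hΔ ⊢
  have : (Jc ∘ ofComplex) = fun z => (E₄ ∘ ofComplex) z ^ 3 / (discriminant ∘ ofComplex) z := rfl
  rw [this]
  exact (h4.pow 3).div hΔ (fun z _ => discriminant_ne_zero _)

/-! ### Periodic holomorphic functions bounded at `i∞` -/

theorem periodic_comp_ofComplex_of_vadd (f : ℍ → ℂ) (hf : ∀ τ : ℍ, f ((1 : ℝ) +ᵥ τ) = f τ) :
    Periodic (f ∘ ofComplex) ((1 : ℝ) : ℂ) := by
  intro w
  by_cases! hw : 0 < im w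
  · have : 0 < im (w + ((1 : ℝ) : ℂ)) := by simp [hw]
    simp only [comp_apply, ofComplex_apply_of_im_pos this, ofComplex_apply_of_im_pos hw]
    rw [← hf ⟨w, hw⟩]
    congr 1
    ext
    simp [add_comm]
  · have : im (w + ((1 : ℝ) : ℂ)) ≤ 0 := by simpa using hw
    simp only [comp_apply]
    rw [ofComplex_apply_of_im_nonpos this, ofComplex_apply_of_im_nonpos hw]

theorem vadd_of_invariant (h : ℍ → ℂ)
    (hinv : ∀ (γ : SL(2, ℤ)) (τ : ℍ), h (γ • τ) = h τ) (τ : ℍ) : h ((1 : ℝ) +ᵥ τ) = h τ := by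
  rw [← hinv ModularGroup.T τ, modular_T_smul]

theorem qParam_vadd (τ : ℍ) : 𝕢 1 (((1 : ℝ) +ᵥ τ : ℍ) : ℂ) = 𝕢 1 (τ : ℂ) := by
  have h1 : (((1 : ℝ) +ᵥ τ : ℍ) : ℂ) = (τ : ℂ) + 1 := by
    simp [add_comm]
  rw [h1]
  unfold Periodic.qParam
  rw [show 2 * (Real.pi : ℂ) * Complex.I * ((τ : ℂ) + 1) / ((1 : ℝ) : ℂ)
      = 2 * (Real.pi : ℂ) * Complex.I * (τ : ℂ) / ((1 : ℝ) : ℂ) + 2 * (Real.pi : ℂ) * Complex.I by
    push_cast; ring]
  rw [Complex.exp_add, Complex.exp_two_pi_mul_I, mul_one]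

theorem norm_qParam_one (τ : ℍ) : ‖𝕢 1 (τ : ℂ)‖ = Real.exp (-2 * Real.pi * τ.im) := by
  rw [Periodic.norm_qParam]
  simp

theorem qParam_one_ne_zero (τ : ℍ) : 𝕢 1 (τ : ℂ) ≠ 0 := Periodic.qParam_ne_zero _

theorem mdiff_qParam : MDiff (fun τ : ℍ => 𝕢 1 (τ : ℂ)) := by
  rw [UpperHalfPlane.mdifferentiable_iff]
  have : DifferentiableOn ℂ (𝕢 1) {z : ℂ | 0 < z.im} :=
    (Periodic.differentiable_qParam (h := 1)).differentiableOn
  refine this.congr ?_
  intro z hz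
  simp only [comp_apply, ofComplex_apply_of_im_pos hz]

theorem isBigO_sub_valueAtInfty (f : ℍ → ℂ) (hf : MDiff f)
    (hper : ∀ τ : ℍ, f ((1 : ℝ) +ᵥ τ) = f τ) (hbd : IsBoundedAtImInfty f) :
    (fun τ => f τ - valueAtInfty f) =O[atImInfty] fun τ : ℍ => ‖𝕢 1 (τ : ℂ)‖ := by
  have h1 := exp_decay_sub_atImInfty (h := 1) one_pos (periodic_comp_ofComplex_of_vadd f hper)
    hf hbd
  refine h1.congr_right ?_
  intro τ
  rw [norm_qParam_one]
  simp

theorem tendsto_norm_qParam : Tendsto (fun τ : ℍ => ‖𝕢 1 (τ : ℂ)‖) atImInfty (𝓝 0) := by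
  have := (qParam_tendsto_atImInfty (h := 1) one_pos).norm
  simpa using this

theorem tendsto_valueAtInfty (f : ℍ → ℂ) (hf : MDiff f)
    (hper : ∀ τ : ℍ, f ((1 : ℝ) +ᵥ τ) = f τ) (hbd : IsBoundedAtImInfty f) :
    Tendsto f atImInfty (𝓝 (valueAtInfty f)) := by
  have h1 := (isBigO_sub_valueAtInfty f hf hper hbd).trans_tendsto tendsto_norm_qParam
  have h2 := h1.add_const (valueAtInfty f)
  simpa using h2


/-! ### `J · q → 1` at `i∞` -/

theorem E4_vadd (τ : ℍ) : E₄ ((1 : ℝ) +ᵥ τ) = E₄ τ :=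
  SlashInvariantForm.vAdd_apply_of_mem_strictPeriods E₄ τ one_mem_strictPeriods_SL

theorem tendsto_E4 : Tendsto (fun τ : ℍ => E₄ τ) atImInfty (𝓝 1) := by
  have hbd : IsBoundedAtImInfty (E₄ : ℍ → ℂ) := ModularFormClass.bdd_at_infty E₄
  have hol : MDiff (E₄ : ℍ → ℂ) := ModularFormClass.holo E₄
  have h1 := tendsto_valueAtInfty (E₄ : ℍ → ℂ) hol E4_vadd hbd
  have hper := periodic_comp_ofComplex_of_vadd (E₄ : ℍ → ℂ) E4_vadd
  have h2 : (qExpansion 1 (E₄ : ℍ → ℂ)).coeff 0 = valueAtInfty (E₄ : ℍ → ℂ) :=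
    qExpansion_coeff_zero one_pos (analyticAt_cuspFunction_zero one_pos hper hol hbd) hper
  have h3 : (qExpansion 1 (E₄ : ℍ → ℂ)).coeff 0 = 1 :=
    E_qExpansion_coeff_zero (by norm_num : 3 ≤ 4) (by decide)
  rw [← h2, h3] at h1
  exact h1

theorem Jc_mul_qParam (τ : ℍ) :
    Jc τ * 𝕢 1 (τ : ℂ) = E₄ τ ^ 3 / ∏' n : ℕ, (1 - eta_q n (τ : ℂ)) ^ 24 := by
  unfold Jc
  rw [discriminant_eq_q_prod]
  have hq := qParam_one_ne_zero τ
  have hΔ := discriminant_ne_zero τ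
  rw [discriminant_eq_q_prod] at hΔ
  have hP : ∏' n : ℕ, (1 - eta_q n (τ : ℂ)) ^ 24 ≠ 0 := right_ne_zero_of_mul hΔ
  field_simp

theorem tendsto_Jc_mul_qParam :
    Tendsto (fun τ : ℍ => Jc τ * 𝕢 1 (τ : ℂ)) atImInfty (𝓝 1) := by
  have h1 : Tendsto (fun τ : ℍ => E₄ τ ^ 3 / ∏' n : ℕ, (1 - eta_q n (τ : ℂ)) ^ 24) atImInfty
      (𝓝 (1 ^ 3 / 1)) :=
    (tendsto_E4.pow 3).div tendsto_atImInfty_tprod_one_sub_eta_q_pow one_ne_zero
  simp only [one_pow, div_one] at h1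
  exact h1.congr (fun τ => (Jc_mul_qParam τ).symm)


/-! ### The core lemma -/

theorem Jc_vadd (τ : ℍ) : Jc ((1 : ℝ) +ᵥ τ) = Jc τ := vadd_of_invariant Jc Jc_smul τ

theorem exists_polynomial_of_invariant_aux (m : ℕ) : ∀ (h : ℍ → ℂ), MDiff h →
    (∀ (γ : SL(2, ℤ)) (τ : ℍ), h (γ • τ) = h τ) →
    IsBoundedAtImInfty (fun τ : ℍ => h τ * 𝕢 1 (τ : ℂ) ^ m) →
    ∃ P : Polynomial ℂ, P.natDegree ≤ m ∧ ∀ τ : ℍ, h τ = P.eval (Jc τ) := by
  induction m with
  | zero =>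
    intro h hhol hinv hbd
    simp only [pow_zero, mul_one] at hbd
    obtain ⟨c, hc⟩ := const_of_invariant_of_bounded h hhol hinv hbd
    exact ⟨Polynomial.C c, by simp, fun τ => by simp [hc τ]⟩
  | succ m ih =>
    intro h hhol hinv hbd
    set f : ℍ → ℂ := fun τ => h τ * 𝕢 1 (τ : ℂ) ^ (m + 1) with hf
    have hfhol : MDiff f := hhol.mul (mdiff_qParam.pow (m + 1))
    have hfper : ∀ τ : ℍ, f ((1 : ℝ) +ᵥ τ) = f τ := by
      intro τ
      simp only [hf]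
      rw [vadd_of_invariant h hinv, qParam_vadd]
    set c := valueAtInfty f with hc
    have hf1 := isBigO_sub_valueAtInfty f hfhol hfper hbd
    set G : ℍ → ℂ := fun τ => (Jc τ * 𝕢 1 (τ : ℂ)) ^ (m + 1) with hG
    have hGt : Tendsto G atImInfty (𝓝 1) := by
      simpa using tendsto_Jc_mul_qParam.pow (m + 1)
    have hGhol : MDiff G := (Jc_mdiff.mul mdiff_qParam).pow (m + 1)
    have hGper : ∀ τ : ℍ, G ((1 : ℝ) +ᵥ τ) = G τ := by
      intro τ
      simp only [hG]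
      rw [Jc_vadd, qParam_vadd]
    have hGbd : IsBoundedAtImInfty G := hGt.isBigO_one ℝ
    have hGv : valueAtInfty G = 1 := hGt.limUnder_eq
    have hG1 := isBigO_sub_valueAtInfty G hGhol hGper hGbd
    rw [hGv] at hG1
    set h₁ : ℍ → ℂ := fun τ => h τ - c * Jc τ ^ (m + 1) with hh₁
    have key : ∀ τ : ℍ, h₁ τ * 𝕢 1 (τ : ℂ) ^ (m + 1) = (f τ - c) - c * (G τ - 1) := by
      intro τ
      simp only [hh₁, hf, hG]
      ring
    have hbig : (fun τ : ℍ => h₁ τ * 𝕢 1 (τ : ℂ) ^ (m + 1)) =O[atImInfty]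
        fun τ : ℍ => ‖𝕢 1 (τ : ℂ)‖ := by
      have := hf1.sub (hG1.const_mul_left c)
      exact this.congr_left (fun τ => (key τ).symm)
    have hbd₁ : IsBoundedAtImInfty (fun τ : ℍ => h₁ τ * 𝕢 1 (τ : ℂ) ^ m) := by
      obtain ⟨C, hC⟩ := hbig.bound
      refine IsBigO.of_bound C ?_
      filter_upwards [hC] with τ hτ
      have hq : 0 < ‖𝕢 1 (τ : ℂ)‖ := norm_pos_iff.mpr (qParam_one_ne_zero τ)
      rw [pow_succ, ← mul_assoc, norm_mul, norm_norm] at hτ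
      have := le_of_mul_le_mul_right hτ hq
      simpa using this
    have hh₁hol : MDiff h₁ := hhol.sub (mdifferentiable_const.mul (Jc_mdiff.pow (m + 1)))
    have hh₁inv : ∀ (γ : SL(2, ℤ)) (τ : ℍ), h₁ (γ • τ) = h₁ τ := by
      intro γ τ
      simp only [hh₁]
      rw [hinv, Jc_smul]
    obtain ⟨P₁, hP₁deg, hP₁⟩ := ih h₁ hh₁hol hh₁inv hbd₁
    refine ⟨P₁ + Polynomial.C c * Polynomial.X ^ (m + 1), ?_, ?_⟩
    · refine (Polynomial.natDegree_add_le _ _).trans (max_le (by omega) ?_)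
      exact (Polynomial.natDegree_C_mul_le _ _).trans (Polynomial.natDegree_X_pow_le _)
    · intro τ
      have := hP₁ τ
      simp only [hh₁] at this
      simp only [Polynomial.eval_add, Polynomial.eval_mul, Polynomial.eval_C, Polynomial.eval_pow,
        Polynomial.eval_X]
      linear_combination this

/-- **Core lemma.** A holomorphic `SL(2,ℤ)`-invariant function `h` on `ℍ` such that `h · q^m` is
bounded at `i∞` is a polynomial of degree `≤ m` in `J = E₄³/Δ`. -/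
theorem exists_polynomial_of_invariant (h : ℍ → ℂ) (hhol : MDiff h)
    (hinv : ∀ (γ : SL(2, ℤ)) (τ : ℍ), h (γ • τ) = h τ) (m : ℕ)
    (hbd : IsBoundedAtImInfty (fun τ : ℍ => h τ * 𝕢 1 (τ : ℂ) ^ m)) :
    ∃ P : Polynomial ℂ, P.natDegree ≤ m ∧ ∀ τ : ℍ, h τ = P.eval (E₄ τ ^ 3 / discriminant τ) :=
  exists_polynomial_of_invariant_aux m h hhol hinv hbd

/-- `J · q` is bounded at `i∞` (simple pole of `J`). -/
theorem isBoundedAtImInfty_Jc_mul_qParam :
    IsBoundedAtImInfty (fun τ : ℍ => Jc τ * 𝕢 1 (τ : ℂ)) :=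
  tendsto_Jc_mul_qParam.isBigO_one ℝ

end Fermat.Agent.S24.H40
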