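import Mathlib
import Fermat.Agent.S24.Defs_helper31
import Fermat.Agent.S24.PhiCore_helper20

/-!
# S24, task B4: the `q_N`-expansion ring homomorphism on `RN N`

helper20.  `Ex N : RN N →+* LaurentSeries ℂ`, injective, identity on constants.
-/

set_option autoImplicit false

open Filter Topology UpperHalfPlane CongruenceSubgroup ModularForm Function
open scoped MatrixGroups ModularForm Manifold Real

noncomputable section

namespace Fermat.Agent.S24.H20

open Fermat.Agent.S24.H31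

/-- holomorphic, `N`-periodic and bounded at `i∞`. -/
structure IsNiceN (N : ℕ) (F : ℍ → ℂ) : Prop where
  mdiff : MDiff F
  per : Periodic (F ∘ ofComplex) ((N : ℝ) : ℂ)
  bdd : IsBoundedAtImInfty F

theorem IsNiceN.mul {N : ℕ} {F G : ℍ → ℂ} (hF : IsNiceN N F) (hG : IsNiceN N G) :
    IsNiceN N (F * G) :=
  ⟨hF.mdiff.mul hG.mdiff, hF.per.mul hG.per, hF.bdd.mul hG.bdd⟩

theorem IsNiceN.add {N : ℕ} {F G : ℍ → ℂ} (hF : IsNiceN N F) (hG : IsNiceN N G) :
    IsNiceN N (F + G) :=
  ⟨hF.mdiff.add hG.mdiff, hF.per.add hG.per, hF.bdd.add hG.bdd⟩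

theorem IsNiceN.analyticAt {N : ℕ} [NeZero N] {F : ℍ → ℂ} (hF : IsNiceN N F) :
    AnalyticAt ℂ (cuspFunction (N : ℝ) F) 0 :=
  analyticAt_cuspFunction_zero (by exact_mod_cast NeZero.pos N) hF.per hF.mdiff hF.bdd

/-- `z ↦ exp (2πi m z)`. -/
def uPow (m : ℕ) : ℍ → ℂ := fun z => Complex.exp (2 * π * Complex.I * m * z)

theorem uPow_ne_zero (m : ℕ) (z : ℍ) : uPow m z ≠ 0 := Complex.exp_ne_zero _

theorem uPow_zero : uPow 0 = 1 := by
  funext z
  simp [uPow]

theorem uPow_add (m k : ℕ) : uPow (m + k) = uPow m * uPow k := by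
  funext z
  simp only [uPow, Pi.mul_apply, ← Complex.exp_add]
  congr 1
  push_cast
  ring

theorem uPow_eq_qParam_pow (N : ℕ) [NeZero N] (m : ℕ) (z : ℍ) :
    uPow m z = Periodic.qParam (N : ℝ) z ^ (m * N) := by
  have hN : (N : ℂ) ≠ 0 := by exact_mod_cast NeZero.ne N
  rw [uPow, Periodic.qParam, ← Complex.exp_nat_mul]
  congr 1
  push_cast
  field_simp

theorem uPow_isNiceN (N : ℕ) (m : ℕ) : IsNiceN N (uPow m) := by
  refine ⟨?_, ?_, isBoundedAtImInfty_exp_nat m⟩
  · intro z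
    have : uPow m = (fun w : ℂ => Complex.exp (2 * π * Complex.I * m * w)) ∘ UpperHalfPlane.coe := rfl
    rw [this]
    have h1 : DifferentiableAt ℂ (fun w : ℂ => Complex.exp (2 * π * Complex.I * m * w)) (z : ℂ) := by
      fun_prop
    exact h1.mdifferentiableAt.comp z (mdifferentiable_coe z)
  · intro w
    by_cases hw : 0 < w.im
    · have hw' : 0 < (w + ((N : ℝ) : ℂ)).im := by simpa using hw
      simp only [comp_apply, ofComplex_apply_of_im_pos hw', ofComplex_apply_of_im_pos hw, uPow,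
        UpperHalfPlane.coe_mk]
      have : 2 * π * Complex.I * m * (w + ((N : ℝ) : ℂ))
          = 2 * π * Complex.I * m * w + ((m * N : ℕ) : ℂ) * (2 * π * Complex.I) := by
        push_cast; ring
      rw [this, Complex.exp_add, Complex.exp_nat_mul_two_pi_mul_I, mul_one]
    · have hw1 : w.im ≤ 0 := not_lt.mp hw
      have hw2 : (w + ((N : ℝ) : ℂ)).im ≤ 0 := by simpa using hw1
      simp only [comp_apply]
      rw [ofComplex_apply_eq_of_im_nonpos hw2 hw1]

/-- Plain-function version of Mathlib's `qExpansion_coeff_unique`. -/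
theorem qExpansion_coeff_unique' {h : ℝ} {f : ℍ → ℂ} {c : ℕ → ℂ} (hh : 0 < h)
    (hfanalytic : AnalyticAt ℂ (cuspFunction h f) 0)
    (hf : ∀ τ : ℍ, HasSum (fun m => c m • Periodic.qParam h τ ^ m) (f τ)) (m : ℕ) :
    c m = (qExpansion h f).coeff m := by
  let _ : FunLike (ℍ → ℂ) ℍ ℂ := ⟨fun f => f, fun _ _ h => h⟩
  exact qExpansion_coeff_unique (F := ℍ → ℂ) f hh hfanalytic hf m

theorem qExpansion_uPow (N : ℕ) [NeZero N] (m : ℕ) :
    qExpansion (N : ℝ) (uPow m) = PowerSeries.X ^ (m * N) := by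
  have hN : (0 : ℝ) < N := by exact_mod_cast NeZero.pos N
  ext k
  have key := qExpansion_coeff_unique' (f := uPow m)
    (c := fun k => if k = m * N then (1 : ℂ) else 0) hN
    (uPow_isNiceN N m).analyticAt (fun τ => by
      have h := hasSum_ite_eq (m * N) (Periodic.qParam (N : ℝ) τ ^ (m * N))
      rw [uPow_eq_qParam_pow N m τ]
      convert h using 2 with k
      split_ifs with hk
      · rw [hk, one_smul]
      · rw [zero_smul]) k
  rw [← key, PowerSeries.coeff_X_pow]

/-! ### Elements of `RN N` -/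

theorem periodic_of_isWH {N : ℕ} {f : ℍ → ℂ} (hf : IsWH N f) :
    Periodic (f ∘ ofComplex) ((N : ℝ) : ℂ) := by
  intro w
  by_cases hw : 0 < w.im
  · have hw' : 0 < (w + ((N : ℝ) : ℂ)).im := by simpa using hw
    simp only [comp_apply, ofComplex_apply_of_im_pos hw', ofComplex_apply_of_im_pos hw]
    have hT : ModularGroup.T ^ (N : ℤ) ∈ Gamma N := by
      have := ModularGroup_T_pow_mem_Gamma (N : ℤ) (N : ℤ) dvd_rfl
      simpa using this
    have hz : (⟨w + ((N : ℝ) : ℂ), hw'⟩ : ℍ) = ModularGroup.T ^ (N : ℤ) • (⟨w, hw⟩ : ℍ) := by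
      apply UpperHalfPlane.ext
      rw [ModularGroup.coe_T_zpow_smul_eq]
      simp
    rw [hz, hf.inv _ hT]
  · have hw1 : w.im ≤ 0 := not_lt.mp hw
    have hw2 : (w + ((N : ℝ) : ℂ)).im ≤ 0 := by simpa using hw1
    simp only [comp_apply]
    rw [ofComplex_apply_eq_of_im_nonpos hw2 hw1]

theorem isNiceN_mul_uPow {N : ℕ} {f : ℍ → ℂ} (hf : IsWH N f) {m : ℕ}
    (hb : IsBoundedAtImInfty (fun z : ℍ => f z * Complex.exp (2 * π * Complex.I * m * z))) :
    IsNiceN N (f * uPow m) :=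
  ⟨hf.mdiff.mul (uPow_isNiceN N m).mdiff, (periodic_of_isWH hf).mul (uPow_isNiceN N m).per, hb⟩

theorem exists_isNiceN_mul_uPow {N : ℕ} {f : ℍ → ℂ} (hf : IsWH N f) :
    ∃ m : ℕ, IsNiceN N (f * uPow m) := by
  obtain ⟨m, hm⟩ := hf.mero 1
  refine ⟨m, isNiceN_mul_uPow hf ?_⟩
  simpa only [one_smul] using hm

/-! ### Laurent expansion -/

/-- The candidate Laurent expansion with pole bound `m`. -/
def Laur (N : ℕ) (m : ℕ) (F : ℍ → ℂ) : LaurentSeries ℂ :=
  HahnSeries.single (-((m * N : ℕ) : ℤ)) (1 : ℂ)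
    * HahnSeries.ofPowerSeries ℤ ℂ (qExpansion (N : ℝ) (F * uPow m))

theorem single_neg_mul_single (a : ℕ) :
    HahnSeries.single (-(a : ℤ)) (1 : ℂ) * HahnSeries.single (a : ℤ) (1 : ℂ) = 1 := by
  rw [HahnSeries.single_mul_single, neg_add_cancel, one_mul]
  rfl

theorem Laur_shift {N : ℕ} [NeZero N] {m : ℕ} {F : ℍ → ℂ} (hF : IsNiceN N (F * uPow m)) (k : ℕ) :
    Laur N (m + k) F = Laur N m F := by
  have e : F * uPow (m + k) = (F * uPow m) * uPow k := by rw [uPow_add, mul_assoc]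
  unfold Laur
  rw [e, qExpansion_mul hF.analyticAt (uPow_isNiceN N k).analyticAt, qExpansion_uPow, map_mul,
    HahnSeries.ofPowerSeries_X_pow]
  have h1 : HahnSeries.single (-(((m + k) * N : ℕ) : ℤ)) (1 : ℂ)
      = HahnSeries.single (-((m * N : ℕ) : ℤ)) (1 : ℂ)
        * HahnSeries.single (-((k * N : ℕ) : ℤ)) (1 : ℂ) := by
    rw [HahnSeries.single_mul_single, one_mul]
    congr 1
    push_cast
    ring
  rw [h1]
  calc HahnSeries.single (-((m * N : ℕ) : ℤ)) (1 : ℂ) * HahnSeries.single (-((k * N : ℕ) : ℤ)) 1 *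
        (HahnSeries.ofPowerSeries ℤ ℂ (qExpansion (N : ℝ) (F * uPow m))
          * HahnSeries.single ((k * N : ℕ) : ℤ) 1)
      = HahnSeries.single (-((m * N : ℕ) : ℤ)) (1 : ℂ)
          * HahnSeries.ofPowerSeries ℤ ℂ (qExpansion (N : ℝ) (F * uPow m))
          * (HahnSeries.single (-((k * N : ℕ) : ℤ)) 1 * HahnSeries.single ((k * N : ℕ) : ℤ) 1) := by
        ring
    _ = _ := by rw [single_neg_mul_single, mul_one]

theorem Laur_eq_of_isNiceN {N : ℕ} [NeZero N] {m m' : ℕ} {F : ℍ → ℂ}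
    (hF : IsNiceN N (F * uPow m)) (hF' : IsNiceN N (F * uPow m')) : Laur N m F = Laur N m' F := by
  rw [← Laur_shift hF m', ← Laur_shift hF' m, add_comm]

theorem Laur_mul {N : ℕ} [NeZero N] {m m' : ℕ} {F G : ℍ → ℂ}
    (hF : IsNiceN N (F * uPow m)) (hG : IsNiceN N (G * uPow m')) :
    Laur N (m + m') (F * G) = Laur N m F * Laur N m' G := by
  have e : F * G * uPow (m + m') = (F * uPow m) * (G * uPow m') := by
    rw [uPow_add]; ring
  unfold Laur
  rw [e, qExpansion_mul hF.analyticAt hG.analyticAt, map_mul]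
  have h1 : HahnSeries.single (-(((m + m') * N : ℕ) : ℤ)) (1 : ℂ)
      = HahnSeries.single (-((m * N : ℕ) : ℤ)) (1 : ℂ)
        * HahnSeries.single (-((m' * N : ℕ) : ℤ)) (1 : ℂ) := by
    rw [HahnSeries.single_mul_single, one_mul]
    congr 1
    push_cast
    ring
  rw [h1]
  ring

theorem Laur_add {N : ℕ} [NeZero N] {m : ℕ} {F G : ℍ → ℂ}
    (hF : IsNiceN N (F * uPow m)) (hG : IsNiceN N (G * uPow m)) :
    Laur N m (F + G) = Laur N m F + Laur N m G := by
  have e : (F + G) * uPow m = F * uPow m + G * uPow m := add_mul _ _ _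
  unfold Laur
  rw [e, qExpansion_add hF.analyticAt hG.analyticAt, map_add, mul_add]

theorem isNiceN_mul_uPow_add {N : ℕ} {m : ℕ} {F : ℍ → ℂ} (hF : IsNiceN N (F * uPow m)) (k : ℕ) :
    IsNiceN N (F * uPow (m + k)) := by
  rw [uPow_add, ← mul_assoc]
  exact hF.mul (uPow_isNiceN N k)

theorem Laur_eq_zero_iff {N : ℕ} [NeZero N] {m : ℕ} {F : ℍ → ℂ} (hF : IsNiceN N (F * uPow m)) :
    Laur N m F = 0 ↔ F = 0 := by
  have hN : (0 : ℝ) < N := by exact_mod_cast NeZero.pos N
  constructor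
  · intro h
    have h1 : HahnSeries.ofPowerSeries ℤ ℂ (qExpansion (N : ℝ) (F * uPow m)) = 0 := by
      have := congrArg (fun x => HahnSeries.single (((m * N : ℕ) : ℤ)) (1 : ℂ) * x) h
      simp only [Laur, mul_zero, ← mul_assoc] at this
      rwa [mul_comm (HahnSeries.single (((m * N : ℕ) : ℤ)) (1 : ℂ)), single_neg_mul_single,
        one_mul] at this
    have h2 : qExpansion (N : ℝ) (F * uPow m) = 0 :=
      HahnSeries.ofPowerSeries_injective (by rw [h1, map_zero])
    have h3 := (qExpansion_eq_zero_iff hN hF.per hF.mdiff hF.bdd).mp h2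
    funext z
    have h4 := congrFun h3 z
    simp only [Pi.mul_apply, Pi.zero_apply, mul_eq_zero] at h4
    exact h4.resolve_right (uPow_ne_zero m z)
  · intro h
    subst h
    unfold Laur
    rw [zero_mul, qExpansion_zero, map_zero, mul_zero]

/-! ### The expansion homomorphism on `RN N` -/

section Ex

variable (N : ℕ) [NeZero N]

/-- A pole bound for `f : RN N`. -/
def poleBd (f : RN N) : ℕ := (exists_isNiceN_mul_uPow f.2).choose

theorem poleBd_spec (f : RN N) : IsNiceN N ((f : ℍ → ℂ) * uPow (poleBd N f)) :=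
  (exists_isNiceN_mul_uPow f.2).choose_spec

/-- The `q_N`-expansion of `f : RN N` as a Laurent series. -/
def exFun (f : RN N) : LaurentSeries ℂ := Laur N (poleBd N f) (f : ℍ → ℂ)

theorem exFun_eq (f : RN N) {m : ℕ} (hm : IsNiceN N ((f : ℍ → ℂ) * uPow m)) :
    exFun N f = Laur N m (f : ℍ → ℂ) :=
  Laur_eq_of_isNiceN (poleBd_spec N f) hm

theorem exFun_mul (f g : RN N) : exFun N (f * g) = exFun N f * exFun N g := by
  have hf := poleBd_spec N f
  have hg := poleBd_spec N g
  have hfg : IsNiceN N (((f * g : RN N) : ℍ → ℂ) * uPow (poleBd N f + poleBd N g)) := by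
    have e : ((f * g : RN N) : ℍ → ℂ) * uPow (poleBd N f + poleBd N g)
        = ((f : ℍ → ℂ) * uPow (poleBd N f)) * ((g : ℍ → ℂ) * uPow (poleBd N g)) := by
      rw [uPow_add]
      show (f : ℍ → ℂ) * (g : ℍ → ℂ) * _ = _
      ring
    rw [e]
    exact hf.mul hg
  rw [exFun_eq N (f * g) hfg]
  exact Laur_mul hf hg

theorem exFun_add (f g : RN N) : exFun N (f + g) = exFun N f + exFun N g := by
  have hf := isNiceN_mul_uPow_add (poleBd_spec N f) (poleBd N g)
  have hg := isNiceN_mul_uPow_add (poleBd_spec N g) (poleBd N f)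
  rw [add_comm (poleBd N g) (poleBd N f)] at hg
  have hfg : IsNiceN N (((f + g : RN N) : ℍ → ℂ) * uPow (poleBd N f + poleBd N g)) := by
    have e : ((f + g : RN N) : ℍ → ℂ) * uPow (poleBd N f + poleBd N g)
        = (f : ℍ → ℂ) * uPow (poleBd N f + poleBd N g)
          + (g : ℍ → ℂ) * uPow (poleBd N f + poleBd N g) := by
      show ((f : ℍ → ℂ) + (g : ℍ → ℂ)) * _ = _
      rw [add_mul]
    rw [e]
    exact hf.add hg
  rw [exFun_eq N (f + g) hfg, exFun_eq N f hf, exFun_eq N g hg]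
  exact Laur_add hf hg

theorem isNiceN_const (c : ℂ) : IsNiceN N ((fun _ : ℍ => c) * uPow 0) := by
  rw [uPow_zero, mul_one]
  refine ⟨mdifferentiable_const, fun w => rfl, Filter.const_boundedAtFilter _ c⟩

theorem exFun_algebraMap (c : ℂ) :
    exFun N (algebraMap ℂ (RN N) c) = algebraMap ℂ (LaurentSeries ℂ) c := by
  have hc := isNiceN_const N c
  have hcoe : ((algebraMap ℂ (RN N) c : RN N) : ℍ → ℂ) = fun _ : ℍ => c := rfl
  rw [exFun_eq N (algebraMap ℂ (RN N) c) (m := 0) (by rw [hcoe]; exact hc), hcoe]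
  unfold Laur
  have e : (fun _ : ℍ => c) * uPow 0 = c • (1 : ℍ → ℂ) := by
    rw [uPow_zero, mul_one]
    funext z
    simp
  have h1 : AnalyticAt ℂ (cuspFunction (N : ℝ) (1 : ℍ → ℂ)) 0 := by
    have := (isNiceN_const N 1).analyticAt
    rwa [uPow_zero, mul_one] at this
  rw [e, qExpansion_smul h1, qExpansion_one]
  have h2 : (c • (1 : PowerSeries ℂ)) = PowerSeries.C c := by
    rw [PowerSeries.smul_eq_C_mul, mul_one]
  rw [h2, HahnSeries.ofPowerSeries_C]
  simp only [Nat.zero_mul, Nat.cast_zero, neg_zero]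
  rw [ModularCurve.algebraMap_laurentSeries_eq_single]
  have h3 : HahnSeries.single (0 : ℤ) (1 : ℂ) = 1 := rfl
  rw [h3, one_mul]
  rfl

/-- The `q_N`-expansion ring homomorphism `RN N →+* ℂ((q_N))`. -/
def Ex : RN N →+* LaurentSeries ℂ where
  toFun := exFun N
  map_one' := by
    have := exFun_algebraMap N 1
    rwa [map_one, map_one] at this
  map_mul' := exFun_mul N
  map_zero' := by
    have := exFun_algebraMap N 0
    rwa [map_zero, map_zero] at this
  map_add' := exFun_add N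

theorem Ex_apply (f : RN N) : Ex N f = exFun N f := rfl

theorem Ex_algebraMap (c : ℂ) :
    Ex N (algebraMap ℂ (RN N) c) = algebraMap ℂ (LaurentSeries ℂ) c := exFun_algebraMap N c

theorem Ex_injective : Function.Injective (Ex N) := by
  rw [injective_iff_map_eq_zero]
  intro f hf
  have h := (Laur_eq_zero_iff (poleBd_spec N f)).mp hf
  exact Subtype.ext h

end Ex

end Fermat.Agent.S24.H20
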