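import Mathlib
import Fermat.Agent.S24.PhiEx_helper20
import Fermat.Agent.S24.JqBridge_helper74

/-!
# S24, task B4: the `q_N`-expansion of `z ↦ j (d z)`

helper20.  `Ex_eq_of_coe_eq_jdFun`: for `f : RN N` with underlying function `jdFun d`,
`Ex N f = qExpand ℂ N (jqNModC ℂ d)` (uses helper74's bridge `qExpansion_qJ`).
-/

set_option autoImplicit false

open Filter Topology UpperHalfPlane CongruenceSubgroup ModularForm Function
open scoped MatrixGroups ModularForm Manifold Real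

noncomputable section

namespace Fermat.Agent.S24.H20

open Fermat.Agent.S24.H31 ModularCurve

/-- coefficients of `P (X ^ M)` -/
def expCoeff (M : ℕ) (c : ℕ → ℂ) (k : ℕ) : ℂ := if M ∣ k then c (k / M) else 0

theorem hasSum_expCoeff {M : ℕ} (hM : 0 < M) {c : ℕ → ℂ} {q s : ℂ}
    (h : HasSum (fun n => c n * (q ^ M) ^ n) s) :
    HasSum (fun k => expCoeff M c k • q ^ k) s := by
  have hinj : Function.Injective (fun n : ℕ => M * n) := mul_right_injective₀ hM.ne'
  rw [← hinj.hasSum_iff]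
  · convert h using 2 with n
    simp [expCoeff, hM, pow_mul]
  · intro k hk
    have : ¬ M ∣ k := fun ⟨n, hn⟩ => hk ⟨n, hn.symm⟩
    simp [expCoeff, this]

theorem ofPowerSeries_expCoeff (M : ℕ) [NeZero M] (P Q : PowerSeries ℂ)
    (h : ∀ k, Q.coeff k = expCoeff M (fun n => P.coeff n) k) :
    HahnSeries.ofPowerSeries ℤ ℂ Q = qExpand ℂ M (HahnSeries.ofPowerSeries ℤ ℂ P) := by
  have hM : 0 < M := NeZero.pos M
  ext k
  by_cases hk : (M : ℤ) ∣ k
  · obtain ⟨m, rfl⟩ := hk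
    rw [qExpand_coeff_mul]
    rcases lt_or_ge m 0 with hm | hm
    · rw [ofPowerSeries_coeff_of_neg _ hm, ofPowerSeries_coeff_of_neg]
      exact mul_neg_of_pos_of_neg (by exact_mod_cast hM) hm
    · lift m to ℕ using hm
      rw [show (M : ℤ) * (m : ℤ) = ((M * m : ℕ) : ℤ) by push_cast; rfl,
        HahnSeries.ofPowerSeries_apply_coeff, HahnSeries.ofPowerSeries_apply_coeff, h]
      simp [expCoeff, hM]
  · rw [qExpand_coeff_of_not_dvd _ _ hk]
    rcases lt_or_ge k 0 with hk0 | hk0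
    · exact ofPowerSeries_coeff_of_neg _ hk0
    · lift k to ℕ using hk0
      rw [HahnSeries.ofPowerSeries_apply_coeff, h]
      have : ¬ M ∣ k := by exact_mod_cast hk
      simp [expCoeff, this]

theorem coe_ofComplex_mul (d : ℕ) [NeZero d] (z : ℍ) :
    ((ofComplex ((d : ℂ) * (z : ℂ)) : ℍ) : ℂ) = (d : ℂ) * (z : ℂ) := by
  have hd : (0 : ℝ) < d := by exact_mod_cast NeZero.pos d
  have him : 0 < ((d : ℂ) * (z : ℂ)).im := by
    simpa using mul_pos hd z.im_pos
  rw [ofComplex_apply_of_im_pos him]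

theorem qParam_ofComplex_mul (d : ℕ) [NeZero d] (z : ℍ) :
    Periodic.qParam 1 ((ofComplex ((d : ℂ) * (z : ℂ)) : ℍ) : ℂ) = uPow d z := by
  rw [coe_ofComplex_mul, Periodic.qParam, uPow]
  congr 1
  simp
  ring

theorem hasSum_jdFun (d : ℕ) [NeZero d] (z : ℍ) :
    HasSum (fun n : ℕ => (PowerSeries.coeff n (jNum.map (Int.castRingHom ℂ))) * (uPow d z) ^ n)
      (jdFun d z * uPow d z) := by
  have h := H74.isNice_qJ.hasSum_qExpansion (ofComplex ((d : ℂ) * (z : ℂ)))
  rw [H74.qExpansion_qJ, H74.qJ_eq, qParam_ofComplex_mul] at h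
  have e : jdFun d z * uPow d z = uPow d z * (E₄ (ofComplex ((d : ℂ) * (z : ℂ))) ^ 3 /
      ModularForm.discriminant (ofComplex ((d : ℂ) * (z : ℂ)))) := by
    rw [mul_comm]; rfl
  rw [e]
  exact h

theorem isBoundedAtImInfty_jdFun_mul (d : ℕ) [NeZero d] :
    IsBoundedAtImInfty (fun z : ℍ => jdFun d z * Complex.exp (2 * π * Complex.I * d * z)) := by
  have hb := H74.isNice_qJ.bdd
  rw [UpperHalfPlane.isBoundedAtImInfty_iff] at hb ⊢
  obtain ⟨M, A, hMA⟩ := hb
  refine ⟨M, max A 0, fun z hz => ?_⟩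
  have hd : (1 : ℝ) ≤ d := by exact_mod_cast NeZero.pos d
  have hco := coe_ofComplex_mul d z
  have him : (ofComplex ((d : ℂ) * (z : ℂ)) : ℍ).im = d * z.im := by
    have := congrArg Complex.im hco
    simpa using this
  have hA : A ≤ (ofComplex ((d : ℂ) * (z : ℂ)) : ℍ).im := by
    rw [him]
    have h0 : 0 ≤ z.im := z.im_pos.le
    nlinarith [le_max_left A 0, le_max_right A 0]
  have h := hMA _ hA
  rw [H74.qJ_eq, qParam_ofComplex_mul] at h
  have e : jdFun d z * Complex.exp (2 * π * Complex.I * d * z)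
      = uPow d z * (E₄ (ofComplex ((d : ℂ) * (z : ℂ))) ^ 3 /
      ModularForm.discriminant (ofComplex ((d : ℂ) * (z : ℂ)))) := by
    rw [mul_comm]; rfl
  rw [e]
  exact h

theorem Ex_eq_of_coe_eq_jdFun (N : ℕ) [NeZero N] (d : ℕ) [NeZero d] (f : RN N)
    (hf : (f : ℍ → ℂ) = jdFun d) : Ex N f = qExpand ℂ N (jqNModC ℂ d) := by
  have hN : (0 : ℝ) < N := by exact_mod_cast NeZero.pos N
  have hb : IsBoundedAtImInfty
      (fun z : ℍ => (f : ℍ → ℂ) z * Complex.exp (2 * π * Complex.I * d * z)) := by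
    rw [hf]; exact isBoundedAtImInfty_jdFun_mul d
  have hnice : IsNiceN N ((f : ℍ → ℂ) * uPow d) := isNiceN_mul_uPow f.2 hb
  rw [Ex_apply, exFun_eq N f hnice, Laur]
  have hcoeff : ∀ k, (qExpansion (N : ℝ) ((f : ℍ → ℂ) * uPow d)).coeff k
      = expCoeff (d * N) (fun n => (jNum.map (Int.castRingHom ℂ)).coeff n) k := by
    intro k
    refine (qExpansion_coeff_unique' hN hnice.analyticAt (fun τ => ?_) k).symm
    have h := hasSum_jdFun d τ
    have e : ((f : ℍ → ℂ) * uPow d) τ = jdFun d τ * uPow d τ := by rw [hf]; rfl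
    rw [e]
    have h' : HasSum (fun n : ℕ => (PowerSeries.coeff n (jNum.map (Int.castRingHom ℂ)))
        * (Periodic.qParam (N : ℝ) τ ^ (d * N)) ^ n) (jdFun d τ * uPow d τ) := by
      rw [← uPow_eq_qParam_pow N d τ]; exact h
    exact hasSum_expCoeff (Nat.mul_pos (NeZero.pos d) (NeZero.pos N)) h'
  rw [ofPowerSeries_expCoeff (d * N) _ _ hcoeff]
  rw [jqNModC, qExpand_qExpand, jqModC, map_mul, qExpand_single,
    qExpand_congr (mul_comm N d)]
  rw [show (-((d * N : ℕ) : ℤ)) = ((N * d : ℕ) : ℤ) * (-1) by push_cast; ring]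

end Fermat.Agent.S24.H20
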