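import Mathlib
import Fermat.Agent.S24.Spec_helper31
import Fermat.Agent.S24.PhiGen_helper20
import Fermat.Agent.S24.ConjFun_helper23

/-!
# S24, task B4: the embedding `Φ : FN N →+* L N`

helper20.  Main result: `nonempty_phiData (N) [NeZero N] : Nonempty (H31.PhiData N)`.

* `exists_relation_of_coeff`: a linear relation with coefficients in an extension field between
  vectors over the base field descends to the base field.
* `jdR N d hd : RN N`: the function `z ↦ j (d z)` (from helper23's `ConjFun`), `smul_jdR`.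
* `exists_Phi_full`: the embedding with its values on constants and on the generators `Jd`,
  and its `Γ₀(N)`-invariance.
* `lin_disjoint_of`: linear disjointness from `ℂ` over `Kbar` (via the `q`-expansion).
-/

set_option autoImplicit false

open Filter Topology UpperHalfPlane CongruenceSubgroup ModularForm Function
open scoped MatrixGroups ModularForm Manifold Real

noncomputable section

namespace Fermat.Agent.S24.H20

open Fermat.Agent.S24.H31 ModularCurve

/-! ### Linear algebra: relations with coefficients in an extension field descend -/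

theorem exists_relation_of_coeff {K E : Type*} [Field K] [Field E] (ι : K →+* E) {I : Type*}
    (m : ℕ) (w : I → Fin m → K) (c : Fin m → E) (hc : c ≠ 0)
    (h : ∀ i, ∑ k, c k * ι (w i k) = 0) :
    ∃ a : Fin m → K, a ≠ 0 ∧ ∀ i, ∑ k, a k * w i k = 0 := by
  classical
  set V : Submodule K (Fin m → K) := Submodule.span K (Set.range w) with hV
  have hVc : ∀ v ∈ V, ∑ k, c k * ι (v k) = 0 := by
    intro v hv
    induction hv using Submodule.span_induction with
    | mem x hx => obtain ⟨i, rfl⟩ := hx; exact h i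
    | zero => simp
    | add x y _ _ hx hy =>
      simp only [Pi.add_apply, map_add, mul_add, Finset.sum_add_distrib, hx, hy, add_zero]
    | smul a x _ hx =>
      have e : ∑ k, c k * ι ((a • x) k) = ι a * ∑ k, c k * ι (x k) := by
        rw [Finset.mul_sum]
        refine Finset.sum_congr rfl (fun k _ => ?_)
        simp only [Pi.smul_apply, smul_eq_mul, map_mul]
        ring
      rw [e, hx, mul_zero]
  have hlt : V < ⊤ := by
    rw [lt_top_iff_ne_top]
    intro htop
    apply hc
    funext k₀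
    have hmem : (fun j => if k₀ = j then (1 : K) else 0) ∈ V := by rw [htop]; trivial
    have h0 := hVc _ hmem
    have e : ∑ k, c k * ι (if k₀ = k then (1 : K) else 0) = c k₀ := by
      rw [Finset.sum_eq_single k₀]
      · simp
      · intro b _ hb
        rw [if_neg (Ne.symm hb), map_zero, mul_zero]
      · intro hk; exact absurd (Finset.mem_univ _) hk
    rw [e] at h0
    exact h0
  obtain ⟨f, hf0, hfV⟩ := Submodule.exists_le_ker_of_lt_top V hlt
  refine ⟨fun k => f (fun j => if k = j then 1 else 0), ?_, fun i => ?_⟩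
  · intro ha
    apply hf0
    refine LinearMap.ext (fun x => ?_)
    rw [LinearMap.pi_apply_eq_sum_univ f x]
    have : ∀ k, f (fun j => if k = j then (1 : K) else 0) = 0 := fun k => congrFun ha k
    simp [this]
  · have h0 : f (w i) = 0 := hfV (Submodule.subset_span ⟨i, rfl⟩)
    rw [LinearMap.pi_apply_eq_sum_univ f (w i)] at h0
    refine Eq.trans (Finset.sum_congr rfl (fun k _ => ?_)) h0
    rw [smul_eq_mul, mul_comm]

/-! ### The analytic generators -/

theorem isWH_jdFun (N d : ℕ) (hd0 : 0 < d) (hd : d ∣ N) : IsWH N (jdFun d) where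
  mdiff := H23.mdiff_jdF d
  inv := fun _ hγ z =>
    H23.jdF_smul_of_mem_Gamma0 hd0 hd (Gamma0_mem.mpr (Gamma_mem.mp hγ).2.2.1) z
  mero := fun g => H23.exists_isBoundedAtImInfty_jdF_smul hd0 g

/-- `z ↦ j (d z)` as an element of `RN N`, for `d ∣ N`. -/
def jdR (N : ℕ) [NeZero N] (d : ℕ) (hd : d ∣ N) : RN N :=
  ⟨jdFun d, isWH_jdFun N d (Nat.pos_of_dvd_of_pos hd (NeZero.pos N)) hd⟩

theorem coe_jdR (N : ℕ) [NeZero N] (d : ℕ) (hd : d ∣ N) : (jdR N d hd : ℍ → ℂ) = jdFun d := rfl

theorem smul_jdR (N : ℕ) [NeZero N] (d : ℕ) (hd : d ∣ N) (γ : SL(2, ℤ)) (hγ : γ ∈ Gamma0 N) :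
    γ • jdR N d hd = jdR N d hd := by
  apply Subtype.ext
  funext z
  rw [smul_RN_apply]
  exact H23.jdF_smul_of_mem_Gamma0 (Nat.pos_of_dvd_of_pos hd (NeZero.pos N)) hd
    (inv_mem hγ) z

/-! ### The embedding -/

section Assembly

variable (N : ℕ) [NeZero N]

theorem exists_Phi_full :
    ∃ Φ : FN N →+* L N,
      (∀ c : Kbar, Φ (algebraMap Kbar (FN N) c)
        = algebraMap (RN N) (L N) (algebraMap ℂ (RN N) (iota c))) ∧
      (∀ (d : ℕ) [NeZero d] (hd : d ∣ N),
        Φ (H31.Jd N d hd) = algebraMap (RN N) (L N) (jdR N d hd)) ∧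
      (∀ γ ∈ Gamma0 N, ∀ f : FN N, γ • Φ f = Φ f) := by
  obtain ⟨Φ, h1, h2, h3⟩ := exists_Phi_of_expansion N iota (R := RN N) (L := L N)
    (IsFractionRing.injective (RN N) (L N)) (fun d hd => jdR N d hd) (Ex N) (Ex_injective N)
    (Ex_algebraMap N) (fun d _ hd => Ex_eq_of_coe_eq_jdFun N d _ rfl)
  refine ⟨Φ, h1, fun d _ hd => h2 d hd _, fun γ hγ f => ?_⟩
  exact h3 (MulSemiringAction.toRingHom SL(2, ℤ) (L N) γ)
    (fun c => by
      have h := smul_algebraMap_complex_L (N := N) γ c
      rw [IsScalarTower.algebraMap_apply ℂ (RN N) (L N)] at h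
      exact h)
    (fun d hd => (smul_algebraMap_L γ (jdR N d hd)).trans (by rw [smul_jdR N d hd γ hγ])) f

theorem exists_RN_of_mem_adjoin (Φ : FN N →+* L N)
    (hΦc : ∀ c : Kbar, Φ (algebraMap Kbar (FN N) c)
        = algebraMap (RN N) (L N) (algebraMap ℂ (RN N) (iota c)))
    (hΦg : ∀ (d : ℕ) [NeZero d] (hd : d ∣ N),
        Φ (H31.Jd N d hd) = algebraMap (RN N) (L N) (jdR N d hd))
    (u : FN N) (hu : u ∈ Algebra.adjoin Kbar (JdSet N)) :
    ∃ r : RN N, Φ u = algebraMap (RN N) (L N) r ∧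
      Ex N r = phiFormal N iota (u : LaurentSeries Kbar) := by
  induction hu using Algebra.adjoin_induction with
  | mem x hx =>
    obtain ⟨d, hd0, hd, rfl⟩ := hx
    refine ⟨jdR N d hd, hΦg d hd, ?_⟩
    rw [Ex_eq_of_coe_eq_jdFun N d _ rfl]
    exact (phiFormal_Jd N iota d hd).symm
  | algebraMap c =>
    refine ⟨algebraMap ℂ (RN N) (iota c), hΦc c, ?_⟩
    rw [Ex_algebraMap]
    exact (phiFormal_algebraMap N iota c).symm
  | add x y _ _ hx hy =>
    obtain ⟨r, hr1, hr2⟩ := hx
    obtain ⟨s, hs1, hs2⟩ := hy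
    refine ⟨r + s, by rw [RingHom.map_add, RingHom.map_add, hr1, hs1], ?_⟩
    rw [map_add, hr2, hs2]
    exact (map_add (phiFormal N iota) _ _).symm
  | mul x y _ _ hx hy =>
    obtain ⟨r, hr1, hr2⟩ := hx
    obtain ⟨s, hs1, hs2⟩ := hy
    refine ⟨r * s, by rw [RingHom.map_mul, RingHom.map_mul, hr1, hs1], ?_⟩
    rw [map_mul, hr2, hs2]
    exact (map_mul (phiFormal N iota) _ _).symm

theorem lin_disjoint_of (Φ : FN N →+* L N)
    (hΦc : ∀ c : Kbar, Φ (algebraMap Kbar (FN N) c)
        = algebraMap (RN N) (L N) (algebraMap ℂ (RN N) (iota c)))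
    (hΦg : ∀ (d : ℕ) [NeZero d] (hd : d ∣ N),
        Φ (H31.Jd N d hd) = algebraMap (RN N) (L N) (jdR N d hd))
    (m : ℕ) (u : Fin m → FN N) (hu : ∀ k, u k ∈ Algebra.adjoin Kbar (JdSet N))
    (c : Fin m → ℂ) (hc : c ≠ 0) (hsum : ∑ k, algebraMap ℂ (L N) (c k) * Φ (u k) = 0) :
    ∃ a : Fin m → Kbar, a ≠ 0 ∧ ∑ k, a k • u k = 0 := by
  choose r hr1 hr2 using fun k => exists_RN_of_mem_adjoin N Φ hΦc hΦg (u k) (hu k)
  have h1 : algebraMap (RN N) (L N) (∑ k, algebraMap ℂ (RN N) (c k) * r k) = 0 := by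
    rw [map_sum, ← hsum]
    refine Finset.sum_congr rfl (fun k _ => ?_)
    rw [map_mul, hr1 k, ← IsScalarTower.algebraMap_apply ℂ (RN N) (L N)]
  have h2 : ∑ k, algebraMap ℂ (RN N) (c k) * r k = 0 :=
    IsFractionRing.injective (RN N) (L N) (by rw [h1, map_zero])
  have h3 : ∑ k, algebraMap ℂ (LaurentSeries ℂ) (c k)
      * phiFormal N iota (u k : LaurentSeries Kbar) = 0 := by
    have := congrArg (Ex N) h2
    rw [map_sum, map_zero] at this
    rw [← this]
    refine Finset.sum_congr rfl (fun k _ => ?_)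
    rw [map_mul, Ex_algebraMap, hr2 k]
  have h4 : ∀ n : ℤ, ∑ k, c k * iota ((u k : LaurentSeries Kbar).coeff n) = 0 := by
    intro n
    have := congrArg (fun x : LaurentSeries ℂ => x.coeff ((N : ℤ) * n)) h3
    simp only [HahnSeries.coeff_sum, HahnSeries.coeff_zero] at this
    rw [← this]
    refine Finset.sum_congr rfl (fun k _ => ?_)
    rw [algebraMap_laurentSeries_eq_single, HahnSeries.coeff_single_zero_mul, phiFormal,
      RingHom.comp_apply, qExpand_coeff_mul, coeffMap_coeff]
  obtain ⟨a, ha, hrel⟩ := exists_relation_of_coeff iota m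
    (fun n k => (u k : LaurentSeries Kbar).coeff n) c hc h4
  refine ⟨a, ha, ?_⟩
  apply Subtype.ext
  rw [IntermediateField.coe_sum]
  ext n
  rw [HahnSeries.coeff_sum]
  refine Eq.trans (Finset.sum_congr rfl (fun k _ => ?_)) (hrel n)
  rw [IntermediateField.coe_smul, Algebra.smul_def, algebraMap_laurentSeries_eq_single,
    HahnSeries.coeff_single_zero_mul]

/-- **B4.**  The embedding of the function field of `X₀(N)` over `ℚ̄` into the field of
meromorphic functions `L N`. -/
theorem nonempty_phiData : Nonempty (H31.PhiData N) := by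
  obtain ⟨Φ, h1, h2, h3⟩ := exists_Phi_full N
  exact ⟨{
    Φ := Φ
    map_const := fun c => by
      rw [h1 c, ← IsScalarTower.algebraMap_apply ℂ (RN N) (L N)]
    map_Jd := fun d _ hd => ⟨jdR N d hd, rfl, h2 d hd⟩
    inv := h3
    lin_disjoint := lin_disjoint_of N Φ h1 h2 }⟩

end Assembly

end Fermat.Agent.S24.H20
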