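import Mathlib
import Fermat.Prelude.Def_AlgebraicCurve_DivisorClassGroup

/-!
# Backup of row 84 (A1, FundId) for S24 (helper92)

Dictionary between places of a function field `F / K` and height one primes of a Dedekind domain
`R` with fraction field `F`, and the fundamental identity
`∑_{v, ord_v y > 0} ord_v y = [F : K(y)]`.
-/

set_option autoImplicit false
set_option linter.unusedSectionVars false
set_option linter.style.haveILetI false

namespace Fermat.Agent.S24.H92

open AlgebraicCurve IsDedekindDomain IntermediateField WithZero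
open scoped IntermediateField.algebraAdjoinAdjoin

section place

variable {K F : Type*} [Field K] [Field F] [Algebra K F] (v : Place K F)

theorem ord_nonneg_of_mem {f : F} (hf : f ∈ v.toValuationSubring) : 0 ≤ v.ord f := by
  rcases eq_or_ne f 0 with rfl | hf0
  · simp
  have h1 : v.adicValuation f ≤ 1 := by
    have := v.adicValuation_coe ⟨f, hf⟩
    rw [show ((⟨f, hf⟩ : v.toValuationSubring) : F) = f from rfl] at this
    rw [this]
    exact HeightOneSpectrum.intValuation_le_one _ _
  have h2 : WithZero.log (v.adicValuation f) ≤ 0 := by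
    have := (WithZero.log_le_log (v.adicValuation_ne_zero hf0) one_ne_zero).mpr h1
    simpa using this
  unfold Place.ord
  omega

theorem ord_eq_zero_iff_isUnit (a : v.toValuationSubring) (ha : a ≠ 0) :
    v.ord (a : F) = 0 ↔ IsUnit a := by
  rw [← v.adicValuation_coe_eq_one_iff]
  have hne : v.adicValuation (a : F) ≠ 0 := v.adicValuation_ne_zero (by simpa using ha)
  unfold Place.ord
  rw [neg_eq_zero]
  constructor
  · intro h
    have := WithZero.exp_log hne
    rw [h] at this
    simpa using this.symm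
  · intro h
    rw [h]; simp

theorem mem_of_ord_nonneg {f : F} (hf : 0 ≤ v.ord f) : f ∈ v.toValuationSubring := by
  by_contra hmem
  have hf0 : f ≠ 0 := fun h => hmem (h ▸ v.toValuationSubring.zero_mem)
  have hinv : f⁻¹ ∈ v.toValuationSubring :=
    (v.toValuationSubring.mem_or_inv_mem f).resolve_left hmem
  have h1 : 0 ≤ v.ord f⁻¹ := ord_nonneg_of_mem v hinv
  rw [v.ord_inv] at h1
  have h0 : v.ord f = 0 := by omega
  have h2 : v.ord ((⟨f⁻¹, hinv⟩ : v.toValuationSubring) : F) = 0 := by
    show v.ord f⁻¹ = 0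
    rw [v.ord_inv, h0, neg_zero]
  have hne : (⟨f⁻¹, hinv⟩ : v.toValuationSubring) ≠ 0 := by
    intro h
    have := congrArg Subtype.val h
    simp at this
    exact hf0 this
  obtain ⟨u, hu⟩ := (ord_eq_zero_iff_isUnit v _ hne).mp h2
  apply hmem
  have h3 : ((u⁻¹ : v.toValuationSubringˣ) : v.toValuationSubring) * ⟨f⁻¹, hinv⟩ = 1 := by
    rw [← hu]; simp
  have h4 : (((u⁻¹ : v.toValuationSubringˣ) : v.toValuationSubring) : F) * f⁻¹ = 1 := by
    have := congrArg Subtype.val h3
    simpa using this
  have h5 : (((u⁻¹ : v.toValuationSubringˣ) : v.toValuationSubring) : F) = f := by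
    field_simp at h4
    exact h4
  rw [← h5]
  exact Subtype.property _

theorem mem_iff_ord_nonneg {f : F} : f ∈ v.toValuationSubring ↔ 0 ≤ v.ord f :=
  ⟨ord_nonneg_of_mem v, mem_of_ord_nonneg v⟩

theorem ord_pos_iff_mem_nonunits {f : F} (hf0 : f ≠ 0) :
    0 < v.ord f ↔ f ∈ v.toValuationSubring.nonunits := by
  rw [ValuationSubring.mem_nonunits_iff_exists_mem_maximalIdeal]
  constructor
  · intro h
    have hmem : f ∈ v.toValuationSubring := mem_of_ord_nonneg v h.le
    refine ⟨hmem, ?_⟩
    rw [IsLocalRing.mem_maximalIdeal, mem_nonunits_iff]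
    intro hu
    have hne : (⟨f, hmem⟩ : v.toValuationSubring) ≠ 0 := by
      intro h'
      exact hf0 (congrArg Subtype.val h')
    have := (ord_eq_zero_iff_isUnit v ⟨f, hmem⟩ hne).mpr hu
    change v.ord f = 0 at this
    omega
  · rintro ⟨hmem, hmax⟩
    rw [IsLocalRing.mem_maximalIdeal, mem_nonunits_iff] at hmax
    have hne : (⟨f, hmem⟩ : v.toValuationSubring) ≠ 0 := by
      intro h'
      exact hf0 (congrArg Subtype.val h')
    have h1 := ord_nonneg_of_mem v hmem
    have h2 : v.ord f ≠ 0 := fun h => hmax ((ord_eq_zero_iff_isUnit v ⟨f, hmem⟩ hne).mp h)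
    omega

theorem exists_ord_eq_one : ∃ t : F, v.ord t = 1 := by
  obtain ⟨π, hπ⟩ := IsDiscreteValuationRing.exists_irreducible v.toValuationSubring
  exact ⟨π, v.ord_coe_irreducible hπ⟩

theorem ord_ne_zero_of_one {t : F} (ht : v.ord t = 1) : t ≠ 0 := by
  rintro rfl
  simp at ht

/-- Two places whose valuation rings are comparable coincide. -/
theorem eq_of_le {v v' : Place K F} (h : v'.toValuationSubring ≤ v.toValuationSubring) :
    v' = v := by
  apply Place.ext
  apply le_antisymm h
  intro f hf
  by_contra hf'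
  apply v.ne_top'
  have hf0 : f ≠ 0 := fun h0 => hf' (h0 ▸ v'.toValuationSubring.zero_mem)
  have hneg : v'.ord f < 0 := by
    by_contra hge
    exact hf' (mem_of_ord_nonneg v' (not_lt.mp hge))
  obtain ⟨t, ht⟩ := exists_ord_eq_one v'
  have ht0 : t ≠ 0 := ord_ne_zero_of_one v' ht
  have htv : t ∈ v.toValuationSubring := h (mem_of_ord_nonneg v' (by omega))
  -- `t⁻¹ ∈ O_v`
  obtain ⟨m, hm⟩ : ∃ m : ℕ, v'.ord f = -((m : ℤ) + 1) := ⟨(-(v'.ord f) - 1).toNat, by omega⟩
  have h1 : v'.ord ((f * t ^ (m + 1))⁻¹) = 0 := by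
    rw [v'.ord_inv, v'.ord_mul hf0 (pow_ne_zero _ ht0)]
    have := v'.ord_zpow t ((m : ℤ) + 1)
    rw [ht] at this
    have h2 : t ^ ((m : ℤ) + 1) = t ^ (m + 1) := by
      rw [← Int.natCast_succ, zpow_natCast]
    rw [h2] at this
    rw [this, hm]; ring
  have h2 : (f * t ^ (m + 1))⁻¹ ∈ v.toValuationSubring :=
    h (mem_of_ord_nonneg v' (by omega))
  have h3 : t⁻¹ = f * (f * t ^ (m + 1))⁻¹ * t ^ m := by
    field_simp
    ring
  have htinv : t⁻¹ ∈ v.toValuationSubring := by
    rw [h3]
    exact mul_mem (mul_mem hf h2) (pow_mem htv m)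
  -- everything is in `O_v`
  refine SetLike.ext fun g => ⟨fun _ => ValuationSubring.mem_top g, fun _ => ?_⟩
  rcases eq_or_ne g 0 with rfl | hg0
  · exact v.toValuationSubring.zero_mem
  by_cases hg : 0 ≤ v'.ord g
  · exact h (mem_of_ord_nonneg v' hg)
  obtain ⟨k, hk⟩ : ∃ k : ℕ, v'.ord g = -(k : ℤ) := ⟨(-(v'.ord g)).toNat, by omega⟩
  have h4 : v'.ord (g * t ^ k) = 0 := by
    rw [v'.ord_mul hg0 (pow_ne_zero _ ht0)]
    have := v'.ord_zpow t (k : ℤ)
    rw [ht, zpow_natCast] at this
    rw [this, hk]; ring
  have h5 : g * t ^ k ∈ v.toValuationSubring := h (mem_of_ord_nonneg v' (by omega))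
  have h6 : g = g * t ^ k * (t⁻¹) ^ k := by
    rw [mul_assoc, ← mul_pow, mul_inv_cancel₀ ht0, one_pow, mul_one]
  rw [h6]
  exact mul_mem h5 (pow_mem htinv k)

theorem mem_iff_log_le (val : Valuation F ℤᵐ⁰)
    (hval : val.valuationSubring = v.toValuationSubring) {g : F} (hg : g ≠ 0) :
    g ∈ v.toValuationSubring ↔ log (val g) ≤ 0 := by
  rw [← hval, Valuation.mem_valuationSubring_iff]
  have hne : val g ≠ 0 := (Valuation.ne_zero_iff _).mpr hg
  rw [← WithZero.log_le_log hne one_ne_zero, WithZero.log_one]

/-- The order function of a place is determined by any normalised `ℤᵐ⁰`-valued valuation with the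
same valuation ring. -/
theorem ord_eq_neg_log (val : Valuation F ℤᵐ⁰)
    (hval : val.valuationSubring = v.toValuationSubring) {π : F} (hπ : val π = exp (-1 : ℤ))
    {f : F} (hf : f ≠ 0) : v.ord f = -(log (val f)) := by
  have hπ0 : π ≠ 0 := by
    rintro rfl
    rw [map_zero] at hπ
    exact WithZero.exp_ne_zero hπ.symm
  have hLπ : log (val π) = -1 := by rw [hπ, WithZero.log_exp]
  have hLmul : ∀ a b : F, a ≠ 0 → b ≠ 0 → log (val (a * b)) = log (val a) + log (val b) := by
    intro a b ha hb
    rw [map_mul, WithZero.log_mul ((Valuation.ne_zero_iff _).mpr ha)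
      ((Valuation.ne_zero_iff _).mpr hb)]
  have hLinv : ∀ a : F, log (val a⁻¹) = -log (val a) := by
    intro a
    rw [map_inv₀, WithZero.log_inv]
  have hLzpow : ∀ (a : F) (n : ℤ), log (val (a ^ n)) = n * log (val a) := by
    intro a n
    rw [map_zpow₀, WithZero.log_zpow, smul_eq_mul]
  -- `ord π = 1`
  have hπ1 : v.ord π = 1 := by
    have hmem : π ∈ v.toValuationSubring := (mem_iff_log_le v val hval hπ0).mpr (by omega)
    have hnmem : π⁻¹ ∉ v.toValuationSubring := by
      rw [mem_iff_log_le v val hval (inv_ne_zero hπ0), hLinv]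
      omega
    have h1 : 0 ≤ v.ord π := ord_nonneg_of_mem v hmem
    have h2 : v.ord π ≠ 0 := by
      intro h0
      apply hnmem
      apply mem_of_ord_nonneg
      rw [v.ord_inv, h0]; simp
    obtain ⟨t, ht⟩ := exists_ord_eq_one v
    have ht0 : t ≠ 0 := ord_ne_zero_of_one v ht
    have htmem : t ∈ v.toValuationSubring := mem_of_ord_nonneg v (by omega)
    have htn : t⁻¹ ∉ v.toValuationSubring := by
      intro hmem'
      have := ord_nonneg_of_mem v hmem'
      rw [v.ord_inv, ht] at this
      omega
    have hLt : log (val t) ≤ -1 := by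
      have h3 := (mem_iff_log_le v val hval ht0).mp htmem
      have h4 := (mem_iff_log_le v val hval (inv_ne_zero ht0)).not.mp htn
      rw [hLinv] at h4
      omega
    have h5 : t * π⁻¹ ∈ v.toValuationSubring := by
      rw [mem_iff_log_le v val hval (mul_ne_zero ht0 (inv_ne_zero hπ0)),
        hLmul _ _ ht0 (inv_ne_zero hπ0), hLinv]
      omega
    have h6 := ord_nonneg_of_mem v h5
    rw [v.ord_mul ht0 (inv_ne_zero hπ0), v.ord_inv, ht] at h6
    omega
  -- general `f`
  set n : ℤ := -(log (val f)) with hn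
  have hg0 : f * π ^ (-n) ≠ 0 := mul_ne_zero hf (zpow_ne_zero _ hπ0)
  have hLg : log (val (f * π ^ (-n))) = 0 := by
    rw [hLmul _ _ hf (zpow_ne_zero _ hπ0), hLzpow, hLπ]
    omega
  have hg1 : f * π ^ (-n) ∈ v.toValuationSubring :=
    (mem_iff_log_le v val hval hg0).mpr (by omega)
  have hg2 : (f * π ^ (-n))⁻¹ ∈ v.toValuationSubring := by
    rw [mem_iff_log_le v val hval (inv_ne_zero hg0), hLinv]
    omega
  have h7 := ord_nonneg_of_mem v hg1
  have h8 := ord_nonneg_of_mem v hg2
  rw [v.ord_inv] at h8
  rw [v.ord_mul hf (zpow_ne_zero _ hπ0), v.ord_zpow, hπ1] at h7 h8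
  omega

end place

section generic

variable {K F : Type*} [Field K] [Field F] [Algebra K F]
variable {R : Type*} [CommRing R] [IsDedekindDomain R] [Algebra R F] [IsFractionRing R F]
  [Algebra K R] [IsScalarTower K R F]

/-- The order at the place of a height one prime is the additive adic valuation. -/
theorem ofHeightOneSpectrum_ord (w : HeightOneSpectrum R) {f : F} (hf : f ≠ 0) :
    (Place.ofHeightOneSpectrum (K := K) w).ord f = -(log (w.valuation F f)) := by
  obtain ⟨π, hπ⟩ := w.valuation_exists_uniformizer F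
  exact ord_eq_neg_log _ (w.valuation F) rfl hπ hf

theorem ofHeightOneSpectrum_ord_algebraMap_nonneg (w : HeightOneSpectrum R) (r : R) :
    0 ≤ (Place.ofHeightOneSpectrum (K := K) w).ord (algebraMap R F r) := by
  apply ord_nonneg_of_mem
  rw [Place.ofHeightOneSpectrum_toValuationSubring, Valuation.mem_valuationSubring_iff]
  exact w.valuation_le_one r

theorem ofHeightOneSpectrum_ord_pos_iff (w : HeightOneSpectrum R) {r : R} (hr : r ≠ 0) :
    0 < (Place.ofHeightOneSpectrum (K := K) w).ord (algebraMap R F r) ↔ r ∈ w.asIdeal := by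
  have hr' : algebraMap R F r ≠ 0 := by
    rwa [Ne, map_eq_zero_iff _ (IsFractionRing.injective R F)]
  have h1 : w.valuation F (algebraMap R F r) < 1 ↔ r ∈ w.asIdeal :=
    w.valuation_lt_one_iff_mem r
  rw [ofHeightOneSpectrum_ord w hr', ← h1,
    ← WithZero.log_lt_log ((Valuation.ne_zero_iff _).mpr hr') one_ne_zero, WithZero.log_one]
  omega

variable (v : Place K F)

/-- The ring hom from `R` into the valuation ring of a place containing `R`. -/
noncomputable def toValRing (hR : ∀ r : R, algebraMap R F r ∈ v.toValuationSubring) :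
    R →+* v.toValuationSubring :=
  (algebraMap R F).codRestrict v.toValuationSubring hR

theorem coe_toValRing (hR : ∀ r : R, algebraMap R F r ∈ v.toValuationSubring) (r : R) :
    ((toValRing v hR r : v.toValuationSubring) : F) = algebraMap R F r := rfl

/-- The centre on `R` of a place containing `R`. -/
noncomputable def centerIdeal (hR : ∀ r : R, algebraMap R F r ∈ v.toValuationSubring) : Ideal R :=
  Ideal.comap (toValRing v hR) (IsLocalRing.maximalIdeal v.toValuationSubring)

theorem mem_centerIdeal_iff (hR : ∀ r : R, algebraMap R F r ∈ v.toValuationSubring) {r : R}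
    (hr : r ≠ 0) : r ∈ centerIdeal v hR ↔ 0 < v.ord (algebraMap R F r) := by
  have hr' : algebraMap R F r ≠ 0 := by
    rwa [Ne, map_eq_zero_iff _ (IsFractionRing.injective R F)]
  have hne : toValRing v hR r ≠ 0 := by
    intro h
    exact hr' (congrArg Subtype.val h)
  have h0 : 0 ≤ v.ord (algebraMap R F r) := ord_nonneg_of_mem v (hR r)
  rw [centerIdeal, Ideal.mem_comap, IsLocalRing.mem_maximalIdeal, mem_nonunits_iff,
    ← ord_eq_zero_iff_isUnit v _ hne, coe_toValRing]
  omega

theorem centerIdeal_ne_bot (hR : ∀ r : R, algebraMap R F r ∈ v.toValuationSubring) :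
    centerIdeal v hR ≠ ⊥ := by
  intro hbot
  apply v.ne_top'
  refine SetLike.ext fun f => ⟨fun _ => ValuationSubring.mem_top f, fun _ => ?_⟩
  obtain ⟨a, b, hb, rfl⟩ := IsFractionRing.div_surjective (A := R) f
  have hb0 : b ≠ 0 := nonZeroDivisors.ne_zero hb
  have hb' : algebraMap R F b ≠ 0 := by
    rwa [Ne, map_eq_zero_iff _ (IsFractionRing.injective R F)]
  have h1 : ¬ 0 < v.ord (algebraMap R F b) := by
    rw [← mem_centerIdeal_iff v hR hb0, hbot]
    simpa using hb0
  have h2 : 0 ≤ v.ord (algebraMap R F b) := ord_nonneg_of_mem v (hR b)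
  have h3 : (algebraMap R F b)⁻¹ ∈ v.toValuationSubring := by
    apply mem_of_ord_nonneg
    rw [v.ord_inv]; omega
  rw [div_eq_mul_inv]
  exact mul_mem (hR a) h3

/-- The centre as a height one prime. -/
noncomputable def center (hR : ∀ r : R, algebraMap R F r ∈ v.toValuationSubring) :
    HeightOneSpectrum R where
  asIdeal := centerIdeal v hR
  isPrime := Ideal.comap_isPrime _ _
  ne_bot := centerIdeal_ne_bot v hR

theorem mem_center_iff (hR : ∀ r : R, algebraMap R F r ∈ v.toValuationSubring) {r : R}
    (hr : r ≠ 0) : r ∈ (center v hR).asIdeal ↔ 0 < v.ord (algebraMap R F r) :=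
  mem_centerIdeal_iff v hR hr

/-- A place containing `R` is the place of its centre. -/
theorem ofHeightOneSpectrum_center (hR : ∀ r : R, algebraMap R F r ∈ v.toValuationSubring) :
    Place.ofHeightOneSpectrum (K := K) (center v hR) = v := by
  apply eq_of_le
  intro x hx
  rw [Place.ofHeightOneSpectrum_toValuationSubring, Valuation.mem_valuationSubring_iff] at hx
  obtain ⟨n, d, hnd⟩ := (center v hR).exists_primeCompl_mul_eq_of_integer x hx
  have hd0 : (d : R) ≠ 0 := by
    intro h
    exact d.2 (h ▸ Ideal.zero_mem _)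
  have hd' : algebraMap R F d ≠ 0 := by
    rwa [Ne, map_eq_zero_iff _ (IsFractionRing.injective R F)]
  have h1 : ¬ 0 < v.ord (algebraMap R F d) := by
    rw [← mem_center_iff v hR hd0]
    exact d.2
  have h2 : 0 ≤ v.ord (algebraMap R F d) := ord_nonneg_of_mem v (hR d)
  have h3 : (algebraMap R F d)⁻¹ ∈ v.toValuationSubring := by
    apply mem_of_ord_nonneg
    rw [v.ord_inv]; omega
  have h4 : x = algebraMap R F n * (algebraMap R F d)⁻¹ := by
    rw [← hnd, mul_assoc, mul_inv_cancel₀ hd', mul_one]
  rw [h4]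
  exact mul_mem (hR n) h3

theorem algebraMap_mem_ofHeightOneSpectrum (w : HeightOneSpectrum R) (r : R) :
    algebraMap R F r ∈ (Place.ofHeightOneSpectrum (K := K) w).toValuationSubring := by
  rw [Place.ofHeightOneSpectrum_toValuationSubring, Valuation.mem_valuationSubring_iff]
  exact w.valuation_le_one r

/-- The centre of the place of a height one prime is that prime. -/
theorem center_ofHeightOneSpectrum (w : HeightOneSpectrum R) :
    center (Place.ofHeightOneSpectrum (K := K) (F := F) w)
      (algebraMap_mem_ofHeightOneSpectrum (K := K) w) = w := by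
  apply HeightOneSpectrum.ext
  ext r
  rcases eq_or_ne r 0 with rfl | hr
  · simp
  · rw [mem_center_iff _ _ hr, ofHeightOneSpectrum_ord_pos_iff w hr]

end generic


section setup

variable {K F : Type*} [Field K] [Field F] [Algebra K F]

/-- The polynomial ring is isomorphic to `K[y]` for transcendental `y`. -/
noncomputable def polyEquiv (y : F) (hy : Transcendental K y) :
    Polynomial K ≃ₐ[K] Algebra.adjoin K {y} :=
  (AlgEquiv.ofInjective (Polynomial.aeval y) (transcendental_iff_injective.mp hy)).trans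
    (Subalgebra.equivOfEq _ _ (Algebra.adjoin_singleton_eq_range_aeval K y).symm)

theorem polyEquiv_apply (y : F) (hy : Transcendental K y) (p : Polynomial K) :
    ((polyEquiv y hy p : Algebra.adjoin K {y}) : F) = Polynomial.aeval y p := rfl

theorem isPrincipalIdealRing_adjoin (y : F) (hy : Transcendental K y) :
    IsPrincipalIdealRing (Algebra.adjoin K {y}) :=
  IsPrincipalIdealRing.of_surjective (polyEquiv y hy).toRingEquiv.toRingHom
    (polyEquiv y hy).surjective

/-- The generator `y` of `K[y]`. -/
def genA (K : Type*) [Field K] [Algebra K F] (y : F) : Algebra.adjoin K {y} :=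
  ⟨y, Algebra.self_mem_adjoin_singleton K y⟩

theorem polyEquiv_X (y : F) (hy : Transcendental K y) :
    polyEquiv y hy Polynomial.X = genA K y := by
  apply Subtype.ext
  rw [polyEquiv_apply, Polynomial.aeval_X]
  rfl

theorem ne_zero_of_transcendental (y : F) (hy : Transcendental K y) : y ≠ 0 := by
  rintro rfl
  exact hy (isAlgebraic_zero)

theorem genA_ne_zero (y : F) (hy : Transcendental K y) : genA K y ≠ 0 := by
  intro h
  exact ne_zero_of_transcendental y hy (congrArg Subtype.val h)

theorem irreducible_genA (y : F) (hy : Transcendental K y) : Irreducible (genA K y) := by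
  rw [← polyEquiv_X y hy]
  exact (MulEquiv.irreducible_iff (polyEquiv y hy).toMulEquiv).mpr Polynomial.irreducible_X

theorem isMaximal_span_genA (y : F) (hy : Transcendental K y) :
    (Ideal.span {genA K y}).IsMaximal := by
  haveI := isPrincipalIdealRing_adjoin y hy
  exact PrincipalIdealRing.isMaximal_of_irreducible (irreducible_genA y hy)

/-- Evaluation at `y = 0`, as a ring hom `K[y] → K`. -/
noncomputable def evalZero (y : F) (hy : Transcendental K y) : Algebra.adjoin K {y} →+* K :=
  (Polynomial.evalRingHom (0 : K)).comp (polyEquiv y hy).symm.toRingEquiv.toRingHom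

theorem sub_evalZero_mem (y : F) (hy : Transcendental K y) (a : Algebra.adjoin K {y}) :
    a - algebraMap K (Algebra.adjoin K {y}) (evalZero y hy a) ∈ Ideal.span {genA K y} := by
  obtain ⟨P, rfl⟩ := (polyEquiv y hy).surjective a
  have h1 : evalZero y hy (polyEquiv y hy P) = P.coeff 0 := by
    simp [evalZero, Polynomial.coeff_zero_eq_eval_zero]
  have h2 : polyEquiv y hy P - algebraMap K (Algebra.adjoin K {y}) (P.coeff 0)
      = polyEquiv y hy P.divX * genA K y := by
    rw [← polyEquiv_X y hy, ← map_mul, ← (polyEquiv y hy).commutes, ← map_sub]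
    congr 1
    have := Polynomial.divX_mul_X_add P
    rw [Polynomial.algebraMap_eq]
    linear_combination -this
  rw [h1, h2]
  exact Ideal.mul_mem_left _ _ (Ideal.mem_span_singleton_self _)

end setup


section main

variable {K F : Type*} [Field K] [Field F] [Algebra K F] [CharZero K]
variable (y : F) (hy : Transcendental K y) [FiniteDimensional K⟮y⟯ F]

include hy in
theorem isDedekindDomain_adjoin : IsDedekindDomain (Algebra.adjoin K {y}) := by
  haveI := isPrincipalIdealRing_adjoin y hy
  infer_instance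

include hy in
theorem isDedekindDomain_intClosure :
    IsDedekindDomain (integralClosure (Algebra.adjoin K {y}) F) := by
  haveI := isDedekindDomain_adjoin y hy
  exact integralClosure.isDedekindDomain (Algebra.adjoin K {y}) K⟮y⟯ F

theorem isFractionRing_intClosure :
    IsFractionRing (integralClosure (Algebra.adjoin K {y}) F) F :=
  integralClosure.isFractionRing_of_finite_extension K⟮y⟯ F

include hy in
theorem finite_intClosure :
    Module.Finite (Algebra.adjoin K {y}) (integralClosure (Algebra.adjoin K {y}) F) := by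
  haveI := isDedekindDomain_adjoin y hy
  exact IsIntegralClosure.finite (Algebra.adjoin K {y}) K⟮y⟯ F _

include hy in
theorem finrank_intClosure :
    Module.finrank (Algebra.adjoin K {y}) (integralClosure (Algebra.adjoin K {y}) F) =
      Module.finrank K⟮y⟯ F := by
  haveI := isFractionRing_intClosure (K := K) y
  exact (IsFractionRing.finrank_eq (Algebra.adjoin K {y}) K⟮y⟯
    (integralClosure (Algebra.adjoin K {y}) F) F).symm

omit [CharZero K] [FiniteDimensional K⟮y⟯ F] in
/-- Elements integral over `K[y]` lie in the valuation ring of any place with `ord y ≥ 0`. -/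
theorem mem_of_isIntegral (v : Place K F) (hy0 : 0 ≤ v.ord y) {b : F}
    (hb : IsIntegral (Algebra.adjoin K {y}) b) : b ∈ v.toValuationSubring := by
  have hle : ∀ a : Algebra.adjoin K {y}, (a : F) ∈ v.toValuationSubring := by
    intro a
    have hsub : Algebra.adjoin K {y} ≤
        ({ v.toValuationSubring.toSubring with algebraMap_mem' := v.algebraMap_mem' } :
          Subalgebra K F) :=
      Algebra.adjoin_le (Set.singleton_subset_iff.mpr (mem_of_ord_nonneg v hy0))
    exact hsub a.2
  have hint : IsIntegral v.toValuationSubring b := by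
    obtain ⟨p, hp, hpb⟩ := hb
    let g : Algebra.adjoin K {y} →+* v.toValuationSubring :=
      (algebraMap (Algebra.adjoin K {y}) F).codRestrict v.toValuationSubring hle
    refine ⟨p.map g, hp.map g, ?_⟩
    rw [Polynomial.eval₂_map]
    exact hpb
  obtain ⟨z, hz⟩ := IsIntegrallyClosed.isIntegral_iff.mp hint
  rw [← hz]
  exact z.2


set_option quotPrecheck false in
local notation "𝔸" => Algebra.adjoin K {y}
set_option quotPrecheck false in
local notation "𝔹" => integralClosure (Algebra.adjoin K {y}) F

omit [CharZero K] [FiniteDimensional K⟮y⟯ F] in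
theorem coe_algebraMap_genA : ((algebraMap 𝔸 𝔹 (genA K y) : 𝔹) : F) = y := rfl

omit [CharZero K] [FiniteDimensional K⟮y⟯ F] in
include hy in
theorem algebraMap_genA_ne_zero : algebraMap 𝔸 𝔹 (genA K y) ≠ 0 := by
  intro h
  exact ne_zero_of_transcendental y hy (congrArg Subtype.val h)

omit [CharZero K] [FiniteDimensional K⟮y⟯ F] in
include hy in
/-- The residue field at a prime of `𝔹` containing `y` is `K`. -/
theorem exists_sub_mem [IsAlgClosed K] (q : Ideal 𝔹) [q.IsPrime]
    (hq : algebraMap 𝔸 𝔹 (genA K y) ∈ q) (b : 𝔹) : ∃ c : K, b - algebraMap K 𝔹 c ∈ q := by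
  let f : K →+* 𝔹 ⧸ q := (Ideal.Quotient.mk q).comp (algebraMap K 𝔹)
  have hcomp : f.comp (evalZero y hy) = (Ideal.Quotient.mk q).comp (algebraMap 𝔸 𝔹) := by
    ext a
    simp only [RingHom.comp_apply, f]
    rw [← sub_eq_zero, ← map_sub, Ideal.Quotient.eq_zero_iff_mem]
    obtain ⟨d, hd⟩ := Ideal.mem_span_singleton'.mp (sub_evalZero_mem y hy a)
    have h1 : algebraMap K 𝔹 (evalZero y hy a) - algebraMap 𝔸 𝔹 a
        = -(algebraMap 𝔸 𝔹 d * algebraMap 𝔸 𝔹 (genA K y)) := by
      rw [← map_mul, hd, map_sub, ← IsScalarTower.algebraMap_apply K 𝔸 𝔹]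
      ring
    rw [h1]
    exact q.neg_mem (q.mul_mem_left _ hq)
  have hf : f.IsIntegral := by
    intro x
    obtain ⟨b, rfl⟩ := Ideal.Quotient.mk_surjective x
    obtain ⟨P, hP, hPb⟩ := (Algebra.IsIntegral.isIntegral (R := 𝔸) b)
    refine ⟨P.map (evalZero y hy), hP.map _, ?_⟩
    rw [Polynomial.eval₂_map, hcomp, ← Polynomial.hom_eval₂, hPb, map_zero]
  obtain ⟨c, hc⟩ := (IsAlgClosed.ringHom_bijective_of_isIntegral f hf).2 (Ideal.Quotient.mk q b)
  refine ⟨c, ?_⟩
  rw [← Ideal.Quotient.eq_zero_iff_mem, map_sub, sub_eq_zero]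
  exact hc.symm

omit [CharZero K] [FiniteDimensional K⟮y⟯ F] in
include hy in
theorem inertiaDeg_eq_one [IsAlgClosed K] (q : Ideal 𝔹) [q.IsMaximal]
    [q.LiesOver (Ideal.span {genA K y})] : q.inertiaDeg 𝔸 = 1 := by
  haveI := isMaximal_span_genA y hy
  have hq : algebraMap 𝔸 𝔹 (genA K y) ∈ q := by
    have h1 : genA K y ∈ q.under 𝔸 := by
      rw [← Ideal.over_def q (Ideal.span {genA K y})]
      exact Ideal.mem_span_singleton_self _
    exact h1
  rw [Ideal.inertiaDeg_eq_of_isMaximal (Ideal.span {genA K y}) q]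
  apply Module.finrank_of_bijective_algebraMap
  constructor
  · letI := Ideal.Quotient.field (Ideal.span {genA K y})
    exact RingHom.injective _
  · intro w
    obtain ⟨b, rfl⟩ := Ideal.Quotient.mk_surjective w
    obtain ⟨c, hc⟩ := exists_sub_mem y hy q hq b
    refine ⟨Ideal.Quotient.mk _ (algebraMap K 𝔸 c), ?_⟩
    rw [Ideal.Quotient.algebraMap_mk_of_liesOver, ← IsScalarTower.algebraMap_apply K 𝔸 𝔹]
    symm
    rw [← sub_eq_zero, ← map_sub, Ideal.Quotient.eq_zero_iff_mem]
    exact hc


omit [CharZero K] [FiniteDimensional K⟮y⟯ F] in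
include hy in
theorem ord_eq_ramificationIdx [IsDedekindDomain 𝔹] [IsFractionRing 𝔹 F]
    (w : HeightOneSpectrum 𝔹) [w.asIdeal.LiesOver (Ideal.span {genA K y})] :
    (Place.ofHeightOneSpectrum (K := K) w).ord y = (w.asIdeal.ramificationIdx 𝔸 : ℤ) := by
  have hy0 := ne_zero_of_transcendental y hy
  have hgen0 := algebraMap_genA_ne_zero y hy
  have h1 : (Place.ofHeightOneSpectrum (K := K) w).ord y = -(log (w.valuation F y)) :=
    ofHeightOneSpectrum_ord w hy0
  have h2 : w.valuation F y = w.intValuation (algebraMap 𝔸 𝔹 (genA K y)) :=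
    w.valuation_of_algebraMap (K := F) (algebraMap 𝔸 𝔹 (genA K y))
  have hmap : (Ideal.span {genA K y}).map (algebraMap 𝔸 𝔹)
      = Ideal.span {algebraMap 𝔸 𝔹 (genA K y)} := by
    rw [Ideal.map_span, Set.image_singleton]
  have hne : (Ideal.span {genA K y}).map (algebraMap 𝔸 𝔹) ≠ ⊥ := by
    rw [hmap, Ne, Ideal.span_singleton_eq_bot]
    exact hgen0
  rw [h1, h2, w.intValuation_eq_exp_neg_multiplicity hgen0, WithZero.log_exp, neg_neg,
    Ideal.IsDedekindDomain.ramificationIdx_eq_multiplicity (Ideal.span {genA K y}) w.asIdeal hne,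
    hmap]

include hy in
/-- **Fundamental identity** (FI-2, Finset form): the zeros of `y`, counted with multiplicity,
are `[F : K(y)]` in number. -/
theorem exists_finset_sum_ord [IsAlgClosed K] :
    ∃ S : Finset (Place K F), (∀ v, v ∈ S ↔ 0 < v.ord y) ∧
      ∑ v ∈ S, v.ord y = (Module.finrank K⟮y⟯ F : ℤ) := by
  classical
  haveI := isDedekindDomain_adjoin y hy
  haveI := isDedekindDomain_intClosure y hy
  haveI := isFractionRing_intClosure (K := K) y
  haveI := finite_intClosure y hy
  haveI := isMaximal_span_genA y hy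
  have hy0 := ne_zero_of_transcendental y hy
  have hgen0 := algebraMap_genA_ne_zero y hy
  set p : Ideal 𝔸 := Ideal.span {genA K y} with hp
  have hgenq : ∀ q : p.primesOver 𝔹, algebraMap 𝔸 𝔹 (genA K y) ∈ q.1 := by
    intro q
    haveI : q.1.LiesOver p := q.2.2
    have h1 : genA K y ∈ q.1.under 𝔸 := by
      rw [← Ideal.over_def q.1 p]
      exact Ideal.mem_span_singleton_self _
    exact h1
  have hqne : ∀ q : p.primesOver 𝔹, q.1 ≠ ⊥ := by
    intro q hq
    have := hgenq q
    rw [hq, Ideal.mem_bot] at this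
    exact hgen0 this
  let W : p.primesOver 𝔹 → HeightOneSpectrum 𝔹 := fun q => ⟨q.1, q.2.1, hqne q⟩
  let V : p.primesOver 𝔹 → Place K F := fun q => Place.ofHeightOneSpectrum (K := K) (W q)
  have hVord : ∀ q, (V q).ord y = (q.1.ramificationIdx 𝔸 : ℤ) := by
    intro q
    haveI : (W q).asIdeal.LiesOver p := q.2.2
    exact ord_eq_ramificationIdx y hy (W q)
  have hVinj : Function.Injective V := by
    intro q q' h
    apply Subtype.ext
    ext r
    rcases eq_or_ne r 0 with rfl | hr
    · simp
    · have h1 := ofHeightOneSpectrum_ord_pos_iff (K := K) (F := F) (W q) hr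
      have h2 := ofHeightOneSpectrum_ord_pos_iff (K := K) (F := F) (W q') hr
      have h3 : (Place.ofHeightOneSpectrum (K := K) (W q) : Place K F)
          = Place.ofHeightOneSpectrum (K := K) (W q') := h
      rw [h3] at h1
      exact h1.symm.trans h2
  haveI : Fintype (p.primesOver 𝔹) := Set.Finite.fintype (IsDedekindDomain.primesOver_finite p 𝔹)
  refine ⟨Finset.univ.image V, ?_, ?_⟩
  · intro v
    simp only [Finset.mem_image, Finset.mem_univ, true_and]
    constructor
    · rintro ⟨q, rfl⟩
      rw [hVord]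
      haveI : q.1.IsPrime := q.2.1
      exact_mod_cast Ideal.ramificationIdx_pos q.1 𝔸
    · intro hv
      have hR : ∀ b : 𝔹, algebraMap 𝔹 F b ∈ v.toValuationSubring :=
        fun b => mem_of_isIntegral y v hv.le b.2
      have hgenc : algebraMap 𝔸 𝔹 (genA K y) ∈ (center v hR).asIdeal := by
        rw [mem_center_iff v hR hgen0]
        exact hv
      have hlies : (center v hR).asIdeal.LiesOver p := by
        constructor
        apply Ideal.IsMaximal.eq_of_le inferInstance
        · exact Ideal.IsPrime.ne_top inferInstance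
        · rw [hp, Ideal.span_le, Set.singleton_subset_iff]
          exact hgenc
      refine ⟨⟨(center v hR).asIdeal, (center v hR).isPrime, hlies⟩, ?_⟩
      exact ofHeightOneSpectrum_center v hR
  · rw [Finset.sum_image (fun a _ b _ h => hVinj h)]
    simp_rw [hVord]
    have hsum := Ideal.sum_ramification_inertia_eq_finrank p 𝔹
    have hf : ∀ q : p.primesOver 𝔹, q.1.inertiaDeg 𝔸 = 1 := by
      intro q
      haveI : q.1.IsMaximal := Ideal.IsPrime.isMaximal q.2.1 (hqne q)
      haveI : q.1.LiesOver p := q.2.2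
      exact inertiaDeg_eq_one y hy q.1
    simp only [hf, mul_one] at hsum
    rw [← finrank_intClosure y hy, ← hsum]
    push_cast
    rfl

end main

end Fermat.Agent.S24.H92
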