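import Mathlib
import Fermat.Prelude.Def_ModularCurve_GenusNumerics

/-!
# Number of orbits of `T` on `SL(2,ℤ) ⧸ Γ₀(N)` equals `cuspCount N`

helper20, S24 combinatorics piece.  Invariant of `g = (a b; c d)`:
`δ = gcd(c, N)` and `a * (c/δ)⁻¹ ∈ (ℤ / gcd(δ, N/δ))ˣ`.
-/

set_option autoImplicit false

open scoped MatrixGroups
open CongruenceSubgroup Matrix

namespace Fermat.Agent.S24.H20

/-- `gcd(δ, N/δ)`. -/
def mm (N δ : ℕ) : ℕ := Nat.gcd δ (N / δ)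

/-- class of `a * γ⁻¹` in `ZMod m`, as a natural number. -/
noncomputable def rho (m : ℕ) (a γ : ℤ) : ℕ := ZMod.val ((a : ZMod m) * ((γ : ZMod m))⁻¹)

theorem mm_pos {N δ : ℕ} (hN : 0 < N) (hδ : δ ∣ N) : 0 < mm N δ := by
  have hδ0 : 0 < δ := Nat.pos_of_dvd_of_pos hδ hN
  exact Nat.gcd_pos_of_pos_left _ hδ0

theorem mm_dvd_left (N δ : ℕ) : mm N δ ∣ δ := Nat.gcd_dvd_left _ _

theorem mm_dvd_right (N δ : ℕ) : mm N δ ∣ N / δ := Nat.gcd_dvd_right _ _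

theorem rho_eq_iff {m : ℕ} [NeZero m] {a₁ γ₁ a₂ γ₂ : ℤ}
    (h₁ : IsCoprime (m : ℤ) γ₁) (h₂ : IsCoprime (m : ℤ) γ₂) :
    rho m a₁ γ₁ = rho m a₂ γ₂ ↔ (m : ℤ) ∣ a₁ * γ₂ - a₂ * γ₁ := by
  have u₁ : IsUnit (γ₁ : ZMod m) := (ZMod.coe_int_isUnit_iff_isCoprime γ₁ m).mpr h₁
  have u₂ : IsUnit (γ₂ : ZMod m) := (ZMod.coe_int_isUnit_iff_isCoprime γ₂ m).mpr h₂
  have e₁ : (γ₁ : ZMod m) * (γ₁ : ZMod m)⁻¹ = 1 := ZMod.mul_inv_of_unit _ u₁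
  have e₂ : (γ₂ : ZMod m) * (γ₂ : ZMod m)⁻¹ = 1 := ZMod.mul_inv_of_unit _ u₂
  rw [← ZMod.intCast_zmod_eq_zero_iff_dvd]
  unfold rho
  constructor
  · intro h
    have h' := ZMod.val_injective m h
    push_cast
    calc (a₁ : ZMod m) * γ₂ - a₂ * γ₁
        = ((a₁ : ZMod m) * (γ₁ : ZMod m)⁻¹) * (γ₁ * γ₂) - a₂ * γ₁ := by
          rw [show ((a₁ : ZMod m) * (γ₁ : ZMod m)⁻¹) * (γ₁ * γ₂)
            = (a₁ : ZMod m) * γ₂ * ((γ₁ : ZMod m) * (γ₁ : ZMod m)⁻¹) by ring, e₁, mul_one]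
      _ = ((a₂ : ZMod m) * (γ₂ : ZMod m)⁻¹) * (γ₁ * γ₂) - a₂ * γ₁ := by rw [h']
      _ = (a₂ : ZMod m) * γ₁ * ((γ₂ : ZMod m) * (γ₂ : ZMod m)⁻¹) - a₂ * γ₁ := by ring
      _ = 0 := by rw [e₂, mul_one, sub_self]
  · intro h
    push_cast at h
    congr 1
    have h' : (a₁ : ZMod m) * γ₂ = a₂ * γ₁ := sub_eq_zero.mp h
    calc (a₁ : ZMod m) * (γ₁ : ZMod m)⁻¹
        = ((a₁ : ZMod m) * γ₂) * ((γ₁ : ZMod m)⁻¹ * (γ₂ : ZMod m)⁻¹) := by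
          rw [show ((a₁ : ZMod m) * γ₂) * ((γ₁ : ZMod m)⁻¹ * (γ₂ : ZMod m)⁻¹)
            = (a₁ : ZMod m) * (γ₁ : ZMod m)⁻¹ * ((γ₂ : ZMod m) * (γ₂ : ZMod m)⁻¹) by ring,
            e₂, mul_one]
      _ = ((a₂ : ZMod m) * γ₁) * ((γ₁ : ZMod m)⁻¹ * (γ₂ : ZMod m)⁻¹) := by rw [h']
      _ = (a₂ : ZMod m) * (γ₂ : ZMod m)⁻¹ * ((γ₁ : ZMod m) * (γ₁ : ZMod m)⁻¹) := by ring
      _ = (a₂ : ZMod m) * (γ₂ : ZMod m)⁻¹ := by rw [e₁, mul_one]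

/-- `c / gcd(c,N)` is coprime to `N / gcd(c,N)`. -/
theorem isCoprime_div_gcd {N : ℕ} (hN : 0 < N) (c : ℤ) :
    IsCoprime (((N / Int.gcd c N : ℕ) : ℤ)) (c / (Int.gcd c N : ℤ)) := by
  have hpos : 0 < Int.gcd c (N : ℤ) := Int.gcd_pos_of_ne_zero_right _ (by exact_mod_cast hN.ne')
  have h := Int.gcd_div_gcd_div_gcd hpos
  have hdiv : (Int.gcd c (N : ℤ) : ℕ) ∣ N := by
    have := Int.gcd_dvd_right c (N : ℤ)
    exact_mod_cast this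
  rw [Int.natCast_div]
  exact (Int.isCoprime_iff_gcd_eq_one.mpr h).symm

/-- The arithmetic core: the double coset criterion. -/
theorem core {N : ℕ} (hN : 0 < N) {a₁ c₁ a₂ c₂ : ℤ}
    (h₁ : IsCoprime a₁ c₁) (h₂ : IsCoprime a₂ c₂) :
    (∃ k : ℤ, (N : ℤ) ∣ a₁ * c₂ - a₂ * c₁ + k * c₁ * c₂) ↔
      Int.gcd c₁ N = Int.gcd c₂ N ∧
        ((mm N (Int.gcd c₁ N) : ℕ) : ℤ) ∣
          a₁ * (c₂ / (Int.gcd c₂ N : ℤ)) - a₂ * (c₁ / (Int.gcd c₁ N : ℤ)) := by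
  have hN' : (N : ℤ) ≠ 0 := by exact_mod_cast hN.ne'
  -- basic facts
  have key : ∀ (a c a' c' : ℤ), IsCoprime a c →
      (∃ k : ℤ, (N : ℤ) ∣ a * c' - a' * c + k * c * c') → Int.gcd c N ∣ Int.gcd c' N := by
    intro a c a' c' hac ⟨k, hk⟩
    have d1 : ((Int.gcd c N : ℕ) : ℤ) ∣ c := Int.gcd_dvd_left _ _
    have d2 : ((Int.gcd c N : ℕ) : ℤ) ∣ (N : ℤ) := Int.gcd_dvd_right _ _
    have d3 : ((Int.gcd c N : ℕ) : ℤ) ∣ a * c' := by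
      have e : a * c' = (a * c' - a' * c + k * c * c') + c * (a' - k * c') := by ring
      rw [e]
      exact dvd_add (d2.trans hk) (Dvd.dvd.mul_right d1 _)
    have cop : IsCoprime ((Int.gcd c N : ℕ) : ℤ) a :=
      IsCoprime.of_isCoprime_of_dvd_left hac.symm d1
    have d4 : ((Int.gcd c N : ℕ) : ℤ) ∣ c' := cop.dvd_of_dvd_mul_left d3
    have d5 := Int.dvd_coe_gcd d4 d2
    exact_mod_cast d5
  constructor
  · rintro ⟨k, hk⟩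
    have e12 : Int.gcd c₁ N = Int.gcd c₂ N := by
      apply Nat.dvd_antisymm
      · exact key a₁ c₁ a₂ c₂ h₁ ⟨k, hk⟩
      · refine key a₂ c₂ a₁ c₁ h₂ ⟨-k, ?_⟩
        have e : a₂ * c₁ - a₁ * c₂ + -k * c₂ * c₁ = -(a₁ * c₂ - a₂ * c₁ + k * c₁ * c₂) := by ring
        rw [e]
        exact (dvd_neg).mpr hk
    refine ⟨e12, ?_⟩
    set δ := Int.gcd c₁ N with hδ
    rw [← e12]
    have d1 : (δ : ℤ) ∣ c₁ := Int.gcd_dvd_left _ _
    have d2 : (δ : ℤ) ∣ c₂ := by rw [e12]; exact Int.gcd_dvd_left _ _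
    have dN : (δ : ℤ) ∣ (N : ℤ) := Int.gcd_dvd_right _ _
    have dN' : δ ∣ N := by exact_mod_cast dN
    have hδ0 : (δ : ℤ) ≠ 0 := by
      intro h0
      rw [h0] at dN
      exact hN' (zero_dvd_iff.mp dN)
    obtain ⟨γ₁, hγ₁⟩ := d1
    obtain ⟨γ₂, hγ₂⟩ := d2
    have q1 : c₁ / (δ : ℤ) = γ₁ := by rw [hγ₁]; exact Int.mul_ediv_cancel_left _ hδ0
    have q2 : c₂ / (δ : ℤ) = γ₂ := by rw [hγ₂]; exact Int.mul_ediv_cancel_left _ hδ0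
    rw [q1, q2]
    have hNM : (N : ℤ) = (δ : ℤ) * ((N / δ : ℕ) : ℤ) := by
      rw [Int.natCast_div, mul_comm, Int.ediv_mul_cancel dN]
    have hM : ((N / δ : ℕ) : ℤ) ∣ (a₁ * γ₂ - a₂ * γ₁) + k * (δ : ℤ) * γ₁ * γ₂ := by
      have : (δ : ℤ) * ((N / δ : ℕ) : ℤ) ∣
          (δ : ℤ) * ((a₁ * γ₂ - a₂ * γ₁) + k * (δ : ℤ) * γ₁ * γ₂) := by
        rw [← hNM]
        have e : (δ : ℤ) * ((a₁ * γ₂ - a₂ * γ₁) + k * (δ : ℤ) * γ₁ * γ₂)
            = a₁ * c₂ - a₂ * c₁ + k * c₁ * c₂ := by rw [hγ₁, hγ₂]; ring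
        rw [e]; exact hk
      exact (mul_dvd_mul_iff_left hδ0).mp this
    have m1 : ((mm N δ : ℕ) : ℤ) ∣ ((N / δ : ℕ) : ℤ) := by exact_mod_cast mm_dvd_right N δ
    have m2 : ((mm N δ : ℕ) : ℤ) ∣ (δ : ℤ) := by exact_mod_cast mm_dvd_left N δ
    have e : a₁ * γ₂ - a₂ * γ₁
        = ((a₁ * γ₂ - a₂ * γ₁) + k * (δ : ℤ) * γ₁ * γ₂) - (δ : ℤ) * (k * γ₁ * γ₂) := by ring
    rw [e]
    exact dvd_sub (m1.trans hM) (Dvd.dvd.mul_right m2 _)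
  · rintro ⟨e12, hm⟩
    set δ := Int.gcd c₁ N with hδ
    rw [← e12] at hm
    have d1 : (δ : ℤ) ∣ c₁ := Int.gcd_dvd_left _ _
    have d2 : (δ : ℤ) ∣ c₂ := by rw [e12]; exact Int.gcd_dvd_left _ _
    have dN : (δ : ℤ) ∣ (N : ℤ) := Int.gcd_dvd_right _ _
    have dN' : δ ∣ N := by exact_mod_cast dN
    have hδ0 : (δ : ℤ) ≠ 0 := by
      intro h0
      rw [h0] at dN
      exact hN' (zero_dvd_iff.mp dN)
    have cp1 : IsCoprime (((N / δ : ℕ) : ℤ)) (c₁ / (δ : ℤ)) := isCoprime_div_gcd hN c₁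
    have cp2 : IsCoprime (((N / δ : ℕ) : ℤ)) (c₂ / (δ : ℤ)) := by
      have := isCoprime_div_gcd hN c₂
      rwa [← e12] at this
    obtain ⟨γ₁, hγ₁⟩ := d1
    obtain ⟨γ₂, hγ₂⟩ := d2
    have q1 : c₁ / (δ : ℤ) = γ₁ := by rw [hγ₁]; exact Int.mul_ediv_cancel_left _ hδ0
    have q2 : c₂ / (δ : ℤ) = γ₂ := by rw [hγ₂]; exact Int.mul_ediv_cancel_left _ hδ0
    rw [q1] at cp1 hm
    rw [q2] at cp2 hm
    have hNM : (N : ℤ) = (δ : ℤ) * ((N / δ : ℕ) : ℤ) := by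
      rw [Int.natCast_div, mul_comm, Int.ediv_mul_cancel dN]
    set M : ℤ := ((N / δ : ℕ) : ℤ) with hMdef
    obtain ⟨y', hy'⟩ := hm
    have hbez : ((mm N δ : ℕ) : ℤ) = (δ : ℤ) * Nat.gcdA δ (N / δ) + M * Nat.gcdB δ (N / δ) :=
      Nat.gcd_eq_gcd_ab δ (N / δ)
    obtain ⟨p, q, hpq⟩ := (cp1.mul_right cp2).symm
    -- hpq : p * (γ₁ * γ₂) + q * M = 1
    refine ⟨-(y' * Nat.gcdA δ (N / δ) * p), ?_⟩
    rw [hNM]
    refine ⟨y' * Nat.gcdB δ (N / δ) + y' * Nat.gcdA δ (N / δ) * (δ : ℤ) * q, ?_⟩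
    rw [hγ₁, hγ₂]
    linear_combination (δ : ℤ) * hy' + (δ : ℤ) * y' * hbez
      + (-(y' * Nat.gcdA δ (N / δ) * (δ : ℤ) * (δ : ℤ))) * hpq

/-! ### The invariant on matrices -/

/-- The invariant `(δ, a * (c/δ)⁻¹ mod gcd(δ, N/δ))` of a matrix. -/
noncomputable def J (N : ℕ) (g : SL(2, ℤ)) : ℕ × ℕ :=
  (Int.gcd (g 1 0) N,
    rho (mm N (Int.gcd (g 1 0) N)) (g 0 0) (g 1 0 / (Int.gcd (g 1 0) N : ℤ)))

theorem isCoprime_col (g : SL(2, ℤ)) : IsCoprime (g 0 0) (g 1 0) := by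
  have h := g.det_coe
  rw [Matrix.det_fin_two] at h
  exact ⟨g 1 1, -(g 0 1), by linarith⟩

theorem entry_formula (k : ℤ) (g₁ g₂ : SL(2, ℤ)) :
    ((ModularGroup.T ^ k * g₁)⁻¹ * g₂) 1 0
      = g₁ 0 0 * g₂ 1 0 - g₂ 0 0 * g₁ 1 0 + k * g₁ 1 0 * g₂ 1 0 := by
  simp only [Matrix.SpecialLinearGroup.coe_mul, Matrix.SpecialLinearGroup.coe_inv,
    ModularGroup.coe_T_zpow, Matrix.adjugate_fin_two, Matrix.mul_apply, Fin.sum_univ_two,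
    Matrix.of_apply, Matrix.cons_val_zero, Matrix.cons_val_one, Matrix.cons_val', Matrix.empty_val',
    Matrix.cons_val_fin_one]
  ring

theorem gcd_dvd_N (N : ℕ) (c : ℤ) : Int.gcd c N ∣ N := by
  have := Int.gcd_dvd_right c (N : ℤ)
  exact_mod_cast this

theorem isCoprime_mm_div {N : ℕ} (hN : 0 < N) (c : ℤ) :
    IsCoprime ((mm N (Int.gcd c N) : ℕ) : ℤ) (c / (Int.gcd c N : ℤ)) := by
  have h := isCoprime_div_gcd hN c
  have hd : ((mm N (Int.gcd c N) : ℕ) : ℤ) ∣ ((N / Int.gcd c N : ℕ) : ℤ) := by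
    exact_mod_cast mm_dvd_right N (Int.gcd c N)
  exact IsCoprime.of_isCoprime_of_dvd_left h hd

theorem J_eq_iff_aux {N : ℕ} (hN : 0 < N) (g₁ g₂ : SL(2, ℤ)) :
    J N g₁ = J N g₂ ↔
      Int.gcd (g₁ 1 0) N = Int.gcd (g₂ 1 0) N ∧
        ((mm N (Int.gcd (g₁ 1 0) N) : ℕ) : ℤ) ∣
          g₁ 0 0 * (g₂ 1 0 / (Int.gcd (g₂ 1 0) N : ℤ))
            - g₂ 0 0 * (g₁ 1 0 / (Int.gcd (g₁ 1 0) N : ℤ)) := by
  have : NeZero (mm N (Int.gcd (g₁ 1 0) N)) := ⟨(mm_pos hN (gcd_dvd_N N _)).ne'⟩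
  have cop1 := isCoprime_mm_div hN (g₁ 1 0)
  have cop2 := isCoprime_mm_div hN (g₂ 1 0)
  constructor
  · intro h
    have e12 : Int.gcd (g₁ 1 0) N = Int.gcd (g₂ 1 0) N := congrArg Prod.fst h
    have h2 : rho (mm N (Int.gcd (g₁ 1 0) N)) (g₁ 0 0) (g₁ 1 0 / (Int.gcd (g₁ 1 0) N : ℤ))
        = rho (mm N (Int.gcd (g₂ 1 0) N)) (g₂ 0 0) (g₂ 1 0 / (Int.gcd (g₂ 1 0) N : ℤ)) :=
      congrArg Prod.snd h
    have e : mm N (Int.gcd (g₂ 1 0) N) = mm N (Int.gcd (g₁ 1 0) N) := by rw [e12]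
    rw [e] at h2 cop2
    exact ⟨e12, (rho_eq_iff cop1 cop2).mp h2⟩
  · rintro ⟨e12, hd⟩
    have e : mm N (Int.gcd (g₂ 1 0) N) = mm N (Int.gcd (g₁ 1 0) N) := by rw [e12]
    rw [e] at cop2
    have h2 := (rho_eq_iff cop1 cop2).mpr hd
    unfold J
    rw [Prod.mk.injEq]
    refine ⟨e12, ?_⟩
    rw [e]
    exact h2

theorem J_eq_iff {N : ℕ} (hN : 0 < N) (g₁ g₂ : SL(2, ℤ)) :
    J N g₁ = J N g₂ ↔ ∃ k : ℤ, (ModularGroup.T ^ k * g₁)⁻¹ * g₂ ∈ Gamma0 N := by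
  rw [J_eq_iff_aux hN, ← core hN (isCoprime_col g₁) (isCoprime_col g₂)]
  refine exists_congr fun k => ?_
  rw [Gamma0_mem, entry_formula, ZMod.intCast_zmod_eq_zero_iff_dvd]

/-! ### The range of the invariant -/

/-- The target set of the invariant. -/
def target (N : ℕ) : Set (ℕ × ℕ) :=
  {p | p.1 ∣ N ∧ p.2 < mm N p.1 ∧ Nat.Coprime (mm N p.1) p.2}

theorem J_mem_target {N : ℕ} (hN : 0 < N) (g : SL(2, ℤ)) : J N g ∈ target N := by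
  have hd : Int.gcd (g 1 0) N ∣ N := gcd_dvd_N N _
  have : NeZero (mm N (Int.gcd (g 1 0) N)) := ⟨(mm_pos hN hd).ne'⟩
  refine ⟨hd, ZMod.val_lt _, ?_⟩
  -- the class is a unit
  have cop1 := isCoprime_mm_div hN (g 1 0)
  have u₁ : IsUnit ((g 1 0 / (Int.gcd (g 1 0) N : ℤ) : ℤ) : ZMod (mm N (Int.gcd (g 1 0) N))) :=
    (ZMod.coe_int_isUnit_iff_isCoprime _ _).mpr cop1
  have cop0 : IsCoprime ((mm N (Int.gcd (g 1 0) N) : ℕ) : ℤ) (g 0 0) := by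
    have hd1 : ((mm N (Int.gcd (g 1 0) N) : ℕ) : ℤ) ∣ g 1 0 := by
      have h1 : ((mm N (Int.gcd (g 1 0) N) : ℕ) : ℤ) ∣ ((Int.gcd (g 1 0) N : ℕ) : ℤ) := by
        exact_mod_cast mm_dvd_left N (Int.gcd (g 1 0) N)
      exact h1.trans (Int.gcd_dvd_left _ _)
    exact IsCoprime.of_isCoprime_of_dvd_left (isCoprime_col g).symm hd1
  have u₀ : IsUnit ((g 0 0 : ℤ) : ZMod (mm N (Int.gcd (g 1 0) N))) :=
    (ZMod.coe_int_isUnit_iff_isCoprime _ _).mpr cop0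
  have hu : IsUnit (((g 0 0 : ℤ) : ZMod (mm N (Int.gcd (g 1 0) N)))
      * ((g 1 0 / (Int.gcd (g 1 0) N : ℤ) : ℤ) : ZMod (mm N (Int.gcd (g 1 0) N)))⁻¹) := by
    refine u₀.mul ?_
    obtain ⟨v, hv⟩ := u₁
    rw [← hv, ZMod.inv_coe_unit]
    exact Units.isUnit _
  obtain ⟨v, hv⟩ := hu
  show Nat.Coprime (mm N (Int.gcd (g 1 0) N)) (rho _ _ _)
  unfold rho
  rw [← hv]
  exact (ZMod.val_coe_unit_coprime v).symm

theorem exists_J_eq {N : ℕ} (hN : 0 < N) {p : ℕ × ℕ} (hp : p ∈ target N) :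
    ∃ g : SL(2, ℤ), J N g = p := by
  obtain ⟨δ, r⟩ := p
  obtain ⟨hδ, hlt, hcop⟩ := hp
  simp only at hδ hlt hcop
  have hδ0 : 0 < δ := Nat.pos_of_dvd_of_pos hδ hN
  have : NeZero δ := ⟨hδ0.ne'⟩
  have : NeZero (mm N δ) := ⟨(mm_pos hN hδ).ne'⟩
  -- lift the unit `r mod m` to a unit mod `δ`
  obtain ⟨u, hu⟩ := ZMod.unitsMap_surjective (mm_dvd_left N δ) (ZMod.unitOfCoprime r hcop.symm)
  set a : ℕ := (u : ZMod δ).val with ha
  have hacop : Nat.Coprime a δ := ZMod.val_coe_unit_coprime u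
  have hab : IsCoprime (a : ℤ) (δ : ℤ) := Nat.isCoprime_iff_coprime.mpr hacop
  obtain ⟨x, y, hxy⟩ := hab
  -- x * a + y * δ = 1
  have hdet : Matrix.det !![(a : ℤ), -y; (δ : ℤ), x] = 1 := by
    rw [Matrix.det_fin_two_of]; linarith
  let g : SL(2, ℤ) := ⟨!![(a : ℤ), -y; (δ : ℤ), x], hdet⟩
  refine ⟨g, ?_⟩
  have hgcd : Int.gcd (δ : ℤ) (N : ℤ) = δ := by
    rw [Int.gcd_natCast_natCast]
    exact Nat.gcd_eq_left hδ
  have h10 : g 1 0 = (δ : ℤ) := rfl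
  have h00 : g 0 0 = (a : ℤ) := rfl
  unfold J
  rw [h10, h00, hgcd, Int.ediv_self (by exact_mod_cast hδ0.ne')]
  rw [Prod.mk.injEq]
  refine ⟨rfl, ?_⟩
  unfold rho
  have e1 : (((a : ℕ) : ℤ) : ZMod (mm N δ)) = ((ZMod.unitOfCoprime r hcop.symm : (ZMod (mm N δ))ˣ) : ZMod (mm N δ)) := by
    rw [← hu, ZMod.unitsMap_val, ha]
    push_cast
    rw [ZMod.natCast_val]
  rw [e1, ZMod.coe_unitOfCoprime]
  rw [Int.cast_one, ZMod.inv_one, mul_one]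
  exact ZMod.val_natCast_of_lt hlt

theorem range_J {N : ℕ} (hN : 0 < N) : Set.range (J N) = target N := by
  ext p
  constructor
  · rintro ⟨g, rfl⟩
    exact J_mem_target hN g
  · intro hp
    exact exists_J_eq hN hp

/-! ### Counting the target -/

theorem ncard_target (N : ℕ) (hN : 0 < N) : (target N).ncard = ModularCurve.cuspCount N := by
  classical
  have hfin : target N
      = ↑((N.divisors.sigma fun δ => (Finset.range (mm N δ)).filter (fun r => (mm N δ).Coprime r)).map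
          (Equiv.sigmaEquivProd ℕ ℕ).toEmbedding) := by
    ext ⟨δ, r⟩
    simp only [target, Set.mem_ofPred_eq, Finset.coe_map, Equiv.coe_toEmbedding, Set.mem_image,
      Finset.mem_coe, Finset.mem_sigma, Nat.mem_divisors, Finset.mem_filter, Finset.mem_range]
    constructor
    · rintro ⟨h1, h2, h3⟩
      exact ⟨⟨δ, r⟩, ⟨⟨h1, hN.ne'⟩, h2, h3⟩, rfl⟩
    · rintro ⟨⟨δ', r'⟩, ⟨⟨h1, _⟩, h2, h3⟩, he⟩
      simp only [Equiv.sigmaEquivProd_apply, Prod.mk.injEq] at he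
      obtain ⟨rfl, rfl⟩ := he
      exact ⟨h1, h2, h3⟩
  rw [hfin, Set.ncard_coe_finset, Finset.card_map, Finset.card_sigma, ModularCurve.cuspCount]
  refine Finset.sum_congr rfl fun δ _ => ?_
  rw [Nat.totient_eq_card_coprime]
  rfl

/-! ### The orbit space -/

section Orbits

variable (N : ℕ) [NeZero N]

/-- The invariant on `SL(2,ℤ) ⧸ Γ₀(N)`. -/
noncomputable def Jquot : SL(2, ℤ) ⧸ Gamma0 N → ℕ × ℕ := fun x =>
  Quotient.liftOn' x (J N) (fun g₁ g₂ h => by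
    rw [QuotientGroup.leftRel_apply] at h
    exact (J_eq_iff (NeZero.pos N) g₁ g₂).mpr ⟨0, by simpa using h⟩)

@[simp]
theorem Jquot_mk (g : SL(2, ℤ)) : Jquot N (g : SL(2, ℤ) ⧸ Gamma0 N) = J N g := rfl

theorem Jquot_eq_iff (g₁ g₂ : SL(2, ℤ)) :
    Jquot N (g₁ : SL(2, ℤ) ⧸ Gamma0 N) = Jquot N (g₂ : SL(2, ℤ) ⧸ Gamma0 N) ↔
      (g₂ : SL(2, ℤ) ⧸ Gamma0 N) ∈
        MulAction.orbit (Subgroup.zpowers ModularGroup.T) (g₁ : SL(2, ℤ) ⧸ Gamma0 N) := by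
  rw [Jquot_mk, Jquot_mk, J_eq_iff (NeZero.pos N), MulAction.mem_orbit_iff]
  constructor
  · rintro ⟨k, hk⟩
    refine ⟨⟨ModularGroup.T ^ k, Subgroup.zpow_mem_zpowers _ k⟩, ?_⟩
    change (ModularGroup.T ^ k) • (g₁ : SL(2, ℤ) ⧸ Gamma0 N) = _
    rw [MulAction.Quotient.smul_mk, smul_eq_mul, QuotientGroup.eq]
    exact hk
  · rintro ⟨⟨t, ht⟩, h⟩
    obtain ⟨k, rfl⟩ := Subgroup.mem_zpowers_iff.mp ht
    refine ⟨k, ?_⟩
    change (ModularGroup.T ^ k) • (g₁ : SL(2, ℤ) ⧸ Gamma0 N) = _ at h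
    rw [MulAction.Quotient.smul_mk, smul_eq_mul, QuotientGroup.eq] at h
    exact h

/-- The invariant on the orbit space of `T`. -/
noncomputable def Jorb :
    MulAction.orbitRel.Quotient (Subgroup.zpowers ModularGroup.T) (SL(2, ℤ) ⧸ Gamma0 N) → ℕ × ℕ :=
  Quotient.lift (Jquot N) (by
    intro x y h
    induction x using QuotientGroup.induction_on with
    | H g₁ =>
      induction y using QuotientGroup.induction_on with
      | H g₂ =>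
        exact ((Jquot_eq_iff N g₂ g₁).mpr (MulAction.orbitRel_apply.mp h)).symm)

theorem Jorb_injective : Function.Injective (Jorb N) := by
  intro x y h
  induction x using Quotient.inductionOn with
  | h x =>
    induction y using Quotient.inductionOn with
    | h y =>
      induction x using QuotientGroup.induction_on with
      | H g₁ =>
        induction y using QuotientGroup.induction_on with
        | H g₂ =>
          apply Quotient.sound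
          have h' : Jquot N (g₁ : SL(2, ℤ) ⧸ Gamma0 N) = Jquot N (g₂ : SL(2, ℤ) ⧸ Gamma0 N) := h
          exact MulAction.orbitRel_apply.mpr ((Jquot_eq_iff N g₂ g₁).mp h'.symm)

theorem range_Jorb : Set.range (Jorb N) = target N := by
  rw [← range_J (NeZero.pos N)]
  ext p
  constructor
  · rintro ⟨x, rfl⟩
    induction x using Quotient.inductionOn with
    | h x =>
      induction x using QuotientGroup.induction_on with
      | H g => exact ⟨g, rfl⟩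
  · rintro ⟨g, rfl⟩
    exact ⟨Quotient.mk _ (g : SL(2, ℤ) ⧸ Gamma0 N), rfl⟩

/-- **Cusp count**: the number of orbits of `T` on `SL(2,ℤ) ⧸ Γ₀(N)` (left cosets, left action)
is `cuspCount N = ∑ d ∣ N, φ(gcd(d, N/d))`. -/
theorem card_orbits_T :
    Nat.card (MulAction.orbitRel.Quotient (Subgroup.zpowers ModularGroup.T)
      (SL(2, ℤ) ⧸ Gamma0 N)) = ModularCurve.cuspCount N := by
  rw [Nat.card_congr (Equiv.ofInjective (Jorb N) (Jorb_injective N)), range_Jorb,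
    ← ncard_target N (NeZero.pos N)]
  rfl

end Orbits

end Fermat.Agent.S24.H20
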