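import Mathlib
import Fermat.Prelude.Def_ModularCurve_GenusNumerics

/-! Task K6 of team S24: numeric assembly.  From the coset counts (K1-K4) and the Ree
inequality + parity (K5), the genus formula is a natural number `g` and `2 g - 2` is the
Riemann-Hurwitz count. -/

set_option autoImplicit false

namespace Fermat.Agent.S24.H56

open ModularCurve CongruenceSubgroup
open scoped MatrixGroups

/-- Pure arithmetic core: from the four counts, the Ree inequality and the parity statement. -/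
theorem genus_numerics_core (N : ℕ) (n oS oU oT : ℕ)
    (hn : n = dedekindPsi N) (hS : 2 * oS = n + nuTwo N) (hU : 3 * oU = n + 2 * nuThree N)
    (hT : oT = cuspCount N) (hRee : oS + oT + oU ≤ n + 2)
    (hpar : Even (((n : ℤ) - oS) + ((n : ℤ) - oT) + ((n : ℤ) - oU))) :
    ∃ g : ℕ, (g : ℚ) = genusFormula N ∧
      2 * (g : ℤ) - 2 = -2 * (n : ℤ) + ((n : ℤ) - oS) + ((n : ℤ) - oU) + ((n : ℤ) - oT) := by
  -- `D = n - oS - oU - oT + 2` is a nonnegative even integer
  obtain ⟨m, hm⟩ := hpar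
  have hD : (0 : ℤ) ≤ (n : ℤ) - oS - oU - oT + 2 := by
    have : ((oS + oT + oU : ℕ) : ℤ) ≤ ((n + 2 : ℕ) : ℤ) := by exact_mod_cast hRee
    push_cast at this
    linarith
  have hg0 : (0 : ℤ) ≤ m - n + 1 := by linarith
  refine ⟨(m - n + 1).toNat, ?_, ?_⟩
  · have hcast : (((m - n + 1).toNat : ℕ) : ℤ) = m - n + 1 := Int.toNat_of_nonneg hg0
    have hq : (((m - n + 1).toNat : ℕ) : ℚ) = (m : ℚ) - n + 1 := by
      have := congrArg (fun z : ℤ => (z : ℚ)) hcast
      push_cast at this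
      exact this
    have hmq : ((n : ℚ) - oS) + ((n : ℚ) - oT) + ((n : ℚ) - oU) = (m : ℚ) + m := by
      have := congrArg (fun z : ℤ => (z : ℚ)) hm
      push_cast at this
      exact this
    have hSq : 2 * (oS : ℚ) = n + nuTwo N := by exact_mod_cast hS
    have hUq : 3 * (oU : ℚ) = n + 2 * nuThree N := by exact_mod_cast hU
    have hTq : (oT : ℚ) = cuspCount N := by exact_mod_cast hT
    have hnq : (n : ℚ) = dedekindPsi N := by exact_mod_cast hn
    rw [hq, genusFormula, ← hnq, ← hTq]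
    linarith
  · rw [Int.toNat_of_nonneg hg0]
    linarith

/-! ### Facts needed to apply K5 (Ree + parity) to `X = SL(2, ℤ) ⧸ Gamma0 N` -/

instance finite_quotient_Gamma0 (N : ℕ) [NeZero N] : Finite (SL(2, ℤ) ⧸ Gamma0 N) := by
  have : (Gamma0 N).FiniteIndex := (Gamma0_is_congruence N).finiteIndex
  exact Subgroup.finite_quotient_of_finiteIndex

/-- `S` and `T` generate a subgroup acting transitively on any coset space of `SL(2, ℤ)`. -/
theorem exists_mem_closure_smul_eq (H : Subgroup SL(2, ℤ)) (x y : SL(2, ℤ) ⧸ H) :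
    ∃ g ∈ Subgroup.closure ({ModularGroup.S, ModularGroup.T} : Set SL(2, ℤ)), g • x = y := by
  obtain ⟨g, hg⟩ := MulAction.exists_smul_eq SL(2, ℤ) x y
  exact ⟨g, by rw [SpecialLinearGroup.SL2Z_generators]; trivial, hg⟩

instance isPretransitive_closure_ST (H : Subgroup SL(2, ℤ)) :
    MulAction.IsPretransitive
      (Subgroup.closure ({ModularGroup.S, ModularGroup.T} : Set SL(2, ℤ))) (SL(2, ℤ) ⧸ H) where
  exists_smul_eq x y := by
    obtain ⟨g, hg, hgx⟩ := exists_mem_closure_smul_eq H x y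
    exact ⟨⟨g, hg⟩, hgx⟩

/-- The number of orbits of a subgroup on a finite set is at most the cardinality. -/
theorem card_orbits_le {G X : Type*} [Group G] [MulAction G X] [Finite X] (H : Subgroup G) :
    Nat.card (MulAction.orbitRel.Quotient H X) ≤ Nat.card X :=
  Nat.card_le_card_of_surjective (Quotient.mk _) Quotient.mk_surjective

/-- Conversion of the parity statement from truncated subtraction in `ℕ` to `ℤ`. -/
theorem even_int_of_even_nat_sub {n a b c : ℕ} (ha : a ≤ n) (hb : b ≤ n) (hc : c ≤ n)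
    (h : Even ((n - a) + (n - b) + (n - c))) :
    Even (((n : ℤ) - a) + ((n : ℤ) - b) + ((n : ℤ) - c)) := by
  have h' : Even (((n - a + (n - b) + (n - c) : ℕ) : ℤ)) := (Int.even_coe_nat _).mpr h
  push_cast [Nat.cast_sub ha, Nat.cast_sub hb, Nat.cast_sub hc] at h'
  exact h'

/-- Task K6 with the inputs K1-K5 as explicit hypotheses (statement shapes of the task table). -/
theorem genus_numerics_of (N : ℕ) [NeZero N]
    (K1 : Nat.card (SL(2, ℤ) ⧸ Gamma0 N) = dedekindPsi N)
    (K2 : 2 * Nat.card (MulAction.orbitRel.Quotient (Subgroup.zpowers ModularGroup.S)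
      (SL(2, ℤ) ⧸ Gamma0 N)) = Nat.card (SL(2, ℤ) ⧸ Gamma0 N) + nuTwo N)
    (K3 : 3 * Nat.card (MulAction.orbitRel.Quotient
      (Subgroup.zpowers (ModularGroup.S * ModularGroup.T)) (SL(2, ℤ) ⧸ Gamma0 N)) =
        Nat.card (SL(2, ℤ) ⧸ Gamma0 N) + 2 * nuThree N)
    (K4 : Nat.card (MulAction.orbitRel.Quotient (Subgroup.zpowers ModularGroup.T)
      (SL(2, ℤ) ⧸ Gamma0 N)) = cuspCount N)
    (K5ree : Nat.card (MulAction.orbitRel.Quotient (Subgroup.zpowers ModularGroup.S)
        (SL(2, ℤ) ⧸ Gamma0 N)) +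
      Nat.card (MulAction.orbitRel.Quotient (Subgroup.zpowers ModularGroup.T)
        (SL(2, ℤ) ⧸ Gamma0 N)) +
      Nat.card (MulAction.orbitRel.Quotient
        (Subgroup.zpowers (ModularGroup.S * ModularGroup.T)) (SL(2, ℤ) ⧸ Gamma0 N)) ≤
      Nat.card (SL(2, ℤ) ⧸ Gamma0 N) + 2)
    (K5par : Even
      ((Nat.card (SL(2, ℤ) ⧸ Gamma0 N) -
          Nat.card (MulAction.orbitRel.Quotient (Subgroup.zpowers ModularGroup.S)
            (SL(2, ℤ) ⧸ Gamma0 N))) +
        (Nat.card (SL(2, ℤ) ⧸ Gamma0 N) -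
          Nat.card (MulAction.orbitRel.Quotient (Subgroup.zpowers ModularGroup.T)
            (SL(2, ℤ) ⧸ Gamma0 N))) +
        (Nat.card (SL(2, ℤ) ⧸ Gamma0 N) -
          Nat.card (MulAction.orbitRel.Quotient
            (Subgroup.zpowers (ModularGroup.S * ModularGroup.T)) (SL(2, ℤ) ⧸ Gamma0 N))))) :
    ∃ g : ℕ, (g : ℚ) = genusFormula N ∧
      2 * (g : ℤ) - 2 = -2 * (Nat.card (SL(2, ℤ) ⧸ Gamma0 N) : ℤ) +
        ((Nat.card (SL(2, ℤ) ⧸ Gamma0 N) : ℤ) -
          Nat.card (MulAction.orbitRel.Quotient (Subgroup.zpowers ModularGroup.S)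
            (SL(2, ℤ) ⧸ Gamma0 N))) +
        ((Nat.card (SL(2, ℤ) ⧸ Gamma0 N) : ℤ) -
          Nat.card (MulAction.orbitRel.Quotient
            (Subgroup.zpowers (ModularGroup.S * ModularGroup.T)) (SL(2, ℤ) ⧸ Gamma0 N))) +
        ((Nat.card (SL(2, ℤ) ⧸ Gamma0 N) : ℤ) -
          Nat.card (MulAction.orbitRel.Quotient (Subgroup.zpowers ModularGroup.T)
            (SL(2, ℤ) ⧸ Gamma0 N))) :=
  genus_numerics_core N _ _ _ _ K1 K2 K3 K4 K5ree
    (even_int_of_even_nat_sub (card_orbits_le _) (card_orbits_le _) (card_orbits_le _) K5par)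

end Fermat.Agent.S24.H56
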