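import Mathlib

/-!
# Ree / Scott inequality and parity for permutation triples (helper40)

For permutations `s t` of a finite type `X`:
`numCyc s + numCyc t + numCyc (s * t) ≤ card X + 2 * numOrb {s, t}` and
`sign p = (-1) ^ (card X - numCyc p)`.
-/

set_option autoImplicit false

namespace Fermat.Agent.S24.H40

open Equiv

variable {X : Type*}

/-- the orbit relation of `closure S`. -/
def SameOrb (S : Set (Perm X)) (x y : X) : Prop :=
  ∃ g ∈ Subgroup.closure S, g x = y

theorem SameOrb.refl (S : Set (Perm X)) (x : X) : SameOrb S x x :=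
  ⟨1, one_mem _, rfl⟩

theorem SameOrb.symm {S : Set (Perm X)} {x y : X} (h : SameOrb S x y) : SameOrb S y x := by
  obtain ⟨g, hg, rfl⟩ := h
  exact ⟨g⁻¹, inv_mem hg, by simp⟩

theorem SameOrb.trans {S : Set (Perm X)} {x y z : X} (h : SameOrb S x y) (h' : SameOrb S y z) :
    SameOrb S x z := by
  obtain ⟨g, hg, rfl⟩ := h
  obtain ⟨g', hg', rfl⟩ := h'
  exact ⟨g' * g, mul_mem hg' hg, by simp⟩

theorem SameOrb.mono {S T : Set (Perm X)} (h : Subgroup.closure S ≤ Subgroup.closure T) {x y : X}
    (hxy : SameOrb S x y) : SameOrb T x y := by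
  obtain ⟨g, hg, rfl⟩ := hxy
  exact ⟨g, h hg, rfl⟩

theorem SameOrb.of_mem {S : Set (Perm X)} {g : Perm X} (hg : g ∈ S) (x : X) :
    SameOrb S x (g x) :=
  ⟨g, Subgroup.subset_closure hg, rfl⟩

/-- The orbit setoid of `closure S`. -/
def orbSetoid (S : Set (Perm X)) : Setoid X where
  r := SameOrb S
  iseqv := ⟨SameOrb.refl S, SameOrb.symm, SameOrb.trans⟩

/-- Number of orbits on `X` of the subgroup of `Perm X` generated by `S`. -/
noncomputable def numOrb (S : Set (Perm X)) : ℕ :=
  Nat.card (Quotient (orbSetoid S))

/-- Number of cycles (including fixed points) of a permutation. -/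
noncomputable def numCyc (p : Perm X) : ℕ := numOrb {p}

/-- A function constant along generators is constant along orbits. -/
theorem eq_of_sameOrb {α : Type*} {S : Set (Perm X)} (f : X → α)
    (hf : ∀ g ∈ S, ∀ x, f (g x) = f x) {x y : X} (h : SameOrb S x y) : f x = f y := by
  obtain ⟨g, hg, rfl⟩ := h
  have : ∀ g ∈ Subgroup.closure S, ∀ x, f (g x) = f x := by
    intro g hg
    induction hg using Subgroup.closure_induction with
    | mem g hg => exact hf g hg
    | one => intro x; rfl
    | mul a b _ _ ha hb => intro x; rw [Perm.mul_apply, ha, hb]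
    | inv a _ ha => intro x; have := ha (a⁻¹ x); simp at this; exact this.symm
  exact (this g hg x).symm

theorem sameOrb_congr {S T : Set (Perm X)} (h : Subgroup.closure S = Subgroup.closure T) (x y : X) :
    SameOrb S x y ↔ SameOrb T x y := by
  unfold SameOrb
  rw [h]

theorem numOrb_congr {S T : Set (Perm X)} (h : Subgroup.closure S = Subgroup.closure T) :
    numOrb S = numOrb T := by
  have : orbSetoid S = orbSetoid T := by
    ext x y
    exact sameOrb_congr h x y
  unfold numOrb
  rw [this]

section merge

variable [DecidableEq X]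

/-- Adding a transposition of two points in the same orbit does not change the orbits. -/
theorem numOrb_insert_swap_of_sameOrb (S : Set (Perm X)) {x y : X} (h : SameOrb S x y) :
    numOrb (insert (swap x y) S) = numOrb S := by
  have key : ∀ u v, SameOrb (insert (swap x y) S) u v ↔ SameOrb S u v := by
    intro u v
    constructor
    · intro huv
      have := eq_of_sameOrb (S := insert (swap x y) S) (fun w => Quotient.mk (orbSetoid S) w) ?_ huv
      · exact Quotient.exact this
      · intro g hg w
        apply Quotient.sound
        show SameOrb S (g w) w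
        rcases hg with rfl | hg
        · by_cases hwx : w = x
          · subst hwx; rw [swap_apply_left]; exact h.symm
          · by_cases hwy : w = y
            · subst hwy; rw [swap_apply_right]; exact h
            · rw [swap_apply_of_ne_of_ne hwx hwy]; exact SameOrb.refl S w
        · exact (SameOrb.of_mem hg w).symm
    · exact SameOrb.mono (Subgroup.closure_mono (Set.subset_insert _ _))
  have : orbSetoid (insert (swap x y) S) = orbSetoid S := by
    ext u v
    exact key u v
  unfold numOrb
  rw [this]

/-- Adding a transposition of two points in different orbits merges exactly two orbits. -/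
theorem numOrb_insert_swap_of_not_sameOrb [Finite X] (S : Set (Perm X)) {x y : X}
    (h : ¬ SameOrb S x y) :
    numOrb (insert (swap x y) S) + 1 = numOrb S := by
  classical
  set T := insert (swap x y) S with hT
  -- the map collapsing the class of `y` onto the class of `x`
  let f : X → Quotient (orbSetoid S) := fun u =>
    if SameOrb S u y then Quotient.mk _ x else Quotient.mk _ u
  have hf : ∀ g ∈ T, ∀ u, f (g u) = f u := by
    intro g hg u
    rcases hg with rfl | hg
    · by_cases hux : u = x
      · subst hux
        rw [swap_apply_left]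
        simp only [f, SameOrb.refl S y, if_true, h, if_false]
      · by_cases huy : u = y
        · subst huy
          rw [swap_apply_right]
          simp only [f, SameOrb.refl S u, if_true, h, if_false]
        · rw [swap_apply_of_ne_of_ne hux huy]
    · have h1 : SameOrb S u (g u) := SameOrb.of_mem hg u
      by_cases huy : SameOrb S u y
      · have : SameOrb S (g u) y := h1.symm.trans huy
        simp only [f, huy, this, if_true]
      · have : ¬ SameOrb S (g u) y := fun h2 => huy (h1.trans h2)
        simp only [f, huy, this, if_false]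
        exact Quotient.sound h1.symm
  -- descend to the quotient
  let F : Quotient (orbSetoid T) → {c : Quotient (orbSetoid S) // c ≠ Quotient.mk _ y} :=
    fun c => ⟨Quotient.lift f (fun u v huv => eq_of_sameOrb f hf huv) c, by
      induction c using Quotient.inductionOn with
      | _ u =>
        show f u ≠ _
        by_cases huy : SameOrb S u y
        · simp only [f, huy, if_true]
          intro h2
          exact h (Quotient.exact h2)
        · simp only [f, huy, if_false]
          intro h2
          exact huy (Quotient.exact h2)⟩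
  have hxyT : SameOrb T x y := by
    have := SameOrb.of_mem (S := T) (Set.mem_insert (swap x y) S) x
    rwa [swap_apply_left] at this
  have hmono : ∀ {u v}, SameOrb S u v → SameOrb T u v :=
    fun huv => SameOrb.mono (Subgroup.closure_mono (Set.subset_insert _ _)) huv
  have hFinj : Function.Injective F := by
    intro c d hcd
    induction c using Quotient.inductionOn with
    | _ u =>
    induction d using Quotient.inductionOn with
    | _ v =>
    have h3 : f u = f v := congrArg Subtype.val hcd
    apply Quotient.sound
    show SameOrb T u v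
    by_cases huy : SameOrb S u y <;> by_cases hvy : SameOrb S v y
    · exact (hmono huy).trans (hmono hvy).symm
    · simp only [f, huy, hvy, if_true, if_false] at h3
      have h4 : SameOrb S x v := Quotient.exact h3
      exact ((hmono huy).trans hxyT.symm).trans (hmono h4)
    · simp only [f, huy, hvy, if_true, if_false] at h3
      have h4 : SameOrb S u x := Quotient.exact h3
      exact ((hmono h4).trans hxyT).trans (hmono hvy).symm
    · simp only [f, huy, hvy, if_false] at h3
      exact hmono (Quotient.exact h3)
  have hFsurj : Function.Surjective F := by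
    rintro ⟨c, hc⟩
    induction c using Quotient.inductionOn with
    | _ u =>
    refine ⟨Quotient.mk _ u, Subtype.ext ?_⟩
    show f u = _
    have huy : ¬ SameOrb S u y := fun h2 => hc (Quotient.sound h2)
    simp only [f, huy, if_false]
  have hcard := Nat.card_congr (Equiv.ofBijective F ⟨hFinj, hFsurj⟩)
  have h5 : Nat.card {c : Quotient (orbSetoid S) // c ≠ Quotient.mk _ y} + 1
      = Nat.card (Quotient (orbSetoid S)) := by
    rw [← Finite.card_option]
    exact Nat.card_congr (Equiv.optionSubtypeNe (Quotient.mk (orbSetoid S) y))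
  unfold numOrb
  rw [hcard, h5]

end merge


section cycles

theorem sameOrb_singleton_iff_sameCycle (p : Perm X) (x y : X) :
    SameOrb {p} x y ↔ p.SameCycle x y := by
  unfold SameOrb Perm.SameCycle
  rw [← Subgroup.zpowers_eq_closure]
  constructor
  · rintro ⟨g, hg, rfl⟩
    obtain ⟨i, rfl⟩ := Subgroup.mem_zpowers_iff.mp hg
    exact ⟨i, rfl⟩
  · rintro ⟨i, rfl⟩
    exact ⟨p ^ i, Subgroup.mem_zpowers_iff.mpr ⟨i, rfl⟩, rfl⟩

theorem sameOrb_singleton_iff [Finite X] (p : Perm X) (x y : X) :
    SameOrb {p} x y ↔ ∃ i : ℕ, (p ^ i) x = y := by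
  rw [sameOrb_singleton_iff_sameCycle]
  constructor
  · intro h
    exact h.exists_nat_pow_eq
  · rintro ⟨i, rfl⟩
    exact ⟨(i : ℤ), by simp⟩

variable [DecidableEq X]

/-- merge: if `x, y` are in different cycles of `p`, they are in the same cycle of
`swap x y * p`. -/
theorem sameOrb_swap_mul_of_not [Finite X] (p : Perm X) {x y : X}
    (h : ¬ SameOrb {p} x y) : SameOrb {swap x y * p} x y := by
  classical
  have hex : ∃ m : ℕ, 0 < m ∧ (p ^ m) x = x :=
    ⟨orderOf p, orderOf_pos p, by rw [pow_orderOf_eq_one]; rfl⟩
  set m := Nat.find hex with hm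
  obtain ⟨hm0, hmx⟩ := Nat.find_spec hex
  have hmin : ∀ j, 0 < j → j < m → (p ^ j) x ≠ x := fun j hj0 hjm hj =>
    Nat.find_min hex hjm ⟨hj0, hj⟩
  have hy : ∀ j : ℕ, (p ^ j) x ≠ y := fun j hj =>
    h ((sameOrb_singleton_iff p x y).mpr ⟨j, hj⟩)
  have key : ∀ j, j < m → ((swap x y * p) ^ j) x = (p ^ j) x := by
    intro j
    induction j with
    | zero => intro _; rfl
    | succ j ih =>
      intro hj
      rw [pow_succ', Perm.mul_apply, ih (by omega), Perm.mul_apply, ← Perm.mul_apply p,
        ← pow_succ']
      exact swap_apply_of_ne_of_ne (hmin _ (by omega) hj) (hy _)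
  rw [sameOrb_singleton_iff]
  refine ⟨m, ?_⟩
  obtain ⟨m', hm'⟩ : ∃ m', m = m' + 1 := ⟨m - 1, by omega⟩
  rw [hm', pow_succ', Perm.mul_apply, key m' (by omega), Perm.mul_apply, ← Perm.mul_apply p,
    ← pow_succ', ← hm', hmx, swap_apply_left]

/-- split: if `x ≠ y` are in the same cycle of `p`, they are in different cycles of
`swap x y * p`. -/
theorem not_sameOrb_swap_mul_of_sameOrb [Finite X] (p : Perm X) {x y : X} (hxy : x ≠ y)
    (h : SameOrb {p} x y) : ¬ SameOrb {swap x y * p} x y := by
  classical
  have hex : ∃ k : ℕ, (p ^ k) x = y := (sameOrb_singleton_iff p x y).mp h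
  set k := Nat.find hex with hk
  have hkx : (p ^ k) x = y := Nat.find_spec hex
  have hk0 : 0 < k := by
    rcases Nat.eq_zero_or_pos k with h0 | h0
    · rw [h0] at hkx; exact absurd hkx hxy
    · exact h0
  have hminy : ∀ j, j < k → (p ^ j) x ≠ y := fun j hjk hj => Nat.find_min hex hjk hj
  have hminx : ∀ j, 0 < j → j < k → (p ^ j) x ≠ x := by
    intro j hj0 hjk hj
    apply hminy (k - j) (by omega)
    have : (p ^ (k - j)) ((p ^ j) x) = y := by
      rw [← Perm.mul_apply, ← pow_add, Nat.sub_add_cancel hjk.le, hkx]
    rwa [hj] at this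
  set q := swap x y * p with hq
  have key : ∀ j, j < k → (q ^ j) x = (p ^ j) x := by
    intro j
    induction j with
    | zero => intro _; rfl
    | succ j ih =>
      intro hj
      rw [pow_succ', Perm.mul_apply, ih (by omega), hq, Perm.mul_apply, ← Perm.mul_apply p,
        ← pow_succ']
      exact swap_apply_of_ne_of_ne (hminx _ (by omega) hj) (hminy _ hj)
  have hqk : (q ^ k) x = x := by
    obtain ⟨k', hk'⟩ : ∃ k', k = k' + 1 := ⟨k - 1, by omega⟩
    rw [hk', pow_succ', Perm.mul_apply, key k' (by omega), hq, Perm.mul_apply, ← Perm.mul_apply p,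
      ← pow_succ', ← hk', hkx, swap_apply_right]
  have hper : ∀ i : ℕ, (q ^ i) x = (q ^ (i % k)) x := by
    intro i
    conv_lhs => rw [← Nat.mod_add_div i k]
    rw [pow_add, Perm.mul_apply, pow_mul]
    congr 1
    have : ∀ n : ℕ, ((q ^ k) ^ n) x = x := by
      intro n
      induction n with
      | zero => rfl
      | succ n ih => rw [pow_succ, Perm.mul_apply, hqk, ih]
    exact this _
  intro hc
  obtain ⟨i, hi⟩ := (sameOrb_singleton_iff q x y).mp hc
  rw [hper i, key _ (Nat.mod_lt _ hk0)] at hi
  exact hminy _ (Nat.mod_lt _ hk0) hi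

theorem closure_swap_mul (p : Perm X) (x y : X) :
    Subgroup.closure (insert (swap x y) {swap x y * p}) =
      Subgroup.closure (insert (swap x y) ({p} : Set (Perm X))) := by
  apply le_antisymm
  · rw [Subgroup.closure_le]
    rintro g (rfl | rfl)
    · exact Subgroup.subset_closure (Set.mem_insert _ _)
    · exact mul_mem (Subgroup.subset_closure (Set.mem_insert _ _))
        (Subgroup.subset_closure (Set.mem_insert_of_mem _ rfl))
  · rw [Subgroup.closure_le]
    rintro g (rfl | rfl)
    · exact Subgroup.subset_closure (Set.mem_insert _ _)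
    · have h1 : swap x y ∈ Subgroup.closure (insert (swap x y) {swap x y * g}) :=
        Subgroup.subset_closure (Set.mem_insert _ _)
      have h2 : swap x y * g ∈ Subgroup.closure (insert (swap x y) {swap x y * g}) :=
        Subgroup.subset_closure (Set.mem_insert_of_mem _ rfl)
      have h3 := mul_mem h1 h2
      rwa [← mul_assoc, swap_mul_self, one_mul] at h3

/-- Left multiplication by a transposition changes the number of cycles by exactly one:
`+1` if the two points are in the same cycle (split). -/
theorem numCyc_swap_mul_of_sameOrb [Finite X] (p : Perm X) {x y : X} (hxy : x ≠ y)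
    (h : SameOrb {p} x y) : numCyc (swap x y * p) = numCyc p + 1 := by
  have h1 := numOrb_insert_swap_of_sameOrb {p} h
  have h2 := numOrb_insert_swap_of_not_sameOrb {swap x y * p}
    (not_sameOrb_swap_mul_of_sameOrb p hxy h)
  rw [numOrb_congr (closure_swap_mul p x y), h1] at h2
  unfold numCyc
  omega

/-- `-1` if the two points are in different cycles (merge). -/
theorem numCyc_swap_mul_of_not_sameOrb [Finite X] (p : Perm X) {x y : X}
    (h : ¬ SameOrb {p} x y) : numCyc (swap x y * p) + 1 = numCyc p := by
  have h1 := numOrb_insert_swap_of_not_sameOrb {p} h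
  have h2 := numOrb_insert_swap_of_sameOrb {swap x y * p} (sameOrb_swap_mul_of_not p h)
  rw [numOrb_congr (closure_swap_mul p x y)] at h2
  unfold numCyc
  omega

end cycles


section basic

theorem numOrb_le_card [Finite X] (S : Set (Perm X)) : numOrb S ≤ Nat.card X :=
  Nat.card_le_card_of_surjective (Quotient.mk (orbSetoid S)) Quotient.mk_surjective

theorem numCyc_le_card [Finite X] (p : Perm X) : numCyc p ≤ Nat.card X :=
  numOrb_le_card _

theorem numCyc_one : numCyc (1 : Perm X) = Nat.card X := by
  unfold numCyc numOrb
  symm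
  refine Nat.card_congr (Equiv.ofBijective (Quotient.mk (orbSetoid {1})) ⟨?_, Quotient.mk_surjective⟩)
  intro x y hxy
  have h : SameOrb {(1 : Perm X)} x y := Quotient.exact hxy
  exact eq_of_sameOrb (S := {(1 : Perm X)}) id (by rintro g rfl x; rfl) h

theorem closure_singleton_inv (p : Perm X) :
    Subgroup.closure ({p⁻¹} : Set (Perm X)) = Subgroup.closure {p} := by
  apply le_antisymm
  · rw [Subgroup.closure_le]
    rintro g rfl
    exact inv_mem (Subgroup.subset_closure rfl)
  · rw [Subgroup.closure_le]
    rintro g rfl
    have h1 : g⁻¹ ∈ Subgroup.closure ({g⁻¹} : Set (Perm X)) :=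
      Subgroup.subset_closure (Set.mem_singleton g⁻¹)
    have := inv_mem h1
    rwa [inv_inv] at this

theorem numCyc_inv (p : Perm X) : numCyc p⁻¹ = numCyc p :=
  numOrb_congr (closure_singleton_inv p)

theorem sameOrb_inv (p : Perm X) (x y : X) : SameOrb {p⁻¹} x y ↔ SameOrb {p} x y :=
  sameOrb_congr (closure_singleton_inv p) x y

variable [DecidableEq X]

/-- Right multiplication by a transposition: split case. -/
theorem numCyc_mul_swap_of_sameOrb [Finite X] (p : Perm X) {x y : X} (hxy : x ≠ y)
    (h : SameOrb {p} x y) : numCyc (p * swap x y) = numCyc p + 1 := by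
  have h1 := numCyc_swap_mul_of_sameOrb p⁻¹ hxy ((sameOrb_inv p x y).mpr h)
  rw [numCyc_inv] at h1
  rw [← numCyc_inv (p * swap x y), mul_inv_rev, swap_inv]
  exact h1

/-- Right multiplication by a transposition: merge case. -/
theorem numCyc_mul_swap_of_not_sameOrb [Finite X] (p : Perm X) {x y : X}
    (h : ¬ SameOrb {p} x y) : numCyc (p * swap x y) + 1 = numCyc p := by
  have h1 := numCyc_swap_mul_of_not_sameOrb p⁻¹ (fun h' => h ((sameOrb_inv p x y).mp h'))
  rw [numCyc_inv] at h1
  rw [← numCyc_inv (p * swap x y), mul_inv_rev, swap_inv]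
  exact h1

theorem sameOrb_mul_swap_of_not [Finite X] (p : Perm X) {x y : X}
    (h : ¬ SameOrb {p} x y) : SameOrb {p * swap x y} x y := by
  have h1 := sameOrb_swap_mul_of_not p⁻¹ (fun h' => h ((sameOrb_inv p x y).mp h'))
  rw [← sameOrb_inv (p * swap x y), mul_inv_rev, swap_inv]
  exact h1

/-- The sign of a permutation in terms of its number of cycles. -/
theorem sign_eq_neg_one_pow [Fintype X] (p : Perm X) :
    Perm.sign p = (-1) ^ (Nat.card X - numCyc p) := by
  induction p using Perm.swap_induction_on with
  | one => rw [numCyc_one, Nat.sub_self, pow_zero, Perm.sign_one]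
  | swap_mul f x y hxy ih =>
    rw [Perm.sign_mul, Perm.sign_swap hxy, ih]
    have hle := numCyc_le_card f
    have hle' := numCyc_le_card (swap x y * f)
    by_cases h : SameOrb {f} x y
    · have h1 := numCyc_swap_mul_of_sameOrb f hxy h
      have : Nat.card X - numCyc f = (Nat.card X - numCyc (swap x y * f)) + 1 := by omega
      rw [this, pow_succ]
      simp
    · have h1 := numCyc_swap_mul_of_not_sameOrb f h
      have : Nat.card X - numCyc (swap x y * f) = (Nat.card X - numCyc f) + 1 := by omega
      rw [this, pow_succ, mul_comm]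

end basic

section ree

variable [DecidableEq X]

omit [DecidableEq X] in
theorem closure_pair_one (s : Perm X) :
    Subgroup.closure ({s, 1} : Set (Perm X)) = Subgroup.closure {s} := by
  apply le_antisymm
  · rw [Subgroup.closure_le]
    rintro g (rfl | rfl)
    · exact Subgroup.subset_closure rfl
    · exact one_mem _
  · exact Subgroup.closure_mono (by intro g hg; exact Or.inl hg)

theorem closure_triple (s t : Perm X) (x y : X) :
    Subgroup.closure (insert (swap x y) ({s * swap x y, swap x y * t} : Set (Perm X))) =
      Subgroup.closure (insert (swap x y) ({s, t} : Set (Perm X))) := by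
  have hw : ∀ A : Set (Perm X), swap x y ∈ Subgroup.closure (insert (swap x y) A) := fun A =>
    Subgroup.subset_closure (Set.mem_insert _ _)
  apply le_antisymm
  · rw [Subgroup.closure_le]
    rintro g (rfl | rfl | rfl)
    · exact hw _
    · exact mul_mem (Subgroup.subset_closure (Or.inr (Or.inl rfl))) (hw _)
    · exact mul_mem (hw _) (Subgroup.subset_closure (Or.inr (Or.inr rfl)))
  · rw [Subgroup.closure_le]
    rintro g (rfl | rfl | rfl)
    · exact hw _
    · have h2 : g * swap x y ∈
          Subgroup.closure (insert (swap x y) ({g * swap x y, swap x y * t} : Set (Perm X))) :=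
        Subgroup.subset_closure (Or.inr (Or.inl rfl))
      have h3 := mul_mem h2 (hw _)
      rwa [mul_assoc, swap_mul_self, mul_one] at h3
    · have h2 : swap x y * g ∈
          Subgroup.closure (insert (swap x y) ({s * swap x y, swap x y * g} : Set (Perm X))) :=
        Subgroup.subset_closure (Or.inr (Or.inr rfl))
      have h3 := mul_mem (hw _) h2
      rwa [← mul_assoc, swap_mul_self, one_mul] at h3

/-- **Ree / Scott inequality** (general form). -/
theorem ree_aux [Finite X] (n : ℕ) : ∀ s t : Perm X, Nat.card X - numCyc t = n →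
    numCyc s + numCyc t + numCyc (s * t) ≤ Nat.card X + 2 * numOrb {s, t} := by
  induction n using Nat.strong_induction_on with
  | _ n ih =>
  intro s t hn
  by_cases ht : t = 1
  · subst ht
    rw [mul_one, numCyc_one, numOrb_congr (closure_pair_one s)]
    unfold numCyc
    omega
  · obtain ⟨x, hx⟩ : ∃ x, t x ≠ x := by
      by_contra hcon
      push Not at hcon
      exact ht (Perm.ext hcon)
    set y := t x with hy
    have hxy : x ≠ y := fun h => hx h.symm
    set w := swap x y with hw
    have hty : SameOrb {t} x y := SameOrb.of_mem (S := {t}) rfl x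
    have ht' : numCyc (w * t) = numCyc t + 1 := numCyc_swap_mul_of_sameOrb t hxy hty
    have hle' := numCyc_le_card (w * t)
    have hprod : (s * w) * (w * t) = s * t := by
      rw [mul_assoc, ← mul_assoc w w t, hw, swap_mul_self, one_mul]
    have hIH := ih (Nat.card X - numCyc (w * t)) (by omega) (s * w) (w * t) rfl
    rw [hprod] at hIH
    -- orbits
    have hst : SameOrb {s, t} x y :=
      SameOrb.of_mem (S := {s, t}) (Or.inr rfl) x
    have ho1 : numOrb (insert w {s, t}) = numOrb {s, t} :=
      numOrb_insert_swap_of_sameOrb {s, t} hst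
    have ho2 : numOrb (insert w {s * w, w * t}) = numOrb (insert w {s, t}) :=
      numOrb_congr (closure_triple s t x y)
    by_cases hs : SameOrb {s} x y
    · -- split in `s`
      have hs' : numCyc (s * w) = numCyc s + 1 := numCyc_mul_swap_of_sameOrb s hxy hs
      have ho3 : numOrb {s * w, w * t} ≤ numOrb (insert w {s * w, w * t}) + 1 := by
        by_cases h3 : SameOrb {s * w, w * t} x y
        · have h4 : numOrb (insert w {s * w, w * t}) = numOrb {s * w, w * t} :=
            numOrb_insert_swap_of_sameOrb _ h3
          omega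
        · have h4 : numOrb (insert w {s * w, w * t}) + 1 = numOrb {s * w, w * t} :=
            numOrb_insert_swap_of_not_sameOrb _ h3
          omega
      omega
    · -- merge in `s`
      have hs' : numCyc (s * w) + 1 = numCyc s := numCyc_mul_swap_of_not_sameOrb s hs
      have h3 : SameOrb {s * w, w * t} x y :=
        SameOrb.mono (Subgroup.closure_mono (by intro g hg; exact Or.inl hg))
          (sameOrb_mul_swap_of_not s hs)
      have ho3 : numOrb (insert w {s * w, w * t}) = numOrb {s * w, w * t} :=
        numOrb_insert_swap_of_sameOrb _ h3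
      omega

/-- **Ree / Scott inequality**: for permutations `s, t` of a finite set,
`c(s) + c(t) + c(st) ≤ |X| + 2 · #orbits⟨s,t⟩`. -/
theorem ree [Finite X] (s t : Perm X) :
    numCyc s + numCyc t + numCyc (s * t) ≤ Nat.card X + 2 * numOrb {s, t} :=
  ree_aux _ s t rfl

/-- parity: `(n - c(s)) + (n - c(t)) + (n - c(st))` is even. -/
theorem even_defect [Finite X] (s t : Perm X) :
    Even ((Nat.card X - numCyc s) + (Nat.card X - numCyc t) + (Nat.card X - numCyc (s * t))) := by
  classical
  let _ := Fintype.ofFinite X
  have h := Perm.sign_mul s t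
  rw [sign_eq_neg_one_pow, sign_eq_neg_one_pow, sign_eq_neg_one_pow, ← pow_add] at h
  have h2 : ((-1 : ℤˣ)) ^ ((Nat.card X - numCyc s) + (Nat.card X - numCyc t)
      + (Nat.card X - numCyc (s * t))) = 1 := by
    rw [pow_add, ← h, ← pow_add, ← two_mul, pow_mul]
    simp
  by_contra hodd
  rw [Nat.not_even_iff_odd] at hodd
  rw [hodd.neg_one_pow] at h2
  exact absurd h2 (by decide)

end ree


section action

variable {G : Type*} [Group G] [MulAction G X]

/-- Number of orbits on `X` of the cyclic subgroup generated by `g`. -/
noncomputable def orbCount (X : Type*) {G : Type*} [Group G] [MulAction G X] (g : G) : ℕ :=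
  Nat.card (MulAction.orbitRel.Quotient (Subgroup.zpowers g) X)

theorem toPerm_zpow_apply (g : G) (i : ℤ) (b : X) :
    ((MulAction.toPerm g : Perm X) ^ i) b = g ^ i • b := by
  have h : (MulAction.toPerm g : Perm X) ^ i = MulAction.toPerm (g ^ i) :=
    (map_zpow (MulAction.toPermHom G X) g i).symm
  rw [h]
  rfl

theorem orbCount_eq_numCyc (g : G) : orbCount X g = numCyc (MulAction.toPerm g : Perm X) := by
  unfold orbCount numCyc numOrb MulAction.orbitRel.Quotient
  refine Nat.card_congr (Quotient.congr (Equiv.refl X) ?_)
  intro a b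
  show MulAction.orbitRel (Subgroup.zpowers g) X a b ↔ SameOrb {MulAction.toPerm g} a b
  rw [MulAction.orbitRel_apply, MulAction.mem_orbit_iff, sameOrb_singleton_iff_sameCycle]
  constructor
  · rintro ⟨⟨k, hk⟩, rfl⟩
    obtain ⟨i, rfl⟩ := Subgroup.mem_zpowers_iff.mp hk
    refine Perm.SameCycle.symm ⟨i, ?_⟩
    rw [toPerm_zpow_apply]
    rfl
  · intro h
    obtain ⟨i, hi⟩ := h.symm
    refine ⟨⟨g ^ i, Subgroup.mem_zpowers_iff.mpr ⟨i, rfl⟩⟩, ?_⟩
    rw [← hi, toPerm_zpow_apply]
    rfl

theorem toPerm_mul (g h : G) :
    (MulAction.toPerm (g * h) : Perm X) = MulAction.toPerm g * MulAction.toPerm h :=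
  map_mul (MulAction.toPermHom G X) g h

/-- **Ree inequality for a group action**: if `⟨g, h⟩` acts transitively on the finite set `X`,
then `#orbits(g) + #orbits(h) + #orbits(gh) ≤ |X| + 2`. -/
theorem ree_action [Finite X] (g h : G)
    (htrans : ∀ x y : X, ∃ k ∈ Subgroup.closure ({g, h} : Set G), k • x = y) :
    orbCount X g + orbCount X h + orbCount X (g * h) ≤ Nat.card X + 2 := by
  classical
  rw [orbCount_eq_numCyc, orbCount_eq_numCyc, orbCount_eq_numCyc, toPerm_mul]
  have h1 := ree (MulAction.toPerm g : Perm X) (MulAction.toPerm h)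
  have h2 : numOrb ({MulAction.toPerm g, MulAction.toPerm h} : Set (Perm X)) ≤ 1 := by
    unfold numOrb
    rw [Finite.card_le_one_iff_subsingleton]
    constructor
    intro a b
    induction a using Quotient.inductionOn with
    | _ x =>
    induction b using Quotient.inductionOn with
    | _ y =>
    apply Quotient.sound
    obtain ⟨k, hk, rfl⟩ := htrans x y
    refine ⟨MulAction.toPerm k, ?_, rfl⟩
    have h3 : MulAction.toPermHom G X k ∈
        (Subgroup.closure ({g, h} : Set G)).map (MulAction.toPermHom G X) :=
      Subgroup.mem_map_of_mem _ hk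
    rw [MonoidHom.map_closure] at h3
    have h4 : (MulAction.toPermHom G X) '' ({g, h} : Set G)
        = {MulAction.toPerm g, MulAction.toPerm h} := by
      rw [Set.image_pair]
      rfl
    rw [h4] at h3
    exact h3
  omega

/-- **Parity for a group action**. -/
theorem even_defect_action [Finite X] (g h : G) :
    Even ((Nat.card X - orbCount X g) + (Nat.card X - orbCount X h)
      + (Nat.card X - orbCount X (g * h))) := by
  classical
  rw [orbCount_eq_numCyc, orbCount_eq_numCyc, orbCount_eq_numCyc, toPerm_mul]
  exact even_defect _ _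

theorem orbCount_le_card [Finite X] (g : G) : orbCount X g ≤ Nat.card X := by
  rw [orbCount_eq_numCyc]
  exact numCyc_le_card _

/-- Combined form used for the genus: `n + 2 - (r_g + r_h + r_{gh})` is a nonnegative even
integer. -/
theorem exists_genus_nat [Finite X] (g h : G)
    (htrans : ∀ x y : X, ∃ k ∈ Subgroup.closure ({g, h} : Set G), k • x = y) :
    ∃ γ : ℕ, (Nat.card X : ℤ) + 2 - (orbCount X g + orbCount X h + orbCount X (g * h)) = 2 * γ := by
  have h1 := ree_action g h htrans
  have h2 := even_defect_action (X := X) g h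
  have l1 := orbCount_le_card (X := X) g
  have l2 := orbCount_le_card (X := X) h
  have l3 := orbCount_le_card (X := X) (g * h)
  obtain ⟨m, hm⟩ := h2
  by_cases hX : Nat.card X = 0
  · refine ⟨1, ?_⟩
    have e1 : orbCount X g = 0 := by omega
    have e2 : orbCount X h = 0 := by omega
    have e3 : orbCount X (g * h) = 0 := by omega
    rw [hX, e1, e2, e3]
    norm_num
  · refine ⟨m + 1 - Nat.card X, ?_⟩
    omega

end action

end Fermat.Agent.S24.H40
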