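import Mathlib
import Fermat.Prelude.Def_ModularCurve_GenusNumerics
import Fermat.Agent.S24.Numerics_helper56
import Fermat.Agent.S24.Ree_helper40
import Fermat.Agent.S24.CuspCount_helper20
import Fermat.Agent.S24.CosetOrbits_helper35

/-! Task K6 of team S24, final hypothesis-free form: the K-block (combinatorics of
`SL(2, ℤ) ⧸ Gamma0 N`) delivered in the shapes of the S24 skeleton (layer D, interface I3).

* `card_quotient_Gamma0`, `card_orbits_S`, `card_orbits_ST`, `card_orbits_T` : D1-D4;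
* `genus_numerics` : D5, `∃ g : ℕ, ψ - 3 ν₂ - 4 ν₃ - 6 c = 12 g - 12`;
* `genus_numerics_full` : the genus formula is a natural number `g`, and `2 g - 2` is the
  Riemann-Hurwitz count (task-table shape of K6);
* `genus_numerics_nat` : `∃ g : ℕ, (g : ℚ) = genusFormula N`. -/

set_option autoImplicit false

namespace Fermat.Agent.S24.H56

open ModularCurve CongruenceSubgroup
open scoped MatrixGroups

/-- **D1.** index of `Γ₀(N)`. -/
theorem card_quotient_Gamma0 (N : ℕ) [NeZero N] :
    Nat.card (SL(2, ℤ) ⧸ Gamma0 N) = dedekindPsi N :=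
  H35.card_quotient_Gamma0 N (NeZero.ne N)

/-- **D2.** orbits of `S` (elliptic points of order 2). -/
theorem card_orbits_S (N : ℕ) [NeZero N] :
    2 * Nat.card (MulAction.orbitRel.Quotient (Subgroup.zpowers ModularGroup.S)
      (SL(2, ℤ) ⧸ Gamma0 N)) = dedekindPsi N + nuTwo N :=
  H35.two_mul_card_orbits_S N

/-- **D3.** orbits of `S * T` (elliptic points of order 3). -/
theorem card_orbits_ST (N : ℕ) [NeZero N] :
    3 * Nat.card (MulAction.orbitRel.Quotient
      (Subgroup.zpowers (ModularGroup.S * ModularGroup.T)) (SL(2, ℤ) ⧸ Gamma0 N)) =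
        dedekindPsi N + 2 * nuThree N :=
  H35.three_mul_card_orbits_ST N

/-- **D4.** orbits of `T` (cusps). -/
theorem card_orbits_T (N : ℕ) [NeZero N] :
    Nat.card (MulAction.orbitRel.Quotient (Subgroup.zpowers ModularGroup.T)
      (SL(2, ℤ) ⧸ Gamma0 N)) = cuspCount N :=
  H20.card_orbits_T N

/-- **K6, task-table shape.** The genus formula is a natural number `g`, and `2 g - 2` is the
Riemann-Hurwitz count for the three branch points of `j`, in terms of the orbit counts of
`S`, `S * T`, `T` on `SL(2, ℤ) ⧸ Gamma0 N`. -/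
theorem genus_numerics_full (N : ℕ) [NeZero N] :
    ∃ g : ℕ, (g : ℚ) = genusFormula N ∧
      2 * (g : ℤ) - 2 = -2 * (Nat.card (SL(2, ℤ) ⧸ Gamma0 N) : ℤ) +
        ((Nat.card (SL(2, ℤ) ⧸ Gamma0 N) : ℤ) -
          Nat.card (MulAction.orbitRel.Quotient (Subgroup.zpowers ModularGroup.S)
            (SL(2, ℤ) ⧸ Gamma0 N))) +
        ((Nat.card (SL(2, ℤ) ⧸ Gamma0 N) : ℤ) -
          Nat.card (MulAction.orbitRel.Quotient
            (Subgroup.zpowers (ModularGroup.S * ModularGroup.T)) (SL(2, ℤ) ⧸ Gamma0 N))) +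
        ((Nat.card (SL(2, ℤ) ⧸ Gamma0 N) : ℤ) -
          Nat.card (MulAction.orbitRel.Quotient (Subgroup.zpowers ModularGroup.T)
            (SL(2, ℤ) ⧸ Gamma0 N))) := by
  refine genus_numerics_of N (card_quotient_Gamma0 N) ?_ ?_ (card_orbits_T N) ?_ ?_
  · rw [card_orbits_S, card_quotient_Gamma0]
  · rw [card_orbits_ST, card_quotient_Gamma0]
  · exact H40.ree_action (X := SL(2, ℤ) ⧸ Gamma0 N) ModularGroup.S ModularGroup.T
      (exists_mem_closure_smul_eq (Gamma0 N))
  · exact H40.even_defect_action (X := SL(2, ℤ) ⧸ Gamma0 N) ModularGroup.S ModularGroup.T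

/-- The genus formula is a natural number. -/
theorem genus_numerics_nat (N : ℕ) [NeZero N] : ∃ g : ℕ, (g : ℚ) = genusFormula N := by
  obtain ⟨g, hg, -⟩ := genus_numerics_full N
  exact ⟨g, hg⟩

/-- **D5 = interface (I3), with the identification of `g`.** -/
theorem genus_numerics' (N : ℕ) [NeZero N] :
    ∃ g : ℕ, (g : ℚ) = genusFormula N ∧
      (dedekindPsi N : ℤ) - 3 * nuTwo N - 4 * nuThree N - 6 * cuspCount N = 12 * g - 12 := by
  obtain ⟨g, hg, -⟩ := genus_numerics_full N
  refine ⟨g, hg, ?_⟩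
  have h : (g : ℚ) = 1 + (dedekindPsi N : ℚ) / 12 - (nuTwo N : ℚ) / 4 - (nuThree N : ℚ) / 3
      - (cuspCount N : ℚ) / 2 := by rw [hg, genusFormula]
  have h' : ((dedekindPsi N : ℤ) - 3 * nuTwo N - 4 * nuThree N - 6 * cuspCount N : ℚ)
      = ((12 * g - 12 : ℤ) : ℚ) := by
    push_cast
    linarith
  exact_mod_cast h'

/-- **D5 = interface (I3).** -/
theorem genus_numerics (N : ℕ) [NeZero N] :
    ∃ g : ℕ, (dedekindPsi N : ℤ) - 3 * nuTwo N - 4 * nuThree N - 6 * cuspCount N = 12 * g - 12 := by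
  obtain ⟨g, -, hg⟩ := genus_numerics' N
  exact ⟨g, hg⟩

end Fermat.Agent.S24.H56
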