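import Mathlib
import Fermat.Agent.S24.CoverRam_helper98
import Fermat.Agent.S24.HurwitzFinal_helper14
import Fermat.Agent.S24.NumericsFinal_helper56
import Fermat.Agent.S24.JTrans_helper89

/-!
# S24: the genus of `X₀(N)` from an analytic cover

`genus_of_cover`: the frozen statement from `C : AnalyticCover N` (the analytic layer, D1b);
the function-field layer (A0 + A1 + A2 + A4) enters through `H14.rhInputs`, the combinatorics
through `H56.genus_numerics_full`.
-/

set_option autoImplicit false

open AlgebraicCurve IntermediateField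
open scoped MatrixGroups
open ModularCurve CongruenceSubgroup ModularGroup

namespace Fermat.Agent.S24.H98

/-- The frozen statement S24, from an analytic cover and the Riemann–Hurwitz inputs. -/
theorem genus_of_inputs (N : ℕ) [NeZero N]
    [AlgebraicCurve.HasCanonicalDivisor (K := AlgebraicClosure ℚ)
      (F := ↥(ModularCurve.modularFunctionFieldBar N))]
    (C : AnalyticCover N) (hR : H14.RHInputs Kbar (FN N) (jBar N)) :
    (AlgebraicCurve.genus (AlgebraicClosure ℚ) ↥(ModularCurve.modularFunctionFieldBar N) : ℚ)
      = ModularCurve.genusFormula N := by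
  classical
  have hx : Transcendental Kbar (jBar N) := H89.transcendental_jBar N _
  obtain ⟨hfd, hn, hunr, h1728, h0, hinf⟩ := ramification_data_of_cover C hx
  obtain ⟨g, hg, hnum⟩ := H56.genus_numerics_full N
  have hne : (0 : Kbar) ≠ 1728 := by norm_num
  have hT : ∀ a : Kbar, a ∉ ({0, 1728} : Finset Kbar) → ∀ v : Place Kbar (FN N),
      0 < v.ord (jBar N - algebraMap Kbar (FN N) a) →
        v.ord (jBar N - algebraMap Kbar (FN N) a) = 1 := by
    intro a ha v hv
    have ha' : a ≠ 0 ∧ a ≠ 1728 := by simpa [not_or] using ha
    exact hunr a ha'.1 ha'.2 v hv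
  have hgenus : AlgebraicCurve.genus Kbar (FN N) = g := by
    refine H14.genus_eq_of hR hx {0, 1728} hT g ?_
    rw [Finset.sum_pair hne, hn, h1728, h0, hinf, hnum]
    ring
  show ((AlgebraicCurve.genus Kbar (FN N) : ℕ) : ℚ) = genusFormula N
  rw [hgenus, hg]

/-- The frozen statement S24, from an analytic cover. -/
theorem genus_of_cover (N : ℕ) [NeZero N]
    [AlgebraicCurve.HasCanonicalDivisor (K := AlgebraicClosure ℚ)
      (F := ↥(ModularCurve.modularFunctionFieldBar N))]
    (C : AnalyticCover N) :
    (AlgebraicCurve.genus (AlgebraicClosure ℚ) ↥(ModularCurve.modularFunctionFieldBar N) : ℚ)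
      = ModularCurve.genusFormula N :=
  have := C.finite
  genus_of_inputs N C (H14.rhInputs (jBar N) (H89.transcendental_jBar N _))

end Fermat.Agent.S24.H98
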