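import Mathlib
import Fermat.Agent.S24.Spec_helper31
import Fermat.Agent.S24.LevelOneJ_helper38
import Fermat.Agent.S24.DvdL_helper41

/-!
# S24, row D1b-R5: the cusp block of the analytic cover

For `V : ValSpec N` (row B1) and `P : PhiData N` (row B4):

* `cusp_const`: constants have order `0` at the cusp;
* `cusp_jinv`: `j⁻¹` has order `N` at the cusp (in the local parameter `q_N`);
* `cusp_smul`: the order at the cusp is invariant under `T`;
* `cusp_dvd`: a `T ^ w`-fixed element has order divisible by `N / w`.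

The statements are verbatim those of `CoverRows_helper31` (block R5).
-/

set_option autoImplicit false

open Filter Topology UpperHalfPlane CongruenceSubgroup ModularForm ModularCurve IntermediateField
open scoped MatrixGroups ModularForm Manifold Real

noncomputable section

namespace Fermat.Agent.S24.H55

open Fermat.Agent.S24.H31

variable {N : ℕ} [NeZero N]

/-- `algebraMap (RN N) (L N)` is injective. -/
theorem algebraMap_RN_L_injective (N : ℕ) : Function.Injective (algebraMap (RN N) (L N)) :=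
  IsFractionRing.injective _ _

/-- the constant function as an element of `RN N` -/
theorem coe_algebraMap_RN (N : ℕ) (c : ℂ) (z : ℍ) :
    ((algebraMap ℂ (RN N) c : RN N) : ℍ → ℂ) z = c := rfl

theorem algebraMap_RN_ne_zero (N : ℕ) {c : ℂ} (hc : c ≠ 0) : algebraMap ℂ (RN N) c ≠ 0 := by
  intro h
  have h' := congrArg (fun f : RN N => (f : ℍ → ℂ) UpperHalfPlane.I) h
  exact hc h'

/-- Constants of `ℂ` have order `0` at the cusp. -/
theorem cusp_algebraMap_complex (V : ValSpec N) (c : ℂ) (hc : c ≠ 0) :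
    V.cusp.ord (algebraMap ℂ (L N) c) = 0 := by
  rw [IsScalarTower.algebraMap_apply ℂ (RN N) (L N)]
  rw [V.cusp_iff _ (algebraMap_RN_ne_zero N hc) 0]
  refine ⟨c, hc, ?_⟩
  have : (fun z : ℍ => ((algebraMap ℂ (RN N) c : RN N) : ℍ → ℂ) z *
      Complex.exp (-2 * π * Complex.I * ((0 : ℤ) : ℂ) * z / N)) = fun _ => c := by
    funext z
    rw [coe_algebraMap_RN]
    simp
  rw [this]
  exact tendsto_const_nhds

theorem cusp_const (V : ValSpec N) (P : PhiData N) (c : Kbar) (hc : c ≠ 0) :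
    V.cusp.ord (P.Φ (algebraMap Kbar (FN N) c)) = 0 := by
  rw [P.map_const]
  exact cusp_algebraMap_complex V (iota c) (by
    intro h
    exact hc (iota_injective (by rw [h, map_zero])))

/-- the `j`-function of the S24 definitions is helper38's `J` -/
theorem jFun_eq_J (z : ℍ) : jFun z = Fermat.Agent.S24.H38.J z := rfl

theorem jdFun_one (z : ℍ) : jdFun 1 z = jFun z := by
  unfold jdFun
  rw [Nat.cast_one, one_mul, UpperHalfPlane.ofComplex_apply]

/-- the order of (the image of) `j` at the cusp is `-N` -/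
theorem cusp_j (V : ValSpec N) (P : PhiData N) :
    P.Φ (jBar N) ≠ 0 ∧ V.cusp.ord (P.Φ (jBar N)) = -(N : ℤ) := by
  obtain ⟨f, hf, hΦ⟩ := P.map_Jd 1 (one_dvd N)
  rw [Jd_one] at hΦ
  have hlim : Tendsto (fun z : ℍ => (f : ℍ → ℂ) z *
      Complex.exp (-2 * π * Complex.I * ((-(N : ℤ) : ℤ) : ℂ) * z / N)) atImInfty (𝓝 1) := by
    refine Fermat.Agent.S24.H38.tendsto_J_mul_cexp.congr (fun z => ?_)
    rw [hf, jdFun_one, jFun_eq_J]
    congr 2
    have hN : (N : ℂ) ≠ 0 := Nat.cast_ne_zero.mpr (NeZero.ne N)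
    push_cast
    field_simp
  have hf0 : f ≠ 0 := by
    rintro rfl
    have h0 : Tendsto (fun z : ℍ => ((0 : RN N) : ℍ → ℂ) z *
        Complex.exp (-2 * π * Complex.I * ((-(N : ℤ) : ℤ) : ℂ) * z / N)) atImInfty (𝓝 0) := by
      have : (fun z : ℍ => ((0 : RN N) : ℍ → ℂ) z *
          Complex.exp (-2 * π * Complex.I * ((-(N : ℤ) : ℤ) : ℂ) * z / N)) = fun _ => 0 := by
        funext z
        simp
      rw [this]
      exact tendsto_const_nhds
    exact one_ne_zero (tendsto_nhds_unique hlim h0)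
  refine ⟨?_, ?_⟩
  · rw [hΦ, Ne, map_eq_zero_iff _ (algebraMap_RN_L_injective N)]
    exact hf0
  · rw [hΦ, V.cusp_iff f hf0 (-(N : ℤ))]
    exact ⟨1, one_ne_zero, hlim⟩

theorem cusp_jinv (V : ValSpec N) (P : PhiData N) : V.cusp.ord (P.Φ (jBar N)⁻¹) = N := by
  obtain ⟨h0, h1⟩ := cusp_j V P
  rw [map_inv₀, V.cusp.ord_inv h0, h1, neg_neg]

theorem cusp_smul (V : ValSpec N) (x : L N) :
    V.cusp.ord (ModularGroup.T • x) = V.cusp.ord x := by
  by_cases hx : x = 0
  · rw [hx, smul_zero]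
  · exact V.cusp_T x hx

theorem cusp_dvd (V : ValSpec N) (x : L N) (w : ℕ) (hx : x ≠ 0) (hw : 0 < w) (hwN : w ∣ N)
    (h : ModularGroup.T ^ w • x = x) : ((N / w : ℕ) : ℤ) ∣ V.cusp.ord x :=
  Fermat.Agent.S24.H41.width_dvd_zval_of_T_pow_smul_eq V.cusp
    (fun f hf => (V.cusp_iff f hf _).mp rfl) x w hx hw hwN h

end Fermat.Agent.S24.H55
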