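import Mathlib
import Fermat.Prelude.Def_ModularCurve_GenusNumerics

/-! Cusp count: the number of orbits of `T` on `SL(2, ℤ) ⧸ Γ₀(N)` is
`∑ d ∣ N, φ (gcd d (N / d))`.  (helper24) -/

set_option autoImplicit false

open CongruenceSubgroup
open scoped MatrixGroups

namespace Fermat.Agent.S24.H24

/-- `e(δ) = gcd(δ, N / δ)` -/
def cuspE (N δ : ℕ) : ℕ := Nat.gcd δ (N / δ)

theorem cuspE_pos {N δ : ℕ} (hN : N ≠ 0) (hδ : δ ∣ N) : 0 < cuspE N δ := by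
  have hδ0 : δ ≠ 0 := fun h => hN (by rw [h] at hδ; exact Nat.eq_zero_of_zero_dvd hδ)
  exact Nat.gcd_pos_of_pos_left _ (Nat.pos_of_ne_zero hδ0)

theorem cuspE_dvd_left (N δ : ℕ) : cuspE N δ ∣ δ := Nat.gcd_dvd_left _ _

theorem cuspE_dvd_right (N δ : ℕ) : cuspE N δ ∣ N / δ := Nat.gcd_dvd_right _ _

theorem mul_cuspE_dvd {N δ : ℕ} (hδ : δ ∣ N) : δ * cuspE N δ ∣ N := by
  have h := Nat.mul_dvd_mul_left δ (cuspE_dvd_right N δ)
  rwa [Nat.mul_div_cancel' hδ] at h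

theorem intGcd_dvd_nat (c : ℤ) (N : ℕ) : Int.gcd c N ∣ N := by
  have := Int.gcd_dvd_right c (N : ℤ)
  exact_mod_cast this

/-- invariance of the cusp invariant along `T`-orbits of cosets -/
theorem inv_of_rel {N : ℕ} {a₁ c₁ a₂ c₂ k : ℤ} (h₁ : IsCoprime a₁ c₁)
    (h₂ : IsCoprime a₂ c₂) (h : (N : ℤ) ∣ (a₁ + k * c₁) * c₂ - a₂ * c₁) :
    Int.gcd c₁ N = Int.gcd c₂ N ∧
      ((Int.gcd c₁ N * cuspE N (Int.gcd c₁ N) : ℕ) : ℤ) ∣ a₁ * c₂ - a₂ * c₁ := by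
  have key : ∀ {a c a' c' k' : ℤ}, IsCoprime a c →
      (N : ℤ) ∣ (a + k' * c) * c' - a' * c → Int.gcd c N ∣ Int.gcd c' N := by
    intro a c a' c' k' hac hdvd
    have hd1 : (Int.gcd c N : ℤ) ∣ c := Int.gcd_dvd_left _ _
    have hd2 : (Int.gcd c N : ℤ) ∣ (N : ℤ) := Int.gcd_dvd_right _ _
    have h3 : (Int.gcd c N : ℤ) ∣ a * c' := by
      have h4 : (Int.gcd c N : ℤ) ∣ (a + k' * c) * c' - a' * c := hd2.trans hdvd
      have h5 : a * c' = ((a + k' * c) * c' - a' * c) - c * (k' * c' - a') := by ring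
      rw [h5]
      exact dvd_sub h4 (hd1.mul_right _)
    have hcop : IsCoprime (Int.gcd c N : ℤ) a := (hac.symm.of_isCoprime_of_dvd_left hd1)
    have h6 : (Int.gcd c N : ℤ) ∣ c' := hcop.dvd_of_dvd_mul_left h3
    have := Int.dvd_coe_gcd h6 hd2
    exact_mod_cast this
  have hrel' : (N : ℤ) ∣ (a₂ + (-k) * c₂) * c₁ - a₁ * c₂ := by
    have : (a₂ + (-k) * c₂) * c₁ - a₁ * c₂ = -((a₁ + k * c₁) * c₂ - a₂ * c₁) := by ring
    rw [this]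
    exact (dvd_neg).mpr h
  have hgcd : Int.gcd c₁ N = Int.gcd c₂ N :=
    Nat.dvd_antisymm (key h₁ h) (key h₂ hrel')
  refine ⟨hgcd, ?_⟩
  set δ := Int.gcd c₁ N with hδ
  have hδN : δ ∣ N := intGcd_dvd_nat c₁ N
  have hd1 : (δ : ℤ) ∣ c₁ := Int.gcd_dvd_left _ _
  have hd2 : (δ : ℤ) ∣ c₂ := by rw [hgcd]; exact Int.gcd_dvd_left _ _
  have h7 : ((δ * cuspE N δ : ℕ) : ℤ) ∣ (N : ℤ) := by exact_mod_cast mul_cuspE_dvd hδN
  have h8 : ((δ * cuspE N δ : ℕ) : ℤ) ∣ c₁ * c₂ := by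
    push_cast
    refine mul_dvd_mul hd1 (dvd_trans ?_ hd2)
    exact_mod_cast cuspE_dvd_left N δ
  have h9 : a₁ * c₂ - a₂ * c₁ = ((a₁ + k * c₁) * c₂ - a₂ * c₁) - k * (c₁ * c₂) := by ring
  rw [h9]
  exact dvd_sub (h7.trans h) (h8.mul_left _)

/-- completeness of the cusp invariant -/
theorem rel_of_inv {N : ℕ} (hN : N ≠ 0) {a₁ c₁ a₂ c₂ : ℤ}
    (hg : Int.gcd c₁ N = Int.gcd c₂ N)
    (h : ((Int.gcd c₁ N * cuspE N (Int.gcd c₁ N) : ℕ) : ℤ) ∣ a₁ * c₂ - a₂ * c₁) :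
    ∃ k : ℤ, (N : ℤ) ∣ (a₁ + k * c₁) * c₂ - a₂ * c₁ := by
  set δ := Int.gcd c₁ N with hδ
  have hδN : δ ∣ N := intGcd_dvd_nat c₁ N
  have hδ0 : δ ≠ 0 := fun h0 => hN (by rw [h0] at hδN; exact Nat.eq_zero_of_zero_dvd hδN)
  obtain ⟨M, hM⟩ := hδN
  have hM0 : M ≠ 0 := fun h0 => hN (by rw [hM, h0, mul_zero])
  have hdiv : N / δ = M := by rw [hM, Nat.mul_div_cancel_left _ (Nat.pos_of_ne_zero hδ0)]
  obtain ⟨c₁', hc₁⟩ : (δ : ℤ) ∣ c₁ := Int.gcd_dvd_left _ _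
  obtain ⟨c₂', hc₂⟩ : (δ : ℤ) ∣ c₂ := by rw [hg]; exact Int.gcd_dvd_left _ _
  -- coprimality of the cofactors with `M`
  have hcop : ∀ c' : ℤ, Int.gcd ((δ : ℤ) * c') N = δ → IsCoprime c' (M : ℤ) := by
    intro c' hc'
    rw [Int.isCoprime_iff_gcd_eq_one]
    have h1 : Int.gcd ((δ : ℤ) * c') ((δ : ℤ) * (M : ℤ)) = δ := by
      have : ((N : ℕ) : ℤ) = (δ : ℤ) * (M : ℤ) := by rw [hM]; push_cast; ring
      rw [← this]; exact hc'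
    rw [Int.gcd_mul_left, Int.natAbs_natCast] at h1
    exact Nat.eq_of_mul_eq_mul_left (Nat.pos_of_ne_zero hδ0) (by rw [h1, mul_one])
  have hcop₁ : IsCoprime c₁' (M : ℤ) := hcop c₁' (by rw [← hc₁])
  have hcop₂ : IsCoprime c₂' (M : ℤ) := hcop c₂' (by rw [← hc₂, ← hg])
  obtain ⟨t, s, hts⟩ := (hcop₁.mul_left hcop₂)
  -- Bezout for `e = gcd δ M`
  have hbez : ((cuspE N δ : ℕ) : ℤ) = (δ : ℤ) * Nat.gcdA δ M + (M : ℤ) * Nat.gcdB δ M := by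
    rw [cuspE, hdiv]; exact Nat.gcd_eq_gcd_ab δ M
  obtain ⟨m, hm⟩ := h
  refine ⟨-(Nat.gcdA δ M * m * t), ((Nat.gcdB δ M + Nat.gcdA δ M * δ * s) * m), ?_⟩
  have hN' : (N : ℤ) = (δ : ℤ) * (M : ℤ) := by rw [hM]; push_cast; ring
  have h9 : (a₁ + -(Nat.gcdA δ M * m * t) * c₁) * c₂ - a₂ * c₁ =
      (a₁ * c₂ - a₂ * c₁) - (Nat.gcdA δ M * m * t) * c₁ * c₂ := by ring
  rw [h9, hm, hc₁, hc₂, hN']
  push_cast
  rw [hbez]
  have hts' : t * (c₁' * c₂') = 1 - s * M := by linear_combination hts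
  linear_combination (-(Nat.gcdA δ M : ℤ) * m * δ * δ) * hts'

/-- the residue invariant at a divisor `δ` -/
noncomputable def resAt (N δ : ℕ) (a c : ℤ) : ℕ :=
  (((a : ZMod (cuspE N δ)) * ((c / (δ : ℤ) : ℤ) : ZMod (cuspE N δ))⁻¹)).val

theorem isUnit_intCast_of_isCoprime {n : ℕ} {x : ℤ} (h : IsCoprime x (n : ℤ)) :
    IsUnit ((x : ℤ) : ZMod n) := by
  obtain ⟨u, v, huv⟩ := h
  have h1 : ((u * x + v * (n : ℤ) : ℤ) : ZMod n) = 1 := by rw [huv]; simp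
  push_cast at h1
  rw [ZMod.natCast_self, mul_zero, add_zero] at h1
  exact IsUnit.of_mul_eq_one _ (by rw [mul_comm]; exact h1)

/-- cofactor of `c` is coprime to `N / δ` -/
theorem isCoprime_div_gcd {N : ℕ} (hN : N ≠ 0) (c : ℤ) :
    IsCoprime (c / (Int.gcd c N : ℤ)) ((N / Int.gcd c N : ℕ) : ℤ) := by
  have hpos : 0 < Int.gcd c N := Int.gcd_pos_of_ne_zero_right _ (by exact_mod_cast hN)
  rw [Int.isCoprime_iff_gcd_eq_one]
  have h := Int.gcd_div_gcd_div_gcd (i := c) (j := (N : ℤ)) hpos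
  have h2 : ((N / Int.gcd c N : ℕ) : ℤ) = (N : ℤ) / (Int.gcd c N : ℤ) := by
    push_cast; rfl
  rw [h2]
  exact h

theorem isUnit_cofactor {N : ℕ} (hN : N ≠ 0) (c : ℤ) :
    IsUnit (((c / (Int.gcd c N : ℤ) : ℤ)) : ZMod (cuspE N (Int.gcd c N))) := by
  apply isUnit_intCast_of_isCoprime
  have h := isCoprime_div_gcd hN c
  refine h.of_isCoprime_of_dvd_right ?_
  exact_mod_cast cuspE_dvd_right N (Int.gcd c N)

theorem isUnit_top {N : ℕ} {a c : ℤ} (h : IsCoprime a c) :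
    IsUnit ((a : ℤ) : ZMod (cuspE N (Int.gcd c N))) := by
  apply isUnit_intCast_of_isCoprime
  refine h.of_isCoprime_of_dvd_right ?_
  have h1 : (Int.gcd c N : ℤ) ∣ c := Int.gcd_dvd_left _ _
  refine dvd_trans ?_ h1
  exact_mod_cast cuspE_dvd_left N (Int.gcd c N)

/-- the residue invariants agree iff the cross difference is divisible by `δ e(δ)` -/
theorem resAt_eq_iff {N : ℕ} (hN : N ≠ 0) {a₁ c₁ a₂ c₂ : ℤ}
    (hg : Int.gcd c₁ N = Int.gcd c₂ N) :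
    resAt N (Int.gcd c₁ N) a₁ c₁ = resAt N (Int.gcd c₁ N) a₂ c₂ ↔
      ((Int.gcd c₁ N * cuspE N (Int.gcd c₁ N) : ℕ) : ℤ) ∣ a₁ * c₂ - a₂ * c₁ := by
  have hu₁ := isUnit_cofactor hN c₁
  have hu₂ := isUnit_cofactor hN c₂
  rw [← hg] at hu₂
  set δ := Int.gcd c₁ N with hδ
  have hδN : δ ∣ N := intGcd_dvd_nat c₁ N
  have hδ0 : δ ≠ 0 := fun h0 => hN (by rw [h0] at hδN; exact Nat.eq_zero_of_zero_dvd hδN)
  have hd1 : (δ : ℤ) ∣ c₁ := Int.gcd_dvd_left _ _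
  have hd2 : (δ : ℤ) ∣ c₂ := by rw [hg]; exact Int.gcd_dvd_left _ _
  have : NeZero (cuspE N δ) := ⟨(cuspE_pos hN hδN).ne'⟩
  unfold resAt
  rw [(ZMod.val_injective (cuspE N δ)).eq_iff]
  set x₁ : ZMod (cuspE N δ) := ((c₁ / (δ : ℤ) : ℤ) : ZMod (cuspE N δ)) with hx₁
  set x₂ : ZMod (cuspE N δ) := ((c₂ / (δ : ℤ) : ℤ) : ZMod (cuspE N δ)) with hx₂
  have e1 : x₁ * x₁⁻¹ = 1 := ZMod.mul_inv_of_unit _ hu₁
  have e2 : x₂ * x₂⁻¹ = 1 := ZMod.mul_inv_of_unit _ hu₂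
  have step1 : ((a₁ : ℤ) : ZMod (cuspE N δ)) * x₁⁻¹ = ((a₂ : ℤ) : ZMod (cuspE N δ)) * x₂⁻¹ ↔
      ((a₁ : ℤ) : ZMod (cuspE N δ)) * x₂ = ((a₂ : ℤ) : ZMod (cuspE N δ)) * x₁ := by
    constructor
    · intro h
      have := congrArg (fun y => y * (x₁ * x₂)) h
      calc ((a₁ : ℤ) : ZMod (cuspE N δ)) * x₂
          = ((a₁ : ℤ) : ZMod (cuspE N δ)) * x₁⁻¹ * (x₁ * x₂) := by
            rw [mul_assoc, ← mul_assoc x₁⁻¹, mul_comm x₁⁻¹, e1, one_mul]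
        _ = ((a₂ : ℤ) : ZMod (cuspE N δ)) * x₂⁻¹ * (x₁ * x₂) := this
        _ = ((a₂ : ℤ) : ZMod (cuspE N δ)) * x₁ := by
            rw [mul_assoc, mul_comm x₁ x₂, ← mul_assoc x₂⁻¹, mul_comm x₂⁻¹, e2, one_mul]
    · intro h
      have := congrArg (fun y => y * (x₁⁻¹ * x₂⁻¹)) h
      calc ((a₁ : ℤ) : ZMod (cuspE N δ)) * x₁⁻¹
          = ((a₁ : ℤ) : ZMod (cuspE N δ)) * x₂ * (x₁⁻¹ * x₂⁻¹) := by
            rw [mul_assoc, mul_comm x₁⁻¹, ← mul_assoc x₂, e2, one_mul]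
        _ = ((a₂ : ℤ) : ZMod (cuspE N δ)) * x₁ * (x₁⁻¹ * x₂⁻¹) := this
        _ = ((a₂ : ℤ) : ZMod (cuspE N δ)) * x₂⁻¹ := by
            rw [mul_assoc, ← mul_assoc x₁, e1, one_mul]
  rw [step1, hx₁, hx₂, ← Int.cast_mul, ← Int.cast_mul, ← sub_eq_zero, ← Int.cast_sub,
    ZMod.intCast_zmod_eq_zero_iff_dvd]
  obtain ⟨c₁', hc₁⟩ := hd1
  obtain ⟨c₂', hc₂⟩ := hd2
  have hδ0' : (δ : ℤ) ≠ 0 := by exact_mod_cast hδ0
  rw [hc₁, hc₂, Int.mul_ediv_cancel_left _ hδ0', Int.mul_ediv_cancel_left _ hδ0']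
  have h9 : a₁ * ((δ : ℤ) * c₂') - a₂ * ((δ : ℤ) * c₁') = (δ : ℤ) * (a₁ * c₂' - a₂ * c₁') := by
    ring
  rw [h9]
  push_cast
  exact (mul_dvd_mul_iff_left hδ0').symm

/-- the cusp invariant of a first column `(a, c)` -/
noncomputable def cuspInv (N : ℕ) (a c : ℤ) : Σ _ : ℕ, ℕ :=
  ⟨Int.gcd c N, resAt N (Int.gcd c N) a c⟩

/-- the set of values of the cusp invariant -/
def cuspSet (N : ℕ) : Finset (Σ _ : ℕ, ℕ) :=
  N.divisors.sigma fun δ => (Finset.range (cuspE N δ)).filter fun m => (cuspE N δ).Coprime m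

theorem card_cuspSet (N : ℕ) : (cuspSet N).card = ModularCurve.cuspCount N := by
  unfold cuspSet ModularCurve.cuspCount
  rw [Finset.card_sigma]
  refine Finset.sum_congr rfl fun δ _ => ?_
  rw [Nat.totient_eq_card_coprime]
  rfl

theorem cuspInv_eq_iff {N : ℕ} (hN : N ≠ 0) {a₁ c₁ a₂ c₂ : ℤ} (h₁ : IsCoprime a₁ c₁)
    (h₂ : IsCoprime a₂ c₂) :
    cuspInv N a₁ c₁ = cuspInv N a₂ c₂ ↔
      ∃ k : ℤ, (N : ℤ) ∣ (a₁ + k * c₁) * c₂ - a₂ * c₁ := by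
  constructor
  · intro h
    unfold cuspInv at h
    rw [Sigma.mk.inj_iff] at h
    obtain ⟨hg, hr⟩ := h
    have hr' := eq_of_heq hr
    rw [← hg] at hr'
    exact rel_of_inv hN hg ((resAt_eq_iff hN hg).mp hr')
  · rintro ⟨k, hk⟩
    obtain ⟨hg, hd⟩ := inv_of_rel h₁ h₂ hk
    have hr := (resAt_eq_iff hN hg).mpr hd
    unfold cuspInv
    rw [Sigma.mk.inj_iff]
    refine ⟨hg, heq_of_eq ?_⟩
    rw [hr, hg]

theorem cuspInv_mem {N : ℕ} (hN : N ≠ 0) {a c : ℤ} (h : IsCoprime a c) :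
    cuspInv N a c ∈ cuspSet N := by
  unfold cuspInv cuspSet
  rw [Finset.mem_sigma]
  have hδN := intGcd_dvd_nat c N
  have : NeZero (cuspE N (Int.gcd c N)) := ⟨(cuspE_pos hN hδN).ne'⟩
  refine ⟨Nat.mem_divisors.mpr ⟨hδN, hN⟩, ?_⟩
  rw [Finset.mem_filter, Finset.mem_range]
  refine ⟨ZMod.val_lt _, ?_⟩
  have hc := isUnit_cofactor hN c
  have hc' : IsUnit ((((c / (Int.gcd c N : ℤ) : ℤ)) : ZMod (cuspE N (Int.gcd c N)))⁻¹) :=
    IsUnit.of_mul_eq_one _ (by rw [mul_comm]; exact ZMod.mul_inv_of_unit _ hc)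
  have hu := (isUnit_top (N := N) h).mul hc'
  have h3 := ZMod.val_coe_unit_coprime hu.unit
  rw [IsUnit.unit_spec] at h3
  exact h3.symm

theorem exists_cuspInv_eq {N : ℕ} (hN : N ≠ 0) {p : Σ _ : ℕ, ℕ} (hp : p ∈ cuspSet N) :
    ∃ a c : ℤ, IsCoprime a c ∧ cuspInv N a c = p := by
  obtain ⟨δ, m⟩ := p
  rw [cuspSet, Finset.mem_sigma, Finset.mem_filter, Finset.mem_range] at hp
  obtain ⟨hδ, hm, hcop⟩ := hp
  have hδN : δ ∣ N := Nat.dvd_of_mem_divisors hδ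
  have hδ0 : δ ≠ 0 := fun h0 => hN (by rw [h0] at hδN; exact Nat.eq_zero_of_zero_dvd hδN)
  have : NeZero δ := ⟨hδ0⟩
  have : NeZero (cuspE N δ) := ⟨(cuspE_pos hN hδN).ne'⟩
  obtain ⟨u, hu⟩ := ZMod.unitsMap_surjective (cuspE_dvd_left N δ)
    (ZMod.unitOfCoprime m hcop.symm)
  refine ⟨((u : ZMod δ).val : ℤ), (δ : ℤ), ?_, ?_⟩
  · exact Nat.isCoprime_iff_coprime.mpr (ZMod.val_coe_unit_coprime u)
  · have hgcd : Int.gcd (δ : ℤ) (N : ℤ) = δ := by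
      rw [Int.gcd_natCast_natCast]
      exact Nat.gcd_eq_left hδN
    unfold cuspInv
    rw [hgcd]
    congr 1
    unfold resAt
    have hδ0' : (δ : ℤ) ≠ 0 := by exact_mod_cast hδ0
    rw [Int.ediv_self hδ0', Int.cast_one, ZMod.inv_one, mul_one]
    have h1 : (((u : ZMod δ).val : ℤ) : ZMod (cuspE N δ)) = (m : ZMod (cuspE N δ)) := by
      have h2 := congrArg (fun w : (ZMod (cuspE N δ))ˣ => (w : ZMod (cuspE N δ))) hu
      simp only [ZMod.unitsMap_def, Units.coe_map, ZMod.coe_unitOfCoprime] at h2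
      rw [← h2]
      simp
    rw [h1, ZMod.val_natCast, Nat.mod_eq_of_lt hm]

/-! ### The group level -/

theorem isCoprime_col (g : SL(2, ℤ)) : IsCoprime (g 0 0) (g 1 0) := by
  have h := g.det_coe
  rw [Matrix.det_fin_two] at h
  exact ⟨g 1 1, -(g 0 1), by linarith⟩

theorem exists_col {a c : ℤ} (h : IsCoprime a c) : ∃ g : SL(2, ℤ), g 0 0 = a ∧ g 1 0 = c := by
  obtain ⟨u, v, huv⟩ := h
  refine ⟨⟨!![a, -v; c, u], ?_⟩, rfl, rfl⟩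
  rw [Matrix.det_fin_two_of]
  linarith

theorem mk_eq_mk_iff (N : ℕ) (g₁ g₂ : SL(2, ℤ)) :
    (QuotientGroup.mk g₁ : SL(2, ℤ) ⧸ Gamma0 N) = QuotientGroup.mk g₂ ↔
      (N : ℤ) ∣ g₁ 0 0 * g₂ 1 0 - g₂ 0 0 * g₁ 1 0 := by
  rw [QuotientGroup.eq, Gamma0_mem, ZMod.intCast_zmod_eq_zero_iff_dvd]
  have : (g₁⁻¹ * g₂) 1 0 = g₁ 0 0 * g₂ 1 0 - g₂ 0 0 * g₁ 1 0 := by
    simp [Matrix.SpecialLinearGroup.coe_inv, Matrix.adjugate_fin_two, Matrix.mul_apply,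
      Fin.sum_univ_two]
    ring
  rw [this]

theorem T_zpow_mul_col (k : ℤ) (g : SL(2, ℤ)) :
    (ModularGroup.T ^ k * g) 0 0 = g 0 0 + k * g 1 0 ∧
      (ModularGroup.T ^ k * g) 1 0 = g 1 0 := by
  constructor <;>
    simp [Matrix.SpecialLinearGroup.coe_mul, ModularGroup.coe_T_zpow, Matrix.mul_apply,
      Fin.sum_univ_two]

theorem card_eq_of_lift {A Q B : Type*} (π : A → Q) (hπ : Function.Surjective π) (ι : A → B)
    (S : Set B) (hι : ∀ a, ι a ∈ S) (hsurj : ∀ b ∈ S, ∃ a, ι a = b)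
    (h : ∀ a a', π a = π a' ↔ ι a = ι a') : Nat.card Q = Nat.card S := by
  refine Nat.card_congr (Equiv.ofBijective
    (fun q => (⟨ι (Function.surjInv hπ q), hι _⟩ : S)) ⟨?_, ?_⟩)
  · intro q q' hq
    have h1 : ι (Function.surjInv hπ q) = ι (Function.surjInv hπ q') := congrArg Subtype.val hq
    have h2 := (h _ _).mpr h1
    rwa [Function.surjInv_eq hπ, Function.surjInv_eq hπ] at h2
  · rintro ⟨b, hb⟩
    obtain ⟨a, rfl⟩ := hsurj b hb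
    refine ⟨π a, Subtype.ext ?_⟩
    exact (h _ _).mp (Function.surjInv_eq hπ (π a))

/-- **Cusp count.** The number of `T`-orbits on `SL(2, ℤ) ⧸ Γ₀(N)` is
`∑ d ∣ N, φ (gcd d (N / d))`. -/
theorem card_orbits_T (N : ℕ) [NeZero N] :
    Nat.card (MulAction.orbitRel.Quotient (Subgroup.zpowers ModularGroup.T)
      (SL(2, ℤ) ⧸ Gamma0 N)) = ModularCurve.cuspCount N := by
  have hN : N ≠ 0 := NeZero.ne N
  let π : SL(2, ℤ) → MulAction.orbitRel.Quotient (Subgroup.zpowers ModularGroup.T)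
      (SL(2, ℤ) ⧸ Gamma0 N) := fun g => Quotient.mk'' (QuotientGroup.mk g)
  have hπ : Function.Surjective π := by
    intro q
    induction q using Quotient.inductionOn' with
    | h x =>
      induction x using QuotientGroup.induction_on with
      | H g => exact ⟨g, rfl⟩
  let ι : SL(2, ℤ) → Σ _ : ℕ, ℕ := fun g => cuspInv N (g 0 0) (g 1 0)
  have hιπ : ∀ g₁ g₂, π g₁ = π g₂ ↔ ι g₁ = ι g₂ := by
    intro g₁ g₂
    show _ ↔ cuspInv N (g₁ 0 0) (g₁ 1 0) = cuspInv N (g₂ 0 0) (g₂ 1 0)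
    rw [eq_comm (a := cuspInv N (g₁ 0 0) (g₁ 1 0)),
      cuspInv_eq_iff hN (isCoprime_col g₂) (isCoprime_col g₁)]
    show (Quotient.mk'' _ = Quotient.mk'' _) ↔ _
    rw [Quotient.eq'', MulAction.orbitRel_apply, MulAction.mem_orbit_iff]
    constructor
    · rintro ⟨⟨t, ht⟩, hx⟩
      obtain ⟨k, rfl⟩ := Subgroup.mem_zpowers_iff.mp ht
      refine ⟨k, ?_⟩
      have hx' : (QuotientGroup.mk (ModularGroup.T ^ k * g₂) : SL(2, ℤ) ⧸ Gamma0 N) =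
          QuotientGroup.mk g₁ := hx
      rw [mk_eq_mk_iff, (T_zpow_mul_col k g₂).1, (T_zpow_mul_col k g₂).2] at hx'
      exact hx'
    · rintro ⟨k, hk⟩
      refine ⟨⟨ModularGroup.T ^ k, Subgroup.zpow_mem_zpowers _ k⟩, ?_⟩
      show (QuotientGroup.mk (ModularGroup.T ^ k * g₂) : SL(2, ℤ) ⧸ Gamma0 N) =
          QuotientGroup.mk g₁
      rw [mk_eq_mk_iff, (T_zpow_mul_col k g₂).1, (T_zpow_mul_col k g₂).2]
      exact hk
  have hcard := card_eq_of_lift π hπ ι (↑(cuspSet N) : Set (Σ _ : ℕ, ℕ))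
    (fun g => cuspInv_mem hN (isCoprime_col g))
    (fun b hb => by
      obtain ⟨a, c, hac, hb'⟩ := exists_cuspInv_eq hN (Finset.mem_coe.mp hb)
      obtain ⟨g, hg0, hg1⟩ := exists_col hac
      exact ⟨g, by show cuspInv N (g 0 0) (g 1 0) = b; rw [hg0, hg1, hb']⟩) hιπ
  rw [hcard, Nat.card_coe_set_eq, Set.ncard_coe_finset]
  exact card_cuspSet N

end Fermat.Agent.S24.H24
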