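import Mathlib
import Fermat.Prelude.Def_ModularCurve_GenusNumerics
import Fermat.Agent.S24.CuspCount_helper24

/-! Burnside form of the cusp count: `∑ m < N, #Fix(T ^ m) = N * cuspCount N` on
`SL(2, ℤ) ⧸ Γ₀(N)`.  (helper24) -/

set_option autoImplicit false

open CongruenceSubgroup
open scoped MatrixGroups

namespace Fermat.Agent.S24.H24

/-- Burnside for a single element `g` whose `n`-th power acts trivially. -/
theorem sum_card_fixedBy_pow {G X : Type*} [Group G] [MulAction G X] [Finite X] (g : G) (n : ℕ)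
    (hg : ∀ x : X, g ^ n • x = x) :
    ∑ m ∈ Finset.range n, Nat.card (MulAction.fixedBy X (g ^ m)) =
      n * Nat.card (MulAction.orbitRel.Quotient (Subgroup.zpowers g) X) := by
  classical
  have := Fintype.ofFinite X
  set σ : Equiv.Perm X := MulAction.toPermHom G X g with hσdef
  have hσpow : ∀ (m : ℕ) (x : X), (σ ^ m) x = g ^ m • x := by
    intro m x
    rw [hσdef, ← map_pow]
    rfl
  have hσzpow : ∀ (k : ℤ) (x : X), (σ ^ k) x = g ^ k • x := by
    intro k x
    rw [hσdef, ← map_zpow]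
    rfl
  have hσn : σ ^ n = 1 := by
    ext x
    rw [hσpow, hg]
    rfl
  set d := orderOf σ with hd
  obtain ⟨q, hq⟩ : d ∣ n := orderOf_dvd_of_pow_eq_one hσn
  let F : Equiv.Perm X → ℕ := fun τ => Nat.card (MulAction.fixedBy X τ)
  have hF : ∀ m : ℕ, Nat.card (MulAction.fixedBy X (g ^ m)) = F (σ ^ m) := by
    intro m
    have hset : MulAction.fixedBy X (g ^ m) = MulAction.fixedBy X (σ ^ m) := by
      ext x
      simp only [MulAction.mem_fixedBy]
      rw [← hσpow]
      rfl
    show _ = Nat.card (MulAction.fixedBy X (σ ^ m))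
    rw [hset]
  have hper : ∀ q : ℕ, ∑ m ∈ Finset.range (d * q), F (σ ^ m) =
      q * ∑ m ∈ Finset.range d, F (σ ^ m) := by
    intro q
    induction q with
    | zero => simp
    | succ q ih =>
      rw [Nat.mul_succ, Finset.sum_range_add, ih]
      have : ∀ x, F (σ ^ (d * q + x)) = F (σ ^ x) := by
        intro x
        rw [pow_add, pow_mul, hd, pow_orderOf_eq_one, one_pow, one_mul]
      simp only [this]
      ring
  have hsum : ∑ m ∈ Finset.range d, F (σ ^ m) = ∑ c : Subgroup.zpowers σ, F (c : Equiv.Perm X) := by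
    rw [Finset.sum_range]
    exact Fintype.sum_equiv (finEquivZPowers (isOfFinOrder_of_finite σ)) _ _ (fun i => rfl)
  have hB := MulAction.sum_card_fixedBy_eq_card_orbits_mul_card_group (Subgroup.zpowers σ) X
  have hB' : ∑ c : Subgroup.zpowers σ, F (c : Equiv.Perm X) =
      Nat.card (MulAction.orbitRel.Quotient (Subgroup.zpowers σ) X) * d := by
    have e1 : ∀ c : Subgroup.zpowers σ, F (c : Equiv.Perm X) =
        Fintype.card (MulAction.fixedBy X c) := by
      intro c
      show Nat.card (MulAction.fixedBy X (c : Equiv.Perm X)) = _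
      rw [Nat.card_eq_fintype_card]
      rfl
    simp only [e1]
    rw [hB, ← Nat.card_eq_fintype_card, ← Nat.card_eq_fintype_card, Nat.card_zpowers]
  have horb : Nat.card (MulAction.orbitRel.Quotient (Subgroup.zpowers σ) X) =
      Nat.card (MulAction.orbitRel.Quotient (Subgroup.zpowers g) X) := by
    refine Nat.card_congr (Quotient.congr (Equiv.refl X) ?_)
    intro a b
    show (MulAction.orbitRel (Subgroup.zpowers σ) X) a b ↔
      (MulAction.orbitRel (Subgroup.zpowers g) X) a b
    rw [MulAction.orbitRel_apply, MulAction.orbitRel_apply, MulAction.mem_orbit_iff,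
      MulAction.mem_orbit_iff]
    constructor
    · rintro ⟨⟨c, hc⟩, hx⟩
      obtain ⟨k, rfl⟩ := Subgroup.mem_zpowers_iff.mp hc
      refine ⟨⟨g ^ k, Subgroup.zpow_mem_zpowers _ k⟩, ?_⟩
      have hx' : (σ ^ k) b = a := hx
      rw [hσzpow] at hx'
      exact hx'
    · rintro ⟨⟨c, hc⟩, hx⟩
      obtain ⟨k, rfl⟩ := Subgroup.mem_zpowers_iff.mp hc
      refine ⟨⟨σ ^ k, Subgroup.zpow_mem_zpowers _ k⟩, ?_⟩
      have hx' : g ^ k • b = a := hx
      show (σ ^ k) b = a
      rw [hσzpow]
      exact hx'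
  simp only [hF]
  rw [hq, hper, hsum, hB', horb]
  ring

/-- `T ^ N` acts trivially on `SL(2, ℤ) ⧸ Γ₀(N)`. -/
theorem T_pow_smul_eq (N : ℕ) (x : SL(2, ℤ) ⧸ Gamma0 N) : ModularGroup.T ^ N • x = x := by
  induction x using QuotientGroup.induction_on with
  | H g =>
    show (QuotientGroup.mk (ModularGroup.T ^ N * g) : SL(2, ℤ) ⧸ Gamma0 N) = QuotientGroup.mk g
    have h := T_zpow_mul_col (N : ℤ) g
    rw [zpow_natCast] at h
    rw [mk_eq_mk_iff, h.1, h.2]
    exact ⟨g 1 0 * g 1 0, by ring⟩

/-- **Cusp count, Burnside form.** -/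
theorem sum_card_fixedBy_T_pow (N : ℕ) [NeZero N] :
    ∑ m ∈ Finset.range N, Nat.card (MulAction.fixedBy (SL(2, ℤ) ⧸ Gamma0 N) (ModularGroup.T ^ m))
      = N * ModularCurve.cuspCount N := by
  have : Finite (SL(2, ℤ) ⧸ Gamma0 N) := Subgroup.finite_quotient_of_finiteIndex
  rw [sum_card_fixedBy_pow ModularGroup.T N (T_pow_smul_eq N)]
  exact congrArg (fun t => N * t) (card_orbits_T N)

end Fermat.Agent.S24.H24
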