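import Mathlib
import Fermat.Prelude.Def_AlgebraicCurve_CanonicalDivisor

/-!
# Differentials at a place via formal expansions (S24, layer A2, valuation core)

For a place `v` of a function field `F / K` whose residue field is `K` and a uniformizer `ϖ`
we build the expansion homomorphism `O_v → K⟦X⟧` (`ϖ ↦ X`), differentiate formally and
transport the result to `Ω[F⁄K]`.  No finiteness and no integral closure is used.
-/

set_option autoImplicit false

noncomputable section

namespace Fermat.Agent.S24.H49

open PowerSeries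

/-! ### Abstract expansion data -/

/-- Expansion data on a `K`-algebra domain `A`: an element `ϖ`, a "constant term" map and a
"shift" map with `a = res a + ϖ * δ a`. -/
structure Expansion (K A : Type*) [Field K] [CommRing A] [Algebra K A] where
  /-- the parameter -/
  ϖ : A
  /-- constant term -/
  res : A → K
  /-- shift -/
  δ : A → A
  irr : Irreducible ϖ
  spec : ∀ a, a = algebraMap K A (res a) + ϖ * δ a

namespace Expansion

variable {K A : Type*} [Field K] [CommRing A] [IsDomain A] [Algebra K A] (E : Expansion K A)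

theorem ne_zero : E.ϖ ≠ 0 := E.irr.ne_zero

theorem not_unit : ¬ IsUnit E.ϖ := E.irr.not_isUnit

theorem unique {a b : A} {c : K} (h : a = algebraMap K A c + E.ϖ * b) :
    c = E.res a ∧ b = E.δ a := by
  have h2 := E.spec a
  have h3 : algebraMap K A (c - E.res a) = E.ϖ * (E.δ a - b) := by
    rw [map_sub]
    linear_combination h2 - h
  have hc : c = E.res a := by
    by_contra hne
    have hu : IsUnit (algebraMap K A (c - E.res a)) :=
      (IsUnit.mk0 _ (sub_ne_zero.mpr hne)).map _
    rw [h3] at hu
    exact E.not_unit (isUnit_of_mul_isUnit_left hu)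
  refine ⟨hc, ?_⟩
  rw [hc, sub_self, map_zero] at h3
  have := (mul_eq_zero.mp h3.symm).resolve_left E.ne_zero
  exact (sub_eq_zero.mp this).symm

theorem res_add (a b : A) : E.res (a + b) = E.res a + E.res b := by
  have h : a + b = algebraMap K A (E.res a + E.res b) + E.ϖ * (E.δ a + E.δ b) := by
    rw [map_add]
    linear_combination E.spec a + E.spec b
  exact (E.unique h).1.symm

theorem δ_add (a b : A) : E.δ (a + b) = E.δ a + E.δ b := by
  have h : a + b = algebraMap K A (E.res a + E.res b) + E.ϖ * (E.δ a + E.δ b) := by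
    rw [map_add]
    linear_combination E.spec a + E.spec b
  exact (E.unique h).2.symm

theorem res_algebraMap (c : K) : E.res (algebraMap K A c) = c := by
  have h : algebraMap K A c = algebraMap K A c + E.ϖ * 0 := by ring
  exact (E.unique h).1.symm

theorem δ_algebraMap (c : K) : E.δ (algebraMap K A c) = 0 := by
  have h : algebraMap K A c = algebraMap K A c + E.ϖ * 0 := by ring
  exact (E.unique h).2.symm

theorem res_ϖ : E.res E.ϖ = 0 := by
  have h : E.ϖ = algebraMap K A 0 + E.ϖ * 1 := by rw [map_zero]; ring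
  exact (E.unique h).1.symm

theorem δ_ϖ : E.δ E.ϖ = 1 := by
  have h : E.ϖ = algebraMap K A 0 + E.ϖ * 1 := by rw [map_zero]; ring
  exact (E.unique h).2.symm

theorem res_mul (a b : A) : E.res (a * b) = E.res a * E.res b := by
  have h : a * b = algebraMap K A (E.res a * E.res b) +
      E.ϖ * (algebraMap K A (E.res a) * E.δ b + E.δ a * b) := by
    rw [map_mul]
    linear_combination (b) * E.spec a + (algebraMap K A (E.res a)) * E.spec b
  exact (E.unique h).1.symm

theorem δ_mul (a b : A) :
    E.δ (a * b) = algebraMap K A (E.res a) * E.δ b + E.δ a * b := by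
  have h : a * b = algebraMap K A (E.res a * E.res b) +
      E.ϖ * (algebraMap K A (E.res a) * E.δ b + E.δ a * b) := by
    rw [map_mul]
    linear_combination (b) * E.spec a + (algebraMap K A (E.res a)) * E.spec b
  exact (E.unique h).2.symm

theorem res_zero : E.res 0 = 0 := by
  simpa using E.res_algebraMap 0

theorem δ_zero : E.δ 0 = 0 := by
  simpa using E.δ_algebraMap 0

theorem res_one : E.res 1 = 1 := by
  simpa using E.res_algebraMap 1

theorem δ_one : E.δ 1 = 0 := by
  simpa using E.δ_algebraMap 1

/-- `n`-th expansion coefficient. -/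
def cf (n : ℕ) (a : A) : K := E.res (E.δ^[n] a)

theorem cf_zero (a : A) : E.cf 0 a = E.res a := rfl

theorem cf_succ (n : ℕ) (a : A) : E.cf (n + 1) a = E.cf n (E.δ a) := by
  simp [cf, Function.iterate_succ_apply]

theorem cf_add (n : ℕ) (a b : A) : E.cf n (a + b) = E.cf n a + E.cf n b := by
  induction n generalizing a b with
  | zero => exact E.res_add a b
  | succ n ih => rw [cf_succ, cf_succ, cf_succ, E.δ_add, ih]

theorem cf_algebraMap_mul (n : ℕ) (c : K) (a : A) :
    E.cf n (algebraMap K A c * a) = c * E.cf n a := by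
  induction n generalizing a with
  | zero => rw [cf_zero, cf_zero, E.res_mul, E.res_algebraMap]
  | succ n ih =>
    rw [cf_succ, cf_succ, E.δ_mul, E.δ_algebraMap, zero_mul, add_zero, E.res_algebraMap, ih]

theorem cf_mul (n : ℕ) (a b : A) :
    E.cf n (a * b) = ∑ p ∈ Finset.HasAntidiagonal.antidiagonal n, E.cf p.1 a * E.cf p.2 b := by
  induction n generalizing a b with
  | zero => simp [cf_zero, E.res_mul]
  | succ n ih =>
    rw [cf_succ, E.δ_mul, cf_add, cf_algebraMap_mul, ih, Finset.Nat.sum_antidiagonal_succ]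
    simp only [cf_zero, cf_succ]

/-- The expansion of `a` as a power series. -/
def ps (a : A) : K⟦X⟧ := PowerSeries.mk fun n => E.cf n a

@[simp] theorem coeff_ps (n : ℕ) (a : A) : PowerSeries.coeff n (E.ps a) = E.cf n a := by
  simp [ps]

theorem ps_algebraMap (c : K) : E.ps (algebraMap K A c) = PowerSeries.C c := by
  ext n
  rw [coeff_ps, PowerSeries.coeff_C]
  cases n with
  | zero => simp [cf_zero, E.res_algebraMap]
  | succ n =>
    rw [cf_succ, E.δ_algebraMap]
    have : ∀ m, E.cf m (0 : A) = 0 := by
      intro m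
      induction m with
      | zero => exact E.res_zero
      | succ m ih => rw [cf_succ, E.δ_zero, ih]
    simp [this]

/-- The expansion homomorphism. -/
def φ : A →+* K⟦X⟧ where
  toFun := E.ps
  map_one' := by
    have := E.ps_algebraMap 1
    simpa using this
  map_mul' a b := by
    ext n
    rw [coeff_ps, PowerSeries.coeff_mul, cf_mul]
    simp
  map_zero' := by
    have := E.ps_algebraMap 0
    simpa using this
  map_add' a b := by
    ext n
    simp [cf_add]

theorem φ_apply (a : A) : E.φ a = E.ps a := rfl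

theorem φ_algebraMap (c : K) : E.φ (algebraMap K A c) = PowerSeries.C c := E.ps_algebraMap c

theorem φ_ϖ : E.φ E.ϖ = PowerSeries.X := by
  ext n
  rw [φ_apply, coeff_ps, PowerSeries.coeff_X]
  cases n with
  | zero => simp [cf_zero, E.res_ϖ]
  | succ n =>
    rw [cf_succ, E.δ_ϖ]
    have h1 : E.cf n (1 : A) = PowerSeries.coeff n (PowerSeries.C (1 : K)) := by
      rw [← E.ps_algebraMap 1, coeff_ps, map_one]
    rw [h1, PowerSeries.coeff_C]
    simp

/-! ### Discrete valuation rings -/

section DVR

variable [IsDiscreteValuationRing A]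

theorem φ_unit_mul_pow (u : Aˣ) (n : ℕ) :
    E.φ ((u : A) * E.ϖ ^ n) = E.φ (u : A) * PowerSeries.X ^ n := by
  rw [map_mul, map_pow, E.φ_ϖ]

theorem constantCoeff_φ_unit_ne_zero (u : Aˣ) :
    PowerSeries.constantCoeff (E.φ (u : A)) ≠ 0 := by
  have h : IsUnit (E.φ (u : A)) := u.isUnit.map E.φ
  have h2 := PowerSeries.isUnit_iff_constantCoeff.mp h
  exact h2.ne_zero

theorem order_φ_unit_mul_pow (u : Aˣ) (n : ℕ) :
    (E.φ ((u : A) * E.ϖ ^ n)).order = n := by
  rw [E.φ_unit_mul_pow, PowerSeries.order_eq_nat]
  constructor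
  · rw [PowerSeries.coeff_mul_X_pow']
    simpa using E.constantCoeff_φ_unit_ne_zero u
  · intro i hi
    rw [PowerSeries.coeff_mul_X_pow']
    simp [Nat.not_le.mpr hi]

theorem φ_ne_zero {a : A} (ha : a ≠ 0) : E.φ a ≠ 0 := by
  obtain ⟨n, u, rfl⟩ := IsDiscreteValuationRing.eq_unit_mul_pow_irreducible ha E.irr
  intro h
  have := E.order_φ_unit_mul_pow u n
  rw [h, PowerSeries.order_zero] at this
  exact ENat.top_ne_natCast n this

theorem φ_injective : Function.Injective E.φ := by
  rw [injective_iff_map_eq_zero]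
  intro a ha
  by_contra hne
  exact E.φ_ne_zero hne ha

theorem isUnit_of_isUnit_φ {a : A} (h : IsUnit (E.φ a)) : IsUnit a := by
  have ha : a ≠ 0 := by
    rintro rfl
    rw [map_zero] at h
    exact not_isUnit_zero h
  obtain ⟨n, u, rfl⟩ := IsDiscreteValuationRing.eq_unit_mul_pow_irreducible ha E.irr
  have ho := E.order_φ_unit_mul_pow u n
  have h0 : (E.φ ((u : A) * E.ϖ ^ n)).order = 0 := PowerSeries.order_zero_of_unit h
  rw [h0] at ho
  have hn : n = 0 := by exact_mod_cast ho.symm
  subst hn
  simp

end DVR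


/-! ### Transport to the fraction field and to Kähler differentials -/

section Frac

open KaehlerDifferential

variable [IsDiscreteValuationRing A]
variable {F : Type*} [Field F] [Algebra A F] [IsFractionRing A F] [Algebra K F]
  [IsScalarTower K A F]

/-- The expansion homomorphism into Laurent series. -/
def ψ : A →+* LaurentSeries K := (HahnSeries.ofPowerSeries ℤ K).comp E.φ

theorem ψ_injective : Function.Injective E.ψ :=
  HahnSeries.ofPowerSeries_injective.comp E.φ_injective

/-- Extension of the expansion to the fraction field. -/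
def φF : F →+* LaurentSeries K := IsFractionRing.lift E.ψ_injective

theorem φF_algebraMap (a : A) :
    E.φF (algebraMap A F a) = HahnSeries.ofPowerSeries ℤ K (E.φ a) :=
  IsFractionRing.lift_algebraMap E.ψ_injective a

theorem φF_injective : Function.Injective (E.φF : F → LaurentSeries K) :=
  (E.φF (F := F)).injective

/-- The semilinear "formal derivative" on `Ω[F⁄K]`. -/
theorem exists_semilinear :
    ∃ L : Ω[F⁄K] →+ LaurentSeries K,
      (∀ (g : F) (ω : Ω[F⁄K]), L (g • ω) = E.φF g * L ω) ∧
      (∀ a : A, L (D K F (algebraMap A F a)) =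
        HahnSeries.ofPowerSeries ℤ K (PowerSeries.derivative K (E.φ a))) := by
  classical
  let algF : Algebra F (LaurentSeries K) := (E.φF (F := F)).toAlgebra
  let algA : Algebra A (LaurentSeries K) := E.ψ.toAlgebra
  have hsmulA : ∀ (a : A) (x : LaurentSeries K),
      a • x = HahnSeries.ofPowerSeries ℤ K (E.φ a) * x := fun a x => rfl
  have hsmulF : ∀ (g : F) (x : LaurentSeries K), g • x = E.φF g * x := fun g x => rfl
  have tower1 : IsScalarTower A F (LaurentSeries K) :=
    IsScalarTower.of_algebraMap_eq (fun a => (E.φF_algebraMap a).symm)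
  have tower2 : IsScalarTower K A (LaurentSeries K) := by
    refine ⟨fun c a x => ?_⟩
    rw [hsmulA, hsmulA, Algebra.smul_def, map_mul, E.φ_algebraMap, map_mul,
      HahnSeries.ofPowerSeries_C, mul_assoc, HahnSeries.C_mul_eq_smul]
  let lin : A →ₗ[K] LaurentSeries K :=
    { toFun := fun a => HahnSeries.ofPowerSeries ℤ K (PowerSeries.derivative K (E.φ a))
      map_add' := by intro a b; simp
      map_smul' := by
        intro c a
        simp only [RingHom.id_apply]
        have h1 : PowerSeries.derivative K (PowerSeries.C c * E.φ a) =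
            PowerSeries.C c * PowerSeries.derivative K (E.φ a) := by
          rw [Derivation.leibniz]
          simp
        rw [Algebra.smul_def, map_mul, E.φ_algebraMap, h1, map_mul,
          HahnSeries.ofPowerSeries_C, HahnSeries.C_mul_eq_smul] }
  let d : Derivation K A (LaurentSeries K) := Derivation.mk' lin (by
    intro a b
    change HahnSeries.ofPowerSeries ℤ K (PowerSeries.derivative K (E.φ (a * b))) =
      a • HahnSeries.ofPowerSeries ℤ K (PowerSeries.derivative K (E.φ b)) +
      b • HahnSeries.ofPowerSeries ℤ K (PowerSeries.derivative K (E.φ a))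
    rw [hsmulA, hsmulA, map_mul, Derivation.leibniz, map_add, smul_eq_mul, smul_eq_mul,
      map_mul, map_mul])
  have het : Algebra.FormallyEtale A F :=
    Algebra.FormallyEtale.of_isLocalization (Rₘ := F) (nonZeroDivisors A)
  let ℓ : Ω[A⁄K] →ₗ[A] LaurentSeries K := d.liftKaehlerDifferential
  let L : Ω[F⁄K] →ₗ[F] LaurentSeries K :=
    (LinearMap.liftBaseChange F ℓ) ∘ₗ
      (tensorKaehlerEquivOfFormallyEtale K A F).symm.toLinearMap
  refine ⟨L.toAddMonoidHom, ?_, ?_⟩
  · intro g ω
    change L (g • ω) = _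
    rw [map_smul, hsmulF]
    rfl
  · intro a
    change L (D K F (algebraMap A F a)) = _
    change (LinearMap.liftBaseChange F ℓ)
      ((tensorKaehlerEquivOfFormallyEtale K A F).symm (D K F (algebraMap A F a))) = _
    rw [tensorKaehlerEquivOfFormallyEtale_symm_D_algebraMap, LinearMap.liftBaseChange_tmul,
      one_smul]
    exact d.liftKaehlerDifferential_comp_D a

end Frac


/-! ### Consequences -/

section Consequences

open KaehlerDifferential

variable [IsDiscreteValuationRing A]
variable {F : Type*} [Field F] [Algebra A F] [IsFractionRing A F] [Algebra K F]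
  [IsScalarTower K A F]

theorem D_ϖ_ne_zero : D K F (algebraMap A F E.ϖ) ≠ 0 := by
  obtain ⟨L, -, hL⟩ := E.exists_semilinear (F := F)
  intro h
  have h1 := hL E.ϖ
  rw [h, map_zero, E.φ_ϖ, PowerSeries.derivative_X, map_one] at h1
  exact zero_ne_one h1

/-- If `D a = g • D ϖ` with `a` integral, then `g` is integral and its expansion is the formal
derivative of the expansion of `a`. -/
theorem exists_integral_of_D_eq {a : A} {g : F}
    (h : D K F (algebraMap A F a) = g • D K F (algebraMap A F E.ϖ)) :
    ∃ b : A, g = algebraMap A F b ∧ E.φ b = PowerSeries.derivative K (E.φ a) := by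
  obtain ⟨L, hLs, hL⟩ := E.exists_semilinear (F := F)
  have h1 : HahnSeries.ofPowerSeries ℤ K (PowerSeries.derivative K (E.φ a)) = E.φF g := by
    have := congrArg L h
    rw [hL, hLs, hL, E.φ_ϖ, PowerSeries.derivative_X, map_one, mul_one] at this
    exact this
  -- `g` is integral
  have key : ∀ b : A, g = algebraMap A F b → E.φ b = PowerSeries.derivative K (E.φ a) := by
    intro b hb
    rw [hb, E.φF_algebraMap] at h1
    exact (HahnSeries.ofPowerSeries_injective h1).symm
  rcases ValuationRing.isInteger_or_isInteger A g with ⟨b, hb⟩ | ⟨b, hb⟩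
  · exact ⟨b, hb.symm, key b hb.symm⟩
  · by_cases hg : g = 0
    · refine ⟨0, by simp [hg], key 0 (by simp [hg])⟩
    · have hb0 : algebraMap A F b ≠ 0 := by rw [hb]; exact inv_ne_zero hg
      have h2 : E.φF g * HahnSeries.ofPowerSeries ℤ K (E.φ b) = 1 := by
        rw [← E.φF_algebraMap (F := F), ← map_mul, hb, mul_inv_cancel₀ hg, map_one]
      rw [← h1, ← map_mul] at h2
      have h3 : PowerSeries.derivative K (E.φ a) * E.φ b = 1 :=
        HahnSeries.ofPowerSeries_injective (by rw [h2, map_one])
      have hu : IsUnit b := E.isUnit_of_isUnit_φ (.of_mul_eq_one_right _ h3)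
      obtain ⟨u, rfl⟩ := hu
      have hgu : g = algebraMap A F ((u⁻¹ : Aˣ) : A) := by
        have h4 : g = (algebraMap A F (u : A))⁻¹ := by rw [hb, inv_inv]
        rw [h4, ← map_units_inv]
      exact ⟨_, hgu, key _ hgu⟩

theorem order_derivative [CharZero K] {p : K⟦X⟧} {n : ℕ} (h : p.order = (n + 1 : ℕ)) :
    (PowerSeries.derivative K p).order = n := by
  rw [PowerSeries.order_eq_nat] at h ⊢
  obtain ⟨h1, h2⟩ := h
  constructor
  · rw [PowerSeries.coeff_derivative]
    exact mul_ne_zero h1 (by exact_mod_cast Nat.succ_ne_zero n)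
  · intro i hi
    rw [PowerSeries.coeff_derivative, h2 (i + 1) (by omega), zero_mul]

/-- If `a` vanishes to order exactly `n + 1` and `D a = g • D ϖ`, then `g` vanishes to order
exactly `n`. -/
theorem exists_unit_of_D_eq [CharZero K] {u : Aˣ} {n : ℕ} {g : F}
    (h : D K F (algebraMap A F ((u : A) * E.ϖ ^ (n + 1))) =
      g • D K F (algebraMap A F E.ϖ)) :
    ∃ u' : Aˣ, g = algebraMap A F ((u' : A) * E.ϖ ^ n) := by
  obtain ⟨b, hb, hφ⟩ := E.exists_integral_of_D_eq h
  have ho : (E.φ b).order = n := by
    rw [hφ]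
    exact order_derivative (E.order_φ_unit_mul_pow u (n + 1))
  have hb0 : b ≠ 0 := by
    rintro rfl
    rw [map_zero, PowerSeries.order_zero] at ho
    exact ENat.top_ne_natCast n ho
  obtain ⟨m, u', rfl⟩ := IsDiscreteValuationRing.eq_unit_mul_pow_irreducible hb0 E.irr
  rw [E.order_φ_unit_mul_pow] at ho
  have hmn : m = n := by exact_mod_cast ho
  subst hmn
  exact ⟨u', hb⟩

end Consequences


end Expansion

/-! ### Places of a function field -/

section Places

open AlgebraicCurve KaehlerDifferential

variable {K F : Type*} [Field K] [Field F] [Algebra K F]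

/-- The residue field of the place `v` is the constant field (the shape of `residue_eq'`). -/
def HRes (v : Place K F) : Prop :=
  ∀ f ∈ v.toValuationSubring, ∃ a : K, 0 < v.ord (f - algebraMap K F a) ∨ f = algebraMap K F a

theorem exists_res (v : Place K F) (hres : HRes v) {ϖ : v.toValuationSubring}
    (hϖ : Irreducible ϖ) (a : v.toValuationSubring) :
    ∃ c : K, ∃ b : v.toValuationSubring,
      a = algebraMap K v.toValuationSubring c + ϖ * b := by
  obtain ⟨c, hc⟩ := hres a a.2
  refine ⟨c, ?_⟩
  have hmem : a - algebraMap K v.toValuationSubring c ∈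
      IsLocalRing.maximalIdeal v.toValuationSubring := by
    rcases hc with hc | hc
    · by_contra hnot
      have hu : IsUnit (a - algebraMap K v.toValuationSubring c) :=
        IsLocalRing.notMem_maximalIdeal.mp hnot
      have h0 := v.ord_coe_unit hu.unit
      rw [IsUnit.unit_spec] at h0
      have h1 : ((a - algebraMap K v.toValuationSubring c : v.toValuationSubring) : F) =
          (a : F) - algebraMap K F c := rfl
      rw [h1] at h0
      omega
    · have h1 : a - algebraMap K v.toValuationSubring c = 0 := by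
        apply Subtype.ext
        change (a : F) - algebraMap K F c = 0
        rw [hc, sub_self]
      rw [h1]
      exact zero_mem _
  rw [hϖ.maximalIdeal_eq, Ideal.mem_span_singleton] at hmem
  obtain ⟨b, hb⟩ := hmem
  exact ⟨b, by rw [← hb]; ring⟩

/-- The expansion data attached to a place with residue field `K` and a uniformizer. -/
def expansion (v : Place K F) (hres : HRes v) (ϖ : v.toValuationSubring)
    (hϖ : Irreducible ϖ) : Expansion K v.toValuationSubring where
  ϖ := ϖ
  res a := (exists_res v hres hϖ a).choose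
  δ a := (exists_res v hres hϖ a).choose_spec.choose
  irr := hϖ
  spec a := (exists_res v hres hϖ a).choose_spec.choose_spec

/-- (L1) The differential of a uniformizer at a place with residue field `K` is nonzero. -/
theorem D_irreducible_ne_zero (v : Place K F) (hres : HRes v) {ϖ : v.toValuationSubring}
    (hϖ : Irreducible ϖ) : D K F (ϖ : F) ≠ 0 :=
  (expansion v hres ϖ hϖ).D_ϖ_ne_zero (F := F)

/-- (L3) Differentiation with respect to a uniformizer preserves the valuation ring. -/
theorem mem_of_D_eq (v : Place K F) (hres : HRes v) {ϖ : v.toValuationSubring}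
    (hϖ : Irreducible ϖ) {f g : F} (hf : f ∈ v.toValuationSubring)
    (h : D K F f = g • D K F (ϖ : F)) : g ∈ v.toValuationSubring := by
  obtain ⟨b, hb, -⟩ := (expansion v hres ϖ hϖ).exists_integral_of_D_eq
    (F := F) (a := ⟨f, hf⟩) (g := g) h
  rw [hb]
  exact b.2

theorem ord_neg' (v : Place K F) (f : F) : v.ord (-f) = v.ord f := by
  simp [Place.ord, Valuation.map_neg]

theorem coe_unit_mul_pow (v : Place K F) (u : v.toValuationSubringˣ)
    (ϖ : v.toValuationSubring) (n : ℕ) :
    (((u : v.toValuationSubring) * ϖ ^ n : v.toValuationSubring) : F) =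
      ((u : v.toValuationSubring) : F) * (ϖ : F) ^ (n : ℤ) := by
  rw [zpow_natCast]
  rfl

theorem ord_of_D_eq_of_pos [CharZero K] (v : Place K F) (hres : HRes v)
    {ϖ : v.toValuationSubring} (hϖ : Irreducible ϖ) {f g : F} (hord : 0 < v.ord f)
    (h : D K F f = g • D K F (ϖ : F)) : g ≠ 0 ∧ v.ord g = v.ord f - 1 := by
  have hf : f ≠ 0 := by
    rintro rfl
    simp at hord
  obtain ⟨u, hu⟩ := v.exists_unit_mul_zpow hf hϖ
  obtain ⟨n, hn⟩ : ∃ n : ℕ, v.ord f = (n : ℤ) + 1 := ⟨(v.ord f - 1).toNat, by omega⟩
  have hf' : f = algebraMap v.toValuationSubring F ((u : v.toValuationSubring) * ϖ ^ (n + 1)) := by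
    change f = (((u : v.toValuationSubring) * ϖ ^ (n + 1) : v.toValuationSubring) : F)
    have hcast : ((n + 1 : ℕ) : ℤ) = v.ord f := by rw [hn]; push_cast; ring
    rw [coe_unit_mul_pow, hcast]
    exact hu
  rw [hf'] at h
  obtain ⟨u', hu'⟩ := (expansion v hres ϖ hϖ).exists_unit_of_D_eq (F := F) h
  have hg : g = ((u' : v.toValuationSubring) : F) * (ϖ : F) ^ (n : ℤ) := by
    rw [hu']
    exact coe_unit_mul_pow v u' ϖ n
  have hϖF : (ϖ : F) ≠ 0 := by
    simpa [ne_eq, ZeroMemClass.coe_eq_zero] using hϖ.ne_zero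
  have hu'F : ((u' : v.toValuationSubring) : F) ≠ 0 := by
    simp [ne_eq, ZeroMemClass.coe_eq_zero]
  refine ⟨?_, ?_⟩
  · rw [hg]
    exact mul_ne_zero hu'F (zpow_ne_zero _ hϖF)
  · rw [hg, v.ord_unit_smul_zpow u' hϖ n, hn]
    ring

/-- (L2) If `D f = g • D ϖ` and `f` has a zero or a pole at `v`, then
`ord g = ord f - 1`. -/
theorem ord_of_D_eq [CharZero K] (v : Place K F) (hres : HRes v)
    {ϖ : v.toValuationSubring} (hϖ : Irreducible ϖ) {f g : F} (hord : v.ord f ≠ 0)
    (h : D K F f = g • D K F (ϖ : F)) : g ≠ 0 ∧ v.ord g = v.ord f - 1 := by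
  rcases lt_or_gt_of_ne hord with hneg | hpos
  · have hf : f ≠ 0 := by
      rintro rfl
      simp at hord
    have hinv : D K F f⁻¹ = (-(f⁻¹) ^ 2 * g) • D K F (ϖ : F) := by
      rw [Derivation.leibniz_inv, h, smul_smul]
    have hordinv : 0 < v.ord f⁻¹ := by rw [v.ord_inv]; omega
    obtain ⟨h1, h2⟩ := ord_of_D_eq_of_pos v hres hϖ hordinv hinv
    have hg : g ≠ 0 := by
      rintro rfl
      simp at h1
    refine ⟨hg, ?_⟩
    have hsq : -(f⁻¹) ^ 2 ≠ 0 := neg_ne_zero.mpr (pow_ne_zero 2 (inv_ne_zero hf))
    rw [v.ord_mul hsq hg, ord_neg', pow_two, v.ord_mul (inv_ne_zero hf) (inv_ne_zero hf),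
      v.ord_inv] at h2
    omega
  · exact ord_of_D_eq_of_pos v hres hϖ hpos h


/-! ### The Prelude's `dCoord`, `differentialCoeff`, `ordDifferential` -/

theorem exists_irreducible_dCoord (v : Place K F) :
    ∃ ϖ : v.toValuationSubring, Irreducible ϖ ∧ v.dCoord = D K F (ϖ : F) :=
  ⟨_, (IsDiscreteValuationRing.exists_irreducible v.toValuationSubring).choose_spec, rfl⟩

theorem dCoord_ne_zero' (v : Place K F) (hres : HRes v) : v.dCoord ≠ 0 := by
  obtain ⟨ϖ, hϖ, hd⟩ := exists_irreducible_dCoord v
  rw [hd]
  exact D_irreducible_ne_zero v hres hϖ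

theorem nontrivial_kaehler (v : Place K F) (hres : HRes v) : Nontrivial Ω[F⁄K] :=
  ⟨⟨v.dCoord, 0, dCoord_ne_zero' v hres⟩⟩

/-- From any `DF-1` statement (`Ω[F⁄K]` is spanned by one differential) the coordinate
differential at `v` generates. -/
theorem dCoordGenerates (v : Place K F) (hres : HRes v) {ω₀ : Ω[F⁄K]}
    (hspan : Submodule.span F {ω₀} = ⊤) : v.DCoordGenerates := by
  constructor
  have hne := dCoord_ne_zero' v hres
  have hmem : v.dCoord ∈ Submodule.span F {ω₀} := by rw [hspan]; exact Submodule.mem_top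
  obtain ⟨c, hc⟩ := Submodule.mem_span_singleton.mp hmem
  have hc0 : c ≠ 0 := by
    rintro rfl
    rw [zero_smul] at hc
    exact hne hc.symm
  rw [eq_top_iff, ← hspan, Submodule.span_le, Set.singleton_subset_iff]
  refine Submodule.mem_span_singleton.mpr ⟨c⁻¹, ?_⟩
  rw [← hc, smul_smul, inv_mul_cancel₀ hc0, one_smul]

/-- (DF-4, general form) `ord_v (df) = ord_v f - 1` when `f` has a zero or a pole at `v`. -/
theorem ordDifferential_D [CharZero K] (v : Place K F) (hres : HRes v) {ω₀ : Ω[F⁄K]}
    (hspan : Submodule.span F {ω₀} = ⊤) {f : F} (hord : v.ord f ≠ 0) :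
    v.ordDifferential (D K F f) = v.ord f - 1 := by
  haveI := dCoordGenerates v hres hspan
  haveI := nontrivial_kaehler v hres
  obtain ⟨g, hg⟩ := v.exists_eq_smul_dCoord (D K F f)
  have hcoeff : v.differentialCoeff (D K F f) = g := v.differentialCoeff_unique hg
  obtain ⟨ϖ, hϖ, hd⟩ := exists_irreducible_dCoord v
  rw [hd] at hg
  rw [Place.ordDifferential, hcoeff]
  exact (ord_of_D_eq v hres hϖ hord hg).2

/-- (DF-4) the differential of a function regular at `v` is regular at `v`. -/
theorem ordDifferential_D_nonneg (v : Place K F) (hres : HRes v) {ω₀ : Ω[F⁄K]}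
    (hspan : Submodule.span F {ω₀} = ⊤) {f : F} (hf : f ∈ v.toValuationSubring) :
    0 ≤ v.ordDifferential (D K F f) := by
  haveI := dCoordGenerates v hres hspan
  haveI := nontrivial_kaehler v hres
  obtain ⟨g, hg⟩ := v.exists_eq_smul_dCoord (D K F f)
  have hcoeff : v.differentialCoeff (D K F f) = g := v.differentialCoeff_unique hg
  obtain ⟨ϖ, hϖ, hd⟩ := exists_irreducible_dCoord v
  rw [hd] at hg
  rw [Place.ordDifferential, hcoeff]
  have hgmem := mem_of_D_eq v hres hϖ hf hg
  by_cases hg0 : g = 0
  · simp [hg0]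
  · have hb0 : (⟨g, hgmem⟩ : v.toValuationSubring) ≠ 0 := by
      intro h0
      exact hg0 (congrArg Subtype.val h0)
    obtain ⟨m, u, hu⟩ := IsDiscreteValuationRing.eq_unit_mul_pow_irreducible hb0 hϖ
    have hg' : g = ((u : v.toValuationSubring) : F) * (ϖ : F) ^ (m : ℤ) := by
      rw [← coe_unit_mul_pow, ← hu]
    rw [hg', v.ord_unit_smul_zpow u hϖ m]
    exact Int.natCast_nonneg m

/-- `hzero` of `H14.RHInputs.of_deep`. -/
theorem ordDifferential_D_of_zero [CharZero K] (v : Place K F) (hres : HRes v) {ω₀ : Ω[F⁄K]}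
    (hspan : Submodule.span F {ω₀} = ⊤) (x : F) (c : K)
    (h : 0 < v.ord (x - algebraMap K F c)) :
    v.ordDifferential (D K F x) = v.ord (x - algebraMap K F c) - 1 := by
  have hD : D K F x = D K F (x - algebraMap K F c) := by
    rw [map_sub, Derivation.map_algebraMap, sub_zero]
  rw [hD]
  exact ordDifferential_D v hres hspan (ne_of_gt h)

/-- `hpole` of `H14.RHInputs.of_deep`. -/
theorem ordDifferential_D_of_pole [CharZero K] (v : Place K F) (hres : HRes v) {ω₀ : Ω[F⁄K]}
    (hspan : Submodule.span F {ω₀} = ⊤) (x : F) (h : v.ord x < 0) :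
    v.ordDifferential (D K F x) = v.ord x - 1 :=
  ordDifferential_D v hres hspan (ne_of_lt h)

/-- `hsmul` of `H14.RHInputs.of_deep`. -/
theorem ordDifferential_smul' (v : Place K F) (hres : HRes v) {ω₀ : Ω[F⁄K]}
    (hspan : Submodule.span F {ω₀} = ⊤) (g : F) (ω : Ω[F⁄K]) (hg : g ≠ 0) (hω : ω ≠ 0) :
    v.ordDifferential (g • ω) = v.ord g + v.ordDifferential ω := by
  haveI := dCoordGenerates v hres hspan
  haveI := nontrivial_kaehler v hres
  refine v.ordDifferential_smul hg ?_
  intro h0
  apply hω
  rw [← v.differentialCoeff_smul_dCoord ω, h0, zero_smul]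

end Places

end Fermat.Agent.S24.H49
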